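import Mathlib
import Fermat.Agent.Eis16.Forms
import Fermat.Agent.ESCore.MForm
import Fermat.Agent.ModFun.Eta
import Fermat.Prelude.Sol.S_CuspFormClass_isZeroAt_heckeT

/-!
# The square of the eta function
-/

set_option linter.all false
set_option autoImplicit false

open UpperHalfPlane hiding I
open Complex Function Filter Topology ModularForm CongruenceSubgroup ModularGroup
open scoped Manifold MatrixGroups ModularForm Real

noncomputable section

namespace Fermat.Agent.DS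

open Fermat.Agent.Eis16 (up coe_up cj slash_up HasQ)

/-- `η²` -/
def e2 (τ : ℍ) : ℂ := (ModularForm.eta τ) ^ 2

theorem e2_ne_zero (τ : ℍ) : e2 τ ≠ 0 := pow_ne_zero _ (ModularForm.eta_ne_zero τ.2)

theorem sqrt_sq' {z : ℂ} (hz : z ≠ 0) : Complex.sqrt z ^ 2 = z := by
  rw [sqrt_eq_exp hz, ← Complex.exp_nat_mul]
  rw [show ((2 : ℕ) : ℂ) * (Complex.log z / 2) = Complex.log z by push_cast; ring,
    Complex.exp_log hz]

theorem e2_S : e2 ∣[(1 : ℤ)] S = (-I) • e2 := by
  ext τ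
  rw [Fermat.Agent.Eis16.slash_S_apply, Pi.smul_apply, smul_eq_mul, e2, e2,
    Fermat.Agent.Eis16.coe_S_smul]
  have h := ModularForm.eta_comp_eq_csqrt_I_inv τ.2
  simp only [Function.comp_apply, Pi.smul_apply, Pi.mul_apply, smul_eq_mul] at h
  rw [h, mul_pow, mul_pow, inv_pow, sqrt_sq' I_ne_zero, sqrt_sq' τ.ne_zero]
  have h1 := τ.ne_zero
  rw [zpow_neg, zpow_one, Complex.inv_I]
  field_simp

theorem eta_add_one (z : ℂ) : ModularForm.eta (z + 1) = cexp (2 * π * I / 24) * ModularForm.eta z := by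
  have h1 : ∀ n, ModularForm.eta_q n (z + 1) = ModularForm.eta_q n z := by
    intro n
    rw [ModularForm.eta_q_eq_pow, ModularForm.eta_q_eq_pow]
    congr 1
    rw [mul_add, mul_one, Complex.exp_add, Complex.exp_two_pi_mul_I, mul_one]
  rw [ModularForm.eta, ModularForm.eta]
  simp only [h1]
  rw [← mul_assoc]
  congr 1
  simp only [Periodic.qParam]
  rw [← Complex.exp_add]
  congr 1
  push_cast
  ring

theorem e2_T : e2 ∣[(1 : ℤ)] T = cexp (2 * π * I / 12) • e2 := by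
  have h := Fermat.Agent.Eis16.slash_T 1 e2 1
  rw [zpow_one] at h
  rw [h]
  ext τ
  rw [Pi.smul_apply, smul_eq_mul]
  change e2 (T • τ) = _
  have hT : ((T • τ : ℍ) : ℂ) = τ + 1 := by
    have := ModularGroup.coe_T_zpow_smul_eq (z := τ) (n := 1)
    rw [zpow_one] at this
    rw [this]
    simp
  rw [e2, e2, hT, eta_add_one, mul_pow, ← Complex.exp_nat_mul]
  congr 2
  push_cast
  ring

/-! ### the character of order 12 -/

/-- the polynomial giving the character -/
def Xp {R : Type*} [CommRing R] (a b c d : R) : R :=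
  (1 - c ^ 2) * (b * d + 3 * (c - 1) * d + c + 3) + c * (a + d - 3)

theorem Xp_T_mod4 : ∀ a b c d : ZMod 4, a * d - b * c = 1 → Xp a (a + b) c (c + d) = Xp a b c d + 1 := by
  decide

theorem Xp_T_mod3 : ∀ a b c d : ZMod 3, a * d - b * c = 1 → Xp a (a + b) c (c + d) = Xp a b c d + 1 := by
  decide

theorem Xp_S_mod4 : ∀ a b c d : ZMod 4, a * d - b * c = 1 → Xp b (-a) d (-c) = Xp a b c d - 3 := by
  decide

theorem Xp_S_mod3 : ∀ a b c d : ZMod 3, a * d - b * c = 1 → Xp b (-a) d (-c) = Xp a b c d - 3 := by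
  decide

theorem Xp_map {R R' : Type*} [CommRing R] [CommRing R'] (f : R →+* R') (a b c d : R) :
    f (Xp a b c d) = Xp (f a) (f b) (f c) (f d) := by
  simp only [Xp, map_add, map_mul, map_sub, map_one, map_pow, map_ofNat]

/-- the exponent of the multiplier -/
def Xg (γ : SL(2, ℤ)) : ℤ := Xp (γ 0 0) (γ 0 1) (γ 1 0) (γ 1 1)

theorem twelve_dvd {x : ℤ} (h4 : (x : ZMod 4) = 0) (h3 : (x : ZMod 3) = 0) : (12 : ℤ) ∣ x := by
  have h1 : (4 : ℤ) ∣ x := by
    have := (ZMod.intCast_zmod_eq_zero_iff_dvd x 4).mp h4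
    exact_mod_cast this
  have h2 : (3 : ℤ) ∣ x := by
    have := (ZMod.intCast_zmod_eq_zero_iff_dvd x 3).mp h3
    exact_mod_cast this
  omega

theorem det_eq (γ : SL(2, ℤ)) : γ 0 0 * γ 1 1 - γ 0 1 * γ 1 0 = 1 := by
  have := γ.2
  rwa [Matrix.det_fin_two] at this

theorem Xg_T (γ : SL(2, ℤ)) : (12 : ℤ) ∣ Xg (γ * T) - Xg γ - 1 := by
  have hdet := det_eq γ
  have e : Xg (γ * T) = Xp (γ 0 0) (γ 0 0 + γ 0 1) (γ 1 0) (γ 1 0 + γ 1 1) := by
    have h : ∀ i j, (γ * T) i j = ((γ.1 : Matrix (Fin 2) (Fin 2) ℤ) * (!![1, 1; 0, 1] : Matrix (Fin 2) (Fin 2) ℤ)) i j := fun i j ↦ by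
      rw [Matrix.SpecialLinearGroup.coe_mul, coe_T]
    unfold Xg
    simp only [h, Matrix.mul_apply, Fin.sum_univ_two]
    simp
  rw [e, Xg]
  refine twelve_dvd ?_ ?_
  · have hdet4 := congrArg (Int.castRingHom (ZMod 4)) hdet
    simp only [map_sub, map_mul, map_one] at hdet4
    have h1 := Xp_T_mod4 _ _ _ _ hdet4
    change (Int.castRingHom (ZMod 4)) _ = 0
    rw [map_sub, map_sub, Xp_map, Xp_map, map_add, map_add, h1, map_one]
    ring
  · have hdet3 := congrArg (Int.castRingHom (ZMod 3)) hdet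
    simp only [map_sub, map_mul, map_one] at hdet3
    have h1 := Xp_T_mod3 _ _ _ _ hdet3
    change (Int.castRingHom (ZMod 3)) _ = 0
    rw [map_sub, map_sub, Xp_map, Xp_map, map_add, map_add, h1, map_one]
    ring

theorem Xg_S (γ : SL(2, ℤ)) : (12 : ℤ) ∣ Xg (γ * S) - Xg γ + 3 := by
  have hdet := det_eq γ
  have e : Xg (γ * S) = Xp (γ 0 1) (-γ 0 0) (γ 1 1) (-γ 1 0) := by
    have h : ∀ i j, (γ * S) i j = ((γ.1 : Matrix (Fin 2) (Fin 2) ℤ) * (!![0, -1; 1, 0] : Matrix (Fin 2) (Fin 2) ℤ)) i j := fun i j ↦ by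
      rw [Matrix.SpecialLinearGroup.coe_mul, coe_S]
    unfold Xg
    simp only [h, Matrix.mul_apply, Fin.sum_univ_two]
    simp
  rw [e, Xg]
  refine twelve_dvd ?_ ?_
  · have hdet4 := congrArg (Int.castRingHom (ZMod 4)) hdet
    simp only [map_sub, map_mul, map_one] at hdet4
    have h1 := Xp_S_mod4 _ _ _ _ hdet4
    change (Int.castRingHom (ZMod 4)) _ = 0
    rw [map_add, map_sub, Xp_map, Xp_map, map_neg, map_neg, h1, map_ofNat]
    ring
  · have hdet3 := congrArg (Int.castRingHom (ZMod 3)) hdet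
    simp only [map_sub, map_mul, map_one] at hdet3
    have h1 := Xp_S_mod3 _ _ _ _ hdet3
    change (Int.castRingHom (ZMod 3)) _ = 0
    rw [map_add, map_sub, Xp_map, Xp_map, map_neg, map_neg, h1, map_ofNat]
    ring

/-- the twelfth root of unity -/
def z12 : ℂ := cexp (2 * π * I / 12)

theorem z12_ne : z12 ≠ 0 := Complex.exp_ne_zero _

theorem z12_pow : z12 ^ 12 = 1 := by
  rw [z12, ← Complex.exp_nat_mul]
  rw [show ((12 : ℕ) : ℂ) * (2 * π * I / 12) = 2 * π * I by push_cast; ring,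
    Complex.exp_two_pi_mul_I]

theorem z12_congr {x y : ℤ} (h : (12 : ℤ) ∣ x - y) : z12 ^ x = z12 ^ y := by
  obtain ⟨k, hk⟩ := h
  have : x = y + 12 * k := by omega
  rw [this, zpow_add₀ z12_ne, zpow_mul]
  have h1 : z12 ^ (12 : ℤ) = 1 := by exact_mod_cast z12_pow
  rw [h1, one_zpow, mul_one]

theorem z12_S : z12 ^ (-3 : ℤ) = -I := by
  have h1 : z12 ^ (3 : ℤ) = I := by
    rw [show (3 : ℤ) = ((3 : ℕ) : ℤ) by norm_num, zpow_natCast, z12, ← Complex.exp_nat_mul]
    rw [show ((3 : ℕ) : ℂ) * (2 * π * I / 12) = π / 2 * I by push_cast; ring]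
    exact Complex.exp_pi_div_two_mul_I
  rw [zpow_neg, h1, Complex.inv_I]

theorem e2_slash (γ : SL(2, ℤ)) : e2 ∣[(1 : ℤ)] γ = z12 ^ (Xg γ) • e2 := by
  have hγ : γ ∈ Subgroup.closure ({S, T} : Set SL(2, ℤ)) := by
    rw [SpecialLinearGroup.SL2Z_generators]
    trivial
  induction hγ using Subgroup.closure_induction_right with
  | one =>
    rw [SlashAction.slash_one]
    have : Xg 1 = 0 := by simp [Xg, Xp]
    rw [this, zpow_zero, one_smul]
  | mul_right x hx y hy ih =>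
    rw [SlashAction.slash_mul, ih]
    rcases hy with rfl | hy
    · rw [ModularForm.SL_smul_slash, e2_S, smul_smul, ← z12_S, ← zpow_add₀ z12_ne]
      congr 1
      refine (z12_congr ?_).symm
      have := Xg_S x
      rwa [show Xg (x * S) - (Xg x + -3) = Xg (x * S) - Xg x + 3 by ring]
    · rw [Set.mem_singleton_iff] at hy
      subst hy
      rw [ModularForm.SL_smul_slash, e2_T, smul_smul]
      have e1 : cexp (2 * π * I / 12) = z12 ^ (1 : ℤ) := by rw [zpow_one]; rfl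
      rw [e1, ← zpow_add₀ z12_ne]
      congr 1
      refine (z12_congr ?_).symm
      have := Xg_T x
      rwa [show Xg (x * T) - (Xg x + 1) = Xg (x * T) - Xg x - 1 by ring]
  | mul_inv_cancel x hx y hy ih =>
    have key : ∀ (z : ℂ) (g : SL(2, ℤ)), z ≠ 0 → e2 ∣[(1 : ℤ)] g = z • e2 →
        e2 ∣[(1 : ℤ)] g⁻¹ = z⁻¹ • e2 := by
      intro z g hz h
      have h1 : (e2 ∣[(1 : ℤ)] g) ∣[(1 : ℤ)] g⁻¹ = e2 := by
        rw [← SlashAction.slash_mul, mul_inv_cancel, SlashAction.slash_one]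
      rw [h, ModularForm.SL_smul_slash] at h1
      rw [← h1, smul_smul, inv_mul_cancel₀ hz, one_smul, h1]
    rw [SlashAction.slash_mul, ih, ModularForm.SL_smul_slash]
    rcases hy with rfl | hy
    · rw [key _ _ (neg_ne_zero.mpr I_ne_zero) e2_S, smul_smul, ← z12_S, ← zpow_neg,
        ← zpow_add₀ z12_ne]
      congr 1
      refine (z12_congr ?_).symm
      have := Xg_S (x * S⁻¹)
      rw [inv_mul_cancel_right] at this
      have h2 := (dvd_neg.mpr this)
      rwa [show Xg (x * S⁻¹) - (Xg x + - -3) = -(Xg x - Xg (x * S⁻¹) + 3) by ring]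
    · rw [Set.mem_singleton_iff] at hy
      subst hy
      rw [key _ _ (Complex.exp_ne_zero _) e2_T, smul_smul]
      have e1 : cexp (2 * π * I / 12) = z12 ^ (1 : ℤ) := by rw [zpow_one]; rfl
      rw [e1, ← zpow_neg, ← zpow_add₀ z12_ne]
      congr 1
      refine (z12_congr ?_).symm
      have := Xg_T (x * T⁻¹)
      rw [inv_mul_cancel_right] at this
      have h2 := (dvd_neg.mpr this)
      rwa [show Xg (x * T⁻¹) - (Xg x + -1) = -(Xg x - Xg (x * T⁻¹) - 1) by ring]

end Fermat.Agent.DS
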