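import Mathlib
import Fermat.Agent.DS.EtaW
import Fermat.Agent.ES.DeltaN
import Fermat.Agent.ESCore.FgCoeffG

/-!
# The weight one form `η(12τ)²`
-/

set_option linter.all false
set_option autoImplicit false

open UpperHalfPlane hiding I
open Complex Function Filter Topology ModularForm CongruenceSubgroup ModularGroup
open scoped Manifold MatrixGroups ModularForm Real

noncomputable section

namespace Fermat.Agent.DS

open Fermat.Agent.Eis16 (up coe_up cj cj_coe slash_up HasQ)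
open Fermat.Agent.ESCore

local notation "𝕢" => Function.Periodic.qParam

/-! ### boundedness and powers -/

theorem isBounded_of_pow {f : ℍ → ℂ} {m : ℕ} (hm : m ≠ 0) (h : IsBoundedAtImInfty (f ^ m)) :
    IsBoundedAtImInfty f := by
  rw [UpperHalfPlane.isBoundedAtImInfty_iff] at h ⊢
  obtain ⟨M, A, hM⟩ := h
  refine ⟨max M 1, A, fun τ hτ => ?_⟩
  have h1 := hM τ hτ
  rw [Pi.pow_apply, norm_pow] at h1
  by_contra h2
  push Not at h2
  have h3 : 1 ≤ ‖f τ‖ := (le_max_right M 1).trans h2.le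
  have h4 : ‖f τ‖ ≤ ‖f τ‖ ^ m := le_self_pow₀ h3 hm
  exact absurd ((le_max_left M 1).trans_lt h2) (not_lt.mpr (h4.trans h1))

theorem isZero_of_pow {f : ℍ → ℂ} {m : ℕ} (hm : m ≠ 0) (h : IsZeroAtImInfty (f ^ m)) :
    IsZeroAtImInfty f := by
  rw [UpperHalfPlane.isZeroAtImInfty_iff] at h ⊢
  intro ε hε
  obtain ⟨A, hA⟩ := h (ε ^ m) (pow_pos hε m)
  refine ⟨A, fun τ hτ => ?_⟩
  have h1 := hA τ hτ
  rw [Pi.pow_apply, norm_pow] at h1
  exact le_of_pow_le_pow_left₀ hm hε.le h1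

theorem cusp_slash_zero {N : ℕ} [NeZero N] {k : ℤ} (F : CuspForm (Gamma0 N) k) (A : SL(2, ℤ)) :
    IsZeroAtImInfty ((F : ℍ → ℂ) ∣[k] A) := by
  have hc : IsCusp (OnePoint.infty : OnePoint ℝ) (Gamma0 N : Subgroup (GL (Fin 2) ℝ)) := by
    rw [Subgroup.IsArithmetic.isCusp_iff_isCusp_SL2Z]
    exact (isCusp_SL2Z_iff (c := OnePoint.infty)).mpr ⟨OnePoint.infty, rfl⟩
  have hc' : IsCusp ((Matrix.SpecialLinearGroup.mapGL ℝ A : GL (Fin 2) ℝ) • (OnePoint.infty : OnePoint ℝ))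
      (Gamma0 N : Subgroup (GL (Fin 2) ℝ)) := by
    rw [Subgroup.IsArithmetic.isCusp_iff_isCusp_SL2Z, isCusp_SL2Z_iff'] 
    exact ⟨A, rfl⟩
  have h1 := CuspFormClass.zero_at_cusps F hc'
  exact h1 _ rfl

/-! ### the form -/

/-- `η(12τ)²` -/
def h12 : ℍ → ℂ := fun τ => e2 (up 12 τ)

theorem h12_ne_zero (τ : ℍ) : h12 τ ≠ 0 := e2_ne_zero _

theorem h12_slash {γ : SL(2, ℤ)} (hγ : γ ∈ Gamma1 144) : h12 ∣[(1 : ℤ)] γ = h12 := by
  rw [Gamma1_mem] at hγ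
  obtain ⟨ha, hd, hc⟩ := hγ
  have hc' : (144 : ℤ) ∣ γ 1 0 := by
    have := (ZMod.intCast_zmod_eq_zero_iff_dvd _ 144).mp hc
    exact_mod_cast this
  have hd' : (144 : ℤ) ∣ γ 1 1 - 1 := by
    have := (ZMod.intCast_zmod_eq_zero_iff_dvd (γ 1 1 - 1) 144).mp (by push_cast; rw [hd]; ring)
    exact_mod_cast this
  have ha' : (144 : ℤ) ∣ γ 0 0 - 1 := by
    have := (ZMod.intCast_zmod_eq_zero_iff_dvd (γ 0 0 - 1) 144).mp (by push_cast; rw [ha]; ring)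
    exact_mod_cast this
  have hg : γ ∈ Gamma0 12 := by
    rw [Fermat.Agent.Eis16.mem_Gamma0_iff]
    exact Dvd.dvd.trans (by norm_num) hc'
  have h1 : (fun τ => e2 (up 12 τ)) ∣[(1 : ℤ)] γ = fun τ => (e2 ∣[(1 : ℤ)] (cj γ hg)) (up 12 τ) :=
    slash_up 1 e2 γ hg
  change (fun τ => e2 (up 12 τ)) ∣[(1 : ℤ)] γ = _
  rw [h1, e2_slash]
  have h2 : (12 : ℤ) ∣ Xg (cj γ hg) - 0 := by
    have e : Xg (cj γ hg) = Xp (γ 0 0) (12 * γ 0 1) (γ 1 0 / 12) (γ 1 1) := by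
      unfold Xg
      rw [cj_coe]
      simp
    rw [sub_zero, e]
    obtain ⟨c, hc⟩ := hc'
    have hc2 : γ 1 0 / 12 = 12 * c := by
      rw [hc]
      omega
    obtain ⟨d, hd⟩ := hd'
    obtain ⟨a, ha⟩ := ha'
    have hd2 : γ 1 1 = 144 * d + 1 := by omega
    have ha2 : γ 0 0 = 144 * a + 1 := by omega
    rw [hc2, hd2, ha2, Xp]
    refine Dvd.intro ((1 - (12 * c) ^ 2) * (γ 0 1 * (144 * d + 1) + 3 * c * (144 * d + 1) -
      36 * d + c) - 144 * c ^ 2 * 0 + c * (144 * a + 1 + (144 * d + 1) - 3)) ?_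
    ring
  rw [z12_congr h2, zpow_zero, one_smul]
  rfl

/-- the product -/
def u12 : ℍ → ℂ := fun τ => ∏' n : ℕ, (1 - (𝕢 1 τ) ^ (n + 1))

/-- the series of `∏ (1 - q^n)` -/
def uSer : PowerSeries ℤ := ModularCurve.etaProd

theorem hasQ_u12 : HasQ 1 u12 (uSer.map (Int.castRingHom ℂ)) := by
  intro τ
  have h1 : ‖𝕢 1 τ‖ < 1 := by
    have := UpperHalfPlane.norm_qParam_lt_one 1 τ
    simpa using this
  have h2 := ModFun.hasSum_etaProd h1
  simp only [PowerSeries.coeff_map]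
  exact h2

/-- the series of `η(12τ)²` -/
def h12Ser : PowerSeries ℤ := PowerSeries.X * (uSer.expand 12 (by norm_num)) ^ 2

theorem hasQ_q : HasQ 1 (fun τ : ℍ => 𝕢 1 τ) (PowerSeries.X : PowerSeries ℂ) := by
  intro τ
  have := hasSum_single (f := fun n : ℕ => (PowerSeries.X : PowerSeries ℂ).coeff n * 𝕢 1 τ ^ n) 1
    (fun n hn => by simp [PowerSeries.coeff_X, hn])
  simpa using this

theorem h12_eq (τ : ℍ) : h12 τ = 𝕢 1 τ * (u12 (up 12 τ)) ^ 2 := by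
  have h1 : ∀ n, ModularForm.eta_q n ((up 12 τ : ℍ) : ℂ) = 𝕢 1 (up 12 τ) ^ (n + 1) := by
    intro n
    rw [ModularForm.eta_q_eq_pow, Periodic.qParam]
    congr 2
    push_cast
    ring
  rw [h12, e2, ModularForm.eta, mul_pow, u12]
  simp only [h1]
  congr 1
  rw [Periodic.qParam, Periodic.qParam, ← Complex.exp_nat_mul, coe_up]
  congr 1
  push_cast
  ring

theorem hasQ_h12 : HasQ 1 h12 (h12Ser.map (Int.castRingHom ℂ)) := by
  have h1 := hasQ_q.mul (((hasQ_u12.up 12)).pow 2)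
  have h2 : HasQ 1 h12 (PowerSeries.X * (PowerSeries.expand 12 (NeZero.ne 12)
      (uSer.map (Int.castRingHom ℂ))) ^ 2) := h1.congr fun τ => (h12_eq τ).symm
  have h3 : h12Ser.map (Int.castRingHom ℂ) = PowerSeries.X * (PowerSeries.expand 12 (NeZero.ne 12)
      (uSer.map (Int.castRingHom ℂ))) ^ 2 := by
    rw [h12Ser, map_mul, map_pow, PowerSeries.map_X, PowerSeries.map_expand]
  rw [h3]
  exact h2

theorem h12_mdiff : MDiff h12 := hasQ_h12.mdiff one_pos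

theorem h12_pow (τ : ℍ) : h12 τ ^ 12 = ((12 : ℂ) ^ (11 : ℤ))⁻¹ * ES.hDelta 12 τ := by
  rw [ES.hDelta_coe, slash_heckeDiagMatrix_apply 12 (by norm_num)]
  have h1 : heckeDiagMatrix 12 • τ = up 12 τ := by
    ext
    rw [ModularForm.coe_heckeDiagMatrix_smul (p := 12) (by norm_num), coe_up]
  rw [h1]
  have h2 : ModularForm.discriminant (up 12 τ) = h12 τ ^ 12 := by
    rw [h12, e2, ← pow_mul]
    rfl
  rw [h2]
  norm_num
  ring

theorem h12_bdd (A : SL(2, ℤ)) : IsBoundedAtImInfty (h12 ∣[(1 : ℤ)] A) := by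
  refine isBounded_of_pow (m := 12) (by norm_num) ?_
  rw [← slash_pow_SL2]
  have h1 : h12 ^ 12 = ((12 : ℂ) ^ (11 : ℤ))⁻¹ • (ES.hDelta 12 : ℍ → ℂ) := by
    ext τ
    rw [Pi.pow_apply, h12_pow]
    rfl
  rw [h1, ModularForm.SL_smul_slash]
  have h2 := cusp_slash_zero (ES.hDelta 12) A
  have h3 : IsBoundedAtImInfty ((ES.hDelta 12 : ℍ → ℂ) ∣[(12 : ℤ)] A) :=
    Filter.ZeroAtFilter.boundedAtFilter h2
  exact Filter.BoundedAtFilter.smul _ h3

theorem h12_mem {G : Subgroup SL(2, ℤ)} (hG : G ≤ Gamma1 144) : h12 ∈ mform (1 : G →* ℂˣ) 1 := by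
  refine ⟨h12_mdiff, fun g => ?_, fun A => h12_bdd A⟩
  rw [h12_slash (hG g.2), MonoidHom.one_apply, Units.val_one, one_smul]

end Fermat.Agent.DS
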