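import Fermat.Agent.DS.Neben2

set_option autoImplicit false

/-!
# The nebentypus of a normalised weight one eigenform (in terms of Fourier coefficients)
-/

open UpperHalfPlane hiding I
open ModularForm Matrix Matrix.SpecialLinearGroup CongruenceSubgroup Filter
open Fermat.Agent.ESCore Fermat.Agent.Eis16
open scoped MatrixGroups Manifold Topology

noncomputable section

namespace Fermat.Agent.DS

theorem sub_slash (k : ℤ) (f g : ℍ → ℂ) (A : GL (Fin 2) ℝ) :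
    (f - g) ∣[k] A = f ∣[k] A - g ∣[k] A := by
  rw [sub_eq_add_neg, SlashAction.add_slash, SlashAction.neg_slash, ← sub_eq_add_neg]

variable {N : ℕ} [NeZero N]

theorem one_mem_periods (N : ℕ) [NeZero N] :
    (1 : ℝ) ∈ (Gamma1 N : Subgroup (GL (Fin 2) ℝ)).strictPeriods := by simp

omit [NeZero N] in
theorem cusp_slash {w : ℤ} (f : CuspForm (Gamma1 N) w) (γ : SL(2, ℤ)) (hγ : γ ∈ Gamma1 N) :
    (f : ℍ → ℂ) ∣[w] (mapGL ℝ γ : GL (Fin 2) ℝ) = f :=
  SlashInvariantFormClass.slash_action_eq f _ ⟨γ, hγ, rfl⟩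

theorem hecke_relation_fun (ε : ℂ) (f : CuspForm (Gamma1 N) 1) {p : ℕ} (hp : p.Prime)
    (hT : ∀ n : ℕ, ModularFormClass.qCoeff f (p * n) +
        ε * (if p ∣ n then ModularFormClass.qCoeff f (n / p) else 0) =
          ModularFormClass.qCoeff f p * ModularFormClass.qCoeff f n) :
    heckeU 1 p (f : ℍ → ℂ) + ε • ((f : ℍ → ℂ) ∣[(1 : ℤ)] heckeDiagMatrix p) =
      ModularFormClass.qCoeff f p • (f : ℍ → ℂ) := by
  have hper : Function.Periodic ((f : ℍ → ℂ) ∘ ofComplex) 1 :=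
    SlashInvariantFormClass.periodic_comp_ofComplex f (one_mem_periods N)
  have hhol : MDiff (f : ℍ → ℂ) := CuspFormClass.holo f
  have hbdd : IsBoundedAtImInfty (f : ℍ → ℂ) := ModularFormClass.bdd_at_infty f
  have hf : HasQ 1 (f : ℍ → ℂ) (qExpansion 1 f) := HasQ.of_modularForm f one_pos (one_mem_periods N)
  have h1 : HasQ 1 (heckeU 1 p (f : ℍ → ℂ)) (qExpansion 1 (heckeU 1 p (f : ℍ → ℂ))) :=
    HasQ.of_periodic one_pos
      (P2MW.S_UpperHalfPlane_qCoeff_heckeU.M4cP1W2.periodic_heckeU_comp_ofComplex 1 p hper)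
      (P2MW.S_UpperHalfPlane_qCoeff_heckeU.M4cP1W2.mdifferentiable_heckeU 1 p hhol)
      (P2MW.S_UpperHalfPlane_qCoeff_heckeU.M4cP1W2.isBoundedAtImInfty_heckeU 1 p hbdd)
  have h2 : HasQ 1 ((f : ℍ → ℂ) ∣[(1 : ℤ)] heckeDiagMatrix p)
      ((qExpansion 1 f).expand p hp.ne_zero) := by
    refine (hf.comp_pow p hp.ne_zero (qParam_heckeDiagMatrix hp.ne_zero)).congr fun τ => ?_
    rw [slash_heckeDiagMatrix_apply 1 hp.ne_zero]
    simp
  refine HasQ.ext (h1.add (h2.smul ε)) ?_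
  have h3 : qExpansion 1 (heckeU 1 p (f : ℍ → ℂ)) + ε • (qExpansion 1 f).expand p hp.ne_zero =
      ModularFormClass.qCoeff f p • qExpansion 1 f := by
    ext n
    rw [map_add, PowerSeries.coeff_smul, PowerSeries.coeff_smul, PowerSeries.coeff_expand]
    have h4 := UpperHalfPlane.qCoeff_heckeU hper hhol hbdd 1 hp.ne_zero n
    rw [coeffHeckeU_apply, mul_comm n p] at h4
    have h5 : (qExpansion 1 (heckeU 1 p (f : ℍ → ℂ))).coeff n =
        ModularFormClass.qCoeff f (p * n) := h4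
    rw [h5]
    exact hT n
  rw [h3]
  exact hf.smul _

/-- The diamond operator acts on a weight one eigenform by the character occuring in the Hecke
relations. -/
theorem neben_prime (ε : ℂ) (f : CuspForm (Gamma1 N) 1) {p : ℕ} (hp : p.Prime) (hN : ¬ p ∣ N)
    (hT : ∀ n : ℕ, ModularFormClass.qCoeff f (p * n) +
        ε * (if p ∣ n then ModularFormClass.qCoeff f (n / p) else 0) =
          ModularFormClass.qCoeff f p * ModularFormClass.qCoeff f n) :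
    (f : ℍ → ℂ) ∣[(1 : ℤ)] (sigmaD N p : SL(2, ℤ)) = ε • (f : ℍ → ℂ) := by
  set σ : Gamma0 N := sigmaD N p with hσ
  have hrel := hecke_relation_fun ε f hp hT
  set F : ℍ → ℂ := (f : ℍ → ℂ) with hF
  have hFinv : ∀ γ ∈ Gamma1 N, F ∣[(1 : ℤ)] (mapGL ℝ γ : GL (Fin 2) ℝ) = F :=
    fun γ hγ => cusp_slash f γ hγ
  set h : ℍ → ℂ := F ∣[(1 : ℤ)] (mapGL ℝ (σ : SL(2, ℤ)) : GL (Fin 2) ℝ) - ε • F with hh
  have hhα : h ∣[(1 : ℤ)] heckeDiagMatrix p =
      (heckeU 1 p F + (F ∣[(1 : ℤ)] (mapGL ℝ (σ : SL(2, ℤ)) : GL (Fin 2) ℝ)) ∣[(1 : ℤ)]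
        heckeDiagMatrix p) - ModularFormClass.qCoeff f p • F := by
    rw [← hrel, hh, sub_slash, ModularForm.smul_slash, σ_heckeDiagMatrix]
    simp only [ContinuousAlgEquiv.refl_apply]
    abel
  have hz : h = 0 := by
    refine eq_zero_of_invariant (w := 1) ?_ ?_ hp hN ?_ ?_
    · exact ((CuspFormClass.holo f).slash 1 _).sub ((CuspFormClass.holo f).const_smul ε)
    · have h1 : IsZeroAtImInfty (F ∣[(1 : ℤ)] (σ : SL(2, ℤ))) :=
        CuspFormClass.zero_at_infty_slash f _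
      have h2 : IsZeroAtImInfty F := CuspFormClass.zero_at_infty f
      have h1' : Tendsto (F ∣[(1 : ℤ)] (mapGL ℝ (σ : SL(2, ℤ)) : GL (Fin 2) ℝ)) atImInfty (𝓝 0) := h1
      have h2' : Tendsto F atImInfty (𝓝 0) := h2
      have h3 := h1'.sub (h2'.const_smul ε)
      rw [smul_zero, sub_zero] at h3
      exact h3
    · intro γ hγ
      rw [hh, sub_slash]
      congr 1
      · rw [← SlashAction.slash_mul]
        have h1 := conj_mem (le_refl (Gamma1 N)) (Gamma1_in_Gamma0 N) σ ⟨γ, hγ⟩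
        have h2 : (mapGL ℝ (σ : SL(2, ℤ)) : GL (Fin 2) ℝ) * mapGL ℝ γ =
            mapGL ℝ ((σ : SL(2, ℤ)) * γ * (σ : SL(2, ℤ))⁻¹) * mapGL ℝ (σ : SL(2, ℤ)) := by
          rw [← map_mul, ← map_mul]
          congr 1
          group
        rw [h2, SlashAction.slash_mul, hFinv _ h1]
      · have h1 := ModularForm.SL_smul_slash (k := (1 : ℤ)) γ F ε
        have h2 : (ε • F) ∣[(1 : ℤ)] (mapGL ℝ γ : GL (Fin 2) ℝ) =
            ε • F ∣[(1 : ℤ)] (mapGL ℝ γ : GL (Fin 2) ℝ) := h1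
        rw [h2, hFinv γ hγ]
    · intro γ hγ
      rw [hhα, sub_slash, sum_slash_invariant hp hN hFinv γ hγ]
      congr 1
      have h1 := ModularForm.SL_smul_slash (k := (1 : ℤ)) γ F (ModularFormClass.qCoeff f p)
      have h2 : (ModularFormClass.qCoeff f p • F) ∣[(1 : ℤ)] (mapGL ℝ γ : GL (Fin 2) ℝ) =
          ModularFormClass.qCoeff f p • F ∣[(1 : ℤ)] (mapGL ℝ γ : GL (Fin 2) ℝ) := h1
      rw [h2, hFinv γ hγ]
  have h1 : F ∣[(1 : ℤ)] (mapGL ℝ (σ : SL(2, ℤ)) : GL (Fin 2) ℝ) = ε • F := by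
    rw [hh, sub_eq_zero] at hz
    exact hz
  exact h1

/-- The nebentypus. -/
theorem neben (ε : DirichletCharacter ℂ N) (f : CuspForm (Gamma1 N) 1)
    (hT : ∀ p : ℕ, p.Prime → ¬ p ∣ N → ∀ n : ℕ,
        ModularFormClass.qCoeff f (p * n) +
            ε (p : ZMod N) * (if p ∣ n then ModularFormClass.qCoeff f (n / p) else 0) =
          ModularFormClass.qCoeff f p * ModularFormClass.qCoeff f n) (σ : Gamma0 N) :
    (f : ℍ → ℂ) ∣[(1 : ℤ)] (σ : SL(2, ℤ)) = ε (((σ : SL(2, ℤ)) 1 1 : ℤ) : ZMod N) • (f : ℍ → ℂ) := by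
  have hunit : IsUnit ((((σ : SL(2, ℤ)) 1 1 : ℤ) : ZMod N)) := by
    have hdet := (σ : SL(2, ℤ)).2
    rw [Matrix.det_fin_two] at hdet
    obtain ⟨u, hu⟩ := dvd_of_mem_Gamma0 σ
    change (σ : SL(2, ℤ)) 0 0 * (σ : SL(2, ℤ)) 1 1 - (σ : SL(2, ℤ)) 0 1 * (σ : SL(2, ℤ)) 1 0 = 1
      at hdet
    rw [hu] at hdet
    have h1 := congrArg (Int.cast : ℤ → ZMod N) hdet
    push_cast at h1
    rw [ZMod.natCast_self, zero_mul, mul_zero, sub_zero] at h1
    exact IsUnit.of_mul_eq_one _ ((mul_comm _ _).trans h1)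
  obtain ⟨p, hpN, hp, hpd⟩ := Nat.forall_exists_prime_gt_and_eq_mod hunit N
  have hpN' : ¬ p ∣ N := fun h => absurd (Nat.le_of_dvd (Nat.pos_of_ne_zero (NeZero.ne N)) h)
    (by omega)
  have h1 := neben_prime (ε (p : ZMod N)) f hp hpN' (hT p hp hpN')
  have h2 : (σ : SL(2, ℤ)) * (sigmaD N p : SL(2, ℤ))⁻¹ ∈ Gamma1 N := by
    have h3 : IsCoprime (p : ℤ) N := isCoprime_of_prime hp hpN'
    have h4 := sigmaD_11 h3
    have hdet : (sigmaD N p : SL(2, ℤ)) 0 0 * (sigmaD N p : SL(2, ℤ)) 1 1 -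
        (sigmaD N p : SL(2, ℤ)) 0 1 * (sigmaD N p : SL(2, ℤ)) 1 0 = 1 := by
      have := (sigmaD N p : SL(2, ℤ)).2
      rwa [Matrix.det_fin_two] at this
    have hdet' : (σ : SL(2, ℤ)) 0 0 * (σ : SL(2, ℤ)) 1 1 -
        (σ : SL(2, ℤ)) 0 1 * (σ : SL(2, ℤ)) 1 0 = 1 := by
      have := (σ : SL(2, ℤ)).2
      rwa [Matrix.det_fin_two] at this
    obtain ⟨u, hu⟩ := dvd_of_mem_Gamma0 σ
    obtain ⟨v, hv⟩ := dvd_of_mem_Gamma0 (sigmaD N p)
    have e1 := congrArg (Int.cast : ℤ → ZMod N) hdet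
    have e2 := congrArg (Int.cast : ℤ → ZMod N) hdet'
    rw [hv, h4] at e1
    rw [hu] at e2
    push_cast at e1 e2
    rw [ZMod.natCast_self, zero_mul, mul_zero, sub_zero] at e1 e2
    rw [Gamma1_mem, Matrix.SpecialLinearGroup.coe_mul, coe_inv, Matrix.adjugate_fin_two]
    simp only [Matrix.mul_apply, Fin.sum_univ_two, Matrix.of_apply, Matrix.cons_val',
      Matrix.cons_val_zero, Matrix.cons_val_one, Matrix.cons_val_fin_one]
    push_cast
    rw [hu, hv, h4]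
    push_cast
    rw [ZMod.natCast_self, hpd]
    rw [hpd] at e1
    refine ⟨?_, ?_, ?_⟩
    · linear_combination e2
    · linear_combination e1
    · ring
  have h3 := cusp_slash f _ h2
  have h4 : (f : ℍ → ℂ) ∣[(1 : ℤ)] (σ : SL(2, ℤ)) =
      (f : ℍ → ℂ) ∣[(1 : ℤ)] (sigmaD N p : SL(2, ℤ)) := by
    have h5 : (σ : SL(2, ℤ)) = ((σ : SL(2, ℤ)) * (sigmaD N p : SL(2, ℤ))⁻¹) *
        (sigmaD N p : SL(2, ℤ)) := by group
    rw [h5, SlashAction.slash_mul]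
    congr 1
  rw [h4, h1, hpd]

end Fermat.Agent.DS
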