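import Mathlib
import Fermat.Agent.DS.H12
import Fermat.Agent.DS.Neben3
import Fermat.Agent.ES.Rational

/-!
# Conjugation of weight one forms
-/

set_option linter.all false
set_option autoImplicit false

open UpperHalfPlane hiding I
open Complex Function Filter Topology ModularForm CongruenceSubgroup ModularGroup
open scoped Manifold MatrixGroups ModularForm Real

noncomputable section

namespace Fermat.Agent.DS

open Fermat.Agent.Eis16 (up coe_up cj cj_coe slash_up HasQ)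
open Fermat.Agent.ESCore

local notation "𝕢" => Function.Periodic.qParam

/-! ### division -/

theorem hasQ_divq {F : ℍ → ℂ} {C : PowerSeries ℂ} (h : HasQ 1 F (PowerSeries.X * C)) :
    HasQ 1 (fun τ => F τ / 𝕢 1 τ) C := by
  intro τ
  have hq : 𝕢 1 τ ≠ 0 := Complex.exp_ne_zero _
  have h2 := (hasSum_nat_add_iff' 1).mpr (h τ)
  simp only [Finset.range_one, Finset.sum_singleton, PowerSeries.coeff_zero_X_mul, zero_mul,
    sub_zero, PowerSeries.coeff_succ_X_mul] at h2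
  have h3 := h2.div_const (𝕢 1 τ)
  have h4 : (fun n : ℕ => C.coeff n * 𝕢 1 (τ : ℂ) ^ (n + 1) / 𝕢 1 (τ : ℂ)) =
      fun n : ℕ => C.coeff n * 𝕢 1 (τ : ℂ) ^ n := by
    funext n
    rw [pow_succ, ← mul_assoc, mul_div_cancel_right₀ _ hq]
  rw [h4] at h3
  exact h3

theorem hasQ_divv {F v : ℍ → ℂ} {C V : PowerSeries ℂ} (hv : HasQ 1 v V) (hv0 : ∀ τ, v τ ≠ 0)
    (hV : V.coeff 0 ≠ 0) (h : HasQ 1 F (V * C)) : HasQ 1 (fun τ => F τ / v τ) C := by
  have hmd : MDiff (fun τ => F τ / v τ) := (h.mdiff one_pos).div (hv.mdiff one_pos) hv0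
  have hper : Periodic ((fun τ => F τ / v τ) ∘ ofComplex) (1 : ℝ) := by
    intro z
    have h1 := h.periodic one_pos z
    have h2 := hv.periodic one_pos z
    simp only [comp_apply] at h1 h2 ⊢
    rw [h1, h2]
  have hb : IsBoundedAtImInfty (fun τ => F τ / v τ) := by
    have h1 := (h.tendsto one_pos).div (hv.tendsto one_pos) hV
    exact h1.isBigO_one ℝ
  have hD := HasQ.of_periodic one_pos hper hmd hb
  have h1 := hv.mul hD
  have h2 : v * (fun τ => F τ / v τ) = F := by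
    ext τ
    rw [Pi.mul_apply, mul_div_cancel₀ _ (hv0 τ)]
  rw [h2] at h1
  have h3 := h1.unique one_pos h
  have h4 : V ≠ 0 := by
    rintro rfl
    exact hV (map_zero _)
  rw [mul_left_cancel₀ h4 h3] at hD
  exact hD

theorem u12_ne_zero (τ : ℍ) : u12 (up 12 τ) ≠ 0 := by
  intro h
  have h1 := h12_eq τ
  rw [h] at h1
  exact h12_ne_zero τ (by rw [h1]; ring)

theorem uSer_coeff_zero : uSer.coeff 0 = 1 := by
  rw [PowerSeries.coeff_zero_eq_constantCoeff_apply]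
  exact ModularCurve.constantCoeff_etaProd

theorem hasQ_divh {F : ℍ → ℂ} {C : PowerSeries ℂ}
    (h : HasQ 1 F (C * h12Ser.map (Int.castRingHom ℂ))) : HasQ 1 (fun τ => F τ / h12 τ) C := by
  have h1 : h12Ser.map (Int.castRingHom ℂ) = PowerSeries.X * (PowerSeries.expand 12 (NeZero.ne 12)
      (uSer.map (Int.castRingHom ℂ))) ^ 2 := by
    rw [h12Ser, map_mul, map_pow, PowerSeries.map_X, PowerSeries.map_expand]
  rw [h1, mul_left_comm, mul_comm C] at h
  have h2 := hasQ_divv ((hasQ_u12.up 12).pow 2) (fun τ => pow_ne_zero 2 (u12_ne_zero τ)) ?_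
    (hasQ_divq h)
  · refine h2.congr fun τ => ?_
    rw [h12_eq, div_div]
    rfl
  · have h3 : (PowerSeries.expand 12 (NeZero.ne 12) (uSer.map (Int.castRingHom ℂ))).coeff 0 = 1 := by
      rw [PowerSeries.coeff_zero_eq_constantCoeff_apply, PowerSeries.constantCoeff_expand,
        ← PowerSeries.coeff_zero_eq_constantCoeff_apply, PowerSeries.coeff_map, uSer_coeff_zero,
        map_one]
    rw [PowerSeries.coeff_zero_eq_constantCoeff_apply] at h3 ⊢
    rw [map_pow, h3, one_pow]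
    exact one_ne_zero

theorem hasQ_divh_pow {C : PowerSeries ℂ} (n : ℕ) : ∀ {F : ℍ → ℂ},
    HasQ 1 F (C * (h12Ser.map (Int.castRingHom ℂ)) ^ n) →
    HasQ 1 (fun τ => F τ / h12 τ ^ n) C := by
  induction n with
  | zero =>
    intro F h
    rw [pow_zero, mul_one] at h
    simpa using h
  | succ n ih =>
    intro F h
    rw [pow_succ, ← mul_assoc] at h
    have h1 := ih (hasQ_divh h)
    refine h1.congr fun τ => ?_
    rw [div_div, pow_succ']

theorem Gamma1_le {M N : ℕ} (h : M ∣ N) : Gamma1 N ≤ Gamma1 M := by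
  intro γ hγ
  rw [Gamma1_mem] at hγ ⊢
  obtain ⟨h1, h2, h3⟩ := hγ
  have e : ∀ x : ℤ, ((x : ZMod N).cast : ZMod M) = (x : ZMod M) := fun x => by
    rw [ZMod.cast_intCast h]
  refine ⟨?_, ?_, ?_⟩
  · rw [← e, h1, ZMod.cast_one h]
  · rw [← e, h2, ZMod.cast_one h]
  · rw [← e, h3, ZMod.cast_zero]

/-- **conjugation of weight one forms**, away from the cusps -/
theorem exists_conj_aux {N : ℕ} [NeZero N] (hN : 144 ∣ N) {f : ℍ → ℂ}
    (hf : f ∈ mform (1 : Gamma1 N →* ℂˣ) 1) (σ : ℂ ≃+* ℂ) :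
    ∃ g : ℍ → ℂ, (∀ γ ∈ Gamma1 N, g ∣[(1 : ℤ)] γ = g) ∧
      HasQ 1 g ((qExpansion 1 f).map (σ : ℂ →+* ℂ)) := by
  have hh : h12 ∈ mform (1 : Gamma1 N →* ℂˣ) 1 := h12_mem (Gamma1_le hN)
  have hF : f * h12 ^ 11 ∈ mform (1 : Gamma1 N →* ℂˣ) (12 * (1 : ℕ)) := by
    refine mform_congr (mform_mul hf (mform_pow hh 11)) ?_ (by norm_num)
    ext g
    simp
  obtain ⟨F', hF', hq⟩ := Gal.conjStable_G (N := N) (G := Gamma1 N) le_rfl (Gamma1_in_Gamma0 N) σ 1 _ hF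
  have hQf : HasQ 1 f (qExpansion 1 f) := Gal.hasQ_one (N := N) le_rfl hf
  have hQF' : HasQ 1 F' (qExpansion 1 F') := Gal.hasQ_one (N := N) le_rfl hF'
  have h1 : qExpansion 1 (f * h12 ^ 11) = qExpansion 1 f * (h12Ser.map (Int.castRingHom ℂ)) ^ 11 :=
    (hQf.mul (hasQ_h12.pow 11)).qExpansion_eq one_pos
  have h2 : (h12Ser.map (Int.castRingHom ℂ)).map (σ : ℂ →+* ℂ) = h12Ser.map (Int.castRingHom ℂ) := by
    ext n
    rw [PowerSeries.coeff_map, PowerSeries.coeff_map]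
    exact map_intCast _ _
  rw [hq, h1, map_mul, map_pow, h2] at hQF'
  have h3 := hasQ_divh_pow 11 hQF'
  refine ⟨_, fun γ hγ => ?_, h3⟩
  have h4 : (fun τ => F' τ / h12 τ ^ 11) * h12 ^ 11 = F' := by
    ext τ
    rw [Pi.mul_apply, Pi.pow_apply, div_mul_cancel₀ _ (pow_ne_zero 11 (h12_ne_zero τ))]
  have h5 := (hF'.2.1 ⟨γ, hγ⟩)
  rw [MonoidHom.one_apply, Units.val_one, one_smul] at h5
  have h6 : ((fun τ => F' τ / h12 τ ^ 11) ∣[(1 : ℤ)] γ) * h12 ^ 11 = F' := by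
    have h7 := ModularForm.mul_slash_SL2 1 11 γ (fun τ => F' τ / h12 τ ^ 11) (h12 ^ 11)
    have h8 := slash_pow_SL2 1 h12 γ 11
    rw [h12_slash (Gamma1_le hN hγ)] at h8
    have h8' : (h12 ^ 11) ∣[(11 : ℤ)] γ = h12 ^ 11 := h8
    rw [h8', h4] at h7
    rw [← h7]
    exact h5
  ext τ
  have h9 := congrFun (h6.trans h4.symm) τ
  rw [Pi.mul_apply, Pi.mul_apply, Pi.pow_apply] at h9
  exact mul_right_cancel₀ (pow_ne_zero 11 (h12_ne_zero τ)) h9

/-- a weight one cusp form with character -/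
theorem exists_cusp_pow_neben {N : ℕ} [NeZero N] {f : ℍ → ℂ} (ε : DirichletCharacter ℂ N)
    (hmd : MDiff f) (hz : ∀ A : SL(2, ℤ), IsZeroAtImInfty (f ∣[(1 : ℤ)] A))
    (hneb : ∀ σ : Gamma0 N, f ∣[(1 : ℤ)] (σ : SL(2, ℤ)) = ε (((σ : SL(2, ℤ)) 1 1 : ℤ) : ZMod N) • f) :
    ∃ m : ℕ, 0 < m ∧ ∃ P : CuspForm (Gamma0 N) (m : ℤ), (P : ℍ → ℂ) = f ^ m := by
  set m := Fintype.card (ZMod N)ˣ with hm
  have hpos : 0 < m := Fintype.card_pos
  have hzero : ∀ A : SL(2, ℤ), IsZeroAtImInfty ((f ^ m) ∣[(m : ℤ)] A) := by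
    intro A
    have h1 := slash_pow_SL2 1 f A m
    rw [one_mul] at h1
    rw [h1]
    exact isZero_pow (hz A) hpos
  have hmem : f ^ m ∈ mform (1 : Gamma0 N →* ℂˣ) (m : ℤ) := by
    refine ⟨hmd.pow m, fun σ => ?_, fun A => Filter.ZeroAtFilter.boundedAtFilter (hzero A)⟩
    have h1 := slash_pow_SL2 1 f (σ : SL(2, ℤ)) m
    rw [one_mul] at h1
    rw [h1, hneb]
    have h2 : (ε (((σ : SL(2, ℤ)) 1 1 : ℤ) : ZMod N)) ^ m = 1 := by
      have h3 := (Gal.dU N σ).isUnit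
      rw [Gal.dU_coe] at h3
      obtain ⟨u, hu⟩ := h3
      rw [← hu, ← map_pow, ← Units.val_pow_eq_pow_val, pow_card_eq_one, Units.val_one, map_one]
    ext τ
    simp only [Pi.pow_apply, Pi.smul_apply, smul_eq_mul, mul_pow, MonoidHom.one_apply,
      Units.val_one, one_mul]
    rw [h2, one_mul]
  exact ⟨m, hpos, toCusp hmem hzero, rfl⟩

/-- **conjugation of weight one forms** -/
theorem exists_conjw {N : ℕ} [NeZero N] (ε : DirichletCharacter ℂ N) (f : CuspForm (Gamma1 N) 1)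
    (hneb : ∀ σ : Gamma0 N, (f : ℍ → ℂ) ∣[(1 : ℤ)] (σ : SL(2, ℤ)) =
      ε (((σ : SL(2, ℤ)) 1 1 : ℤ) : ZMod N) • (f : ℍ → ℂ)) (σ : ℂ ≃+* ℂ) :
    ∃ g : CuspForm (Gamma1 (144 * N)) 1, ∀ n, ModularFormClass.qCoeff g n =
      σ (ModularFormClass.qCoeff f n) := by
  haveI : NeZero (144 * N) := ⟨mul_ne_zero (by norm_num) (NeZero.ne N)⟩
  have hz : ∀ A : SL(2, ℤ), IsZeroAtImInfty ((f : ℍ → ℂ) ∣[(1 : ℤ)] A) := by
    intro A
    have hc' : IsCusp ((Matrix.SpecialLinearGroup.mapGL ℝ A : GL (Fin 2) ℝ) •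
        (OnePoint.infty : OnePoint ℝ)) (Gamma1 N : Subgroup (GL (Fin 2) ℝ)) := by
      rw [Subgroup.IsArithmetic.isCusp_iff_isCusp_SL2Z, isCusp_SL2Z_iff']
      exact ⟨A, rfl⟩
    exact CuspFormClass.zero_at_cusps f hc' _ rfl
  have hmem1 : (f : ℍ → ℂ) ∈ mform (1 : Gamma1 (144 * N) →* ℂˣ) 1 := by
    refine ⟨ModularFormClass.holo f, fun γ => ?_,
      fun A => Filter.ZeroAtFilter.boundedAtFilter (hz A)⟩
    have h1 : (γ : SL(2, ℤ)) ∈ Gamma1 N := Gamma1_le (Dvd.intro_left 144 rfl) γ.2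
    have h2 := cusp_slash f _ h1
    rw [MonoidHom.one_apply, Units.val_one, one_smul]
    exact h2
  have hQf : HasQ 1 f (qExpansion 1 f) := Gal.hasQ_one (N := 144 * N) le_rfl hmem1
  obtain ⟨g, hginv, hgQ⟩ := exists_conj_aux (N := 144 * N) (Dvd.intro N rfl) hmem1 σ
  obtain ⟨m, hpos, P, hP⟩ := exists_cusp_pow_neben ε (ModularFormClass.holo f) hz hneb
  set P' := ES.conjCusp (σ : ℂ →+* ℂ) P (ES.isGood_hDelta N) with hP'
  have hQP' : HasQ 1 P' (qExpansion 1 P') := HasQ.of_modularForm P' one_pos (ES.one_mem_G0 N)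
  rw [hP', ES.qExpansion_conjCusp, hP, (hQf.pow m).qExpansion_eq one_pos, ES.pmap, map_pow] at hQP'
  have hgP : g ^ m = (P' : ℍ → ℂ) := (hgQ.pow m).ext hQP'
  have hgz : ∀ A : SL(2, ℤ), IsZeroAtImInfty (g ∣[(1 : ℤ)] A) := by
    intro A
    refine isZero_of_pow hpos.ne' ?_
    have h1 := slash_pow_SL2 1 g A m
    rw [one_mul] at h1
    rw [← h1, hgP]
    exact cusp_slash_zero P' A
  let G : CuspForm (Gamma1 (144 * N)) 1 :=
    { toFun := g
      slash_action_eq' := by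
        rintro _ ⟨γ, hγ, rfl⟩
        exact hginv γ hγ
      holo' := hgQ.mdiff one_pos
      zero_at_cusps' := by
        intro c hc
        rw [Subgroup.IsArithmetic.isCusp_iff_isCusp_SL2Z] at hc
        rw [OnePoint.isZeroAt_iff_forall_SL2Z hc]
        intro A _
        exact hgz A }
  refine ⟨G, fun n => ?_⟩
  have h1 : qExpansion 1 (G : ℍ → ℂ) = (qExpansion 1 f).map (σ : ℂ →+* ℂ) := hgQ.qExpansion_eq one_pos
  have h2 := congrArg (PowerSeries.coeff n) h1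
  rw [PowerSeries.coeff_map] at h2
  exact h2

end Fermat.Agent.DS
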