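import Fermat.Agent.DS.Exact
import Fermat.Prelude.Def_GaloisRep_Residual
import Fermat.Prelude.Def_Deformations_MatrixRepresentation

/-!
# Irreducibility of the complex representation
-/

set_option linter.all false
set_option autoImplicit false

open Matrix IsLocalRing Filter Finset
open scoped Topology

namespace Fermat.Agent.DS

open Fermat.Agent.ESCore (Qb GQ ιC)
open Fermat.Agent.DS.Cheb (UB D Bd D_le_of_off chebotarev_sym sum_fiber)
open Fermat.Agent.FrobDensity (res res_apply)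

section irr

variable {k : Type} [Field k] {G : Type} [Group G]

theorem isIrreducible_of_no_stb (ρ : G →* GL (Fin 2) k) (h : ∀ e, ¬ Stb ρ e) :
    (Deformation.matrixRepresentation ρ).IsIrreducible := by
  have hnt : Nontrivial (Subrepresentation (Deformation.matrixRepresentation ρ)) := by
    refine ⟨⟨⊥, ⊤, fun hbt ↦ ?_⟩⟩
    have h1 : (⊥ : Submodule k (Fin 2 → k)) = ⊤ :=
      congrArg Subrepresentation.toSubmodule hbt
    exact bot_ne_top h1
  refine { toNontrivial := hnt, eq_bot_or_eq_top := fun W ↦ ?_ }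
  by_contra hcon
  push Not at hcon
  obtain ⟨hbot, htop⟩ := hcon
  have hbot' : W.toSubmodule ≠ ⊥ := fun h1 ↦
    hbot (Subrepresentation.toSubmodule_injective h1)
  have htop' : W.toSubmodule ≠ ⊤ := fun h1 ↦
    htop (Subrepresentation.toSubmodule_injective h1)
  obtain ⟨e, heW, he0⟩ := Submodule.exists_mem_ne_zero_of_ne_bot hbot'
  have h1 : Module.finrank k W.toSubmodule < 2 := by
    have := Submodule.finrank_lt htop'
    rwa [Module.finrank_fintype_fun_eq_card, Fintype.card_fin] at this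
  have h2 : Module.finrank k W.toSubmodule ≠ 0 := by
    intro h0
    exact hbot' (Submodule.finrank_eq_zero.mp h0)
  have h3 : Module.finrank k W.toSubmodule = 1 := by omega
  have h4 := (finrank_eq_one_iff_of_nonzero' (⟨e, heW⟩ : W.toSubmodule)
    (fun h ↦ he0 (congrArg Subtype.val h))).mp h3
  refine h e ⟨he0, fun g ↦ ?_⟩
  have h5 := W.apply_mem_toSubmodule g heW
  rw [Deformation.matrixRepresentation_apply] at h5
  obtain ⟨c, hc⟩ := h4 ⟨_, h5⟩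
  exact ⟨c, (congrArg Subtype.val hc).symm⟩

end irr

/-- lower bound for the second moment of a reducible representation -/
theorem two_mul_card_le {Γ : Type*} [Group Γ] [Fintype Γ] (ρ : Γ →* GL (Fin 2) ℂ)
    {e : Fin 2 → ℂ} (he : Stb ρ e) :
    2 * (Fintype.card Γ : ℝ) ≤ ∑ g, ‖(ρ g).1.trace‖ ^ 2 ∧
      ∀ g, ‖(ρ g).1.trace‖ ^ 2 ≤ 4 ∧ ‖(ρ g⁻¹).1.trace‖ = ‖(ρ g).1.trace‖ := by
  classical
  obtain ⟨χ₁, χ₂, h1, -⟩ := exists_chars ρ he
  have hnorm : ∀ (χ : Γ →* ℂˣ) (g : Γ), ‖((χ g : ℂˣ) : ℂ)‖ = 1 := by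
    intro χ g
    have h2 : ((χ g : ℂˣ) : ℂ) ^ Fintype.card Γ = 1 := by
      rw [← Units.val_pow_eq_pow_val, ← map_pow, pow_card_eq_one, map_one, Units.val_one]
    exact Complex.norm_eq_one_of_pow_eq_one h2 Fintype.card_ne_zero
  have hconj : ∀ (χ : Γ →* ℂˣ) (g : Γ), ((χ g⁻¹ : ℂˣ) : ℂ) = star ((χ g : ℂˣ) : ℂ) := by
    intro χ g
    rw [map_inv, Units.val_inv_eq_inv_val, Complex.inv_def, ← Complex.sq_norm, hnorm]
    simp
  have hsq : ∀ g, ‖(ρ g).1.trace‖ ^ 2 = 2 + 2 * (((χ₁ * χ₂⁻¹ : Γ →* ℂˣ) g : ℂˣ) : ℂ).re := by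
    intro g
    have e1 : (((χ₁ * χ₂⁻¹ : Γ →* ℂˣ) g : ℂˣ) : ℂ) = (χ₁ g : ℂ) * star (χ₂ g : ℂ) := by
      rw [MonoidHom.mul_apply, MonoidHom.inv_apply, Units.val_mul, ← map_inv χ₂ g, hconj]
    rw [e1, (h1 g).1, Complex.sq_norm, Complex.normSq_add, ← Complex.sq_norm,
      ← Complex.sq_norm, hnorm, hnorm]
    norm_num
  refine ⟨?_, fun g ↦ ⟨?_, ?_⟩⟩
  · rw [sum_congr rfl fun g _ ↦ hsq g, sum_add_distrib, sum_const, card_univ, nsmul_eq_mul,
      ← mul_sum, ← Complex.re_sum]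
    let ψ : Γ →* ℂ := (Units.coeHom ℂ).comp (χ₁ * χ₂⁻¹)
    have h3 := sum_hom_units (R := ℂ) ψ
    have h4 : ∑ g : Γ, (((χ₁ * χ₂⁻¹ : Γ →* ℂˣ) g : ℂˣ) : ℂ) = ∑ g : Γ, ψ g := rfl
    rw [h4, h3]
    split_ifs
    · simp only [Complex.natCast_re]
      have : (0:ℝ) ≤ Fintype.card Γ := Nat.cast_nonneg _
      linarith
    · simp
      linarith
  · have h2 : ‖(ρ g).1.trace‖ ≤ 2 := by
      rw [(h1 g).1]
      refine (norm_add_le _ _).trans ?_
      rw [hnorm, hnorm]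
      norm_num
    nlinarith [norm_nonneg (ρ g).1.trace]
  · rw [(h1 g⁻¹).1, (h1 g).1, hconj, hconj, ← star_add, norm_star]

variable {N : ℕ} {α δ : ℕ → Qb}

/-- **Deligne–Serre, abstract form.** -/
theorem RepData.exists_complex (h : RepData N α δ) (τ : Qb →+* ℂ) :
    ∃ ρ : GQ →* GL (Fin 2) ℂ, GaloisFactorsThroughFiniteLevel ρ ∧
      (Deformation.matrixRepresentation ρ).IsIrreducible ∧
      ∀ p : ℕ, p.Prime → ¬ p ∣ N → ∀ B : ValuationSubring Qb, B.LiesOverPrime p →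
        (∀ σ ∈ B.inertiaSubgroupIn ℚ, ρ σ = 1) ∧
        ∀ σ : GQ, B.IsFrobeniusAt σ p →
          (ρ σ).1.trace = τ (α p) ∧ (ρ σ).1.det = τ (δ p) := by
  classical
  obtain ⟨ρ₀, ⟨L, hLf, hL⟩, -, hρ₀⟩ := h.exists_rep
  set ρ : GQ →* GL (Fin 2) ℂ := (Matrix.GeneralLinearGroup.map τ).comp ρ₀ with hρdef
  have hval : ∀ σ, (ρ σ).1 = (ρ₀ σ).1.map τ := fun σ ↦ rfl
  have htr : ∀ σ, (ρ σ).1.trace = τ (ρ₀ σ).1.trace := by
    intro σ
    rw [hval, Matrix.trace_fin_two, Matrix.trace_fin_two, map_add]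
    rfl
  have hdet : ∀ σ, (ρ σ).1.det = τ (ρ₀ σ).1.det := by
    intro σ
    rw [hval]
    exact (RingHom.map_det τ (ρ₀ σ).1).symm
  have hLρ : ∀ σ : GQ, (∀ x ∈ L, σ x = x) → ρ σ = 1 := by
    intro σ hσ
    rw [hρdef, MonoidHom.comp_apply, hL σ hσ, map_one]
  have hprop : ∀ p : ℕ, p.Prime → ¬ p ∣ N → ∀ B : ValuationSubring Qb, B.LiesOverPrime p →
        (∀ σ ∈ B.inertiaSubgroupIn ℚ, ρ σ = 1) ∧
        ∀ σ : GQ, B.IsFrobeniusAt σ p →
          (ρ σ).1.trace = τ (α p) ∧ (ρ σ).1.det = τ (δ p) := by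
    intro p hp hpN B hB
    obtain ⟨h1, h2⟩ := hρ₀ p hp hpN B hB
    refine ⟨fun σ hσ ↦ ?_, fun σ hσ ↦ ?_⟩
    · rw [hρdef, MonoidHom.comp_apply, h1 σ hσ, map_one]
    · rw [htr, hdet, (h2 σ hσ).1, (h2 σ hσ).2]
      exact ⟨rfl, rfl⟩
  refine ⟨ρ, ⟨L, hLf, hLρ⟩, ?_, hprop⟩
  -- irreducibility
  apply isIrreducible_of_no_stb
  intro e he
  obtain ⟨L', hL'1, hL'2, r, hrs, hr⟩ := exists_factor ρ hLρ
  haveI hfin : Finite ρ.range := Finite.of_surjective r hrs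
  haveI := Fintype.ofFinite ρ.range
  have he' : Stb ρ.range.subtype e := by
    refine ⟨he.1, ?_⟩
    rintro ⟨_, σ, rfl⟩
    exact he.2 σ
  obtain ⟨hlow, hb⟩ := two_mul_card_le ρ.range.subtype he'
  obtain ⟨φ, hφ⟩ := exists_frob_choice
  let f : ρ.range → ℝ := fun g ↦ ‖(g : GL (Fin 2) ℂ).1.trace‖ ^ 2
  have hf4 : ∀ g, f g ≤ 4 := fun g ↦ (hb g).1
  have h1 := chebotarev_sym L' (fun g ↦ f (r g)) (fun g ↦ sq_nonneg _) (fun g x ↦ by
      have e1 := td_conj ((r g : ρ.range) : GL (Fin 2) ℂ) ((r x : ρ.range) : GL (Fin 2) ℂ)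
      rw [td, td, Prod.mk.injEq] at e1
      simp only [f]
      rw [map_mul, map_mul, map_inv, Subgroup.coe_mul, Subgroup.coe_mul, Subgroup.coe_inv, e1.1])
    (fun g ↦ by
      simp only [f]
      rw [map_inv]
      have := (hb (r g)).2
      exact congrArg (fun x : ℝ ↦ x ^ 2) this) φ ∅ (fun p _ ↦ hφ p) 1 (by
      have h2 := h.uT_UB τ (c := 4) (by norm_num)
      obtain ⟨T, hT⟩ : ∃ T : Finset Nat.Primes, ∀ p : Nat.Primes, p ∉ T → ¬ (p : ℕ) ∣ N := by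
        refine ⟨(N.primeFactors).subtype Nat.Prime, fun p hp hpN ↦ hp ?_⟩
        exact Finset.mem_subtype.mpr (Nat.mem_primeFactors.mpr ⟨p.2, hpN, h.ne⟩)
      have hbd : Bd (fun p ↦ f (r (res L' (φ p)))) :=
        ⟨4, fun p ↦ by rw [abs_of_nonneg (sq_nonneg _)]; exact hf4 _⟩
      have h3 := D_le_of_off hbd (uT_bd (N := N) (α := α) τ (c := 4) (by norm_num)) T
        (fun p hp ↦ by
          have hpN := hT p hp
          obtain ⟨B, hB, hBφ⟩ := hφ p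
          have e1 : f (r (res L' (φ p))) = ‖τ (α p)‖ ^ 2 := by
            rw [hr]
            change ‖(ρ (φ p)).1.trace‖ ^ 2 = _
            rw [((hprop p p.2 hpN B hB).2 (φ p) hBφ).1]
          rw [uT, if_neg hpN, ← e1, min_eq_left (hf4 _)])
      refine (h3.add h2).mono (Eventually.of_forall fun s ↦ ?_)
      rw [one_mul]
      linarith)
  have h2 := sum_fiber r hrs f
  have h3 : (0:ℝ) < Fintype.card (L' ≃ₐ[ℚ] L') := by exact_mod_cast Fintype.card_pos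
  have h4 : (0:ℝ) < Fintype.card ρ.range := by exact_mod_cast Fintype.card_pos
  have h5 : ∑ g, f g ≤ Fintype.card ρ.range := by
    refine le_of_mul_le_mul_left ?_ h3
    rw [← h2]
    have := mul_le_mul_of_nonneg_right h1 h4.le
    rw [one_mul] at this
    exact this
  have h6 : ∑ g : ρ.range, ‖(ρ.range.subtype g).1.trace‖ ^ 2 = ∑ g, f g := rfl
  rw [h6] at hlow
  linarith

end Fermat.Agent.DS
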