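import Fermat.Agent.DS.Rankin

set_option autoImplicit false

/-!
# Rankin's bound: sums over primes
-/

open scoped BigOperators

namespace Fermat.Agent.DS

theorem mult_prod (a : ℕ → ℂ) (N : ℕ) (h1 : a 1 = 1)
    (hT : ∀ p : ℕ, p.Prime → ¬ p ∣ N → ∀ n : ℕ, ¬ p ∣ n → a (p * n) = a p * a n)
    (S : Finset ℕ) (hS : ∀ p ∈ S, p.Prime ∧ ¬ p ∣ N) :
    a (∏ p ∈ S, p) = ∏ p ∈ S, a p := by
  classical
  induction S using Finset.induction_on with
  | empty => simpa using h1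
  | insert p S hp ih =>
    rw [Finset.prod_insert hp, Finset.prod_insert hp,
      hT p (hS p (Finset.mem_insert_self p S)).1 (hS p (Finset.mem_insert_self p S)).2,
      ih fun q hq => hS q (Finset.mem_insert_of_mem hq)]
    intro hdvd
    have hpp := (hS p (Finset.mem_insert_self p S)).1
    obtain ⟨q, hq, hpq⟩ := (Prime.dvd_finsetProd_iff hpp.prime _).1 hdvd
    have := (Nat.prime_dvd_prime_iff_eq hpp (hS q (Finset.mem_insert_of_mem hq)).1).1 hpq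
    exact hp (this ▸ hq)

/-- Rankin's estimate over the primes, with truncation at `c`. -/
theorem rankin_primes (a : ℕ → ℂ) (N : ℕ) (h1 : a 1 = 1)
    (hT : ∀ p : ℕ, p.Prime → ¬ p ∣ N → ∀ n : ℕ, ¬ p ∣ n → a (p * n) = a p * a n)
    {C : ℝ} (hC : ∀ n, ∑ k ∈ Finset.Icc 1 n, ‖a k‖ ^ 2 ≤ C * n) {c : ℝ} (hc : 0 ≤ c) :
    ∃ B : ℝ, ∀ s : ℝ, 1 < s → s ≤ 2 → ∀ P : Finset ℕ, (∀ p ∈ P, p.Prime ∧ ¬ p ∣ N) →
      ∑ p ∈ P, min (‖a p‖ ^ 2) c / (p : ℝ) ^ s ≤ Real.log (1 / (s - 1)) + B := by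
  classical
  have hC0 : 0 ≤ C := by
    have h1 := hC 1
    simp at h1
    exact (sq_nonneg _).trans h1
  have hZ : Summable fun n : ℕ => 1 / (n : ℝ) ^ 2 := Real.summable_one_div_nat_pow.2 (by norm_num)
  refine ⟨Real.log (‖a 0‖ ^ 2 + 2 * C + 1) + c ^ 2 * ∑' n : ℕ, 1 / (n : ℝ) ^ 2, fun s hs hs2 P hP => ?_⟩
  have hb0 : 0 ≤ ‖a 0‖ ^ 2 := sq_nonneg _
  have hs1 : 0 < s - 1 := by linarith
  have hprodS : ∀ S ⊆ P, (∏ p ∈ S, p).primeFactors = S := by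
    intro S hS
    exact Nat.primeFactors_prod fun p hp => (hP p (hS hp)).1
  have hprod : ∏ p ∈ P, (1 + ‖a p‖ ^ 2 / (p : ℝ) ^ s) ≤ ‖a 0‖ ^ 2 + C * (s / (s - 1)) := by
    have h2 : ∏ p ∈ P, (1 + ‖a p‖ ^ 2 / (p : ℝ) ^ s) =
        ∑ n ∈ P.powerset.image (fun S => ∏ p ∈ S, p), ‖a n‖ ^ 2 / (n : ℝ) ^ s := by
      rw [Finset.prod_one_add, Finset.sum_image]
      · refine Finset.sum_congr rfl fun S hS => ?_
        rw [Finset.mem_powerset] at hS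
        rw [mult_prod a N h1 hT S fun p hp => hP p (hS hp), norm_prod, ← Finset.prod_pow,
          Finset.prod_div_distrib, Nat.cast_prod, Real.finsetProd_rpow]
        intro i _
        exact Nat.cast_nonneg i
      · intro S hS T hT h
        rw [Finset.mem_coe, Finset.mem_powerset] at hS hT
        rw [← hprodS S hS, ← hprodS T hT]
        exact congrArg Nat.primeFactors h
    rw [h2]
    exact (sum_rpow_le (fun n => ‖a n‖ ^ 2) (fun n => sq_nonneg _) C hC hs).2 _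
  have hpos : 0 < ‖a 0‖ ^ 2 + 2 * C + 1 := by linarith
  have hprod2 : ∏ p ∈ P, (1 + ‖a p‖ ^ 2 / (p : ℝ) ^ s) ≤ (‖a 0‖ ^ 2 + 2 * C + 1) * (1 / (s - 1)) := by
    refine hprod.trans ?_
    rw [mul_one_div, le_div_iff₀ hs1, add_mul, mul_assoc, div_mul_cancel₀ _ hs1.ne']
    nlinarith
  have hlog : ∑ p ∈ P, Real.log (1 + ‖a p‖ ^ 2 / (p : ℝ) ^ s) ≤
      Real.log (‖a 0‖ ^ 2 + 2 * C + 1) + Real.log (1 / (s - 1)) := by
    rw [← Real.log_prod, ← Real.log_mul hpos.ne' (by positivity)]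
    · refine Real.log_le_log ?_ hprod2
      exact Finset.prod_pos fun p _ => by positivity
    · intro p _
      positivity
  have hterm : ∀ p ∈ P, min (‖a p‖ ^ 2) c / (p : ℝ) ^ s ≤
      Real.log (1 + ‖a p‖ ^ 2 / (p : ℝ) ^ s) + c ^ 2 * (1 / (p : ℝ) ^ 2) := by
    intro p hp
    have hp1 : (1 : ℝ) ≤ p := by exact_mod_cast (hP p hp).1.one_lt.le
    have hp0 : (0 : ℝ) < p := by linarith
    set x := min (‖a p‖ ^ 2) c / (p : ℝ) ^ s with hx
    have hx0 : 0 ≤ x := div_nonneg (le_min (sq_nonneg _) hc) (Real.rpow_nonneg hp0.le _)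
    have h3 : Real.log (1 + x) ≤ Real.log (1 + ‖a p‖ ^ 2 / (p : ℝ) ^ s) := by
      refine Real.log_le_log (by linarith) ?_
      have := div_le_div_of_nonneg_right (min_le_left (‖a p‖ ^ 2) c) (Real.rpow_nonneg hp0.le s)
      linarith
    have h4 := Real.le_log_one_add_of_nonneg hx0
    have h5 : x - x ^ 2 ≤ 2 * x / (x + 2) := by
      rw [le_div_iff₀ (by linarith)]
      nlinarith [mul_nonneg hx0 hx0, mul_nonneg (mul_nonneg hx0 hx0) hx0]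
    have h6 : x ^ 2 ≤ c ^ 2 * (1 / (p : ℝ) ^ 2) := by
      have h7 : x ≤ c / (p : ℝ) := by
        rw [hx]
        refine div_le_div₀ hc (min_le_right _ _) hp0 ?_
        calc (p : ℝ) = (p : ℝ) ^ (1 : ℝ) := (Real.rpow_one _).symm
          _ ≤ (p : ℝ) ^ s := Real.rpow_le_rpow_of_exponent_le hp1 hs.le
      calc x ^ 2 ≤ (c / (p : ℝ)) ^ 2 := pow_le_pow_left₀ hx0 h7 2
        _ = _ := by rw [div_pow, mul_one_div]
    linarith
  calc ∑ p ∈ P, min (‖a p‖ ^ 2) c / (p : ℝ) ^ s ≤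
        ∑ p ∈ P, (Real.log (1 + ‖a p‖ ^ 2 / (p : ℝ) ^ s) + c ^ 2 * (1 / (p : ℝ) ^ 2)) :=
        Finset.sum_le_sum hterm
    _ = ∑ p ∈ P, Real.log (1 + ‖a p‖ ^ 2 / (p : ℝ) ^ s) + c ^ 2 * ∑ p ∈ P, (1 / (p : ℝ) ^ 2) := by
        rw [Finset.sum_add_distrib, Finset.mul_sum]
    _ ≤ (Real.log (‖a 0‖ ^ 2 + 2 * C + 1) + Real.log (1 / (s - 1))) +
        c ^ 2 * ∑' n : ℕ, 1 / (n : ℝ) ^ 2 := by
        refine add_le_add hlog (mul_le_mul_of_nonneg_left ?_ (sq_nonneg c))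
        exact hZ.sum_le_tsum P fun n _ => by positivity
    _ = _ := by ring

end Fermat.Agent.DS
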