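import Mathlib
import Fermat.Agent.DS.ConjW
import Fermat.Agent.DS.Rankin2
import Fermat.Agent.DS.Irred
import Fermat.Agent.ESCore.AlgLaurent
import Fermat.Agent.ESCore.GalX

/-!
# Algebraicity of the coefficients of weight one forms
-/

set_option linter.all false
set_option autoImplicit false

open UpperHalfPlane hiding I
open Complex Function Filter Topology ModularForm CongruenceSubgroup ModularGroup
open scoped Manifold MatrixGroups ModularForm Real

noncomputable section

namespace Fermat.Agent.DS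

open Fermat.Agent.Eis16 (up coe_up cj cj_coe slash_up HasQ)
open Fermat.Agent.ESCore

variable {N : ℕ} [NeZero N]

theorem mem_mform_of_cusp (f : CuspForm (Gamma1 N) 1) {M : ℕ} (hM : N ∣ M) :
    (f : ℍ → ℂ) ∈ mform (1 : Gamma1 M →* ℂˣ) 1 ∧
      ∀ A : SL(2, ℤ), IsZeroAtImInfty ((f : ℍ → ℂ) ∣[(1 : ℤ)] A) := by
  have hz : ∀ A : SL(2, ℤ), IsZeroAtImInfty ((f : ℍ → ℂ) ∣[(1 : ℤ)] A) := by
    intro A
    have hc' : IsCusp ((Matrix.SpecialLinearGroup.mapGL ℝ A : GL (Fin 2) ℝ) •
        (OnePoint.infty : OnePoint ℝ)) (Gamma1 N : Subgroup (GL (Fin 2) ℝ)) := by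
      rw [Subgroup.IsArithmetic.isCusp_iff_isCusp_SL2Z, isCusp_SL2Z_iff']
      exact ⟨A, rfl⟩
    exact CuspFormClass.zero_at_cusps f hc' _ rfl
  refine ⟨⟨ModularFormClass.holo f, fun γ => ?_,
      fun A => Filter.ZeroAtFilter.boundedAtFilter (hz A)⟩, hz⟩
  have h1 : (γ : SL(2, ℤ)) ∈ Gamma1 N := Gamma1_le hM γ.2
  have h2 := cusp_slash f _ h1
  rw [MonoidHom.one_apply, Units.val_one, one_smul]
  exact h2

/-- division of sequences by the series of `η(12τ)²` -/
theorem fgSeq_of_mul_h12 {f g : PowerSeries ℂ} (h : f * h12Ser.map (Int.castRingHom ℂ) = g)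
    (hg : Gal.FgSeq fun j => g.coeff j) : Gal.FgSeq fun j => f.coeff j := by
  refine Gal.FgSeq.of_mul h ?_ ?_ ⊥ ?_ (fun j => ?_) hg
  · rw [PowerSeries.coeff_map, h12Ser, PowerSeries.coeff_zero_X_mul, map_zero]
  · rw [PowerSeries.coeff_map, h12Ser, ← zero_add 1, PowerSeries.coeff_succ_X_mul,
      PowerSeries.coeff_zero_eq_constantCoeff_apply, map_pow, PowerSeries.constantCoeff_expand,
      ← PowerSeries.coeff_zero_eq_constantCoeff_apply, uSer_coeff_zero, one_pow, map_one]
  · rw [Algebra.toSubmodule_bot, Submodule.one_eq_span]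
    exact Submodule.fg_span_singleton (1 : ℂ)
  · rw [PowerSeries.coeff_map]
    exact Algebra.mem_bot.mpr ⟨_, rfl⟩

theorem fgSeq_of_mul_h12_pow (n : ℕ) : ∀ {f g : PowerSeries ℂ},
    f * (h12Ser.map (Int.castRingHom ℂ)) ^ n = g → Gal.FgSeq (fun j => g.coeff j) →
    Gal.FgSeq fun j => f.coeff j := by
  induction n with
  | zero =>
    intro f g h hg
    rw [pow_zero, mul_one] at h
    rw [h]
    exact hg
  | succ n ih =>
    intro f g h hg
    rw [pow_succ', ← mul_assoc] at h
    exact fgSeq_of_mul_h12 rfl (ih h hg)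

/-- the coefficients lie in a finitely generated group -/
theorem fgSeq_weight_one (f : CuspForm (Gamma1 N) 1) :
    Gal.FgSeq fun j => ModularFormClass.qCoeff f j := by
  haveI : NeZero (144 * N) := ⟨mul_ne_zero (by norm_num) (NeZero.ne N)⟩
  obtain ⟨hf, hz⟩ := mem_mform_of_cusp f (M := 144 * N) (Dvd.intro_left 144 rfl)
  have hh : h12 ∈ mform (1 : Gamma1 (144 * N) →* ℂˣ) 1 := h12_mem (Gamma1_le (Dvd.intro N rfl))
  have hF : (f : ℍ → ℂ) * h12 ^ 11 ∈ mform (1 : Gamma1 (144 * N) →* ℂˣ) (12 * (1 : ℕ)) := by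
    refine mform_congr (mform_mul hf (mform_pow hh 11)) ?_ (by norm_num)
    ext g
    simp
  have hQf : HasQ 1 f (qExpansion 1 f) := Gal.hasQ_one (N := 144 * N) le_rfl hf
  have h1 : qExpansion 1 ((f : ℍ → ℂ) * h12 ^ 11) =
      qExpansion 1 f * (h12Ser.map (Int.castRingHom ℂ)) ^ 11 :=
    (hQf.mul (hasQ_h12.pow 11)).qExpansion_eq one_pos
  have hFz : ∀ B : SL(2, ℤ), IsZeroAtImInfty (((f : ℍ → ℂ) * h12 ^ 11) ∣[(12 * (1 : ℕ) : ℤ)] B) := by
    intro B
    have e : (12 * (1 : ℕ) : ℤ) = 1 + 1 * (11 : ℕ) := by norm_num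
    rw [e, ModularForm.mul_slash_SL2, slash_pow_SL2]
    have h2 : IsBoundedAtImInfty ((h12 ∣[(1 : ℤ)] B) ^ 11) := by
      have := (mform_pow hh 11).2.2 B
      rwa [slash_pow_SL2] at this
    rw [mul_comm]
    exact isZero_mul_bounded h2 (hz B)
  have h2 := Gal.fgCoeff_G (N := 144 * N) (G := Gamma1 (144 * N)) le_rfl
    (Gamma1_in_Gamma0 _) 1 _ hF hFz
  exact fgSeq_of_mul_h12_pow 11 h1.symm h2

section Int

variable {a : ℕ → ℂ}

/-- integrality of the eigenvalues -/
theorem isIntegral_of_fgSeq (ha : Gal.FgSeq a) (h1 : a 1 = 1) {p : ℕ} (hp : p.Prime) {e : ℂ}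
    (he : IsIntegral ℤ e)
    (hT : ∀ n, a (p * n) + e * (if p ∣ n then a (n / p) else 0) = a p * a n) :
    IsIntegral ℤ (a p) := by
  obtain ⟨M, hM, haM⟩ := ha
  set R : Subalgebra ℤ ℂ := Algebra.adjoin ℤ {e} with hR
  have hRfg : (Subalgebra.toSubmodule R).FG := he.fg_adjoin_singleton
  have heR : e ∈ R := Algebra.self_mem_adjoin_singleton ℤ e
  set S : Submodule ℤ ℂ := Subalgebra.toSubmodule R *
    Submodule.span ℤ (Set.range fun r : ℕ => a (p ^ r)) with hS
  have hSfg : S.FG := by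
    have h2 : S ≤ Subalgebra.toSubmodule R * M := by
      refine mul_le_mul' le_rfl ?_
      rw [Submodule.span_le]
      rintro _ ⟨r, rfl⟩
      exact haM _
    have h3 : (Subalgebra.toSubmodule R * M).FG := hRfg.mul hM
    exact Submodule.FG.of_le h3 h2
  have hS1 : (1 : ℂ) ∈ S := by
    rw [hS, ← one_mul (1 : ℂ)]
    refine Submodule.mul_mem_mul R.one_mem (Submodule.subset_span ⟨0, ?_⟩)
    simp [h1]
  have hstab : ∀ x ∈ S, a p • x ∈ S := by
    intro x hx
    rw [hS] at hx
    refine Submodule.mul_induction_on hx (fun r hr y hy => ?_) (fun x y hx hy => ?_)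
    · rw [smul_eq_mul, mul_left_comm]
      have h4 : a p * y ∈ S := by
        refine Submodule.span_induction ?_ ?_ ?_ ?_ hy
        · rintro _ ⟨r, rfl⟩
          have h5 := hT (p ^ r)
          simp only
          rw [← h5]
          refine Submodule.add_mem _ ?_ ?_
          · rw [← one_mul (a (p * p ^ r)), ← pow_succ']
            exact Submodule.mul_mem_mul R.one_mem (Submodule.subset_span ⟨r + 1, rfl⟩)
          · split_ifs with h6
            · rcases Nat.eq_zero_or_pos r with rfl | hr0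
              · rw [pow_zero] at h6
                exact absurd (Nat.dvd_one.mp h6) hp.one_lt.ne'
              · refine Submodule.mul_mem_mul heR (Submodule.subset_span ⟨r - 1, ?_⟩)
                simp only
                congr 1
                rw [← Nat.pow_div (by omega) hp.pos, pow_one]
            · rw [mul_zero]
              exact Submodule.zero_mem _
        · rw [mul_zero]
          exact Submodule.zero_mem _
        · intro x y _ _ hx hy
          rw [mul_add]
          exact Submodule.add_mem _ hx hy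
        · intro c x _ hx
          rw [mul_smul_comm]
          exact Submodule.smul_mem _ _ hx
      have h7 : r * (a p * y) ∈ Subalgebra.toSubmodule R * S := Submodule.mul_mem_mul hr h4
      rw [hS, ← mul_assoc, (Subalgebra.isIdempotentElem_toSubmodule R).eq] at h7
      exact h7
    · rw [smul_add]
      exact Submodule.add_mem _ hx hy
  refine isIntegral_of_smul_mem_submodule S ?_ hSfg (a p) hstab
  intro hbot
  rw [hbot, Submodule.mem_bot] at hS1
  exact one_ne_zero hS1

/-- a number field containing the algebraic values -/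
theorem exists_field_of_fgSeq (ha : Gal.FgSeq a) {P : ℕ → Prop} {α : ℕ → Qb}
    (hα : ∀ p, P p → ιC (α p) = a p) : ∃ K : IntermediateField ℚ Qb, FiniteDimensional ℚ K ∧
      ∀ p, P p → α p ∈ K := by
  obtain ⟨M, ⟨s, hs⟩, haM⟩ := ha
  set V : Submodule ℚ ℂ := Submodule.span ℚ (s : Set ℂ) with hV
  haveI hVfd : FiniteDimensional ℚ V := FiniteDimensional.span_finset ℚ s
  have hMV : ∀ x ∈ M, x ∈ V := by
    intro x hx
    rw [← hs] at hx
    refine Submodule.span_induction ?_ ?_ ?_ ?_ hx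
    · intro x hx
      exact Submodule.subset_span hx
    · exact Submodule.zero_mem _
    · intro x y _ _ hx hy
      exact Submodule.add_mem _ hx hy
    · intro c x _ hx
      exact zsmul_mem hx c
  have hsm : ∀ (c : ℚ) (x : Qb), ιC (c • x) = c • ιC x := by
    intro c x
    rw [Algebra.smul_def, map_mul, Algebra.smul_def]
    congr 1
    exact (RingHom.congr_fun (RingHom.ext_rat (ιC.comp (algebraMap ℚ Qb)) (algebraMap ℚ ℂ)) c)
  let i : Qb →ₗ[ℚ] ℂ := { toFun := ιC, map_add' := map_add ιC, map_smul' := hsm }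
  have hi : Function.Injective i := ιC.injective
  set W : Submodule ℚ Qb := V.comap i with hW
  haveI hWfd : FiniteDimensional ℚ W := by
    let j : W →ₗ[ℚ] V := i.restrict (fun x hx => hx)
    refine FiniteDimensional.of_injective j ?_
    intro x y hxy
    apply Subtype.ext
    exact hi (congrArg Subtype.val hxy)
  obtain ⟨t, ht⟩ : W.FG := Module.Finite.iff_fg.mp hWfd
  refine ⟨IntermediateField.adjoin ℚ (t : Set Qb), ?_, fun p hp => ?_⟩
  · refine IntermediateField.finiteDimensional_adjoin fun x _ => ?_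
    exact (Algebra.IsAlgebraic.isAlgebraic x).isIntegral
  · have h2 : α p ∈ W := by
      rw [hW, Submodule.mem_comap]
      change ιC (α p) ∈ V
      rw [hα p hp]
      exact hMV _ (haM p)
    rw [← ht] at h2
    have h3 : Submodule.span ℚ (t : Set Qb) ≤
        (IntermediateField.adjoin ℚ (t : Set Qb)).toSubalgebra.toSubmodule := by
      rw [Submodule.span_le]
      exact IntermediateField.subset_adjoin ℚ _
    exact h3 h2

end Int

/-! ### The data of a weight one eigenform -/

section Eigen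

variable (ε : DirichletCharacter ℂ N) (f : CuspForm (Gamma1 N) 1)

theorem exists_extend_C (τ : Qb →+* ℂ) : ∃ σ : ℂ ≃+* ℂ, ∀ x : Qb, σ (ιC x) = τ x := by
  have hC : Cardinal.aleph0 < Cardinal.mk ℂ := by
    rw [Cardinal.mk_complex]
    exact Cardinal.aleph0_lt_continuum
  let A1 : Algebra Qb ℂ := ιC.toAlgebra
  let A2 : Algebra Qb ℂ := τ.toAlgebra
  have f1 : @FaithfulSMul Qb ℂ A1.toSMul :=
    (@faithfulSMul_iff_algebraMap_injective Qb ℂ _ _ A1).mpr ιC.injective
  have f2 : @FaithfulSMul Qb ℂ A2.toSMul :=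
    (@faithfulSMul_iff_algebraMap_injective Qb ℂ _ _ A2).mpr τ.injective
  obtain ⟨σ, hσ⟩ := @ES.exists_ringEquiv_extend Qb ℂ ℂ _ _ _ _ A1 A2 _ _ f1 f2
    cardinal_Qb hC rfl
  exact ⟨σ, hσ⟩

theorem isIntegral_char (ε : DirichletCharacter ℂ N) (a : ZMod N) : IsIntegral ℤ (ε a) := by
  by_cases ha : IsUnit a
  · obtain ⟨u, rfl⟩ := ha
    refine IsIntegral.of_pow (n := Fintype.card (ZMod N)ˣ) Fintype.card_pos ?_
    rw [← map_pow, ← Units.val_pow_eq_pow_val, pow_card_eq_one, Units.val_one, map_one]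
    exact isIntegral_one
  · rw [ε.map_nonunit ha]
    exact isIntegral_zero

theorem exists_ιC_of_isIntegral {x : ℂ} (hx : IsIntegral ℤ x) : ∃ y : Qb, ιC y = x := by
  obtain ⟨P, hP, hP0⟩ := hx
  refine exists_ιC_of_root (f := P.map (Int.castRingHom Qb)) ?_ ?_
  · exact (hP.map _).ne_zero
  · rw [Polynomial.eval₂_map]
    have h1 : ιC.comp (Int.castRingHom Qb) = algebraMap ℤ ℂ := RingHom.ext_int _ _
    rw [h1]
    exact hP0

theorem isIntegral_of_ιC {y : Qb} (h : IsIntegral ℤ (ιC y)) : IsIntegral ℤ y := by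
  have h1 : ιC y = ιC.toIntAlgHom y := rfl
  rw [h1] at h
  exact (isIntegral_algHom_iff ιC.toIntAlgHom ιC.injective).mp h

/-- everything but the reductions -/
theorem repData_of (hf₁ : ModularFormClass.qCoeff f 1 = 1)
    (hT : ∀ p : ℕ, p.Prime → ¬ p ∣ N → ∀ n : ℕ,
        ModularFormClass.qCoeff f (p * n) +
            ε (p : ZMod N) * (if p ∣ n then ModularFormClass.qCoeff f (n / p) else 0) =
          ModularFormClass.qCoeff f p * ModularFormClass.qCoeff f n)
    {α δ : ℕ → Qb}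
    (hα : ∀ p : ℕ, p.Prime → ¬ p ∣ N → ιC (α p) = ModularFormClass.qCoeff f p)
    (hδ : ∀ p : ℕ, p.Prime → ¬ p ∣ N → ιC (δ p) = ε (p : ZMod N))
    (hmodl : ∃ L₀ : ℕ, ∀ l : ℕ, l.Prime → L₀ < l → ∀ A : ValuationSubring Qb, A.LiesOverPrime l →
      ∃ ρ : GQ →* GL (Fin 2) (IsLocalRing.ResidueField A), GaloisFactorsThroughFiniteLevel ρ ∧
        ∀ p : ℕ, p.Prime → ¬ p ∣ N → p ≠ l → ∀ B : ValuationSubring Qb, B.LiesOverPrime p →
          (∀ σ ∈ B.inertiaSubgroupIn ℚ, ρ σ = 1) ∧
          ∀ σ : GQ, B.IsFrobeniusAt σ p →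
            (∃ a : A, (a : Qb) = α p ∧ (ρ σ).1.trace = IsLocalRing.residue A a) ∧
            ∃ d : A, (d : Qb) = δ p ∧ (ρ σ).1.det = IsLocalRing.residue A d) :
    RepData N α δ where
  ne := NeZero.ne N
  int p hp hN := isIntegral_of_ιC (by
    rw [hα p hp hN]
    exact isIntegral_of_fgSeq (fgSeq_weight_one f) hf₁ hp (isIntegral_char ε _) (hT p hp hN))
  root := by
    refine ⟨Fintype.card (ZMod N)ˣ, Fintype.card_pos, fun p hp hN => ?_⟩
    apply ιC.injective
    rw [map_pow, hδ p hp hN, map_one]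
    have hu : IsUnit ((p : ℕ) : ZMod N) := (ZMod.isUnit_prime_iff_not_dvd hp).mpr hN
    obtain ⟨u, hu⟩ := hu
    rw [← hu, ← map_pow, ← Units.val_pow_eq_pow_val, pow_card_eq_one, Units.val_one, map_one]
  field := by
    have h1 := exists_field_of_fgSeq (P := fun p => p.Prime ∧ ¬ p ∣ N) (fgSeq_weight_one f)
      (α := α) (fun p hp => hα p hp.1 hp.2)
    obtain ⟨K, hK, h2⟩ := h1
    exact ⟨K, hK, fun p hp hN => h2 p ⟨hp, hN⟩⟩
  rankin τ c hc := by
    obtain ⟨σ, hσ⟩ := exists_extend_C τ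
    obtain ⟨g, hg⟩ := exists_conjw ε f (neben ε f hT) σ
    haveI : NeZero (144 * N) := ⟨mul_ne_zero (by norm_num) (NeZero.ne N)⟩
    obtain ⟨C, hC⟩ := exists_sum_sq_le (one_mem_periods (144 * N)) g
    obtain ⟨B, hB⟩ := rankin_primes (fun n => ModularFormClass.qCoeff g n) N
      (by simp only [hg, hf₁, map_one]) (fun p hp hN n hn => by
        simp only [hg]
        have h1 := hT p hp hN n
        rw [if_neg hn, mul_zero, add_zero] at h1
        rw [h1, map_mul]) hC hc
    refine ⟨B, fun s hs hs2 P hP => ?_⟩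
    refine le_trans (le_of_eq ?_) (hB s hs hs2 P hP)
    refine Finset.sum_congr rfl fun p hp => ?_
    simp only [hg]
    rw [← hα p (hP p hp).1 (hP p hp).2, hσ]
  modl := hmodl

end Eigen

end Fermat.Agent.DS
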