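import Fermat.Agent.DS.RepData

/-!
# The bound for the images of the mod `l` representations
-/

set_option linter.all false
set_option autoImplicit false

open Matrix IsLocalRing Filter Finset
open scoped Topology

namespace Fermat.Agent.DS

open Fermat.Agent.ESCore (Qb GQ ιC)
open Fermat.Agent.DS.Cheb (UB D Bd D_le_of_off D_sum D_const_mul eventually_gt_one chebotarev_sym
  sum_fiber)
open Fermat.Agent.FrobDensity (res res_apply mem_of_isIntegral_int)

/-- reduction map -/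
noncomputable def rA (A : ValuationSubring Qb) (x : Qb) : ResidueField A :=
  open scoped Classical in if hx : x ∈ A then residue A ⟨x, hx⟩ else 0

variable {A : ValuationSubring Qb}

theorem rA_of_mem {x : Qb} (hx : x ∈ A) : rA A x = residue A ⟨x, hx⟩ := dif_pos hx

theorem rA_coe (a : A) : rA A (a : Qb) = residue A a := dif_pos a.2

theorem rA_mul {x y : Qb} (hx : x ∈ A) (hy : y ∈ A) : rA A (x * y) = rA A x * rA A y := by
  rw [rA_of_mem hx, rA_of_mem hy, rA_of_mem (A.mul_mem _ _ hx hy), ← map_mul]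
  rfl

theorem rA_one : rA A 1 = 1 := by
  rw [rA_of_mem A.one_mem]
  exact map_one _

section td

variable {K : Type*} [Field K]

theorem td_inv (g : GL (Fin 2) K) : td g⁻¹ = ((td g).1 * (td g).2⁻¹, (td g).2⁻¹) := by
  have h1 : (g⁻¹ : GL (Fin 2) K).1 = (g.1)⁻¹ := Matrix.coe_units_inv g
  have h2 : (g.1)⁻¹ = (g.1.det)⁻¹ • (g.1).adjugate := by
    rw [Matrix.inv_def, Ring.inverse_eq_inv']
  rw [td, td, Prod.mk.injEq]
  constructor
  · rw [h1, h2, Matrix.trace_smul, Matrix.adjugate_fin_two, Matrix.trace_fin_two_of,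
      Matrix.trace_fin_two, smul_eq_mul]
    ring
  · rw [h1, Matrix.det_nonsing_inv, Ring.inverse_eq_inv']

theorem td_conj (g x : GL (Fin 2) K) : td (x⁻¹ * g * x) = td g := by
  rw [td, td, Prod.mk.injEq]
  constructor
  · rw [Units.val_mul, Matrix.trace_mul_comm, ← Units.val_mul, mul_inv_cancel_left]
  · rw [Units.val_mul, Units.val_mul, Matrix.det_mul, Matrix.det_mul, mul_comm, ← mul_assoc,
      ← Matrix.det_mul, ← Units.val_mul, mul_inv_cancel, Units.val_one, Matrix.det_one, one_mul]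

end td

theorem norm_root {e : Qb} {m : ℕ} (hm : 0 < m) (he : e ^ m = 1) (τ : Qb →+* ℂ) : ‖τ e‖ = 1 := by
  have h1 : (τ e) ^ m = 1 := by rw [← map_pow, he, map_one]
  exact Complex.norm_eq_one_of_pow_eq_one h1 hm.ne'

theorem isIntegral_root {e : Qb} {m : ℕ} (hm : 0 < m) (he : e ^ m = 1) : IsIntegral ℤ e :=
  IsIntegral.of_pow hm (by rw [he]; exact isIntegral_one)

theorem inv_root {e : Qb} {m : ℕ} (hm : 0 < m) (he : e ^ m = 1) : e⁻¹ ^ m = 1 := by
  rw [inv_pow, he, inv_one]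

/-- the data of the finite set of characteristic polynomials -/
structure CharSet (K : IntermediateField ℚ Qb) (m : ℕ) (c : ℝ) (Y E : Finset Qb) : Prop where
  hm : 0 < m
  hY : ∀ y, y ∈ Y ↔ y ∈ K ∧ IsIntegral ℤ y ∧ ∀ τ : Qb →+* ℂ, ‖τ y‖ ^ 2 ≤ c
  hE : ∀ e, e ∈ E ↔ e ^ m = 1
  hEK : ∀ e ∈ E, e ∈ K

open scoped Classical in
/-- the residues of the characteristic polynomials -/
noncomputable def CA (A : ValuationSubring Qb) (Y E : Finset Qb) :
    Finset (ResidueField A × ResidueField A) :=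
  (Y ×ˢ E).image fun z ↦ (rA A z.1, rA A z.2)

theorem mem_CA {Y E : Finset Qb} {z : ResidueField A × ResidueField A} :
    z ∈ CA A Y E ↔ ∃ y ∈ Y, ∃ e ∈ E, (rA A y, rA A e) = z := by
  classical
  rw [CA, mem_image]
  constructor
  · rintro ⟨w, hw, rfl⟩
    rw [mem_product] at hw
    exact ⟨w.1, hw.1, w.2, hw.2, rfl⟩
  · rintro ⟨y, hy, e, he, rfl⟩
    exact ⟨(y, e), mem_product.mpr ⟨hy, he⟩, rfl⟩

theorem CA_inv {K : IntermediateField ℚ Qb} {m : ℕ} {c : ℝ} {Y E : Finset Qb}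
    (h : CharSet K m c Y E) {g : GL (Fin 2) (ResidueField A)} (hg : td g ∈ CA A Y E) :
    td g⁻¹ ∈ CA A Y E := by
  obtain ⟨y, hy, e, he, hye⟩ := mem_CA.mp hg
  have heE := (h.hE e).mp he
  have hyY := (h.hY y).mp hy
  have hyA : y ∈ A := mem_of_isIntegral_int A hyY.2.1
  have he' : e⁻¹ ^ m = 1 := inv_root h.hm heE
  have heA : e ∈ A := mem_of_isIntegral_int A (isIntegral_root h.hm heE)
  have heA' : e⁻¹ ∈ A := mem_of_isIntegral_int A (isIntegral_root h.hm he')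
  have he0 : e ≠ 0 := by
    rintro rfl
    rw [zero_pow h.hm.ne'] at heE
    exact zero_ne_one heE
  have hinv : rA A e⁻¹ = (rA A e)⁻¹ := by
    apply eq_inv_of_mul_eq_one_right
    rw [← rA_mul heA heA', mul_inv_cancel₀ he0, rA_one]
  refine mem_CA.mpr ⟨y * e⁻¹, ?_, e⁻¹, (h.hE _).mpr he', ?_⟩
  · refine (h.hY _).mpr ⟨mul_mem hyY.1 (inv_mem (h.hEK e he)),
      hyY.2.1.mul (isIntegral_root h.hm he'), fun τ ↦ ?_⟩
    rw [map_mul, norm_mul, norm_root h.hm he' τ, mul_one]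
    exact hyY.2.2 τ
  · rw [td_inv, ← hye, rA_mul hyA heA', hinv]

theorem CA_inv_iff {K : IntermediateField ℚ Qb} {m : ℕ} {c : ℝ} {Y E : Finset Qb}
    (h : CharSet K m c Y E) {g : GL (Fin 2) (ResidueField A)} :
    td g⁻¹ ∈ CA A Y E ↔ td g ∈ CA A Y E := by
  refine ⟨fun hg ↦ ?_, CA_inv h⟩
  have := CA_inv h hg
  rwa [inv_inv] at this

theorem exists_charSet {N : ℕ} {α δ : ℕ → Qb} (h : RepData N α δ) :
    ∃ (K : IntermediateField ℚ Qb) (m : ℕ) (Y E : Finset Qb), FiniteDimensional ℚ K ∧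
      CharSet K m (4 * Module.finrank ℚ K) Y E ∧
      (∀ p : ℕ, p.Prime → ¬ p ∣ N → α p ∈ K) ∧ ∀ p : ℕ, p.Prime → ¬ p ∣ N → δ p ∈ E := by
  classical
  obtain ⟨m, hm, hδ⟩ := h.root
  obtain ⟨K₀, hK₀, hα⟩ := h.field
  haveI : NeZero m := ⟨hm.ne'⟩
  obtain ⟨ζ, hζ⟩ := Fermat.Agent.ESCore.exists_primitiveRoot m
  haveI := Fermat.Agent.ESCore.isAlgebraic_Qb
  haveI : FiniteDimensional ℚ (IntermediateField.adjoin ℚ {ζ}) :=
    IntermediateField.adjoin.finiteDimensional (Algebra.IsIntegral.isIntegral ζ)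
  set K : IntermediateField ℚ Qb := K₀ ⊔ IntermediateField.adjoin ℚ {ζ} with hK
  haveI : FiniteDimensional ℚ K := IntermediateField.finiteDimensional_sup _ _
  refine ⟨K, m, (finite_small K (4 * Module.finrank ℚ K)).toFinset,
    Polynomial.nthRootsFinset m 1, inferInstance, ⟨hm, fun y ↦ ?_, fun e ↦ ?_, fun e he ↦ ?_⟩,
    fun p hp hpN ↦ ?_, fun p hp hpN ↦ ?_⟩
  · rw [Set.Finite.mem_toFinset]
    rfl
  · rw [Polynomial.mem_nthRootsFinset hm]
  · rw [Polynomial.mem_nthRootsFinset hm] at he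
    obtain ⟨i, -, rfl⟩ := hζ.eq_pow_of_pow_eq_one he
    exact pow_mem ((le_sup_right : _ ≤ K) (IntermediateField.mem_adjoin_simple_self ℚ ζ)) i
  · exact (le_sup_left : _ ≤ K) (hα p hp hpN)
  · rw [Polynomial.mem_nthRootsFinset hm]
    exact hδ p hp hpN

/-- Reduction properties of a mod `l` representation. -/
def RedProp (N : ℕ) (α δ : ℕ → Qb) (l : ℕ) (ρ : GQ →* GL (Fin 2) (ResidueField A)) : Prop :=
  ∀ p : ℕ, p.Prime → ¬ p ∣ N → p ≠ l → ∀ B : ValuationSubring Qb, B.LiesOverPrime p →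
    (∀ σ ∈ B.inertiaSubgroupIn ℚ, ρ σ = 1) ∧
    ∀ σ : GQ, B.IsFrobeniusAt σ p →
      (∃ a : A, (a : Qb) = α p ∧ (ρ σ).1.trace = residue A a) ∧
      ∃ d : A, (d : Qb) = δ p ∧ (ρ σ).1.det = residue A d

theorem RedProp.td {N : ℕ} {α δ : ℕ → Qb} {l : ℕ} {ρ : GQ →* GL (Fin 2) (ResidueField A)}
    (h : RedProp N α δ l ρ) {p : ℕ} (hp : p.Prime) (hpN : ¬ p ∣ N) (hpl : p ≠ l)
    {B : ValuationSubring Qb} (hB : B.LiesOverPrime p) {σ : GQ} (hσ : B.IsFrobeniusAt σ p) :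
    td (ρ σ) = (rA A (α p), rA A (δ p)) := by
  obtain ⟨⟨a, ha, ha'⟩, ⟨d, hd, hd'⟩⟩ := (h p hp hpN hpl B hB).2 σ hσ
  rw [DS.td, ← ha, ← hd, rA_coe, rA_coe]
  exact Prod.ext ha' hd'

theorem exists_frob_choice : ∃ φ : Nat.Primes → GQ, ∀ p : Nat.Primes,
    ∃ A : ValuationSubring Qb, A.LiesOverPrime p ∧ A.IsFrobeniusAt (φ p) p := by
  have h : ∀ p : Nat.Primes, ∃ φ : GQ,
      ∃ A : ValuationSubring Qb, A.LiesOverPrime p ∧ A.IsFrobeniusAt φ p := by
    intro p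
    obtain ⟨A, hA⟩ := Fermat.Agent.GaloisBasics.exists_liesOverPrime p.2
    obtain ⟨φ, hφ⟩ := Fermat.Agent.GaloisBasics.exists_isFrobeniusAt p.2 A hA
    exact ⟨φ, A, hA, hφ⟩
  choose φ hφ using h
  exact ⟨φ, hφ⟩

/-- a hom of finite level factors through a finite Galois group -/
theorem exists_factor {M : Type*} [Group M] (ρ : GQ →* M) {L : IntermediateField ℚ Qb}
    [FiniteDimensional ℚ L] (hL : ∀ σ : GQ, (∀ x ∈ L, σ x = x) → ρ σ = 1) :
    ∃ (L' : IntermediateField ℚ Qb) (_ : FiniteDimensional ℚ L') (_ : IsGalois ℚ L')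
      (r : (L' ≃ₐ[ℚ] L') →* ρ.range), Function.Surjective r ∧
        ∀ σ, r (res L' σ) = ρ.rangeRestrict σ := by
  let L' : IntermediateField ℚ Qb := IntermediateField.normalClosure ℚ L Qb
  haveI : Normal ℚ L' := normalClosure.normal ℚ L Qb
  haveI : IsGalois ℚ L' := ⟨⟩
  haveI : FiniteDimensional ℚ L' := inferInstance
  have hLL : L ≤ L' := L.le_normalClosure
  have hs : Function.Surjective (res L') :=
    AlgEquiv.restrictNormalHom_surjective (F := ℚ) (K₁ := L') Qb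
  have hker : (res L').ker ≤ ρ.rangeRestrict.ker := by
    intro σ hσ
    rw [MonoidHom.mem_ker] at hσ ⊢
    apply Subtype.ext
    change ρ σ = 1
    apply hL
    intro x hx
    have h1 := res_apply L' σ ⟨x, hLL hx⟩
    rw [hσ] at h1
    exact h1.symm
  have hr : ∀ σ, (res L').liftOfSurjective hs ⟨ρ.rangeRestrict, hker⟩ (res L' σ) =
      ρ.rangeRestrict σ := fun σ ↦ MonoidHom.liftOfRightInverse_comp_apply _ _ _ _ σ
  refine ⟨L', inferInstance, inferInstance, (res L').liftOfSurjective hs ⟨ρ.rangeRestrict, hker⟩,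
    fun y ↦ ?_, hr⟩
  obtain ⟨σ, rfl⟩ := ρ.rangeRestrict_surjective y
  exact ⟨res L' σ, hr σ⟩

end Fermat.Agent.DS
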