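import Fermat.Agent.DS.Bound

/-!
# The bound for the images of the mod `l` representations, II
-/

set_option linter.all false
set_option autoImplicit false

open Matrix IsLocalRing Filter Finset
open scoped Topology

namespace Fermat.Agent.DS

open Fermat.Agent.ESCore (Qb GQ ιC)
open Fermat.Agent.DS.Cheb (UB D Bd D_le_of_off D_sum D_const_mul eventually_gt_one chebotarev_sym
  sum_fiber)
open Fermat.Agent.FrobDensity (res res_apply mem_of_isIntegral_int)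

variable {A : ValuationSubring Qb} {N : ℕ} {α δ : ℕ → Qb}

open scoped Classical in
/-- indicator of the bad elements -/
noncomputable def fbad (Y E : Finset Qb) (g : GL (Fin 2) (ResidueField A)) : ℝ :=
  if td g ∈ CA A Y E then 0 else 1

theorem fbad_nonneg (Y E : Finset Qb) (g : GL (Fin 2) (ResidueField A)) : 0 ≤ fbad Y E g := by
  rw [fbad]
  split_ifs
  · exact le_rfl
  · exact zero_le_one

theorem fbad_le (Y E : Finset Qb) (g : GL (Fin 2) (ResidueField A)) : fbad Y E g ≤ 1 := by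
  rw [fbad]
  split_ifs
  · exact zero_le_one
  · exact le_rfl

/-- the analytic estimate -/
theorem UB_bad (h : RepData N α δ) {K : IntermediateField ℚ Qb} [FiniteDimensional ℚ K] {m : ℕ}
    {Y E : Finset Qb} (hC : CharSet K m (4 * Module.finrank ℚ K) Y E)
    (hα : ∀ p : ℕ, p.Prime → ¬ p ∣ N → α p ∈ K) (hδ : ∀ p : ℕ, p.Prime → ¬ p ∣ N → δ p ∈ E)
    {l : ℕ} (hl : l.Prime) {ρ : GQ →* GL (Fin 2) (ResidueField A)}
    (hρ : RedProp N α δ l ρ) (φ : Nat.Primes → GQ)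
    (hφ : ∀ p : Nat.Primes, ∃ A : ValuationSubring Qb, A.LiesOverPrime p ∧
      A.IsFrobeniusAt (φ p) p) :
    UB (fun s ↦ D (fun p ↦ fbad Y E (ρ (φ p))) s + (1 / 4 : ℝ) * Real.log (s - 1)) := by
  classical
  obtain ⟨S, hS, hSτ⟩ := exists_embeddings K
  set d := Module.finrank ℚ K with hd
  have hd0 : 0 < d := Module.finrank_pos
  set c : ℝ := 4 * d with hc
  have hc0 : 0 < c := by positivity
  let v : Nat.Primes → ℝ := fun p ↦ ∑ τ ∈ S, (1 / c) * uT N α τ c p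
  have hvbd : Bd v := Bd.sum S fun τ _ ↦ (uT_bd τ hc0.le).const_mul _
  obtain ⟨T, hT⟩ : ∃ T : Finset Nat.Primes, ∀ p : Nat.Primes, p ∉ T →
      (p : ℕ) ≠ l ∧ ¬ (p : ℕ) ∣ N := by
    refine ⟨(insert l N.primeFactors).subtype Nat.Prime, fun p hp ↦ ?_⟩
    have h1 : (p : ℕ) ∉ insert l N.primeFactors := fun h ↦ hp (Finset.mem_subtype.mpr h)
    rw [Finset.mem_insert, not_or] at h1
    exact ⟨h1.1, fun h2 ↦ h1.2 (Nat.mem_primeFactors.mpr ⟨p.2, h2, h.ne⟩)⟩
  have hub : Bd (fun p ↦ fbad Y E (ρ (φ p))) :=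
    ⟨1, fun p ↦ by rw [abs_of_nonneg (fbad_nonneg _ _ _)]; exact fbad_le _ _ _⟩
  have hv0 : ∀ p, 0 ≤ v p := fun p ↦
    sum_nonneg fun τ _ ↦ mul_nonneg (by positivity) (uT_nonneg τ hc0.le p)
  have hle : ∀ p ∉ T, fbad Y E (ρ (φ p)) ≤ v p := by
    intro p hp
    obtain ⟨hpl, hpN⟩ := hT p hp
    obtain ⟨B, hB, hBφ⟩ := hφ p
    by_cases hbad : ∃ τ : Qb →+* ℂ, c < ‖τ (α p)‖ ^ 2
    · obtain ⟨τ, hτ⟩ := hbad
      obtain ⟨τ', hτ'S, hτ'⟩ := hSτ τ
      rw [hτ' _ (hα p p.2 hpN)] at hτ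
      have h1 : (1 / c) * uT N α τ' c p ≤ v p :=
        single_le_sum (f := fun τ ↦ (1 / c) * uT N α τ c p)
          (fun τ _ ↦ mul_nonneg (by positivity) (uT_nonneg τ hc0.le p)) hτ'S
      have h2 : (1 / c) * uT N α τ' c p = 1 := by
        rw [uT, if_neg hpN, min_eq_right hτ.le]
        field_simp
      rw [h2] at h1
      exact (fbad_le _ _ _).trans h1
    · push Not at hbad
      have h1 : td (ρ (φ p)) ∈ CA A Y E := by
        rw [hρ.td p.2 hpN hpl hB hBφ]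
        exact mem_CA.mpr ⟨α p, (hC.hY _).mpr ⟨hα p p.2 hpN, h.int p p.2 hpN, hbad⟩,
          δ p, hδ p p.2 hpN, rfl⟩
      rw [fbad, if_pos h1]
      exact hv0 p
  have h1 := D_le_of_off hub hvbd T hle
  have h2 : UB (fun s ↦ ∑ τ ∈ S, (1 / c) * (D (uT N α τ c) s + Real.log (s - 1))) :=
    UB.sum S fun τ _ ↦ (h.uT_UB τ hc0.le).const_mul (by positivity)
  refine (h1.add h2).mono ?_
  have h3 : ∀ᶠ s : ℝ in 𝓝[>] 1, s ∈ Set.Ioo (1:ℝ) 2 := Ioo_mem_nhdsGT (by norm_num)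
  filter_upwards [h3] with s hs
  have e1 : D v s = ∑ τ ∈ S, (1 / c) * D (uT N α τ c) s := by
    have := D_sum (u := fun τ p ↦ (1 / c) * uT N α τ c p) S
      (fun τ _ ↦ (uT_bd (N := N) (α := α) τ hc0.le).const_mul (1 / c)) hs.1
    refine this.trans (sum_congr rfl fun τ _ ↦ D_const_mul _ _ _)
  have e2 : ∑ τ ∈ S, (1 / c) * (D (uT N α τ c) s + Real.log (s - 1)) =
      D v s + (S.card * (1 / c)) * Real.log (s - 1) := by
    rw [e1]
    simp_rw [mul_add]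
    rw [sum_add_distrib, sum_const, nsmul_eq_mul]
    ring
  rw [e2]
  have hlog : Real.log (s - 1) ≤ 0 := Real.log_nonpos (by linarith [hs.1]) (by linarith [hs.2])
  have h4 : (S.card : ℝ) * (1 / c) ≤ 1 / 4 := by
    have h5 : (S.card : ℝ) ≤ d := by exact_mod_cast hS
    have h6 : (0:ℝ) < d := by exact_mod_cast hd0
    rw [hc]
    rw [mul_one_div, div_le_div_iff₀ (by positivity) (by norm_num)]
    linarith
  have h5 := mul_le_mul_of_nonpos_right h4 hlog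
  linarith

/-- proportion of the bad elements -/
theorem card_bad_le (h : RepData N α δ) {K : IntermediateField ℚ Qb} [FiniteDimensional ℚ K]
    {m : ℕ} {Y E : Finset Qb} (hC : CharSet K m (4 * Module.finrank ℚ K) Y E)
    (hα : ∀ p : ℕ, p.Prime → ¬ p ∣ N → α p ∈ K) (hδ : ∀ p : ℕ, p.Prime → ¬ p ∣ N → δ p ∈ E)
    {l : ℕ} (hl : l.Prime) {ρ : GQ →* GL (Fin 2) (ResidueField A)}
    (hρ : RedProp N α δ l ρ) {L : IntermediateField ℚ Qb}
    [FiniteDimensional ℚ L] (hL : ∀ σ : GQ, (∀ x ∈ L, σ x = x) → ρ σ = 1)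
    [Fintype ρ.range] :
    ∑ g : ρ.range, fbad Y E (g : GL (Fin 2) (ResidueField A)) ≤
      (1 / 4 : ℝ) * Fintype.card ρ.range := by
  classical
  obtain ⟨L', hL'1, hL'2, r, hrs, hr⟩ := exists_factor ρ hL
  obtain ⟨φ, hφ⟩ := exists_frob_choice
  have h1 := chebotarev_sym L' (fun g ↦ fbad Y E ((r g : ρ.range) : GL (Fin 2) (ResidueField A)))
    (fun g ↦ fbad_nonneg _ _ _) (fun g x ↦ by
      beta_reduce
      rw [fbad, fbad, map_mul, map_mul, map_inv]
      simp only [Subgroup.coe_mul, Subgroup.coe_inv, td_conj]) (fun g ↦ by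
      beta_reduce
      rw [fbad, fbad, map_inv, Subgroup.coe_inv]
      exact if_congr (CA_inv_iff hC) rfl rfl) φ ∅ (fun p _ ↦ hφ p) (1 / 4) (by
      refine (UB_bad h hC hα hδ hl hρ φ hφ).mono (Eventually.of_forall fun s ↦ le_of_eq ?_)
      congr 2
      funext p
      rw [hr]
      rfl)
  have h2 := sum_fiber r hrs (fun g : ρ.range ↦ fbad Y E (g : GL (Fin 2) (ResidueField A)))
  have h3 : (0:ℝ) < Fintype.card (L' ≃ₐ[ℚ] L') := by exact_mod_cast Fintype.card_pos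
  refine le_of_mul_le_mul_left ?_ h3
  rw [← h2]
  calc _ ≤ ((1 / 4 : ℝ) * Fintype.card (L' ≃ₐ[ℚ] L')) * Fintype.card ρ.range :=
        mul_le_mul_of_nonneg_right h1 (Nat.cast_nonneg _)
    _ = _ := by ring

/-- **Uniform bound for the images.** -/
theorem RepData.bound (h : RepData N α δ) : ∃ (M L₁ : ℕ) (K : IntermediateField ℚ Qb),
    FiniteDimensional ℚ K ∧ ∀ l : ℕ, ∀ hl : Fact l.Prime, L₁ < l → ∀ A : ValuationSubring Qb,
      A.LiesOverPrime l → ∀ hc : CharP (ResidueField A) l,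
      (∀ x ∈ K, ∀ hx : x ∈ A, residue A ⟨x, hx⟩ ∈ pf (K := ResidueField A) l) →
      ∃ ρ : GQ →* GL (Fin 2) (ResidueField A), GaloisFactorsThroughFiniteLevel ρ ∧
        RedProp N α δ l ρ ∧ Finite ρ.range ∧ Nat.card ρ.range ≤ M := by
  classical
  obtain ⟨K, m, Y, E, hK, hC, hα, hδ⟩ := exists_charSet h
  obtain ⟨L₀, hmod⟩ := h.modl
  set M := (Y ×ˢ E).card with hM
  refine ⟨160 * M, max (max L₀ (3 * M + 1)) 2, K, hK, fun l hl hlL A hA hc hres ↦ ?_⟩
  haveI := hl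
  haveI := hc
  have hlp : l.Prime := hl.out
  have hl0 : L₀ < l := lt_of_le_of_lt ((le_max_left _ _).trans (le_max_left _ _)) hlL
  have hl1 : 3 * M + 1 < l := lt_of_le_of_lt ((le_max_right _ _).trans (le_max_left _ _)) hlL
  have hl2 : 2 < l := lt_of_le_of_lt (le_max_right _ _) hlL
  obtain ⟨ρ₀, ⟨L, hLf, hL⟩, hred⟩ := hmod l hlp hl0 A hA
  obtain ⟨ρ, hss, htd, hker⟩ := exists_semisimple ρ₀
  have hLρ : ∀ σ : GQ, (∀ x ∈ L, σ x = x) → ρ σ = 1 := fun σ hσ ↦ hker σ (hL σ hσ)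
  have hρred : RedProp N α δ l ρ := by
    intro p hp hpN hpl B hB
    obtain ⟨h1, h2⟩ := hred p hp hpN hpl B hB
    refine ⟨fun σ hσ ↦ hker σ (h1 σ hσ), fun σ hσ ↦ ?_⟩
    obtain ⟨⟨a, ha, ha'⟩, ⟨d, hd, hd'⟩⟩ := h2 σ hσ
    exact ⟨⟨a, ha, (htd σ).1.trans ha'⟩, ⟨d, hd, (htd σ).2.trans hd'⟩⟩
  obtain ⟨L', hL'1, hL'2, r, hrs, hr⟩ := exists_factor ρ hLρ
  haveI hfin : Finite ρ.range := Finite.of_surjective r hrs
  haveI := Fintype.ofFinite ρ.range
  refine ⟨ρ, ⟨L, hLf, hLρ⟩, hρred, hfin, ?_⟩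
  haveI : IsAlgClosed (ResidueField A) := Fermat.Agent.KL.isAlgClosed_residue A
  -- traces
  have htr : ∀ σ : GQ, (ρ σ).1.trace ∈ pf (K := ResidueField A) l := by
    intro σ
    obtain ⟨p, hp, hpT, B, hB, ψ, hψ, i, hi⟩ := exists_frob_pow ρ hLρ σ
      (insert l N.primeFactors)
    rw [Finset.mem_insert, not_or] at hpT
    have hpN : ¬ p ∣ N := fun h2 ↦ hpT.2 (Nat.mem_primeFactors.mpr ⟨hp, h2, h.ne⟩)
    obtain ⟨⟨a, ha, ha'⟩, ⟨d, hd, hd'⟩⟩ := (hρred p hp hpN hpT.1 B hB).2 ψ hψ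
    rw [hi, Units.val_pow_eq_pow_val, trace_pow_eq]
    refine lt_mem _ ?_ ?_ i
    · rw [ha']
      exact hres a (by rw [ha]; exact hα p hp hpN) a.2
    · rw [hd']
      exact hres d (by rw [hd]; exact hC.hEK _ (hδ p hp hpN)) d.2
  -- semisimplicity of the image
  have hss' : SS ρ.range.subtype := by
    intro e he
    have he' : Stb ρ e := ⟨he.1, fun σ ↦ he.2 (ρ.rangeRestrict σ)⟩
    obtain ⟨f, hf, hfe⟩ := hss e he'
    refine ⟨f, ⟨hf.1, ?_⟩, hfe⟩
    rintro ⟨_, σ, rfl⟩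
    exact hf.2 σ
  have hbad := card_bad_le h hC hα hδ hlp hρred hLρ
  set H : Finset ρ.range := Finset.univ.filter fun g ↦
    td (g : GL (Fin 2) (ResidueField A)) ∈ CA A Y E with hH
  have hsum : ∑ g : ρ.range, fbad Y E (g : GL (Fin 2) (ResidueField A)) =
      (Fintype.card ρ.range : ℝ) - H.card := by
    have e1 : ∀ g : ρ.range, fbad Y E (g : GL (Fin 2) (ResidueField A)) =
        1 - (if td (g : GL (Fin 2) (ResidueField A)) ∈ CA A Y E then (1:ℝ) else 0) := by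
      intro g
      rw [fbad]
      split_ifs <;> ring
    rw [sum_congr rfl fun g _ ↦ e1 g, sum_sub_distrib, sum_const, card_univ, nsmul_eq_mul,
      mul_one, ← Finset.sum_filter, sum_const, nsmul_eq_mul, mul_one]
  rw [hsum] at hbad
  have hHle : H.card ≤ Fintype.card ρ.range := card_le_univ H
  have hnat : 4 * (Fintype.card ρ.range - H.card) ≤ Fintype.card ρ.range := by
    have h1 : ((4 * (Fintype.card ρ.range - H.card) : ℕ) : ℝ) ≤
        (Fintype.card ρ.range : ℝ) := by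
      rw [Nat.cast_mul, Nat.cast_sub hHle]
      push_cast
      linarith
    exact_mod_cast h1
  have hfinal := card_le_of_large (l := l) hl2.ne' ρ.range.subtype
    (Subgroup.subtype_injective _) hss' (by
      rintro ⟨_, σ, rfl⟩
      exact htr σ) H M hnat (CA A Y E) (card_image_le) (fun g hg ↦ (mem_filter.mp hg).2) hl1
  rw [Nat.card_eq_fintype_card]
  exact hfinal

end Fermat.Agent.DS
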