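import Mathlib
import Fermat.Agent.ExtVan.RayBound3
import Fermat.Agent.ExtVan.PrimeExist

/-!
# Real parts of sums over primes of a multiplicative function on ideals
-/

set_option linter.all false
set_option autoImplicit false

namespace Fermat.Agent.DS.Cheb

open scoped nonZeroDivisors Topology
open Finset NumberField Module Filter IsDedekindDomain Fermat.Agent.ExtVan

variable {K : Type*} [Field K] [NumberField K]

/-- terms of the L-series attached to a multiplicative function on ideals -/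
noncomputable def cterm (χ : Ideal (𝓞 K) →*₀ ℂ) (s : ℝ) : Ideal (𝓞 K) →*₀ ℂ where
  toFun I := χ I * (((Ideal.absNorm I : ℝ) ^ (-s) : ℝ) : ℂ)
  map_zero' := by rw [map_zero, zero_mul]
  map_one' := by
    rw [map_one, Ideal.one_eq_top, Ideal.absNorm_top]
    simp
  map_mul' I J := by
    rw [map_mul, map_mul, Nat.cast_mul, Real.mul_rpow (Nat.cast_nonneg _) (Nat.cast_nonneg _)]
    push_cast
    ring

lemma cterm_apply (χ : Ideal (𝓞 K) →*₀ ℂ) (s : ℝ) (I : Ideal (𝓞 K)) :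
    cterm χ s I = χ I * (((Ideal.absNorm I : ℝ) ^ (-s) : ℝ) : ℂ) := rfl

lemma summable_cterm {χ : Ideal (𝓞 K) →*₀ ℂ} (hχ : ∀ I, ‖χ I‖ ≤ 1) {s : ℝ} (hs1 : 1 < s)
    (hs2 : s ≤ 2) : Summable fun I ↦ ‖cterm χ s I‖ := by
  refine Summable.of_nonneg_of_le (fun _ ↦ norm_nonneg _) (fun I ↦ ?_) (summable_all hs1 hs2)
  rw [cterm_apply, norm_mul, Complex.norm_real, Real.norm_eq_abs, abs_of_nonneg (by positivity)]
  exact mul_le_of_le_one_left (by positivity) (hχ _)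

lemma tsum_cterm (χ : Ideal (𝓞 K) →*₀ ℂ) (s : ℝ) : ∑' I, cterm χ s I = Tt χ s := by
  have h0 : Function.support (fun I : Ideal (𝓞 K) ↦ cterm χ s I) ⊆
      ((Ideal (𝓞 K))⁰ : Set (Ideal (𝓞 K))) := by
    intro I hI
    refine mem_nonZeroDivisors_of_ne_zero ?_
    rintro rfl
    exact hI (map_zero _)
  rw [← tsum_subtype_eq_of_support_subset h0, Tt]
  rfl

lemma asIdeal_injective : Function.Injective fun v : HeightOneSpectrum (𝓞 K) ↦ v.asIdeal :=
  fun _ _ h ↦ HeightOneSpectrum.ext h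

lemma summable_ea {s : ℝ} (hs1 : 1 < s) (hs2 : s ≤ 2) :
    Summable fun v : HeightOneSpectrum (𝓞 K) ↦ ea s v :=
  (summable_all hs1 hs2).comp_injective asIdeal_injective

lemma ea_le_ea {s t : ℝ} (h : s ≤ t) (v : HeightOneSpectrum (𝓞 K)) : ea t v ≤ ea s v := by
  have h1 : (1:ℝ) ≤ Ideal.absNorm v.asIdeal := by
    have := two_le_absNorm v
    exact_mod_cast (by omega : 1 ≤ Ideal.absNorm v.asIdeal)
  exact Real.rpow_le_rpow_of_exponent_le h1 (by linarith)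

lemma ea_one_sq (v : HeightOneSpectrum (𝓞 K)) : ea 1 v ^ 2 = ea 2 v := by
  rw [ea, ea, ← Real.rpow_natCast, ← Real.rpow_mul (Nat.cast_nonneg _)]
  norm_num

lemma ea_sq_le {s : ℝ} (hs1 : 1 < s) (v : HeightOneSpectrum (𝓞 K)) : ea s v ^ 2 ≤ ea 2 v := by
  rw [← ea_one_sq]
  exact pow_le_pow_left₀ (ea_pos s v).le (ea_le_ea hs1.le v) 2

lemma summable_ea_sq {s : ℝ} (hs1 : 1 < s) :
    Summable fun v : HeightOneSpectrum (𝓞 K) ↦ ea s v ^ 2 :=
  Summable.of_nonneg_of_le (fun v ↦ sq_nonneg _) (fun v ↦ ea_sq_le hs1 v)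
    (summable_ea one_lt_two le_rfl)

lemma summable_re {χ : Ideal (𝓞 K) →*₀ ℂ} (hχ : ∀ I, ‖χ I‖ ≤ 1) {s : ℝ} (hs1 : 1 < s)
    (hs2 : s ≤ 2) : Summable fun v : HeightOneSpectrum (𝓞 K) ↦ (χ v.asIdeal).re * ea s v := by
  refine Summable.of_norm_bounded (summable_ea hs1 hs2) fun v ↦ ?_
  rw [Real.norm_eq_abs, abs_mul, abs_of_pos (ea_pos s v)]
  refine mul_le_of_le_one_left (ea_pos s v).le ?_
  exact (Complex.abs_re_le_norm _).trans (hχ _)

lemma exp_le_factor {w : ℂ} (hw : ‖w‖ ≤ 1 / 2) :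
    Real.exp (w.re - ‖w‖ ^ 2 / 2) ≤ ‖(1 - w)⁻¹‖ := by
  have hpos : 0 < ‖1 - w‖ := by
    have := norm_sub_norm_le (1 : ℂ) w
    rw [norm_one] at this
    linarith
  have hsq : ‖1 - w‖ ^ 2 = 1 - 2 * w.re + ‖w‖ ^ 2 := by
    rw [← Complex.normSq_eq_norm_sq, ← Complex.normSq_eq_norm_sq, Complex.normSq_apply,
      Complex.normSq_apply]
    simp only [Complex.sub_re, Complex.one_re, Complex.sub_im, Complex.one_im]
    ring
  have hlog : Real.log (‖1 - w‖ ^ 2) ≤ - 2 * w.re + ‖w‖ ^ 2 := by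
    have := Real.log_le_sub_one_of_pos (pow_pos hpos 2)
    rw [hsq] at this ⊢
    linarith
  rw [Real.log_pow] at hlog
  push_cast at hlog
  rw [norm_inv, ← Real.exp_log hpos, ← Real.exp_neg, Real.exp_le_exp]
  linarith

lemma exp_tsum_le {χ : Ideal (𝓞 K) →*₀ ℂ} (hχ : ∀ I, ‖χ I‖ ≤ 1) {s : ℝ} (hs1 : 1 < s)
    (hs2 : s ≤ 2) : Real.exp ((∑' v : HeightOneSpectrum (𝓞 K), (χ v.asIdeal).re * ea s v) -
      (∑' v : HeightOneSpectrum (𝓞 K), ea 2 v) / 2) ≤ ‖Tt χ s‖ := by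
  have h := (euler_hasProd (summable_cterm hχ hs1 hs2)).norm
  rw [tsum_cterm] at h
  have hsum : HasSum (fun v : HeightOneSpectrum (𝓞 K) ↦ (χ v.asIdeal).re * ea s v - ea 2 v / 2)
      ((∑' v : HeightOneSpectrum (𝓞 K), (χ v.asIdeal).re * ea s v) -
      (∑' v : HeightOneSpectrum (𝓞 K), ea 2 v) / 2) :=
    (summable_re hχ hs1 hs2).hasSum.sub ((summable_ea one_lt_two le_rfl).hasSum.div_const 2)
  have hexp := (Real.continuous_exp.tendsto _).comp hsum
  rw [HasProd, SummationFilter.unconditional_filter] at h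
  rw [SummationFilter.unconditional_filter] at hexp
  refine le_of_tendsto_of_tendsto' hexp h fun S ↦ ?_
  simp only [Function.comp_apply]
  rw [Real.exp_sum]
  refine prod_le_prod (fun v _ ↦ (Real.exp_pos _).le) fun v _ ↦ ?_
  have hre : (cterm χ s v.asIdeal).re = (χ v.asIdeal).re * ea s v := by
    rw [cterm_apply, Complex.re_mul_ofReal]
    rfl
  have hn : ‖cterm χ s v.asIdeal‖ ≤ ea s v := by
    rw [cterm_apply, norm_mul, Complex.norm_real, Real.norm_eq_abs,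
      abs_of_nonneg (by positivity)]
    exact mul_le_of_le_one_left (by positivity) (hχ _)
  have h2 := exp_le_factor (w := cterm χ s v.asIdeal) (hn.trans (ea_le_half hs1.le v))
  refine le_trans (Real.exp_le_exp.mpr ?_) h2
  rw [hre]
  have h3 : ‖cterm χ s v.asIdeal‖ ^ 2 ≤ ea 2 v :=
    (pow_le_pow_left₀ (norm_nonneg _) hn 2).trans (ea_sq_le hs1 v)
  linarith

/-- Bounded L-series ⇒ the real part of the sum over primes is bounded above. -/
theorem tsum_re_le {χ : Ideal (𝓞 K) →*₀ ℂ} (hχ : ∀ I, ‖χ I‖ ≤ 1) {s : ℝ} (hs1 : 1 < s)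
    (hs2 : s ≤ 2) {C : ℝ} (hC : ‖Tt χ s‖ ≤ C) :
    ∑' v : HeightOneSpectrum (𝓞 K), (χ v.asIdeal).re * ea s v ≤
      Real.log C + (∑' v : HeightOneSpectrum (𝓞 K), ea 2 v) / 2 := by
  have h := (exp_tsum_le hχ hs1 hs2).trans hC
  have hC0 : 0 < C := (Real.exp_pos _).trans_le h
  rw [← Real.exp_log hC0, Real.exp_le_exp] at h
  linarith

end Fermat.Agent.DS.Cheb
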