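import Fermat.Agent.DS.Cheb1
import Fermat.Agent.FrobDensity.ZetaLog

/-!
# From sums over prime ideals to sums over prime numbers
-/

set_option linter.all false
set_option autoImplicit false

namespace Fermat.Agent.DS.Cheb

open scoped nonZeroDivisors Topology
open Finset NumberField Module Filter IsDedekindDomain Fermat.Agent.ExtVan
open Fermat.Agent.FrobDensity (idealCount zterm zterm_prime summable_zterm_primes)

variable (K : Type*) [Field K] [NumberField K]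

lemma card_norm_eq (p : Nat.Primes) :
    Nat.card {v : HeightOneSpectrum (𝓞 K) // Ideal.absNorm v.asIdeal = (p : ℕ)} =
      idealCount K p := by
  rw [idealCount]
  refine Nat.card_congr (Equiv.ofBijective (fun v ↦ ⟨v.1.asIdeal, v.2⟩) ⟨?_, ?_⟩)
  · intro v w h
    exact Subtype.ext (HeightOneSpectrum.ext (congrArg Subtype.val h))
  · rintro ⟨I, hI⟩
    have hprime : I.IsPrime := by
      apply Ideal.isPrime_of_irreducible_absNorm
      rw [hI]
      exact p.2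
    have hbot : I ≠ ⊥ := by
      rintro rfl
      rw [Ideal.absNorm_bot] at hI
      exact p.2.ne_zero hI.symm
    exact ⟨⟨⟨I, hprime, hbot⟩, hI⟩, rfl⟩

lemma summable_X {X : ℕ → ℝ} (hX : ∀ n, |X n| ≤ 1) {s : ℝ} (hs1 : 1 < s) (hs2 : s ≤ 2) :
    Summable fun v : HeightOneSpectrum (𝓞 K) ↦ X (Ideal.absNorm v.asIdeal) * ea s v := by
  refine Summable.of_norm_bounded (summable_ea hs1 hs2) fun v ↦ ?_
  rw [Real.norm_eq_abs, abs_mul, abs_of_pos (ea_pos s v)]
  exact mul_le_of_le_one_left (ea_pos s v).le (hX _)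

lemma summable_Xp {X : ℕ → ℝ} (hX : ∀ n, |X n| ≤ 1) {s : ℝ} (hs1 : 1 < s) :
    Summable fun p : Nat.Primes ↦ X p * zterm K s p := by
  refine Summable.of_norm_bounded (summable_zterm_primes K hs1) fun p ↦ ?_
  rw [Real.norm_eq_abs, abs_mul, abs_of_nonneg (Fermat.Agent.FrobDensity.zterm_nonneg K s p)]
  exact mul_le_of_le_one_left (Fermat.Agent.FrobDensity.zterm_nonneg K s p) (hX _)

lemma tsum_prime_norm {X : ℕ → ℝ} (hX : ∀ n, |X n| ≤ 1) {s : ℝ} (hs1 : 1 < s) (hs2 : s ≤ 2) :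
    ∑' v : {v : HeightOneSpectrum (𝓞 K) // (Ideal.absNorm v.asIdeal).Prime},
      X (Ideal.absNorm v.1.asIdeal) * ea s v.1 = ∑' p : Nat.Primes, X p * zterm K s p := by
  let f : {v : HeightOneSpectrum (𝓞 K) // (Ideal.absNorm v.asIdeal).Prime} → Nat.Primes :=
    fun v ↦ ⟨Ideal.absNorm v.1.asIdeal, v.2⟩
  have hsum : Summable fun v : {v : HeightOneSpectrum (𝓞 K) // (Ideal.absNorm v.asIdeal).Prime} ↦
      X (Ideal.absNorm v.1.asIdeal) * ea s v.1 := (summable_X K hX hs1 hs2).subtype _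
  have h2 := hsum.hasSum
  rw [← (Equiv.sigmaFiberEquiv f).hasSum_iff] at h2
  rw [← h2.tsum_eq, h2.summable.tsum_sigma]
  refine tsum_congr fun p ↦ ?_
  have h3 : ∀ v : {v // f v = p}, ((fun v : {v : HeightOneSpectrum (𝓞 K) //
      (Ideal.absNorm v.asIdeal).Prime} ↦ X (Ideal.absNorm v.1.asIdeal) * ea s v.1) ∘
        (Equiv.sigmaFiberEquiv f)) ⟨p, v⟩ = X p * ((p : ℕ) : ℝ) ^ (-s) := by
    intro v
    have h4 : Ideal.absNorm v.1.1.asIdeal = (p : ℕ) := congrArg Subtype.val v.2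
    simp only [Function.comp_apply, Equiv.sigmaFiberEquiv_apply]
    rw [ea, h4]
  rw [tsum_congr h3, tsum_const, zterm_prime, ← card_norm_eq K p]
  have h5 : Nat.card {v // f v = p} =
      Nat.card {v : HeightOneSpectrum (𝓞 K) // Ideal.absNorm v.asIdeal = (p : ℕ)} := by
    refine Nat.card_congr ⟨fun v ↦ ⟨v.1.1, congrArg Subtype.val v.2⟩,
      fun v ↦ ⟨⟨v.1, by rw [v.2]; exact p.2⟩, Subtype.ext v.2⟩, fun v ↦ rfl, fun v ↦ rfl⟩
  rw [h5, nsmul_eq_mul]
  ring

/-- comparison of the two sums -/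
theorem exists_tsum_compare : ∃ C : ℝ, ∀ X : ℕ → ℝ, (∀ n, |X n| ≤ 1) →
    ∀ s : ℝ, 1 < s → s ≤ 2 →
    |∑' v : HeightOneSpectrum (𝓞 K), X (Ideal.absNorm v.asIdeal) * ea s v -
      ∑' p : Nat.Primes, X p * zterm K s p| ≤ C := by
  obtain ⟨C, hC⟩ := exceptional_sum_bound (K := K)
  refine ⟨C, fun X hX s hs1 hs2 ↦ ?_⟩
  have hs := summable_X K hX hs1 hs2
  have h1 := hs.tsum_subtype_add_tsum_subtype_compl
    {v : HeightOneSpectrum (𝓞 K) | (Ideal.absNorm v.asIdeal).Prime}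
  have h2 := tsum_prime_norm K hX hs1 hs2
  have h3 : ∑' v : HeightOneSpectrum (𝓞 K), X (Ideal.absNorm v.asIdeal) * ea s v -
      ∑' p : Nat.Primes, X p * zterm K s p =
      ∑' v : ({v : HeightOneSpectrum (𝓞 K) | (Ideal.absNorm v.asIdeal).Prime}ᶜ : Set _),
        X (Ideal.absNorm v.1.asIdeal) * ea s v.1 := by
    rw [← h1, ← h2]
    exact add_sub_cancel_left _ _
  rw [h3]
  have hsea : Summable fun v :
      ({v : HeightOneSpectrum (𝓞 K) | (Ideal.absNorm v.asIdeal).Prime}ᶜ : Set _) ↦ ea s v.1 :=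
    (summable_ea hs1 hs2).subtype _
  have h4 : ∑' v : ({v : HeightOneSpectrum (𝓞 K) | (Ideal.absNorm v.asIdeal).Prime}ᶜ : Set _),
      ea s v.1 ≤ C := by
    refine hsea.tsum_le_of_sum_le fun S ↦ ?_
    have h5 := hC s hs1 hs2 (S.map (Function.Embedding.subtype _)) (fun v hv ↦ by
      rw [Finset.mem_map] at hv
      obtain ⟨w, hw, rfl⟩ := hv
      exact w.2)
    rw [Finset.sum_map] at h5
    exact h5
  refine le_trans ?_ h4
  rw [← Real.norm_eq_abs]
  refine tsum_of_norm_bounded hsea.hasSum fun v ↦ ?_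
  rw [Real.norm_eq_abs, abs_mul, abs_of_pos (ea_pos s v.1)]
  exact mul_le_of_le_one_left (ea_pos s v.1).le (hX _)

end Fermat.Agent.DS.Cheb
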