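import Fermat.Agent.DS.Cheb2

/-!
# Boundedness of the sums attached to Dirichlet characters composed with the norm
-/

set_option linter.all false
set_option autoImplicit false

namespace Fermat.Agent.DS.Cheb

open scoped nonZeroDivisors Topology
open Finset NumberField Module Filter IsDedekindDomain Fermat.Agent.ExtVan
open Fermat.Agent.FrobDensity (idealCount zterm zterm_prime summable_zterm_primes)

section sign

variable {K : Type*} [Field K] [NumberField K]

open scoped Classical in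
/-- The norm of a totally positive element is positive. -/
lemma norm_pos_of_forall {z : K} (hz : z ≠ 0) (h : ∀ φ : K →+* ℝ, 0 < φ z) :
    0 < Algebra.norm ℚ z := by
  have h1 := Algebra.norm_eq_prod_embeddings ℚ ℂ z
  have h2 : ∏ σ : K →ₐ[ℚ] ℂ, σ z = ∏ σ : K →+* ℂ, σ z := by
    refine Fintype.prod_equiv (RingHom.equivRatAlgHom K ℂ).symm _ _ fun σ ↦ rfl
  rw [h2, ← Finset.prod_fiberwise Finset.univ (fun φ : K →+* ℂ => InfinitePlace.mk φ)] at h1
  have h3 : ∀ w : InfinitePlace K, ∃ r : ℝ, 0 < r ∧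
      ∏ φ ∈ Finset.univ.filter (fun φ : K →+* ℂ => InfinitePlace.mk φ = w), φ z = (r : ℂ) := by
    intro w
    have hset : Finset.univ.filter (fun φ : K →+* ℂ => InfinitePlace.mk φ = w) =
        {w.embedding, ComplexEmbedding.conjugate w.embedding} := by
      ext φ
      rw [mem_filter, mem_insert, mem_singleton]
      constructor
      · rintro ⟨-, hφ⟩
        rw [← InfinitePlace.mk_embedding w, eq_comm, InfinitePlace.mk_eq_iff] at hφ
        rcases hφ with h | h
        · exact Or.inl h.symm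
        · exact Or.inr h.symm
      · intro hφ
        refine ⟨mem_univ _, ?_⟩
        rw [← InfinitePlace.mk_embedding w, eq_comm, InfinitePlace.mk_eq_iff]
        rcases hφ with h | h
        · exact Or.inl h.symm
        · exact Or.inr h.symm
    rw [hset]
    by_cases hr : ComplexEmbedding.IsReal w.embedding
    · have h4 : ComplexEmbedding.conjugate w.embedding = w.embedding :=
        ComplexEmbedding.isReal_iff.mp hr
      rw [h4, Finset.insert_eq_of_mem (mem_singleton_self _), prod_singleton]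
      exact ⟨hr.embedding z, h _, (hr.coe_embedding_apply z).symm⟩
    · have h4 : w.embedding ≠ ComplexEmbedding.conjugate w.embedding := fun h ↦
        hr (ComplexEmbedding.isReal_iff.mpr h.symm)
      rw [prod_pair h4]
      refine ⟨Complex.normSq (w.embedding z), ?_, ?_⟩
      · rw [Complex.normSq_pos]
        exact (map_ne_zero _).mpr hz
      · rw [ComplexEmbedding.conjugate_coe_eq, Complex.mul_conj]
  choose r hr0 hr using h3
  rw [Finset.prod_congr rfl fun w _ ↦ hr w, ← Complex.ofReal_prod] at h1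
  have h5 : ((Algebra.norm ℚ z : ℚ) : ℝ) = ∏ w, r w := by
    have : (((Algebra.norm ℚ z : ℚ) : ℝ) : ℂ) = ((∏ w, r w : ℝ) : ℂ) := by
      rw [← h1]
      simp
    exact_mod_cast this
  have h6 : (0 : ℝ) < ((Algebra.norm ℚ z : ℚ) : ℝ) := by
    rw [h5]
    exact Finset.prod_pos fun w _ ↦ hr0 w
  exact_mod_cast h6

lemma norm_mul_pos {x y : 𝓞 K} (hx : x ≠ 0) (hy : y ≠ 0) (h : SameSign x y) :
    0 < Algebra.norm ℤ x * Algebra.norm ℤ y := by
  rw [← map_mul]
  have h1 : 0 < Algebra.norm ℚ ((x * y : 𝓞 K) : K) := by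
    apply norm_pos_of_forall
    · exact_mod_cast mul_ne_zero hx hy
    · intro φ
      have := h φ
      rw [← map_mul] at this
      exact_mod_cast this
  rw [← Algebra.coe_norm_int] at h1
  exact_mod_cast h1

lemma norm_congr {q : ℕ} {r : 𝓞 K} (hr : r ∈ Ideal.span {(q : 𝓞 K)}) (x : 𝓞 K) :
    ((Algebra.norm ℤ (r + x) : ℤ) : ZMod q) = ((Algebra.norm ℤ x : ℤ) : ZMod q) := by
  classical
  obtain ⟨y, rfl⟩ := Ideal.mem_span_singleton'.mp hr
  have key : ∀ z : 𝓞 K, ((Algebra.norm ℤ z : ℤ) : ZMod q) =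
      ((Algebra.leftMulMatrix (RingOfIntegers.basis K) z).map
        (Int.castRingHom (ZMod q))).det := by
    intro z
    rw [Algebra.norm_eq_matrix_det (RingOfIntegers.basis K) z]
    exact RingHom.map_det (Int.castRingHom (ZMod q)) _
  rw [key, key]
  congr 1
  have h1 : Algebra.leftMulMatrix (RingOfIntegers.basis K) (y * (q : 𝓞 K) + x) =
      (q : ℤ) • Algebra.leftMulMatrix (RingOfIntegers.basis K) y +
        Algebra.leftMulMatrix (RingOfIntegers.basis K) x := by
    rw [map_add, ← map_zsmul]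
    congr 2
    rw [zsmul_eq_mul, mul_comm]
    push_cast
    rfl
  rw [h1]
  ext i j
  rw [Matrix.map_apply, Matrix.map_apply, Matrix.add_apply, Matrix.smul_apply, smul_eq_mul,
    map_add, map_mul]
  simp

lemma natAbs_norm_congr {q : ℕ} {r : 𝓞 K} (hr : r ∈ Ideal.span {(q : 𝓞 K)}) {x : 𝓞 K}
    (hx : x ≠ 0) (hrx : r + x ≠ 0) (h : SameSign (r + x) x) :
    (((Algebra.norm ℤ (r + x)).natAbs : ℕ) : ZMod q) = (((Algebra.norm ℤ x).natAbs : ℕ) : ZMod q) := by
  have h1 := norm_mul_pos hrx hx h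
  have h2 := norm_congr hr x
  rcases lt_or_ge 0 (Algebra.norm ℤ x) with h3 | h3
  · have h4 : 0 < Algebra.norm ℤ (r + x) := pos_of_mul_pos_left h1 h3.le
    have e1 : ((Algebra.norm ℤ (r + x)).natAbs : ℤ) = Algebra.norm ℤ (r + x) :=
      Int.natAbs_of_nonneg h4.le
    have e2 : ((Algebra.norm ℤ x).natAbs : ℤ) = Algebra.norm ℤ x := Int.natAbs_of_nonneg h3.le
    have e3 := congrArg (Int.cast : ℤ → ZMod q) e1
    have e4 := congrArg (Int.cast : ℤ → ZMod q) e2
    rw [Int.cast_natCast] at e3 e4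
    rw [e3, e4]
    exact h2
  · have h3' : Algebra.norm ℤ x < 0 := by
      refine lt_of_le_of_ne h3 fun h0 ↦ ?_
      rw [h0, mul_zero] at h1
      exact lt_irrefl _ h1
    have h4 : Algebra.norm ℤ (r + x) < 0 := neg_of_mul_pos_left h1 h3
    have e1 : ((Algebra.norm ℤ (r + x)).natAbs : ℤ) = -Algebra.norm ℤ (r + x) :=
      Int.ofNat_natAbs_of_nonpos h4.le
    have e2 : ((Algebra.norm ℤ x).natAbs : ℤ) = -Algebra.norm ℤ x :=
      Int.ofNat_natAbs_of_nonpos h3
    have e3 := congrArg (Int.cast : ℤ → ZMod q) e1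
    have e4 := congrArg (Int.cast : ℤ → ZMod q) e2
    rw [Int.cast_natCast] at e3 e4
    rw [e3, e4]
    push_cast
    rw [h2]

end sign

section char

variable (K : Type*) [Field K] [NumberField K] {q : ℕ} [Fact (1 < q)]

/-- the composition of a Dirichlet character with the norm -/
noncomputable def nchar (X : DirichletCharacter ℂ q) : Ideal (𝓞 K) →*₀ ℂ where
  toFun I := X ((Ideal.absNorm I : ℕ) : ZMod q)
  map_zero' := by
    rw [map_zero, Nat.cast_zero, MulChar.map_zero]
  map_one' := by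
    rw [map_one, Nat.cast_one, map_one]
  map_mul' I J := by
    rw [map_mul, Nat.cast_mul, map_mul]

lemma nchar_apply (X : DirichletCharacter ℂ q) (I : Ideal (𝓞 K)) :
    nchar K X I = X ((Ideal.absNorm I : ℕ) : ZMod q) := rfl

/-- Bound for the real part of the sum over primes. -/
theorem exists_sum_le (X : DirichletCharacter ℂ q) (p : ℕ) (hp : p.Prime) (hpq : ¬ p ∣ q)
    (hc : idealCount K p ≠ 0) (hX : X (p : ZMod q) ≠ 1) :
    ∃ C : ℝ, ∀ᶠ s : ℝ in 𝓝[>] 1,
      ∑' l : Nat.Primes, (X ((l : ℕ) : ZMod q)).re * zterm K s l ≤ C := by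
  have hχ : ∀ I, ‖nchar K X I‖ ≤ 1 := fun I ↦ DirichletCharacter.norm_le_one X _
  -- the auxiliary ideal
  have hne : Nonempty {I : Ideal (𝓞 K) // Ideal.absNorm I = p} := by
    rw [idealCount] at hc
    by_contra hcon
    rw [not_nonempty_iff] at hcon
    exact hc Nat.card_of_isEmpty
  obtain ⟨⟨J, hJ⟩⟩ := hne
  have hJ0 : J ≠ 0 := by
    rintro rfl
    rw [map_zero] at hJ
    exact hp.ne_zero hJ.symm
  obtain ⟨C, hC⟩ := ray_series_bound (nchar K X) hχ (Ideal.span {(q : 𝓞 K)})
    (fun r hr x hx hrx hs ↦ by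
      rw [nchar_apply, nchar_apply, Ideal.absNorm_span_singleton, Ideal.absNorm_span_singleton,
        natAbs_norm_congr hr hx hrx hs])
    ⟨J, mem_nonZeroDivisors_of_ne_zero hJ0⟩
    (by
      have h1 : (p : 𝓞 K) ∈ J := by
        have := Ideal.absNorm_mem J
        rwa [hJ] at this
      have h2 : IsCoprime ((p : ℤ)) ((q : ℤ)) :=
        Nat.isCoprime_iff_coprime.mpr ((Nat.Prime.coprime_iff_not_dvd hp).mpr hpq)
      obtain ⟨a, b, hab⟩ := h2
      change IsCoprime J (Ideal.span {(q : 𝓞 K)})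
      rw [Ideal.isCoprime_iff_exists]
      refine ⟨(a : 𝓞 K) * p, J.mul_mem_left _ h1, (b : 𝓞 K) * q,
        Ideal.mem_span_singleton'.mpr ⟨b, rfl⟩, ?_⟩
      have := congrArg (fun z : ℤ => (z : 𝓞 K)) hab
      push_cast at this
      exact this)
    (by
      change nchar K X J ≠ 1
      rw [nchar_apply, hJ]
      exact hX)
  obtain ⟨C₂, hC₂⟩ := exists_tsum_compare K
  refine ⟨Real.log C + (∑' v : HeightOneSpectrum (𝓞 K), ea 2 v) / 2 + C₂, ?_⟩
  filter_upwards [hC, eventually_Ioc] with s hs hs12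
  obtain ⟨hs1, hs2⟩ := hs12
  have h1 := tsum_re_le hχ hs1 hs2 hs
  have h2 := hC₂ (fun n ↦ (X ((n : ℕ) : ZMod q)).re)
    (fun n ↦ (Complex.abs_re_le_norm _).trans (DirichletCharacter.norm_le_one X _)) s hs1 hs2
  have h3 := (abs_le.mp h2).1
  simp only [nchar_apply] at h1
  linarith

end char

end Fermat.Agent.DS.Cheb
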