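import Mathlib

/-!
# Sums over primes near `s = 1`, and the group theoretic part of the Chebotarev theorem
-/

set_option linter.all false
set_option autoImplicit false

namespace Fermat.Agent.DS.Cheb

open scoped Topology
open Finset Filter

/-- bounded above near `1` from the right -/
def UB (F : ℝ → ℝ) : Prop := ∃ C : ℝ, ∀ᶠ s in 𝓝[>] (1:ℝ), F s ≤ C

lemma UB.add {F G : ℝ → ℝ} (hF : UB F) (hG : UB G) : UB (fun s ↦ F s + G s) := by
  obtain ⟨C, hC⟩ := hF
  obtain ⟨C', hC'⟩ := hG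
  refine ⟨C + C', ?_⟩
  filter_upwards [hC, hC'] with s h1 h2
  exact add_le_add h1 h2

lemma UB.const_mul {F : ℝ → ℝ} (hF : UB F) {c : ℝ} (hc : 0 ≤ c) : UB (fun s ↦ c * F s) := by
  obtain ⟨C, hC⟩ := hF
  refine ⟨c * C, ?_⟩
  filter_upwards [hC] with s h1
  exact mul_le_mul_of_nonneg_left h1 hc

lemma UB.mono {F G : ℝ → ℝ} (hG : UB G) (h : ∀ᶠ s in 𝓝[>] (1:ℝ), F s ≤ G s) : UB F := by
  obtain ⟨C, hC⟩ := hG
  refine ⟨C, ?_⟩
  filter_upwards [hC, h] with s h1 h2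
  exact h2.trans h1

lemma UB.sum {ι : Type*} (S : Finset ι) {F : ι → ℝ → ℝ} (h : ∀ i ∈ S, UB (F i)) :
    UB (fun s ↦ ∑ i ∈ S, F i s) := by
  classical
  induction S using Finset.induction_on with
  | empty => exact ⟨0, Eventually.of_forall fun s ↦ by simp⟩
  | insert i S hi ih =>
    have h1 := (h i (mem_insert_self i S)).add (ih fun j hj ↦ h j (mem_insert_of_mem hj))
    refine h1.mono (Eventually.of_forall fun s ↦ ?_)
    rw [sum_insert hi]

lemma eventually_gt_one : ∀ᶠ s in 𝓝[>] (1:ℝ), 1 < s := self_mem_nhdsWithin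

/-- Dirichlet series over primes -/
noncomputable def D (u : Nat.Primes → ℝ) (s : ℝ) : ℝ := ∑' p : Nat.Primes, u p * ((p : ℕ) : ℝ) ^ (-s)

/-- bounded functions -/
def Bd (u : Nat.Primes → ℝ) : Prop := ∃ B : ℝ, ∀ p, |u p| ≤ B

lemma Bd.add {u v : Nat.Primes → ℝ} (hu : Bd u) (hv : Bd v) : Bd (fun p ↦ u p + v p) := by
  obtain ⟨B, hB⟩ := hu
  obtain ⟨B', hB'⟩ := hv
  exact ⟨B + B', fun p ↦ (abs_add_le _ _).trans (add_le_add (hB p) (hB' p))⟩

lemma Bd.const_mul {u : Nat.Primes → ℝ} (hu : Bd u) (c : ℝ) : Bd (fun p ↦ c * u p) := by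
  obtain ⟨B, hB⟩ := hu
  refine ⟨|c| * B, fun p ↦ ?_⟩
  rw [abs_mul]
  exact mul_le_mul_of_nonneg_left (hB p) (abs_nonneg c)

lemma Bd.sum {ι : Type*} (S : Finset ι) {u : ι → Nat.Primes → ℝ} (h : ∀ i ∈ S, Bd (u i)) :
    Bd (fun p ↦ ∑ i ∈ S, u i p) := by
  classical
  induction S using Finset.induction_on with
  | empty => exact ⟨0, fun p ↦ by simp⟩
  | insert i S hi ih =>
    obtain ⟨B, hB⟩ := (h i (mem_insert_self i S)).add (ih fun j hj ↦ h j (mem_insert_of_mem hj))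
    refine ⟨B, fun p ↦ ?_⟩
    beta_reduce
    rw [sum_insert hi]
    exact hB p

lemma Bd.of_finite {Γ : Type*} [Finite Γ] (f : Γ → ℝ) (Fr : Nat.Primes → Γ) :
    Bd (fun p ↦ f (Fr p)) := by
  haveI := Fintype.ofFinite Γ
  exact ⟨∑ g, |f g|, fun p ↦ single_le_sum (f := fun g ↦ |f g|) (fun _ _ ↦ abs_nonneg _)
    (mem_univ (Fr p))⟩

lemma Bd.mul {u v : Nat.Primes → ℝ} (hu : Bd u) (hv : Bd v) : Bd (fun p ↦ u p * v p) := by
  obtain ⟨B, hB⟩ := hu
  obtain ⟨B', hB'⟩ := hv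
  refine ⟨B * B', fun p ↦ ?_⟩
  rw [abs_mul]
  exact mul_le_mul (hB p) (hB' p) (abs_nonneg _) ((abs_nonneg _).trans (hB p))

lemma Bd.summable {u : Nat.Primes → ℝ} (hu : Bd u) {s : ℝ} (hs : 1 < s) :
    Summable fun p : Nat.Primes ↦ u p * ((p : ℕ) : ℝ) ^ (-s) := by
  obtain ⟨B, hB⟩ := hu
  have h1 : Summable fun p : Nat.Primes ↦ B * ((p : ℕ) : ℝ) ^ (-s) :=
    (Nat.Primes.summable_rpow.mpr (by linarith)).mul_left B
  refine Summable.of_norm_bounded h1 fun p ↦ ?_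
  rw [Real.norm_eq_abs, abs_mul, abs_of_nonneg (a := ((p : ℕ) : ℝ) ^ (-s)) (by positivity)]
  exact mul_le_mul_of_nonneg_right (hB p) (by positivity)

lemma D_add {u v : Nat.Primes → ℝ} (hu : Bd u) (hv : Bd v) {s : ℝ} (hs : 1 < s) :
    D (fun p ↦ u p + v p) s = D u s + D v s := by
  rw [D, D, D, ← (hu.summable hs).tsum_add (hv.summable hs)]
  exact tsum_congr fun p ↦ by ring

lemma D_const_mul (u : Nat.Primes → ℝ) (c s : ℝ) : D (fun p ↦ c * u p) s = c * D u s := by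
  rw [D, D, ← tsum_mul_left]
  exact tsum_congr fun p ↦ by ring

lemma D_sum {ι : Type*} (S : Finset ι) {u : ι → Nat.Primes → ℝ} (h : ∀ i ∈ S, Bd (u i)) {s : ℝ}
    (hs : 1 < s) : D (fun p ↦ ∑ i ∈ S, u i p) s = ∑ i ∈ S, D (u i) s := by
  have h1 := Summable.tsum_finsetSum (f := fun i (p : Nat.Primes) ↦ u i p * ((p : ℕ) : ℝ) ^ (-s))
    fun i hi ↦ (h i hi).summable hs
  simp only [D]
  rw [← h1]
  exact tsum_congr fun p ↦ by rw [Finset.sum_mul]

lemma D_le_of_off {u v : Nat.Primes → ℝ} (hu : Bd u) (hv : Bd v) (T : Finset Nat.Primes)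
    (h : ∀ p ∉ T, u p ≤ v p) : UB (fun s ↦ D u s - D v s) := by
  classical
  refine ⟨∑ p ∈ T, |u p - v p|, ?_⟩
  filter_upwards [eventually_gt_one] with s hs
  let w : Nat.Primes → ℝ := fun p ↦ if p ∈ T then |u p - v p| else 0
  have h1 : D u s - D v s = ∑' p : Nat.Primes, (u p - v p) * ((p : ℕ) : ℝ) ^ (-s) := by
    rw [D, D, ← (hu.summable hs).tsum_sub (hv.summable hs)]
    exact tsum_congr fun p ↦ by ring
  have hw0 : ∀ p ∉ T, w p * ((p : ℕ) : ℝ) ^ (-s) = 0 := fun p hp ↦ by simp [w, hp]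
  have hws : Summable fun p : Nat.Primes ↦ w p * ((p : ℕ) : ℝ) ^ (-s) :=
    summable_of_ne_finset_zero (s := T) hw0
  have hsub : Summable fun p : Nat.Primes ↦ (u p - v p) * ((p : ℕ) : ℝ) ^ (-s) := by
    refine ((hu.summable hs).sub (hv.summable hs)).congr fun p ↦ by ring
  have h2 : ∑' p : Nat.Primes, (u p - v p) * ((p : ℕ) : ℝ) ^ (-s) ≤
      ∑' p : Nat.Primes, w p * ((p : ℕ) : ℝ) ^ (-s) := by
    refine hsub.tsum_le_tsum (fun p ↦ ?_) hws
    refine mul_le_mul_of_nonneg_right ?_ (by positivity)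
    by_cases hp : p ∈ T
    · simp only [w, if_pos hp]; exact le_abs_self _
    · simp only [w, if_neg hp]; linarith [h p hp]
  rw [h1]
  refine h2.trans ?_
  rw [tsum_eq_sum hw0]
  refine sum_le_sum fun p hp ↦ ?_
  simp only [w, if_pos hp]
  refine mul_le_of_le_one_right (abs_nonneg _) ?_
  exact Real.rpow_le_one_of_one_le_of_nonpos (by exact_mod_cast p.2.one_lt.le) (by linarith)

lemma UB_neg_log {a : ℝ} (h : UB fun s ↦ -(a * Real.log (s - 1))) : a ≤ 0 := by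
  by_contra ha
  push Not at ha
  obtain ⟨C, hC⟩ := h
  have hlog : Tendsto (fun t : ℝ => Real.log (t - 1)) (𝓝[>] 1) atBot := by
    have h1 : Tendsto (fun t : ℝ => t - 1) (𝓝[>] 1) (𝓝[>] 0) := by
      refine tendsto_nhdsWithin_iff.mpr ⟨?_, ?_⟩
      · have : Tendsto (fun t : ℝ => t - 1) (𝓝 1) (𝓝 (1 - 1)) := by
          exact (continuous_id.sub continuous_const).tendsto 1
        rw [sub_self] at this
        exact this.mono_left nhdsWithin_le_nhds
      · filter_upwards [self_mem_nhdsWithin] with t ht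
        exact sub_pos.mpr (Set.mem_Ioi.mp ht)
    exact Real.tendsto_log_nhdsGT_zero.comp h1
  have h2 := (hlog.const_mul_atBot ha).eventually (eventually_lt_atBot (-C))
  obtain ⟨t, h3, h4⟩ := (hC.and h2).exists
  linarith

section group

variable {Γ : Type*} [Group Γ] [Fintype Γ] (q : ℕ) [Fact q.Prime] (κ : Γ →* (ZMod q)ˣ)
  (Fr : Nat.Primes → Γ) (c : Subgroup Γ → Nat.Primes → ℝ)

open scoped Classical in
/-- The analytic input. -/
structure ChebData : Prop where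
  nonneg : ∀ H p, 0 ≤ c H p
  bd : ∀ H, Bd (c H)
  exc : ∃ T : Finset Nat.Primes, ∀ p ∉ T, ((κ (Fr p) : (ZMod q)ˣ) : ZMod q) = ((p : ℕ) : ZMod q) ∧
    ∀ H : Subgroup Γ, c H p * (Nat.card H : ℝ) =
      ((Finset.univ.filter fun x : Γ => x⁻¹ * Fr p * x ∈ H).card : ℝ)
  up : ∀ H, UB (fun s => D (c H) s + Real.log (s - 1))
  low : ∀ H, UB (fun s => -Real.log (s - 1) - D (c H) s)
  char : ∀ γ (X : DirichletCharacter ℂ q), X ((κ γ : (ZMod q)ˣ) : ZMod q) ≠ 1 →
    UB (D fun p => (X ((p : ℕ) : ZMod q)).re * c (Subgroup.zpowers γ) p)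

variable {q κ Fr c}

/-- `κ` is injective on the subgroup generated by `γ` -/
def Good (κ : Γ →* (ZMod q)ˣ) (γ : Γ) : Prop := ∀ g ∈ Subgroup.zpowers γ, κ g = 1 → g = 1

lemma Good.inj {γ : Γ} (h : Good κ γ) {g g' : Γ} (hg : g ∈ Subgroup.zpowers γ)
    (hg' : g' ∈ Subgroup.zpowers γ) (hk : κ g = κ g') : g = g' := by
  have h1 := h (g * g'⁻¹) (mul_mem hg (inv_mem hg')) (by rw [map_mul, map_inv, hk, mul_inv_cancel])
  rwa [mul_inv_eq_one] at h1

open scoped Classical in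
/-- number of characters trivial on `κ γ` -/
noncomputable def N1 (κ : Γ →* (ZMod q)ˣ) (γ : Γ) : ℕ :=
  (Finset.univ.filter fun X : DirichletCharacter ℂ q => X ((κ γ : (ZMod q)ˣ) : ZMod q) = 1).card

lemma N1_mul {γ : Γ} (h : Good κ γ) : N1 κ γ * orderOf γ = q.totient := by
  classical
  set a : ZMod q := ((κ γ : (ZMod q)ˣ) : ZMod q) with ha
  have hh : 0 < orderOf γ := orderOf_pos γ
  have h1 : ∀ X : DirichletCharacter ℂ q, ∑ j ∈ range (orderOf γ), X (a ^ j) =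
      if X a = 1 then (orderOf γ : ℂ) else 0 := by
    intro X
    simp_rw [map_pow]
    split_ifs with hX
    · simp [hX]
    · have h2 : X a ^ orderOf γ = 1 := by
        have h3 : a ^ orderOf γ = 1 := by
          rw [ha, ← Units.val_pow_eq_pow_val, ← map_pow, pow_orderOf_eq_one, map_one, Units.val_one]
        rw [← map_pow, h3, map_one]
      have h4 := mul_neg_geom_sum (X a) (orderOf γ)
      rw [h2, sub_self] at h4
      exact (mul_eq_zero.mp h4).resolve_left (sub_ne_zero.mpr (Ne.symm hX))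
  have h2 : ∑ X : DirichletCharacter ℂ q, ∑ j ∈ range (orderOf γ), X (a ^ j) =
      (q.totient : ℂ) := by
    rw [sum_comm]
    simp_rw [DirichletCharacter.sum_characters_eq]
    rw [sum_eq_single_of_mem 0 (mem_range.mpr hh)]
    · rw [pow_zero, if_pos rfl]
    · intro j hj hj0
      rw [if_neg]
      intro hcon
      have h3 : κ (γ ^ j) = 1 := by
        apply Units.ext
        rw [map_pow, Units.val_pow_eq_pow_val, ← ha, hcon, Units.val_one]
      have h4 := h (γ ^ j) (Subgroup.npow_mem_zpowers γ j) h3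
      have h5 := Nat.le_of_dvd (Nat.pos_of_ne_zero hj0) (orderOf_dvd_of_pow_eq_one h4)
      rw [mem_range] at hj
      omega
  rw [sum_congr rfl fun X _ ↦ h1 X, ← sum_filter, sum_const, nsmul_eq_mul] at h2
  rw [N1]
  exact_mod_cast h2

lemma N1_pos {γ : Γ} (h : Good κ γ) : 0 < N1 κ γ := by
  have h1 := N1_mul h
  have h2 : 0 < q.totient := Nat.totient_pos.mpr (Fact.out (p := q.Prime)).pos
  rcases Nat.eq_zero_or_pos (N1 κ γ) with h0 | h0
  · rw [h0, zero_mul] at h1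
    omega
  · exact h0

variable (c) in
/-- the summands -/
noncomputable def uX (γ : Γ) (X : DirichletCharacter ℂ q) (p : Nat.Primes) : ℝ :=
  (X ((p : ℕ) : ZMod q)).re * c (Subgroup.zpowers γ) p

lemma uX_bd (hD : ChebData q κ Fr c) (γ : Γ) (X : DirichletCharacter ℂ q) : Bd (uX c γ X) := by
  refine Bd.mul ⟨1, fun p ↦ ?_⟩ (hD.bd _)
  exact (Complex.abs_re_le_norm _).trans (DirichletCharacter.norm_le_one X _)

/-- characters trivial on `κ γ` contribute the trivial sum -/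
lemma uX_trivial (hD : ChebData q κ Fr c) {γ : Γ} {X : DirichletCharacter ℂ q}
    (hX : X ((κ γ : (ZMod q)ˣ) : ZMod q) = 1) : ∃ T : Finset Nat.Primes, ∀ p ∉ T,
      uX c γ X p = c (Subgroup.zpowers γ) p := by
  classical
  obtain ⟨T, hT⟩ := hD.exc
  refine ⟨T, fun p hp ↦ ?_⟩
  obtain ⟨h1, h2⟩ := hT p hp
  by_cases h0 : c (Subgroup.zpowers γ) p = 0
  · rw [uX, h0, mul_zero]
  have h3 : ((Finset.univ.filter fun x : Γ =>
      x⁻¹ * Fr p * x ∈ Subgroup.zpowers γ).card : ℝ) ≠ 0 := by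
    rw [← h2]
    exact mul_ne_zero h0 (Nat.cast_ne_zero.mpr Nat.card_pos.ne')
  have h4 : (Finset.univ.filter fun x : Γ => x⁻¹ * Fr p * x ∈ Subgroup.zpowers γ).Nonempty := by
    rw [← Finset.card_pos]
    exact Nat.pos_of_ne_zero (by exact_mod_cast h3)
  obtain ⟨x, hx⟩ := h4
  rw [mem_filter] at hx
  obtain ⟨j, hj⟩ := (mem_powers_iff_mem_zpowers.mpr hx.2)
  simp only at hj
  have h5 : κ (Fr p) = κ γ ^ j := by
    rw [← map_pow, hj, map_mul, map_mul, map_inv, mul_comm _ (κ (Fr p)), mul_assoc,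
      inv_mul_cancel, mul_one]
  have h6 : X ((p : ℕ) : ZMod q) = 1 := by
    rw [← h1, h5, Units.val_pow_eq_pow_val, map_pow, hX, one_pow]
  rw [uX, h6, Complex.one_re, one_mul]

/-- the sum over all characters -/
lemma sum_uX (hD : ChebData q κ Fr c) {γ : Γ} (hγ : Good κ γ) :
    ∃ T : Finset Nat.Primes, ∀ p ∉ T,
      ∑ X : DirichletCharacter ℂ q, uX c γ X p = (N1 κ γ : ℝ) * c ⊥ p := by
  classical
  obtain ⟨T, hT⟩ := hD.exc
  refine ⟨T, fun p hp ↦ ?_⟩
  obtain ⟨h1, h2⟩ := hT p hp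
  have h3 : ∑ X : DirichletCharacter ℂ q, uX c γ X p =
      (if ((p : ℕ) : ZMod q) = 1 then (q.totient : ℝ) else 0) * c (Subgroup.zpowers γ) p := by
    simp only [uX]
    rw [← sum_mul, ← Complex.re_sum, DirichletCharacter.sum_characters_eq]
    split_ifs <;> simp
  have hN : (N1 κ γ : ℝ) * (Nat.card (Subgroup.zpowers γ) : ℝ) = q.totient := by
    rw [Nat.card_zpowers]
    exact_mod_cast N1_mul hγ
  have hcard0 : (Nat.card (Subgroup.zpowers γ) : ℝ) ≠ 0 := Nat.cast_ne_zero.mpr Nat.card_pos.ne'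
  have h4 := h2 (Subgroup.zpowers γ)
  have h5 := h2 ⊥
  rw [Subgroup.card_bot, Nat.cast_one, mul_one] at h5
  rw [h3]
  have hconj : ∀ x : Γ, κ (x⁻¹ * Fr p * x) = κ (Fr p) := fun x ↦ by
    rw [map_mul, map_mul, map_inv, mul_comm _ (κ (Fr p)), mul_assoc, inv_mul_cancel, mul_one]
  split_ifs with hp1
  · have hk : κ (Fr p) = 1 := by
      apply Units.ext
      rw [h1, hp1, Units.val_one]
    have h6 : (Finset.univ.filter fun x : Γ => x⁻¹ * Fr p * x ∈ Subgroup.zpowers γ) =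
        Finset.univ.filter fun x : Γ => x⁻¹ * Fr p * x ∈ (⊥ : Subgroup Γ) := by
      refine filter_congr fun x _ ↦ ?_
      rw [Subgroup.mem_bot]
      constructor
      · intro hx
        exact hγ _ hx (by rw [hconj, hk])
      · intro hx
        rw [hx]
        exact one_mem _
    rw [h6, ← h5] at h4
    rw [← h4, ← hN]
    ring
  · rw [zero_mul]
    have hk : κ (Fr p) ≠ 1 := by
      intro hk
      apply hp1
      rw [← h1, hk, Units.val_one]
    have h6 : (Finset.univ.filter fun x : Γ => x⁻¹ * Fr p * x ∈ (⊥ : Subgroup Γ)) = ∅ := by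
      refine filter_eq_empty_iff.mpr fun x _ hx ↦ ?_
      rw [Subgroup.mem_bot] at hx
      apply hk
      rw [← hconj x, hx, map_one]
    rw [h6, card_empty, Nat.cast_zero] at h5
    rw [h5, mul_zero]

end group

end Fermat.Agent.DS.Cheb
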