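import Fermat.Agent.DS.Cheb4

/-!
# The group theoretic part of the Chebotarev theorem, II
-/

set_option linter.all false
set_option autoImplicit false

namespace Fermat.Agent.DS.Cheb

open scoped Topology
open Finset Filter

variable {Γ : Type*} [Group Γ] [Fintype Γ] {q : ℕ} [Fact q.Prime] {κ : Γ →* (ZMod q)ˣ}
  {Fr : Nat.Primes → Γ} {c : Subgroup Γ → Nat.Primes → ℝ}

lemma UB_trivial (hD : ChebData q κ Fr c) {γ : Γ} {X : DirichletCharacter ℂ q}
    (hX : X ((κ γ : (ZMod q)ˣ) : ZMod q) = 1) :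
    UB (fun s ↦ D (uX c γ X) s + Real.log (s - 1)) ∧
    UB (fun s ↦ -Real.log (s - 1) - D (uX c γ X) s) := by
  obtain ⟨T, hT⟩ := uX_trivial hD hX
  have h1 := D_le_of_off (uX_bd hD γ X) (hD.bd (Subgroup.zpowers γ)) T fun p hp ↦ (hT p hp).le
  have h2 := D_le_of_off (hD.bd (Subgroup.zpowers γ)) (uX_bd hD γ X) T fun p hp ↦ (hT p hp).ge
  constructor
  · refine (h1.add (hD.up (Subgroup.zpowers γ))).mono (Eventually.of_forall fun s ↦ ?_)
    linarith
  · refine (h2.add (hD.low (Subgroup.zpowers γ))).mono (Eventually.of_forall fun s ↦ ?_)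
    linarith

/-- lower bound for the nontrivial characters -/
lemma UB_nontrivial (hD : ChebData q κ Fr c) {γ : Γ} (hγ : Good κ γ)
    {Y : DirichletCharacter ℂ q} (hY : Y ((κ γ : (ZMod q)ˣ) : ZMod q) ≠ 1) :
    UB (fun s ↦ - D (uX c γ Y) s) := by
  classical
  obtain ⟨T, hT⟩ := sum_uX hD hγ
  have hbd : Bd (fun p ↦ ∑ X : DirichletCharacter ℂ q, uX c γ X p) :=
    Bd.sum univ fun X _ ↦ uX_bd hD γ X
  have h1 := D_le_of_off ((hD.bd ⊥).const_mul (N1 κ γ : ℝ)) hbd T fun p hp ↦ (hT p hp).ge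
  set S1 := Finset.univ.filter fun X : DirichletCharacter ℂ q =>
    X ((κ γ : (ZMod q)ˣ) : ZMod q) = 1 with hS1
  set S2 := (Finset.univ.filter fun X : DirichletCharacter ℂ q =>
    ¬ X ((κ γ : (ZMod q)ˣ) : ZMod q) = 1).erase Y with hS2
  have h2 : UB (fun s ↦ ∑ X ∈ S1, (D (uX c γ X) s + Real.log (s - 1))) :=
    UB.sum S1 fun X hX ↦ (UB_trivial hD (mem_filter.mp hX).2).1
  have h3 : UB (fun s ↦ ∑ X ∈ S2, D (uX c γ X) s) :=
    UB.sum S2 fun X hX ↦ hD.char γ X (mem_filter.mp (mem_of_mem_erase hX)).2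
  have h4 := (hD.low ⊥).const_mul (Nat.cast_nonneg (N1 κ γ) : (0:ℝ) ≤ N1 κ γ)
  refine (((h1.add h2).add h3).add h4).mono ?_
  filter_upwards [eventually_gt_one] with s hs
  rw [D_const_mul, D_sum univ (fun X _ ↦ uX_bd hD γ X) hs, sum_add_distrib, sum_const,
    nsmul_eq_mul]
  have hcard : (S1.card : ℝ) = N1 κ γ := rfl
  rw [hcard]
  have h5 : ∑ X : DirichletCharacter ℂ q, D (uX c γ X) s = ∑ X ∈ S1, D (uX c γ X) s +
      (D (uX c γ Y) s + ∑ X ∈ S2, D (uX c γ X) s) := by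
    have hmemY : Y ∈ Finset.univ.filter fun X : DirichletCharacter ℂ q =>
        ¬ X ((κ γ : (ZMod q)ˣ) : ZMod q) = 1 := mem_filter.mpr ⟨mem_univ Y, hY⟩
    rw [hS2, add_sum_erase _ (fun X ↦ D (uX c γ X) s) hmemY, hS1,
      sum_filter_add_sum_filter_not]
  rw [h5]
  linarith

open scoped Classical in
/-- number of conjugators from Frobenius to `γ` or `γ⁻¹` -/
noncomputable def Wc (Fr : Nat.Primes → Γ) (γ : Γ) (p : Nat.Primes) : ℝ :=
  ((Finset.univ.filter fun x : Γ => x⁻¹ * Fr p * x = γ).card : ℝ) +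
    ((Finset.univ.filter fun x : Γ => x⁻¹ * Fr p * x = γ⁻¹).card : ℝ)

lemma Wc_bd (γ : Γ) : Bd (Wc Fr γ) := by
  classical
  exact Bd.of_finite (fun g : Γ ↦ ((Finset.univ.filter fun x : Γ => x⁻¹ * g * x = γ).card : ℝ) +
    ((Finset.univ.filter fun x : Γ => x⁻¹ * g * x = γ⁻¹).card : ℝ)) Fr

variable (c) in
/-- the weighted combination of characters detecting `γ` and `γ⁻¹` -/
noncomputable def wX (κ : Γ →* (ZMod q)ˣ) (γ : Γ) (p : Nat.Primes) : ℝ :=
  ∑ X : DirichletCharacter ℂ q, (2 * (X ((κ γ : (ZMod q)ˣ) : ZMod q)).re) * uX c γ X p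

lemma wX_eq (hD : ChebData q κ Fr c) {γ : Γ} (hγ : Good κ γ) : ∃ T : Finset Nat.Primes, ∀ p ∉ T,
    wX c κ γ p = (N1 κ γ : ℝ) * Wc Fr γ p := by
  classical
  obtain ⟨T, hT⟩ := hD.exc
  refine ⟨T, fun p hp ↦ ?_⟩
  obtain ⟨h1, h2⟩ := hT p hp
  have h4 := h2 (Subgroup.zpowers γ)
  have hN : (N1 κ γ : ℝ) * (Nat.card (Subgroup.zpowers γ) : ℝ) = q.totient := by
    rw [Nat.card_zpowers]
    exact_mod_cast N1_mul hγ
  have hconj : ∀ x : Γ, κ (x⁻¹ * Fr p * x) = κ (Fr p) := fun x ↦ by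
    rw [map_mul, map_mul, map_inv, mul_comm _ (κ (Fr p)), mul_assoc, inv_mul_cancel, mul_one]
  -- counting
  have key : ∀ δ ∈ Subgroup.zpowers γ,
      (if κ (Fr p) = κ δ then (Nat.card (Subgroup.zpowers γ) : ℝ) * c (Subgroup.zpowers γ) p
        else 0) = ((Finset.univ.filter fun x : Γ => x⁻¹ * Fr p * x = δ).card : ℝ) := by
    intro δ hδ
    split_ifs with hk
    · rw [mul_comm, h4]
      congr 2
      refine filter_congr fun x _ ↦ ?_
      constructor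
      · intro hx
        exact hγ.inj hx hδ (by rw [hconj, hk])
      · intro hx
        rw [hx]
        exact hδ
    · have h6 : (Finset.univ.filter fun x : Γ => x⁻¹ * Fr p * x = δ) = ∅ := by
        refine filter_eq_empty_iff.mpr fun x _ hx ↦ ?_
        apply hk
        rw [← hconj x, hx]
      rw [h6, card_empty, Nat.cast_zero]
  have hkey1 := key γ (Subgroup.mem_zpowers γ)
  have hkey2 := key γ⁻¹ (inv_mem (Subgroup.mem_zpowers γ))
  -- orthogonality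
  have horth : ∀ δ : Γ, ∑ X : DirichletCharacter ℂ q,
      X (((κ δ)⁻¹ : (ZMod q)ˣ) : ZMod q) * X ((p : ℕ) : ZMod q) =
        if κ (Fr p) = κ δ then (q.totient : ℂ) else 0 := by
    intro δ
    simp_rw [← map_mul]
    rw [DirichletCharacter.sum_characters_eq]
    refine if_congr ?_ rfl rfl
    rw [← h1, ← Units.val_mul, Units.val_eq_one, inv_mul_eq_one, eq_comm]
  have hre : ∀ X : DirichletCharacter ℂ q,
      2 * (X ((κ γ : (ZMod q)ˣ) : ZMod q)).re * (X ((p : ℕ) : ZMod q)).re =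
      (X (((κ γ)⁻¹ : (ZMod q)ˣ) : ZMod q) * X ((p : ℕ) : ZMod q) +
        X (((κ γ⁻¹)⁻¹ : (ZMod q)ˣ) : ZMod q) * X ((p : ℕ) : ZMod q)).re := by
    intro X
    have hinv : X (((κ γ)⁻¹ : (ZMod q)ˣ) : ZMod q) = star (X ((κ γ : (ZMod q)ˣ) : ZMod q)) := by
      have e1 := MulChar.star_apply X ((κ γ : (ZMod q)ˣ) : ZMod q)
      rw [← e1, MulChar.star_eq_inv, MulChar.inv_apply']
      congr 1
      exact Units.val_inv_eq_inv_val _
    rw [map_inv κ γ, inv_inv, hinv]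
    simp only [Complex.add_re, Complex.mul_re, Complex.star_def, Complex.conj_re, Complex.conj_im]
    ring
  have hsum : wX c κ γ p = ((if κ (Fr p) = κ γ then (q.totient : ℝ) else 0) +
      (if κ (Fr p) = κ γ⁻¹ then (q.totient : ℝ) else 0)) * c (Subgroup.zpowers γ) p := by
    have e1 : wX c κ γ p = (∑ X : DirichletCharacter ℂ q,
        2 * (X ((κ γ : (ZMod q)ˣ) : ZMod q)).re * (X ((p : ℕ) : ZMod q)).re) *
          c (Subgroup.zpowers γ) p := by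
      rw [wX, sum_mul]
      refine sum_congr rfl fun X _ ↦ ?_
      rw [uX]
      ring
    rw [e1, sum_congr rfl fun X _ ↦ hre X, ← Complex.re_sum, sum_add_distrib, horth, horth]
    congr 1
    rw [Complex.add_re]
    congr 1
    · split_ifs <;> simp
    · split_ifs <;> simp
  rw [hsum, Wc, ← hkey1, ← hkey2, ← hN]
  split_ifs <;> ring

/-- **Key lower bound.** -/
theorem UB_Wc (hD : ChebData q κ Fr c) {γ : Γ} (hγ : Good κ γ) :
    UB (fun s ↦ -(2 * Real.log (s - 1)) - D (Wc Fr γ) s) := by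
  classical
  obtain ⟨T, hT⟩ := wX_eq hD hγ
  have hwbd : ∀ X : DirichletCharacter ℂ q,
      Bd (fun p ↦ (2 * (X ((κ γ : (ZMod q)ˣ) : ZMod q)).re) * uX c γ X p) :=
    fun X ↦ (uX_bd hD γ X).const_mul _
  have hbd : Bd (wX c κ γ) := Bd.sum univ fun X _ ↦ hwbd X
  have h1 := D_le_of_off hbd ((Wc_bd (Fr := Fr) γ).const_mul (N1 κ γ : ℝ)) T
    fun p hp ↦ (hT p hp).le
  set S1 := Finset.univ.filter fun X : DirichletCharacter ℂ q =>
    X ((κ γ : (ZMod q)ˣ) : ZMod q) = 1 with hS1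
  set S2 := Finset.univ.filter fun X : DirichletCharacter ℂ q =>
    ¬ X ((κ γ : (ZMod q)ˣ) : ZMod q) = 1 with hS2
  have h2 : UB (fun s ↦ ∑ X ∈ S1, (2 * (-Real.log (s - 1) - D (uX c γ X) s))) :=
    UB.sum S1 fun X hX ↦ ((UB_trivial hD (mem_filter.mp hX).2).2).const_mul zero_le_two
  have h3 : UB (fun s ↦ ∑ X ∈ S2, -((2 * (X ((κ γ : (ZMod q)ˣ) : ZMod q)).re) *
      D (uX c γ X) s)) := by
    refine UB.sum S2 fun X hX ↦ ?_
    have hX' := (mem_filter.mp hX).2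
    rcases le_or_gt 0 (2 * (X ((κ γ : (ZMod q)ˣ) : ZMod q)).re) with h | h
    · refine ((UB_nontrivial hD hγ hX').const_mul h).mono (Eventually.of_forall fun s ↦ ?_)
      linarith
    · have h5 : UB (fun s ↦ D (uX c γ X) s) := hD.char γ X hX'
      refine (h5.const_mul (neg_nonneg.mpr h.le)).mono (Eventually.of_forall fun s ↦ ?_)
      linarith
  have hN0 : (0:ℝ) < N1 κ γ := Nat.cast_pos.mpr (N1_pos hγ)
  have h4 := ((h1.add h2).add h3).const_mul (inv_nonneg.mpr hN0.le)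
  refine h4.mono ?_
  filter_upwards [eventually_gt_one] with s hs
  have e1 : D (wX c κ γ) s = ∑ X : DirichletCharacter ℂ q,
      (2 * (X ((κ γ : (ZMod q)ˣ) : ZMod q)).re) * D (uX c γ X) s := by
    have := D_sum (u := fun X p ↦ (2 * (X ((κ γ : (ZMod q)ˣ) : ZMod q)).re) * uX c γ X p)
      univ (fun X _ ↦ hwbd X) hs
    refine this.trans (sum_congr rfl fun X _ ↦ D_const_mul _ _ _)
  have e2 : D (wX c κ γ) s = ∑ X ∈ S1, 2 * D (uX c γ X) s +
      ∑ X ∈ S2, (2 * (X ((κ γ : (ZMod q)ˣ) : ZMod q)).re) * D (uX c γ X) s := by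
    rw [e1, ← sum_filter_add_sum_filter_not univ
      (fun X : DirichletCharacter ℂ q => X ((κ γ : (ZMod q)ˣ) : ZMod q) = 1)]
    congr 1
    refine sum_congr rfl fun X hX ↦ ?_
    rw [(mem_filter.mp hX).2, Complex.one_re, mul_one]
  have hcard : (S1.card : ℝ) = N1 κ γ := rfl
  have e3 : ∑ X ∈ S1, (2 * (-Real.log (s - 1) - D (uX c γ X) s)) =
      -(N1 κ γ : ℝ) * (2 * Real.log (s - 1)) - ∑ X ∈ S1, 2 * D (uX c γ X) s := by
    simp_rw [mul_sub]
    rw [sum_sub_distrib, sum_const, nsmul_eq_mul, hcard]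
    ring
  rw [D_const_mul, e3, sum_neg_distrib, e2]
  have e4 : (N1 κ γ : ℝ)⁻¹ * (∑ X ∈ S1, 2 * D (uX c γ X) s +
      ∑ X ∈ S2, (2 * (X ((κ γ : (ZMod q)ˣ) : ZMod q)).re) * D (uX c γ X) s -
        (N1 κ γ : ℝ) * D (Wc Fr γ) s +
        (-(N1 κ γ : ℝ) * (2 * Real.log (s - 1)) - ∑ X ∈ S1, 2 * D (uX c γ X) s) +
        -∑ X ∈ S2, (2 * (X ((κ γ : (ZMod q)ˣ) : ZMod q)).re) * D (uX c γ X) s) =
      -(2 * Real.log (s - 1)) - D (Wc Fr γ) s := by
    field_simp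
    ring
  rw [e4]

open scoped Classical in
/-- **Symmetrised Chebotarev, weighted form** -/
theorem sum_good_le (hD : ChebData q κ Fr c) (f : Γ → ℝ) (hf0 : ∀ g, 0 ≤ f g)
    (hfc : ∀ g x, f (x⁻¹ * g * x) = f g) (hfi : ∀ g, f g⁻¹ = f g) (η : ℝ)
    (hη : UB (fun s ↦ D (fun p ↦ f (Fr p)) s + η * Real.log (s - 1))) :
    ∑ γ ∈ Finset.univ.filter (fun γ : Γ ↦ Good κ γ), f γ ≤ η * Fintype.card Γ := by
  set G := Finset.univ.filter (fun γ : Γ ↦ Good κ γ) with hG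
  have h1 : UB (fun s ↦ ∑ γ ∈ G, f γ * (-(2 * Real.log (s - 1)) - D (Wc Fr γ) s)) :=
    UB.sum G fun γ hγ ↦ (UB_Wc hD (mem_filter.mp hγ).2).const_mul (hf0 γ)
  have hfbd : Bd (fun p ↦ f (Fr p)) := Bd.of_finite f Fr
  have hpt : ∀ p : Nat.Primes, ∑ γ ∈ G, f γ * Wc Fr γ p ≤ 2 * Fintype.card Γ * f (Fr p) := by
    intro p
    have e1 : ∑ γ ∈ G, f γ * Wc Fr γ p ≤ ∑ γ : Γ, f γ * Wc Fr γ p := by
      refine sum_le_sum_of_subset_of_nonneg (subset_univ _) fun γ _ _ ↦ ?_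
      refine mul_nonneg (hf0 γ) ?_
      rw [Wc]
      positivity
    refine e1.trans (le_of_eq ?_)
    have e2 : ∀ γ : Γ, f γ * Wc Fr γ p = ∑ x : Γ, ((if x⁻¹ * Fr p * x = γ then f γ else 0) +
        (if x⁻¹ * Fr p * x = γ⁻¹ then f γ else 0)) := by
      intro γ
      rw [sum_add_distrib, ← sum_filter, ← sum_filter, sum_const, sum_const, Wc,
        nsmul_eq_mul, nsmul_eq_mul]
      ring
    rw [sum_congr rfl fun γ _ ↦ e2 γ, sum_comm]
    have e3 : ∀ x : Γ, ∑ γ : Γ, ((if x⁻¹ * Fr p * x = γ then f γ else 0) +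
        (if x⁻¹ * Fr p * x = γ⁻¹ then f γ else 0)) = 2 * f (Fr p) := by
      intro x
      rw [sum_add_distrib, sum_ite_eq, if_pos (mem_univ _)]
      have e4 : ∀ γ : Γ, (if x⁻¹ * Fr p * x = γ⁻¹ then f γ else 0) =
          if (x⁻¹ * Fr p * x)⁻¹ = γ then f γ else 0 := fun γ ↦
        if_congr (by rw [inv_eq_iff_eq_inv]) rfl rfl
      rw [sum_congr rfl fun γ _ ↦ e4 γ, sum_ite_eq, if_pos (mem_univ _), hfi, hfc]
      ring
    rw [sum_congr rfl fun x _ ↦ e3 x, sum_const, nsmul_eq_mul, card_univ]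
    ring
  have hbdG : Bd (fun p ↦ ∑ γ ∈ G, f γ * Wc Fr γ p) :=
    Bd.sum G fun γ _ ↦ (Wc_bd γ).const_mul (f γ)
  have h2 := D_le_of_off hbdG (hfbd.const_mul (2 * Fintype.card Γ : ℝ)) ∅ fun p _ ↦ hpt p
  have h3 := hη.const_mul (c := 2 * (Fintype.card Γ : ℝ)) (by positivity)
  have h4 : UB fun s ↦ -((2 * (∑ γ ∈ G, f γ) - 2 * (η * Fintype.card Γ)) * Real.log (s - 1)) := by
    refine ((h1.add h2).add h3).mono ?_
    filter_upwards [eventually_gt_one] with s hs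
    have e1 := D_sum (u := fun γ p ↦ f γ * Wc Fr γ p) G
      (fun γ _ ↦ (Wc_bd (Fr := Fr) γ).const_mul (f γ)) hs
    rw [e1, D_const_mul]
    have e2 : ∑ γ ∈ G, f γ * (-(2 * Real.log (s - 1)) - D (Wc Fr γ) s) =
        -(2 * Real.log (s - 1)) * (∑ γ ∈ G, f γ) -
          ∑ γ ∈ G, D (fun p ↦ f γ * Wc Fr γ p) s := by
      rw [mul_sum, ← sum_sub_distrib]
      refine sum_congr rfl fun γ _ ↦ ?_
      rw [D_const_mul]
      ring
    rw [e2]
    apply le_of_eq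
    ring
  have h5 := UB_neg_log h4
  linarith

end Fermat.Agent.DS.Cheb
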