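import Fermat.Agent.DS.Cheb3
import Fermat.Agent.DS.Cheb5
import Fermat.Agent.FrobDensity.Density
import Fermat.Agent.ESCore.Cyclo

/-!
# The arithmetic input of the Chebotarev theorem
-/

set_option linter.all false
set_option autoImplicit false

namespace Fermat.Agent.DS.Cheb

open scoped Topology
open Finset Filter NumberField
open Fermat.Agent.FrobDensity (idealCount zterm zterm_prime res res_apply exists_frobenius
  exists_idealCount_eq card_fixed exists_bound_sum_primes idealCount_prime_pow_le)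
open Fermat.Agent.ESCore (cyc cyc_spec cyc_eq_of cyc_frob)

local notation "Qbar" => AlgebraicClosure ℚ

variable (M : IntermediateField ℚ Qbar) [FiniteDimensional ℚ M] [IsGalois ℚ M]

/-- ideal counts of the fixed fields -/
noncomputable def cM (H : Subgroup (M ≃ₐ[ℚ] M)) (p : Nat.Primes) : ℝ :=
  (idealCount (IntermediateField.fixedField H) p : ℝ)

lemma cM_bd (H : Subgroup (M ≃ₐ[ℚ] M)) : Bd (cM M H) := by
  refine ⟨2 ^ Module.finrank ℚ (IntermediateField.fixedField H), fun p ↦ ?_⟩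
  have := idealCount_prime_pow_le (IntermediateField.fixedField H) p.2 1
  rw [pow_one] at this
  rw [cM, abs_of_nonneg (Nat.cast_nonneg _)]
  exact_mod_cast this

lemma D_cM (H : Subgroup (M ≃ₐ[ℚ] M)) (s : ℝ) :
    D (cM M H) s = ∑' p : Nat.Primes, zterm (IntermediateField.fixedField H) s p := by
  rw [D]
  refine tsum_congr fun p ↦ ?_
  rw [zterm_prime, cM]

variable {M}

lemma exists_kappa {q : ℕ} [Fact q.Prime] {ζ : Qbar} (hζ : IsPrimitiveRoot ζ q) (hζM : ζ ∈ M) :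
    ∃ κ : (M ≃ₐ[ℚ] M) →* (ZMod q)ˣ, ∀ σ : Qbar ≃ₐ[ℚ] Qbar, κ (res M σ) = cyc q σ := by
  have h1 : IsPrimitiveRoot (⟨ζ, hζM⟩ : M) q :=
    IsPrimitiveRoot.of_map_of_injective (f := algebraMap M Qbar) hζ
      (algebraMap M Qbar).injective
  refine ⟨h1.autToPow ℚ, fun σ ↦ ?_⟩
  have h2 := h1.autToPow_spec ℚ (res M σ)
  have h3 := congrArg (fun z : M ↦ (z : Qbar)) h2
  beta_reduce at h3
  rw [res_apply] at h3
  have h4 : σ ζ = ζ ^ (((h1.autToPow ℚ) (res M σ) : (ZMod q)ˣ) : ZMod q).val := by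
    rw [← h3]
    rfl
  have h5 := cyc_eq_of hζ h4
  apply Units.ext
  rw [h5, ZMod.natCast_zmod_val]

open scoped Classical in
theorem chebData {q : ℕ} [Fact q.Prime] (κ : (M ≃ₐ[ℚ] M) →* (ZMod q)ˣ)
    (hκ : ∀ σ : Qbar ≃ₐ[ℚ] Qbar, κ (res M σ) = cyc q σ)
    (φ : Nat.Primes → (Qbar ≃ₐ[ℚ] Qbar)) (T : Finset Nat.Primes)
    (hφ : ∀ p ∉ T, ∃ A : ValuationSubring Qbar, A.LiesOverPrime p ∧ A.IsFrobeniusAt (φ p) p) :
    ChebData q κ (fun p ↦ res M (φ p)) (cM M) := by
  classical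
  have hq := Fact.out (p := q.Prime)
  haveI : Fact (1 < q) := ⟨hq.one_lt⟩
  choose D₀ hD0 hD using fun H : Subgroup (M ≃ₐ[ℚ] M) ↦
    exists_idealCount_eq (IntermediateField.fixedField H)
  set DD : ℤ := ∏ H : Subgroup (M ≃ₐ[ℚ] M), D₀ H with hDD
  have hDD0 : DD ≠ 0 := Finset.prod_ne_zero_iff.mpr fun H _ ↦ hD0 H
  refine ⟨fun H p ↦ Nat.cast_nonneg _, cM_bd M, ?_, ?_, ?_, ?_⟩
  · obtain ⟨S, hS⟩ : ∃ S : Finset Nat.Primes, ∀ p : Nat.Primes, p ∉ S →
        (p : ℕ) ≠ q ∧ (p : ℕ) ∉ DD.natAbs.primeFactors := by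
      refine ⟨(insert q DD.natAbs.primeFactors).subtype Nat.Prime, fun p hp ↦ ?_⟩
      have h : (p : ℕ) ∉ insert q DD.natAbs.primeFactors := fun h ↦ hp (Finset.mem_subtype.mpr h)
      rw [Finset.mem_insert, not_or] at h
      exact h
    refine ⟨T ∪ S, fun p hp ↦ ?_⟩
    rw [Finset.mem_union, not_or] at hp
    obtain ⟨hpT, hpS⟩ := hp
    obtain ⟨hpq, hpD⟩ := hS p hpS
    obtain ⟨A, hA, hAφ⟩ := hφ p hpT
    have hpq' : ¬ (p : ℕ) ∣ q := fun h ↦ hpq ((Nat.prime_dvd_prime_iff_eq p.2 hq).mp h)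
    refine ⟨?_, fun H ↦ ?_⟩
    · change ((κ (res M (φ p)) : (ZMod q)ˣ) : ZMod q) = _
      rw [hκ]
      exact cyc_frob hA p.2 hAφ hpq'
    · have h2 : ¬ ((p : ℕ) : ℤ) ∣ D₀ H := by
        intro h
        apply hpD
        refine Nat.mem_primeFactors.mpr ⟨p.2, ?_, Int.natAbs_ne_zero.mpr hDD0⟩
        exact Int.natCast_dvd.mp (h.trans (Finset.dvd_prod_of_mem D₀ (Finset.mem_univ H)))
      have h3 := hD H p p.2 h2 A hA (φ p) hAφ
      have h4 := card_fixed M H (φ p)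
      rw [← h3] at h4
      rw [cM]
      exact_mod_cast h4
  · intro H
    obtain ⟨C, hC⟩ := exists_bound_sum_primes (IntermediateField.fixedField H)
    refine ⟨C, ?_⟩
    filter_upwards [hC] with s hs
    rw [D_cM]
    exact (abs_le.mp hs).2
  · intro H
    obtain ⟨C, hC⟩ := exists_bound_sum_primes (IntermediateField.fixedField H)
    refine ⟨C, ?_⟩
    filter_upwards [hC] with s hs
    rw [D_cM]
    have := (abs_le.mp hs).1
    linarith
  · intro γ X hX
    obtain ⟨σ, rfl⟩ := AlgEquiv.restrictNormalHom_surjective (F := ℚ) (K₁ := M) Qbar γ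
    change X ((κ (res M σ) : (ZMod q)ˣ) : ZMod q) ≠ 1 at hX
    change UB (D fun p => (X ((p : ℕ) : ZMod q)).re * cM M (Subgroup.zpowers (res M σ)) p)
    set H := Subgroup.zpowers (res M σ) with hH
    obtain ⟨l, hl, hlT, A, hA, ψ, hψ, hz⟩ := exists_frobenius M σ
      (insert q (D₀ H).natAbs.primeFactors)
    rw [Finset.mem_insert, not_or] at hlT
    have hlq : ¬ l ∣ q := fun h ↦ hlT.1 ((Nat.prime_dvd_prime_iff_eq hl hq).mp h)
    have hlD : ¬ (l : ℤ) ∣ D₀ H := by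
      intro h
      exact hlT.2 (Nat.mem_primeFactors.mpr ⟨hl, Int.natCast_dvd.mp h,
        Int.natAbs_ne_zero.mpr (hD0 H)⟩)
    have h3 := hD H l hl hlD A hA ψ hψ
    have h4 := card_fixed M H ψ
    rw [← h3] at h4
    have h5 : idealCount (IntermediateField.fixedField H) l ≠ 0 := by
      intro h0
      rw [h0, zero_mul] at h4
      have h6 : (1 : M ≃ₐ[ℚ] M) ∈ (Finset.univ.filter fun g : M ≃ₐ[ℚ] M =>
          g⁻¹ * res M ψ * g ∈ H) := by
        rw [mem_filter]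
        refine ⟨mem_univ _, ?_⟩
        rw [inv_one, one_mul, mul_one, hH, ← hz]
        exact Subgroup.mem_zpowers _
      have h7 := Finset.card_pos.mpr ⟨_, h6⟩
      omega
    have h6 : X ((l : ℕ) : ZMod q) ≠ 1 := by
      intro h1
      apply hX
      have h7 : res M σ ∈ Submonoid.powers (res M ψ) := by
        rw [mem_powers_iff_mem_zpowers, hz]
        exact Subgroup.mem_zpowers _
      obtain ⟨i, hi⟩ := h7
      simp only at hi
      rw [← hi, map_pow, hκ, Units.val_pow_eq_pow_val, cyc_frob hA hl hψ hlq, map_pow, h1,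
        one_pow]
    obtain ⟨C, hC⟩ := exists_sum_le (IntermediateField.fixedField H) X l hl hlq h5 h6
    refine ⟨C, ?_⟩
    filter_upwards [hC] with s hs
    refine le_trans (le_of_eq ?_) hs
    rw [D]
    refine tsum_congr fun p ↦ ?_
    rw [zterm_prime, cM]
    ring

end Fermat.Agent.DS.Cheb
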