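import Fermat.Agent.DS.Cheb6

/-!
# The symmetrised Chebotarev theorem
-/

set_option linter.all false
set_option autoImplicit false

namespace Fermat.Agent.DS.Cheb

open scoped Topology
open Finset Filter NumberField
open Fermat.Agent.FrobDensity (res res_apply)
open Fermat.Agent.ESCore (cyc cyc_spec cyc_eq_of cyc_frob exists_primitiveRoot)

local notation "Qbar" => AlgebraicClosure ℚ

/-! ### counting lemmas -/

lemma exists_prime_pow_dvd {n o t k : ℕ} (hn : n ≠ 0) (ho : o ≠ 0) (ht : t ≠ 0)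
    (h : n ^ (k + 1) ∣ o * t) (hno : ¬ n ∣ o) : ∃ ℓ : ℕ, ℓ ∈ n.primeFactors ∧ ℓ ^ k ∣ t := by
  by_contra hcon
  push Not at hcon
  apply hno
  rw [← Nat.factorization_prime_le_iff_dvd hn ho]
  intro ℓ hℓ
  by_cases hd : ℓ ∣ n
  · have h1 := hcon ℓ (Nat.mem_primeFactors.mpr ⟨hℓ, hd, hn⟩)
    rw [hℓ.pow_dvd_iff_le_factorization ht] at h1
    have h2 := (Nat.factorization_le_iff_dvd (pow_ne_zero _ hn) (mul_ne_zero ho ht)).mpr h ℓ
    rw [Nat.factorization_mul ho ht, Nat.factorization_pow] at h2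
    simp only [Finsupp.smul_apply, Finsupp.add_apply, smul_eq_mul] at h2
    have h3 : 1 ≤ n.factorization ℓ := (hℓ.dvd_iff_one_le_factorization hn).mp hd
    nlinarith [Nat.mul_le_mul_left k h3]
  · rw [Nat.factorization_eq_zero_of_not_dvd hd]
    exact Nat.zero_le _

lemma sum_fiber {G G' : Type*} [Group G] [Fintype G] [Group G'] [Fintype G'] [DecidableEq G']
    (r : G →* G') (hr : Function.Surjective r) (f : G' → ℝ) :
    (∑ g, f (r g)) * Fintype.card G' = Fintype.card G * ∑ g, f g := by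
  have h1 : ∀ y : G', (Finset.univ.filter fun g ↦ r g = y).card =
      (Finset.univ.filter fun g ↦ r g = 1).card := fun y ↦
    MonoidHom.card_fiber_eq_of_mem_range r (hr y) (hr 1)
  have h2 : ∑ g, f (r g) = (Finset.univ.filter fun g ↦ r g = 1).card * ∑ g, f g := by
    rw [← Finset.sum_fiberwise univ r, mul_sum]
    refine sum_congr rfl fun y _ ↦ ?_
    rw [sum_congr rfl (fun g hg ↦ by rw [(mem_filter.mp hg).2]), sum_const, h1, nsmul_eq_mul]
  have h3 : Fintype.card G = (Finset.univ.filter fun g ↦ r g = 1).card * Fintype.card G' := by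
    rw [← card_univ (α := G), Finset.card_eq_sum_card_fiberwise (f := r) (t := univ)
      (fun _ _ ↦ mem_univ _), sum_congr rfl fun y _ ↦ h1 y, sum_const, smul_eq_mul, card_univ,
      mul_comm]
  rw [h2, h3]
  push_cast
  ring

lemma card_bad_units {q n k : ℕ} [Fact q.Prime] (hn : n ≠ 0) (hq : n ^ (k + 1) ∣ q - 1) :
    ((Finset.univ.filter fun b : (ZMod q)ˣ ↦ ¬ n ∣ orderOf b).card : ℝ) * 2 ^ k ≤
      n * ((q - 1 : ℕ) : ℝ) := by
  classical
  have hq' := Fact.out (p := q.Prime)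
  have hq1 : 0 < q - 1 := Nat.sub_pos_of_lt hq'.one_lt
  have hsub : (Finset.univ.filter fun b : (ZMod q)ˣ ↦ ¬ n ∣ orderOf b) ⊆
      n.primeFactors.biUnion fun ℓ ↦ Finset.univ.filter fun b : (ZMod q)ˣ ↦
        b ^ ((q - 1) / ℓ ^ k) = 1 := by
    intro b hb
    have hb' := (mem_filter.mp hb).2
    have ho : orderOf b ∣ q - 1 := by
      apply orderOf_dvd_of_pow_eq_one
      rw [← Nat.totient_prime hq', ← ZMod.card_units_eq_totient q]
      exact pow_card_eq_one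
    obtain ⟨t, ht⟩ := ho
    have hot : orderOf b * t ≠ 0 := by rw [← ht]; exact hq1.ne'
    obtain ⟨ℓ, hℓ, hℓt⟩ := exists_prime_pow_dvd hn (left_ne_zero_of_mul hot)
      (right_ne_zero_of_mul hot) (ht ▸ hq) hb'
    refine mem_biUnion.mpr ⟨ℓ, hℓ, mem_filter.mpr ⟨mem_univ _, ?_⟩⟩
    apply orderOf_dvd_iff_pow_eq_one.mp
    obtain ⟨t', rfl⟩ := hℓt
    rw [ht, ← mul_assoc, mul_comm (orderOf b) (ℓ ^ k), mul_assoc,
      Nat.mul_div_cancel_left _ (pow_pos (Nat.prime_of_mem_primeFactors hℓ).pos _)]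
    exact dvd_mul_right _ _
  have h1 := (card_le_card hsub).trans card_biUnion_le
  have h2 : ∀ ℓ ∈ n.primeFactors, ((Finset.univ.filter fun b : (ZMod q)ˣ ↦
        b ^ ((q - 1) / ℓ ^ k) = 1).card : ℝ) * 2 ^ k ≤ ((q - 1 : ℕ) : ℝ) := by
    intro ℓ hℓ
    have hℓp := Nat.prime_of_mem_primeFactors hℓ
    have hdvd : ℓ ^ k ∣ q - 1 := by
      refine dvd_trans ?_ hq
      refine (pow_dvd_pow_of_dvd (Nat.dvd_of_mem_primeFactors hℓ) k).trans ?_
      exact pow_dvd_pow n (Nat.le_succ k)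
    obtain ⟨t, ht⟩ := hdvd
    have ht0 : 0 < t := by
      rcases Nat.eq_zero_or_pos t with h | h
      · rw [h, mul_zero] at ht
        omega
      · exact h
    have h3 : (q - 1) / ℓ ^ k = t := by
      rw [ht, Nat.mul_div_cancel_left _ (pow_pos hℓp.pos _)]
    have h4 : (Finset.univ.filter fun b : (ZMod q)ˣ ↦ b ^ ((q - 1) / ℓ ^ k) = 1).card ≤ t := by
      rw [h3]
      exact IsCyclic.card_pow_eq_one_le ht0
    have h5 : t * 2 ^ k ≤ q - 1 := by
      rw [ht, mul_comm]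
      exact Nat.mul_le_mul_right _ (Nat.pow_le_pow_left hℓp.two_le k)
    exact_mod_cast (Nat.mul_le_mul_right (2 ^ k) h4).trans h5
  have h3 : (∑ ℓ ∈ n.primeFactors, (Finset.univ.filter fun b : (ZMod q)ˣ ↦
        b ^ ((q - 1) / ℓ ^ k) = 1).card : ℝ) * 2 ^ k ≤ n * ((q - 1 : ℕ) : ℝ) := by
    rw [sum_mul]
    refine (sum_le_sum h2).trans ?_
    rw [sum_const, nsmul_eq_mul]
    refine mul_le_mul_of_nonneg_right ?_ (Nat.cast_nonneg _)
    have h6 : n.primeFactors.card ≤ n := by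
      have h7 : n.primeFactors ⊆ Finset.Icc 1 n := by
        intro ℓ hℓ
        rw [Finset.mem_Icc]
        exact ⟨(Nat.prime_of_mem_primeFactors hℓ).one_lt.le, Nat.le_of_mem_primeFactors hℓ⟩
      have := card_le_card h7
      rwa [Nat.card_Icc, Nat.add_sub_cancel] at this
    exact_mod_cast h6
  refine le_trans (mul_le_mul_of_nonneg_right ?_ (by positivity)) h3
  exact_mod_cast h1

/-! ### restriction maps -/

lemma exists_restrict (M M' : IntermediateField ℚ Qbar) [FiniteDimensional ℚ M] [IsGalois ℚ M]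
    [FiniteDimensional ℚ M'] [IsGalois ℚ M'] (h : M ≤ M') :
    ∃ r : (M' ≃ₐ[ℚ] M') →* (M ≃ₐ[ℚ] M), Function.Surjective r ∧
      ∀ σ, r (res M' σ) = res M σ := by
  have hs : Function.Surjective (res M') :=
    AlgEquiv.restrictNormalHom_surjective (F := ℚ) (K₁ := M') Qbar
  have hs' : Function.Surjective (res M) :=
    AlgEquiv.restrictNormalHom_surjective (F := ℚ) (K₁ := M) Qbar
  have hker : (res M').ker ≤ (res M).ker := by
    intro σ hσ
    rw [MonoidHom.mem_ker] at hσ ⊢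
    ext x
    have h1 := res_apply M' σ ⟨x, h x.2⟩
    rw [hσ] at h1
    rw [res_apply]
    exact h1.symm
  refine ⟨(res M').liftOfSurjective hs ⟨res M, hker⟩, fun y ↦ ?_, fun σ ↦ ?_⟩
  · obtain ⟨σ, rfl⟩ := hs' y
    exact ⟨res M' σ, MonoidHom.liftOfRightInverse_comp_apply _ _ _ _ σ⟩
  · exact MonoidHom.liftOfRightInverse_comp_apply _ _ _ _ σ

lemma normal_conv {M : IntermediateField ℚ Qbar} :
    @Normal ℚ M _ _ (DivisionRing.toRatAlgebra) ↔ @Normal ℚ M _ _ (M.algebra') := by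
  have e : (DivisionRing.toRatAlgebra : Algebra ℚ M) = M.algebra' := Subsingleton.elim _ _
  rw [e]

lemma isGalois_sup (M E : IntermediateField ℚ Qbar) [h1 : IsGalois ℚ M] [h2 : IsGalois ℚ E] :
    IsGalois ℚ (M ⊔ E : IntermediateField ℚ Qbar) := by
  have h3 : Normal ℚ M := IsGalois.to_normal
  have h4 : Normal ℚ E := IsGalois.to_normal
  have h5 := normal_conv.mp h3
  have h6 := normal_conv.mp h4
  have h7 := @IntermediateField.normal_sup ℚ Qbar _ _ _ M E h5 h6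
  have h8 : Normal ℚ (M ⊔ E : IntermediateField ℚ Qbar) := normal_conv.mpr h7
  exact ⟨⟩

lemma cyc_surjective (q : ℕ) [Fact q.Prime] (b : (ZMod q)ˣ) : ∃ σ : Qbar ≃ₐ[ℚ] Qbar,
    cyc q σ = b := by
  have hq := Fact.out (p := q.Prime)
  obtain ⟨l, hl, hlp, hlb⟩ := Nat.forall_exists_prime_gt_and_eq_mod b.isUnit q
  obtain ⟨A, hA⟩ := Fermat.Agent.GaloisBasics.exists_liesOverPrime hlp
  obtain ⟨φ, hφ⟩ := Fermat.Agent.GaloisBasics.exists_isFrobeniusAt hlp A hA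
  refine ⟨φ, Units.ext ?_⟩
  rw [cyc_frob hA hlp hφ (fun h ↦ hl.ne' ((Nat.prime_dvd_prime_iff_eq hlp hq).mp h)), hlb]

open scoped Classical in
/-- approximate version -/
lemma cheb_aux (M : IntermediateField ℚ Qbar) [FiniteDimensional ℚ M] [IsGalois ℚ M]
    (f : (M ≃ₐ[ℚ] M) → ℝ) (hf0 : ∀ g, 0 ≤ f g) (hfc : ∀ g x, f (x⁻¹ * g * x) = f g)
    (hfi : ∀ g, f g⁻¹ = f g) (φ : Nat.Primes → (Qbar ≃ₐ[ℚ] Qbar)) (T : Finset Nat.Primes)
    (hφ : ∀ p ∉ T, ∃ A : ValuationSubring Qbar, A.LiesOverPrime p ∧ A.IsFrobeniusAt (φ p) p)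
    (η : ℝ) (hη : UB (fun s ↦ D (fun p ↦ f (res M (φ p))) s + η * Real.log (s - 1))) (k : ℕ) :
    (∑ g, f g) * 2 ^ k ≤ η * Fintype.card (M ≃ₐ[ℚ] M) * 2 ^ k +
      (∑ g, f g) * (Fintype.card (M ≃ₐ[ℚ] M)) ^ 2 := by
  set n := Fintype.card (M ≃ₐ[ℚ] M) with hn
  have hn0 : n ≠ 0 := Fintype.card_ne_zero
  obtain ⟨q, hqp, hq2, hqmod⟩ := Nat.exists_prime_gt_modEq_one (k := n ^ (k + 1)) 2
    (pow_ne_zero _ hn0)
  haveI : Fact q.Prime := ⟨hqp⟩
  have hqdvd : n ^ (k + 1) ∣ q - 1 := (Nat.modEq_iff_dvd' hqp.one_lt.le).mp hqmod.symm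
  obtain ⟨ζ, hζ⟩ := exists_primitiveRoot q
  haveI hcyc : IsCyclotomicExtension {q} ℚ (IntermediateField.adjoin ℚ {ζ}) :=
    hζ.intermediateField_adjoin_isCyclotomicExtension (K := ℚ)
  haveI : IsGalois ℚ (IntermediateField.adjoin ℚ {ζ}) :=
    IsCyclotomicExtension.isGalois {q} ℚ _
  haveI : FiniteDimensional ℚ (IntermediateField.adjoin ℚ {ζ}) :=
    IsCyclotomicExtension.finiteDimensional {q} ℚ _
  set M' : IntermediateField ℚ Qbar := M ⊔ IntermediateField.adjoin ℚ {ζ} with hM'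
  haveI : FiniteDimensional ℚ M' := IntermediateField.finiteDimensional_sup _ _
  haveI : IsGalois ℚ M' := isGalois_sup _ _
  have hζM : ζ ∈ M' := (le_sup_right : _ ≤ M') (IntermediateField.mem_adjoin_simple_self ℚ ζ)
  obtain ⟨κ, hκ⟩ := exists_kappa (M := M') hζ hζM
  obtain ⟨r, hrs, hr⟩ := exists_restrict M M' le_sup_left
  have hD := chebData (M := M') κ hκ φ T hφ
  have hs : Function.Surjective (res M') :=
    AlgEquiv.restrictNormalHom_surjective (F := ℚ) (K₁ := M') Qbar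
  have hκs : Function.Surjective κ := by
    intro b
    obtain ⟨σ, hσ⟩ := cyc_surjective q b
    exact ⟨res M' σ, by rw [hκ, hσ]⟩
  have h1 := sum_good_le hD (fun g ↦ f (r g)) (fun g ↦ hf0 _)
    (fun g x ↦ by
      rw [map_mul, map_mul, map_inv]
      exact hfc _ _) (fun g ↦ by
      rw [map_inv]
      exact hfi _) η (by
      refine hη.mono (Eventually.of_forall fun s ↦ le_of_eq ?_)
      congr 2
      funext p
      rw [hr])
  -- bad elements
  have hbad : ∀ γ : M' ≃ₐ[ℚ] M', ¬ Good κ γ → ¬ n ∣ orderOf (κ γ) := by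
    intro γ hγ hdvd
    apply hγ
    intro g hg hkg
    obtain ⟨i, hi⟩ := (mem_powers_iff_mem_zpowers.mpr hg)
    simp only at hi
    have h2 : orderOf (κ γ) ∣ i := by
      apply orderOf_dvd_of_pow_eq_one
      rw [← map_pow, hi, hkg]
    have h3 : r g = 1 := by
      obtain ⟨j, hj⟩ := hdvd.trans h2
      rw [← hi, map_pow, hj, pow_mul, hn, pow_card_eq_one, one_pow]
    obtain ⟨σ, rfl⟩ := hs g
    rw [hr] at h3
    rw [hκ] at hkg
    -- σ fixes M and ζ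
    have h4 : ∀ x ∈ M, σ x = x := by
      intro x hx
      have := res_apply M σ ⟨x, hx⟩
      rw [h3] at this
      exact this.symm
    have h5 : σ ζ = ζ := by
      have := cyc_spec σ hζ.pow_eq_one
      rw [hkg, Units.val_one, ZMod.val_one, pow_one] at this
      exact this
    have h6 : ∀ x ∈ M', σ x = x := by
      let F : IntermediateField ℚ Qbar := IntermediateField.fixedField (Subgroup.zpowers σ)
      have hF : M' ≤ F := by
        have hgen : ∀ x : Qbar, σ x = x → x ∈ F := by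
          intro x hx
          rw [IntermediateField.mem_fixedField_iff]
          intro τ hτ
          obtain ⟨m, rfl⟩ := Subgroup.mem_zpowers_iff.mp hτ
          have hst : σ ∈ MulAction.stabilizer (Qbar ≃ₐ[ℚ] Qbar) x := hx
          exact (zpow_mem hst m : σ ^ m ∈ MulAction.stabilizer (Qbar ≃ₐ[ℚ] Qbar) x)
        refine sup_le (fun x hx ↦ hgen x (h4 x hx)) ?_
        rw [IntermediateField.adjoin_le_iff]
        intro x hx
        rw [Set.mem_singleton_iff] at hx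
        rw [hx]
        exact hgen ζ h5
      intro x hx
      have := hF hx
      rw [IntermediateField.mem_fixedField_iff] at this
      exact this σ (Subgroup.mem_zpowers σ)
    ext x
    rw [res_apply]
    exact h6 x x.2
  have hF : ∀ g, f g ≤ ∑ g, f g := fun g ↦
    single_le_sum (f := f) (fun g _ ↦ hf0 g) (mem_univ g)
  have h2 : ∑ γ ∈ Finset.univ.filter (fun γ : M' ≃ₐ[ℚ] M' ↦ ¬ Good κ γ), f (r γ) ≤
      ((Finset.univ.filter (fun γ : M' ≃ₐ[ℚ] M' ↦ ¬ Good κ γ)).card : ℝ) * ∑ g, f g := by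
    rw [← nsmul_eq_mul, ← sum_const]
    exact sum_le_sum fun γ _ ↦ hF _
  have h3 : ((Finset.univ.filter (fun γ : M' ≃ₐ[ℚ] M' ↦ ¬ Good κ γ)).card : ℝ) * 2 ^ k ≤
      n * Fintype.card (M' ≃ₐ[ℚ] M') := by
    have e1 : ((Finset.univ.filter (fun γ : M' ≃ₐ[ℚ] M' ↦ ¬ Good κ γ)).card : ℝ) ≤
        ∑ γ : M' ≃ₐ[ℚ] M', (if ¬ n ∣ orderOf (κ γ) then (1:ℝ) else 0) := by
      rw [← Finset.sum_filter, Finset.sum_const, nsmul_eq_mul, mul_one]
      exact_mod_cast card_le_card fun γ hγ ↦ by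
        rw [mem_filter] at hγ ⊢
        exact ⟨hγ.1, hbad γ hγ.2⟩
    have e2 := sum_fiber κ hκs (fun b : (ZMod q)ˣ ↦ if ¬ n ∣ orderOf b then (1:ℝ) else 0)
    have e3 : ∑ b : (ZMod q)ˣ, (if ¬ n ∣ orderOf b then (1:ℝ) else 0) =
        ((Finset.univ.filter fun b : (ZMod q)ˣ ↦ ¬ n ∣ orderOf b).card : ℝ) := by
      rw [← Finset.sum_filter, Finset.sum_const, nsmul_eq_mul, mul_one]
    rw [e3, ZMod.card_units_eq_totient, Nat.totient_prime hqp] at e2
    have e4 := card_bad_units (q := q) (n := n) (k := k) hn0 hqdvd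
    have hq0 : (0:ℝ) < ((q - 1 : ℕ) : ℝ) := by
      exact_mod_cast Nat.sub_pos_of_lt hqp.one_lt
    refine le_of_mul_le_mul_right ?_ hq0
    calc ((Finset.univ.filter (fun γ : M' ≃ₐ[ℚ] M' ↦ ¬ Good κ γ)).card : ℝ) * 2 ^ k *
          ((q - 1 : ℕ) : ℝ)
        ≤ (∑ γ : M' ≃ₐ[ℚ] M', (if ¬ n ∣ orderOf (κ γ) then (1:ℝ) else 0)) * 2 ^ k *
          ((q - 1 : ℕ) : ℝ) := by gcongr
      _ = Fintype.card (M' ≃ₐ[ℚ] M') *
          (((Finset.univ.filter fun b : (ZMod q)ˣ ↦ ¬ n ∣ orderOf b).card : ℝ) * 2 ^ k) := by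
          linear_combination (2:ℝ) ^ k * e2
      _ ≤ Fintype.card (M' ≃ₐ[ℚ] M') * (n * ((q - 1 : ℕ) : ℝ)) := by gcongr
      _ = _ := by ring
  have h4 := sum_fiber r hrs f
  have h5 : ∑ γ : M' ≃ₐ[ℚ] M', f (r γ) =
      ∑ γ ∈ Finset.univ.filter (fun γ : M' ≃ₐ[ℚ] M' ↦ Good κ γ), f (r γ) +
      ∑ γ ∈ Finset.univ.filter (fun γ : M' ≃ₐ[ℚ] M' ↦ ¬ Good κ γ), f (r γ) :=
    (sum_filter_add_sum_filter_not _ _ _).symm
  have hS0 : 0 ≤ ∑ g, f g := sum_nonneg fun g _ ↦ hf0 g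
  have hG0 : (0:ℝ) < Fintype.card (M' ≃ₐ[ℚ] M') := by exact_mod_cast Fintype.card_pos
  have hn0' : (0:ℝ) < n := by exact_mod_cast Nat.pos_of_ne_zero hn0
  rw [← hn] at h4
  refine le_of_mul_le_mul_left ?_ hG0
  have h6 : (∑ γ : M' ≃ₐ[ℚ] M', f (r γ)) * 2 ^ k ≤
      η * Fintype.card (M' ≃ₐ[ℚ] M') * 2 ^ k +
        (n * Fintype.card (M' ≃ₐ[ℚ] M')) * ∑ g, f g := by
    rw [h5, add_mul]
    refine add_le_add (mul_le_mul_of_nonneg_right h1 (by positivity)) ?_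
    calc _ ≤ (((Finset.univ.filter (fun γ : M' ≃ₐ[ℚ] M' ↦ ¬ Good κ γ)).card : ℝ) *
          ∑ g, f g) * 2 ^ k := mul_le_mul_of_nonneg_right h2 (by positivity)
      _ = (((Finset.univ.filter (fun γ : M' ≃ₐ[ℚ] M' ↦ ¬ Good κ γ)).card : ℝ) * 2 ^ k) *
          ∑ g, f g := by ring
      _ ≤ _ := mul_le_mul_of_nonneg_right h3 hS0
  calc (Fintype.card (M' ≃ₐ[ℚ] M') : ℝ) * ((∑ g, f g) * 2 ^ k)
      = n * ((∑ γ : M' ≃ₐ[ℚ] M', f (r γ)) * 2 ^ k) := by
        linear_combination -(2:ℝ) ^ k * h4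
    _ ≤ n * (η * Fintype.card (M' ≃ₐ[ℚ] M') * 2 ^ k +
        (n * Fintype.card (M' ≃ₐ[ℚ] M')) * ∑ g, f g) :=
        mul_le_mul_of_nonneg_left h6 hn0'.le
    _ = _ := by ring

/-- **Symmetrised Chebotarev theorem** (upper bound form). -/
theorem chebotarev_sym (M : IntermediateField ℚ Qbar) [FiniteDimensional ℚ M] [IsGalois ℚ M]
    (f : (M ≃ₐ[ℚ] M) → ℝ) (hf0 : ∀ g, 0 ≤ f g) (hfc : ∀ g x, f (x⁻¹ * g * x) = f g)
    (hfi : ∀ g, f g⁻¹ = f g) (φ : Nat.Primes → (Qbar ≃ₐ[ℚ] Qbar)) (T : Finset Nat.Primes)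
    (hφ : ∀ p ∉ T, ∃ A : ValuationSubring Qbar, A.LiesOverPrime p ∧ A.IsFrobeniusAt (φ p) p)
    (η : ℝ) (hη : UB (fun s ↦ D (fun p ↦ f (res M (φ p))) s + η * Real.log (s - 1))) :
    ∑ g, f g ≤ η * Fintype.card (M ≃ₐ[ℚ] M) := by
  classical
  by_contra hcon
  push Not at hcon
  set δ := ∑ g, f g - η * Fintype.card (M ≃ₐ[ℚ] M) with hδ
  have hδ0 : 0 < δ := sub_pos.mpr hcon
  set B := (∑ g, f g) * (Fintype.card (M ≃ₐ[ℚ] M)) ^ 2 with hB
  obtain ⟨k, hk⟩ := pow_unbounded_of_one_lt (B / δ) (one_lt_two (α := ℝ))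
  rw [div_lt_iff₀ hδ0] at hk
  have h1 := cheb_aux M f hf0 hfc hfi φ T hφ η hη k
  have h2 : δ * 2 ^ k ≤ B := by
    rw [hδ, hB]
    linarith
  linarith

end Fermat.Agent.DS.Cheb
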