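import Mathlib
import Fermat.Agent.ESCore.EisG

/-!
# An Eisenstein series of weight one

`GW l v = ∑_w (2 / (l w + v) - 1 / (l w + 2 v) - 1 / (l w))`, an absolutely convergent series.
-/

set_option linter.all false
set_option autoImplicit false

open UpperHalfPlane hiding I
open Complex Function Filter Topology ModularForm CongruenceSubgroup ModularGroup
open EisensteinSeries
open scoped Manifold MatrixGroups ModularForm Real Matrix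

noncomputable section

namespace Fermat.Agent.DS.W1

open Fermat.Agent.ESCore.EisG (vecEquiv)

/-- the linear form `v₀ z + v₁` -/
def lf (v : Fin 2 → ℤ) (z : ℍ) : ℂ := v 0 * z + v 1

theorem lf_add (v w : Fin 2 → ℤ) (z : ℍ) : lf (v + w) z = lf v z + lf w z := by
  simp only [lf, Pi.add_apply]
  push_cast
  ring

theorem lf_smul (l : ℤ) (v : Fin 2 → ℤ) (z : ℍ) : lf (l • v) z = l * lf v z := by
  simp only [lf, Pi.smul_apply, smul_eq_mul]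
  push_cast
  ring

theorem lf_ge {v : Fin 2 → ℤ} (hv : v ≠ 0) (z : ℍ) : r z * ‖v‖ ≤ ‖lf v z‖ := r_mul_max_le z hv

theorem one_le_norm {v : Fin 2 → ℤ} (hv : v ≠ 0) : 1 ≤ ‖v‖ := by
  obtain ⟨i, hi⟩ := Function.ne_iff.mp hv
  refine le_trans ?_ (norm_le_pi_norm v i)
  rw [Int.norm_eq_abs]
  exact_mod_cast Int.one_le_abs hi

theorem lf_ne_zero {v : Fin 2 → ℤ} (hv : v ≠ 0) (z : ℍ) : lf v z ≠ 0 := by
  intro h
  have h1 := lf_ge hv z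
  rw [h, norm_zero] at h1
  have h2 := mul_pos (r_pos z) (lt_of_lt_of_le one_pos (one_le_norm hv))
  linarith

/-- the inverse of the linear form -/
def ei (v : Fin 2 → ℤ) (z : ℍ) : ℂ := (lf v z)⁻¹

theorem ei_smul (v : Fin 2 → ℤ) (A : SL(2, ℤ)) (z : ℍ) :
    ei v (A • z) = denom A z * ei (v ᵥ* (A : Matrix (Fin 2) (Fin 2) ℤ)) z := by
  have h := eisSummand_SL2_apply 1 v A z
  simp only [eisSummand, zpow_neg, zpow_one] at h
  exact h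

/-- the summand -/
def TT (l : ℤ) (v w : Fin 2 → ℤ) (z : ℍ) : ℂ :=
  2 * ei (l • w + v) z - ei (l • w + (2 : ℤ) • v) z - ei (l • w) z

/-- the weight one Eisenstein series -/
def GW (l : ℤ) (v : Fin 2 → ℤ) (z : ℍ) : ℂ := ∑' w : Fin 2 → ℤ, TT l v w z

theorem TT_smul (l : ℤ) (v w : Fin 2 → ℤ) (A : SL(2, ℤ)) (z : ℍ) :
    TT l v w (A • z) = denom A z * TT l (v ᵥ* (A : Matrix (Fin 2) (Fin 2) ℤ))
      (w ᵥ* (A : Matrix (Fin 2) (Fin 2) ℤ)) z := by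
  simp only [TT, ei_smul, Matrix.add_vecMul, Matrix.smul_vecMul]
  ring

theorem GW_slash (l : ℤ) (v : Fin 2 → ℤ) (A : SL(2, ℤ)) :
    GW l v ∣[(1 : ℤ)] A = GW l (v ᵥ* (A : Matrix (Fin 2) (Fin 2) ℤ)) := by
  ext z
  have hd : denom A (z : ℂ) ≠ 0 := denom_ne_zero _ z
  have h : GW l v (A • z) = denom A z * GW l (v ᵥ* (A : Matrix (Fin 2) (Fin 2) ℤ)) z := by
    have h1 := (vecEquiv A).tsum_eq (fun w => denom A z *
      TT l (v ᵥ* (A : Matrix (Fin 2) (Fin 2) ℤ)) w z)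
    rw [GW, GW, ← tsum_mul_left, ← h1]
    exact tsum_congr fun w => TT_smul l v w A z
  rw [SL_slash_apply, h, zpow_neg, zpow_one, mul_comm (denom A (z : ℂ)), mul_inv_cancel_right₀ hd]

/-! ### Estimates -/

theorem lower {l : ℤ} (hl : 1 ≤ l) {v w : Fin 2 → ℤ} (h : l • w + v ≠ 0) :
    ‖w‖ ≤ (1 + ‖v‖) * ‖l • w + v‖ := by
  have h1 := one_le_norm h
  have h2 : ‖l • w‖ ≤ ‖l • w + v‖ + ‖v‖ := by
    have := norm_sub_le (l • w + v) v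
    rwa [add_sub_cancel_right] at this
  have h3 : ‖w‖ ≤ ‖l • w‖ := by
    rw [norm_smul]
    have h4 : (1 : ℝ) ≤ ‖l‖ := by
      rw [Int.norm_eq_abs]
      exact_mod_cast hl.trans (le_abs_self l)
    exact le_mul_of_one_le_left (norm_nonneg _) h4
  nlinarith [norm_nonneg v, norm_nonneg w]

theorem norm_ei_le {l : ℤ} (hl : 1 ≤ l) {v w : Fin 2 → ℤ} (h : l • w + v ≠ 0) (z : ℍ)
    {r₀ : ℝ} (hr₀ : 0 < r₀) (hr : r₀ ≤ r z) (hw : w ≠ 0) :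
    ‖ei (l • w + v) z‖ ≤ r₀⁻¹ * (1 + ‖v‖) * ‖w‖⁻¹ := by
  have h1 := lf_ge h z
  have h2 := lower hl h
  have h3 := one_le_norm h
  have h4 := one_le_norm hw
  have h5 : 0 < ‖lf (l • w + v) z‖ := norm_pos_iff.mpr (lf_ne_zero h z)
  rw [ei, norm_inv]
  have h6 : r₀⁻¹ * (1 + ‖v‖) * ‖w‖⁻¹ = (1 + ‖v‖) / (r₀ * ‖w‖) := by
    field_simp
  rw [h6, inv_eq_one_div, div_le_div_iff₀ h5 (by positivity), one_mul]
  have h7 : r₀ * ‖l • w + v‖ ≤ ‖lf (l • w + v) z‖ :=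
    (mul_le_mul_of_nonneg_right hr (norm_nonneg _)).trans h1
  calc r₀ * ‖w‖ ≤ r₀ * ((1 + ‖v‖) * ‖l • w + v‖) := mul_le_mul_of_nonneg_left h2 hr₀.le
    _ = (1 + ‖v‖) * (r₀ * ‖l • w + v‖) := by ring
    _ ≤ (1 + ‖v‖) * ‖lf (l • w + v) z‖ := mul_le_mul_of_nonneg_left h7 (by positivity)

theorem TT_eq {l : ℤ} {v w : Fin 2 → ℤ} {z : ℍ} (h0 : l • w ≠ 0) (h1 : l • w + v ≠ 0)
    (h2 : l • w + (2 : ℤ) • v ≠ 0) :
    TT l v w z = -2 * lf v z ^ 2 * (ei (l • w + v) z * ei (l • w + (2 : ℤ) • v) z * ei (l • w) z) := by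
  have e0 := lf_ne_zero h0 z
  have e1 := lf_ne_zero h1 z
  have e2 := lf_ne_zero h2 z
  have a1 : lf (l • w + v) z = lf (l • w) z + lf v z := lf_add _ _ _
  have a2 : lf (l • w + (2 : ℤ) • v) z = lf (l • w) z + 2 * lf v z := by
    rw [lf_add, lf_smul (2 : ℤ)]
    push_cast
    ring
  rw [a1] at e1
  rw [a2] at e2
  simp only [TT, ei, a1, a2]
  field_simp
  ring

/-- the condition on `v` -/
def Adm (l : ℤ) (v : Fin 2 → ℤ) : Prop :=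
  (∀ w : Fin 2 → ℤ, l • w + v ≠ 0) ∧ ∀ w : Fin 2 → ℤ, l • w + (2 : ℤ) • v ≠ 0

theorem norm_TT_le {l : ℤ} (hl : 1 ≤ l) {v : Fin 2 → ℤ} (hv : Adm l v) {w : Fin 2 → ℤ}
    (hw : w ≠ 0) (z : ℍ) {r₀ : ℝ} (hr₀ : 0 < r₀) (hr : r₀ ≤ r z) :
    ‖TT l v w z‖ ≤ 2 * ‖lf v z‖ ^ 2 * (r₀⁻¹ ^ 3 * (1 + ‖v‖) * (1 + 2 * ‖v‖)) * (1 / ‖w‖ ^ (3 : ℝ)) := by
  have hl0 : l • w ≠ 0 := smul_ne_zero (by omega) hw
  have h1 := norm_ei_le hl (hv.1 w) z hr₀ hr hw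
  have h2 := norm_ei_le hl (hv.2 w) z hr₀ hr hw
  have h3 := norm_ei_le (v := 0) hl (by rwa [add_zero]) z hr₀ hr hw
  rw [add_zero, norm_zero, add_zero, mul_one] at h3
  have h4 : ‖(2 : ℤ) • v‖ = 2 * ‖v‖ := by
    rw [norm_smul]
    norm_num [Int.norm_eq_abs]
  rw [h4] at h2
  rw [TT_eq hl0 (hv.1 w) (hv.2 w), norm_mul, norm_mul, norm_mul, norm_mul, norm_pow]
  have h5 : ‖(-2 : ℂ)‖ = 2 := by simp
  rw [h5]
  have h6 : (1 : ℝ) / ‖w‖ ^ (3 : ℝ) = ‖w‖⁻¹ * ‖w‖⁻¹ * ‖w‖⁻¹ := by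
    rw [show (3 : ℝ) = ((3 : ℕ) : ℝ) by norm_num, Real.rpow_natCast, one_div, pow_succ, pow_succ,
      pow_one, mul_inv, mul_inv]
  rw [h6]
  have hz : 0 ≤ 2 * ‖lf v z‖ ^ 2 := by positivity
  calc 2 * ‖lf v z‖ ^ 2 * (‖ei (l • w + v) z‖ * ‖ei (l • w + (2 : ℤ) • v) z‖ * ‖ei (l • w) z‖)
      ≤ 2 * ‖lf v z‖ ^ 2 * ((r₀⁻¹ * (1 + ‖v‖) * ‖w‖⁻¹) * (r₀⁻¹ * (1 + 2 * ‖v‖) * ‖w‖⁻¹) *
          (r₀⁻¹ * ‖w‖⁻¹)) := by
        refine mul_le_mul_of_nonneg_left ?_ hz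
        refine mul_le_mul (mul_le_mul h1 h2 (norm_nonneg _) ?_) h3 (norm_nonneg _) ?_
        · positivity
        · positivity
    _ = _ := by ring

theorem summable_TT {l : ℤ} (hl : 1 ≤ l) {v : Fin 2 → ℤ} (hv : Adm l v) (z : ℍ) :
    Summable fun w : Fin 2 → ℤ => TT l v w z := by
  have h1 : Summable fun w : Fin 2 → ℤ => 2 * ‖lf v z‖ ^ 2 *
      ((r z)⁻¹ ^ 3 * (1 + ‖v‖) * (1 + 2 * ‖v‖)) * (1 / ‖w‖ ^ (3 : ℝ)) := by
    refine Summable.mul_left _ ?_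
    have := summable_one_div_norm_rpow (k := 3) (by norm_num)
    refine this.congr fun w => ?_
    rw [Real.rpow_neg (norm_nonneg _), one_div]
  refine Summable.of_norm_bounded_eventually h1 ?_
  rw [Filter.eventually_cofinite]
  refine Set.Finite.subset (Set.finite_singleton (0 : Fin 2 → ℤ)) fun w hw => ?_
  by_contra hcon
  exact hw (norm_TT_le hl hv hcon z (r_pos z) le_rfl)

/-- polynomial growth in vertical strips -/
theorem GW_bound {l : ℤ} (hl : 1 ≤ l) {v : Fin 2 → ℤ} (hv : Adm l v) {B : ℝ} (hB : 0 ≤ B) :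
    ∃ C : ℝ, 0 ≤ C ∧ ∀ z : ℍ, |z.re| ≤ B → 1 ≤ z.im → ‖GW l v z‖ ≤ C * z.im ^ 2 := by
  set r₀ : ℝ := r ⟨⟨B, 1⟩, one_pos⟩ with hr₀def
  have hr₀ : 0 < r₀ := r_pos _
  set K : ℝ := r₀⁻¹ ^ 3 * (1 + ‖v‖) * (1 + 2 * ‖v‖) with hK
  have hK0 : 0 ≤ K := by positivity
  have hsum : Summable fun w : Fin 2 → ℤ => (1 / ‖w‖ ^ (3 : ℝ)) := by
    have := summable_one_div_norm_rpow (k := 3) (by norm_num)
    refine this.congr fun w => ?_
    rw [Real.rpow_neg (norm_nonneg _), one_div]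
  set S : ℝ := ∑' w : Fin 2 → ℤ, (1 / ‖w‖ ^ (3 : ℝ)) with hS
  have hS0 : 0 ≤ S := tsum_nonneg fun w => by positivity
  have hlf : ∀ z : ℍ, |z.re| ≤ B → 1 ≤ z.im → ‖lf v z‖ ≤ ‖v‖ * (B + 2) * z.im := by
    intro z hz1 hz2
    have h1 : ‖(z : ℂ)‖ ≤ B + z.im := by
      refine (Complex.norm_le_abs_re_add_abs_im _).trans ?_
      rw [abs_of_pos (a := (z : ℂ).im) z.im_pos]
      exact add_le_add_left hz1 _
    have h2 : ‖(v 0 : ℂ)‖ ≤ ‖v‖ := by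
      rw [Complex.norm_intCast, ← Int.norm_eq_abs]
      exact norm_le_pi_norm v 0
    have h3 : ‖(v 1 : ℂ)‖ ≤ ‖v‖ := by
      rw [Complex.norm_intCast, ← Int.norm_eq_abs]
      exact norm_le_pi_norm v 1
    calc ‖lf v z‖ ≤ ‖(v 0 : ℂ) * z‖ + ‖(v 1 : ℂ)‖ := norm_add_le _ _
      _ ≤ ‖v‖ * (B + z.im) + ‖v‖ := by
          rw [norm_mul]
          exact add_le_add (mul_le_mul h2 h1 (norm_nonneg _) (norm_nonneg _)) h3
      _ = ‖v‖ * (B + 1 + z.im) := by ring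
      _ ≤ ‖v‖ * ((B + 2) * z.im) := by
          refine mul_le_mul_of_nonneg_left ?_ (norm_nonneg _)
          nlinarith
      _ = _ := by ring
  have hv0 : v ≠ 0 := by
    have := hv.1 0
    rwa [smul_zero, zero_add] at this
  have h2v0 : (2 : ℤ) • v ≠ 0 := by
    have := hv.2 0
    rwa [smul_zero, zero_add] at this
  refine ⟨3 * r₀⁻¹ + 2 * (‖v‖ * (B + 2)) ^ 2 * K * S, by positivity, fun z hz1 hz2 => ?_⟩
  have hr : r₀ ≤ r z := by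
    refine r_lower_bound_on_verticalStrip z one_pos ?_
    exact ⟨hz1, hz2⟩
  have hei : ∀ u : Fin 2 → ℤ, u ≠ 0 → ‖ei u z‖ ≤ r₀⁻¹ := by
    intro u hu
    rw [ei, norm_inv]
    refine inv_anti₀ hr₀ ?_
    have h1 := lf_ge hu z
    have h2 := one_le_norm hu
    nlinarith
  have h0 : ‖TT l v 0 z‖ ≤ 3 * r₀⁻¹ := by
    have e : TT l v 0 z = 2 * ei v z - ei ((2 : ℤ) • v) z := by
      have : ei 0 z = 0 := by
        rw [ei, lf]
        simp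
      rw [TT, smul_zero, zero_add, zero_add, this, sub_zero]
    rw [e]
    calc ‖2 * ei v z - ei ((2 : ℤ) • v) z‖ ≤ ‖2 * ei v z‖ + ‖ei ((2 : ℤ) • v) z‖ := norm_sub_le _ _
      _ ≤ 2 * r₀⁻¹ + r₀⁻¹ := by
          rw [norm_mul]
          refine add_le_add ?_ (hei _ h2v0)
          have : ‖(2 : ℂ)‖ = 2 := by simp
          rw [this]
          exact mul_le_mul_of_nonneg_left (hei _ hv0) (by norm_num)
      _ = _ := by ring
  have hbd : ∀ w : Fin 2 → ℤ, ‖TT l v w z‖ ≤ (if w = 0 then 3 * r₀⁻¹ else 0) +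
      2 * ‖lf v z‖ ^ 2 * K * (1 / ‖w‖ ^ (3 : ℝ)) := by
    intro w
    split_ifs with hw
    · rw [hw]
      refine h0.trans ?_
      have : 0 ≤ 2 * ‖lf v z‖ ^ 2 * K * (1 / ‖(0 : Fin 2 → ℤ)‖ ^ (3 : ℝ)) := by positivity
      linarith
    · rw [zero_add]
      exact norm_TT_le hl hv hw z hr₀ hr
  have h1 := tsum_of_norm_bounded ((hasSum_ite_eq (0 : Fin 2 → ℤ) (3 * r₀⁻¹)).add
    (hsum.hasSum.mul_left (2 * ‖lf v z‖ ^ 2 * K))) hbd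
  refine h1.trans ?_
  have h2 : ‖lf v z‖ ^ 2 ≤ (‖v‖ * (B + 2)) ^ 2 * z.im ^ 2 := by
    rw [← mul_pow]
    exact pow_le_pow_left₀ (norm_nonneg _) (hlf z hz1 hz2) 2
  have h3 : (1 : ℝ) ≤ z.im ^ 2 := one_le_pow₀ hz2
  have h4 : 3 * r₀⁻¹ ≤ 3 * r₀⁻¹ * z.im ^ 2 := le_mul_of_one_le_right (by positivity) h3
  have h5 : 2 * ‖lf v z‖ ^ 2 * K * S ≤ 2 * ((‖v‖ * (B + 2)) ^ 2 * z.im ^ 2) * K * S := by
    gcongr
  rw [← hS]
  calc 3 * r₀⁻¹ + 2 * ‖lf v z‖ ^ 2 * K * S ≤ 3 * r₀⁻¹ * z.im ^ 2 +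
      2 * ((‖v‖ * (B + 2)) ^ 2 * z.im ^ 2) * K * S := add_le_add h4 h5
    _ = _ := by ring

/-! ### Row sums -/

theorem tendsto_cot {x : ℂ} (hx : x ∈ integerComplement ∨ x = 0) :
    Tendsto (fun N : ℕ => ∑ j ∈ Finset.range N, ((x - (j + 1))⁻¹ + (x + (j + 1))⁻¹)) atTop
      (𝓝 (π * cot (π * x) - x⁻¹)) := by
  rcases hx with hx | rfl
  · have h := tendsto_logDeriv_euler_cot_sub hx
    simp only [cotTerm, one_div] at h
    exact h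
  · have h1 : ∀ j : ℕ, ((0 : ℂ) - (j + 1))⁻¹ + ((0 : ℂ) + (j + 1))⁻¹ = 0 := by
      intro j
      rw [zero_sub, zero_add, inv_neg, neg_add_cancel]
    simp only [h1, Finset.sum_const_zero]
    have h2 : (π : ℂ) * cot (π * 0) - (0 : ℂ)⁻¹ = 0 := by
      rw [mul_zero, Complex.cot, Complex.sin_zero, div_zero, mul_zero, inv_zero, sub_zero]
    rw [h2]
    exact tendsto_const_nhds

/-- the sum over a row -/
theorem hasSum_row {x y u : ℂ} (hx : x ∈ integerComplement ∨ x = 0)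
    (hy : y ∈ integerComplement ∨ y = 0) (hu : u ∈ integerComplement ∨ u = 0)
    (hs : Summable fun n : ℤ => 2 * (x + n)⁻¹ - (y + n)⁻¹ - (u + n)⁻¹) :
    ∑' n : ℤ, (2 * (x + n)⁻¹ - (y + n)⁻¹ - (u + n)⁻¹) =
      2 * (π * cot (π * x)) - π * cot (π * y) - π * cot (π * u) := by
  set f : ℤ → ℂ := fun n => 2 * (x + n)⁻¹ - (y + n)⁻¹ - (u + n)⁻¹ with hf
  set s : ℂ := ∑' n, f n with hsdef
  have h1 : HasSum (fun n : ℕ => f n + f (-n)) (s + f 0) := hs.hasSum.nat_add_neg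
  have h2 := (hasSum_nat_add_iff' 1).mpr h1
  have h3 := h2.tendsto_sum_nat
  have h4 : Tendsto (fun N : ℕ => ∑ j ∈ Finset.range N,
      (f ((j + 1 : ℕ) : ℤ) + f (-((j + 1 : ℕ) : ℤ)))) atTop
      (𝓝 (2 * (π * cot (π * x) - x⁻¹) - (π * cot (π * y) - y⁻¹) - (π * cot (π * u) - u⁻¹))) := by
    have h5 := (((tendsto_cot hx).const_mul 2).sub (tendsto_cot hy)).sub (tendsto_cot hu)
    refine h5.congr fun N => ?_
    rw [Finset.mul_sum, ← Finset.sum_sub_distrib, ← Finset.sum_sub_distrib]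
    refine Finset.sum_congr rfl fun j _ => ?_
    simp only [hf]
    push_cast
    simp only [sub_eq_add_neg]
    ring
  have h6 := tendsto_nhds_unique h3 h4
  have h7 : f 0 = 2 * x⁻¹ - y⁻¹ - u⁻¹ := by
    simp [hf]
  simp only [Finset.range_one, Finset.sum_singleton, Nat.cast_zero, neg_zero] at h6
  rw [h7] at h6
  linear_combination h6

end Fermat.Agent.DS.W1
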