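import Mathlib
import Fermat.Agent.DS.EisW1

/-!
# An Eisenstein series of weight one: rows, periodicity
-/

set_option linter.all false
set_option autoImplicit false

open UpperHalfPlane hiding I
open Complex Function Filter Topology ModularForm CongruenceSubgroup ModularGroup
open EisensteinSeries
open scoped Manifold MatrixGroups ModularForm Real Matrix

noncomputable section

namespace Fermat.Agent.DS.W1

/-- `π cot (π x)` -/
def cc (x : ℂ) : ℂ := π * cot (π * x)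

theorem cc_add_one (x : ℂ) : cc (x + 1) = cc x := by
  rw [cc, cc, Complex.cot, Complex.cot, mul_add, mul_one, Complex.cos_add_pi, Complex.sin_add_pi,
    neg_div_neg_eq]

theorem cc_neg (x : ℂ) : cc (-x) = -cc x := by
  rw [cc, cc, mul_neg, Complex.cot, Complex.cot, Complex.cos_neg, Complex.sin_neg, div_neg, mul_neg]

/-- the first argument -/
def xa (l : ℤ) (v : Fin 2 → ℤ) (m : ℤ) (z : ℍ) : ℂ := ((l * m + v 0) * z + v 1) / l

/-- the row sum -/
def RR (l : ℤ) (v : Fin 2 → ℤ) (z : ℍ) (m : ℤ) : ℂ :=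
  (l : ℂ)⁻¹ * (2 * cc (xa l v m z) - cc (xa l ((2 : ℤ) • v) m z) - cc (m * z))

theorem xa_add {l : ℤ} (hl : l ≠ 0) (v : Fin 2 → ℤ) (m n : ℤ) (z : ℍ) :
    (l : ℂ) * (xa l v m z + n) = lf (l • ![m, n] + v) z := by
  have hl' : (l : ℂ) ≠ 0 := by exact_mod_cast hl
  rw [xa, lf]
  simp only [Pi.add_apply, Pi.smul_apply, smul_eq_mul, Matrix.cons_val_zero, Matrix.cons_val_one]
  push_cast
  field_simp
  ring

theorem ei_xa {l : ℤ} (hl : l ≠ 0) (v : Fin 2 → ℤ) (m n : ℤ) (z : ℍ) :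
    ei (l • ![m, n] + v) z = (l : ℂ)⁻¹ * (xa l v m z + n)⁻¹ := by
  rw [ei, ← xa_add hl, mul_inv]

theorem xa_mem {l : ℤ} (hl : l ≠ 0) {v : Fin 2 → ℤ} (hv : ∀ w : Fin 2 → ℤ, l • w + v ≠ 0)
    (m : ℤ) (z : ℍ) : xa l v m z ∈ integerComplement := by
  rintro ⟨n, hn⟩
  have h1 := xa_add hl v m (-n) z
  rw [← hn] at h1
  push_cast at h1
  rw [add_neg_cancel, mul_zero] at h1
  exact lf_ne_zero (hv _) z h1.symm

theorem mul_mem (m : ℤ) (z : ℍ) : (m * z : ℂ) ∈ integerComplement ∨ (m * z : ℂ) = 0 := by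
  rcases eq_or_ne m 0 with rfl | hm
  · right
    simp
  · left
    rintro ⟨n, hn⟩
    have h1 : lf ![m, -n] z = 0 := by
      rw [lf]
      simp only [Matrix.cons_val_zero, Matrix.cons_val_one]
      push_cast
      rw [← hn, add_neg_cancel]
    refine lf_ne_zero ?_ z h1
    intro h
    exact hm (congrFun h 0)

theorem hasSum_RR {l : ℤ} (hl : 1 ≤ l) {v : Fin 2 → ℤ} (hv : Adm l v) (z : ℍ) :
    HasSum (RR l v z) (GW l v z) := by
  have hl0 : l ≠ 0 := by omega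
  have h1 : HasSum (fun p : ℤ × ℤ => TT l v ![p.1, p.2] z) (GW l v z) := by
    have h2 := (summable_TT hl hv z).hasSum
    rw [← (finTwoArrowEquiv ℤ).symm.hasSum_iff] at h2
    exact h2
  refine h1.prod_fiberwise fun m => ?_
  have h3 : ∀ n : ℤ, TT l v ![m, n] z = (l : ℂ)⁻¹ * (2 * (xa l v m z + n)⁻¹ -
      (xa l ((2 : ℤ) • v) m z + n)⁻¹ - ((m * z : ℂ) + n)⁻¹) := by
    intro n
    have h4 : ei (l • ![m, n]) z = (l : ℂ)⁻¹ * ((m * z : ℂ) + n)⁻¹ := by
      rw [ei, lf_smul, mul_inv]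
      simp [lf]
    rw [TT, ei_xa hl0, ei_xa hl0, h4]
    ring
  have h5 : Summable fun n : ℤ => TT l v ![m, n] z := h1.summable.prod_factor m
  have h6 : Summable fun n : ℤ => (2 * (xa l v m z + n)⁻¹ -
      (xa l ((2 : ℤ) • v) m z + n)⁻¹ - ((m * z : ℂ) + n)⁻¹) := by
    simp only [h3] at h5
    have hl' : (l : ℂ)⁻¹ ≠ 0 := inv_ne_zero (by exact_mod_cast hl0)
    exact (summable_mul_left_iff hl').mp h5
  have h7 := hasSum_row (Or.inl (xa_mem hl0 hv.1 m z)) (Or.inl (xa_mem hl0 hv.2 m z))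
    (mul_mem m z) h6
  simp only [h3]
  rw [RR, cc, cc, cc, ← h7]
  exact h6.hasSum.mul_left _

theorem adm_add {l : ℤ} {v : Fin 2 → ℤ} (hv : Adm l v) (u : Fin 2 → ℤ) : Adm l (v + l • u) := by
  refine ⟨fun w => ?_, fun w => ?_⟩
  · have := hv.1 (w + u)
    rwa [smul_add, add_assoc, add_comm (l • u)] at this
  · have := hv.2 (w + (2 : ℤ) • u)
    rwa [smul_add, add_assoc, smul_comm l (2 : ℤ) u, ← smul_add, add_comm (l • u)] at this

theorem GW_shift1 {l : ℤ} (hl : 1 ≤ l) {v : Fin 2 → ℤ} (hv : Adm l v) :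
    GW l (v + l • ![0, 1]) = GW l v := by
  funext z
  have h1 := hasSum_RR hl (adm_add hv ![0, 1]) z
  have h2 := hasSum_RR hl hv z
  have hl' : (l : ℂ) ≠ 0 := by exact_mod_cast (by omega : l ≠ 0)
  refine h1.unique ?_
  have h3 : RR l (v + l • ![0, 1]) z = RR l v z := by
    funext m
    have e1 : xa l (v + l • ![0, 1]) m z = xa l v m z + 1 := by
      simp only [xa, Pi.add_apply, Pi.smul_apply, smul_eq_mul, Matrix.cons_val_zero,
        Matrix.cons_val_one]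
      push_cast
      field_simp
      ring
    have e2 : xa l ((2 : ℤ) • (v + l • ![0, 1])) m z = xa l ((2 : ℤ) • v) m z + 1 + 1 := by
      simp only [xa, Pi.add_apply, Pi.smul_apply, smul_eq_mul, Matrix.cons_val_zero,
        Matrix.cons_val_one]
      push_cast
      field_simp
      ring
    rw [RR, RR, e1, e2, cc_add_one, cc_add_one, cc_add_one]
  rw [h3]
  exact h2

theorem adm_vecMul {l : ℤ} {v : Fin 2 → ℤ} (hv : Adm l v) (A : SL(2, ℤ)) :
    Adm l (v ᵥ* (A : Matrix (Fin 2) (Fin 2) ℤ)) := by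
  have key : ∀ w u : Fin 2 → ℤ, l • w + u ᵥ* (A : Matrix (Fin 2) (Fin 2) ℤ) = 0 →
      l • (w ᵥ* ((A⁻¹ : SL(2, ℤ)) : Matrix (Fin 2) (Fin 2) ℤ)) + u = 0 := by
    intro w u h
    have h1 := congrArg (fun x => x ᵥ* ((A⁻¹ : SL(2, ℤ)) : Matrix (Fin 2) (Fin 2) ℤ)) h
    simp only [Matrix.add_vecMul, Matrix.smul_vecMul, Matrix.vecMul_vecMul,
      Fermat.Agent.ESCore.EisG.coe_mul_inv, Matrix.vecMul_one, Matrix.zero_vecMul] at h1
    exact h1
  refine ⟨fun w h => hv.1 _ (key w v h), fun w h => ?_⟩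
  rw [← Matrix.smul_vecMul] at h
  exact hv.2 _ (key w _ h)

theorem slash_cancel {f g : ℍ → ℂ} {k : ℤ} (A : SL(2, ℤ)) (h : f ∣[k] A = g ∣[k] A) : f = g := by
  have h1 : ∀ f : ℍ → ℂ, (f ∣[k] A) ∣[k] A⁻¹ = f := fun f => by
    rw [← SlashAction.slash_mul, mul_inv_cancel, SlashAction.slash_one]
  rw [← h1 f, h, h1 g]

theorem vecMul_S (v : Fin 2 → ℤ) : v ᵥ* ((S : SL(2, ℤ)) : Matrix (Fin 2) (Fin 2) ℤ) =
    ![v 1, -v 0] := by
  rw [coe_S]
  ext i
  fin_cases i <;> simp [Matrix.vecMul, dotProduct, Fin.sum_univ_two]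

theorem GW_shift1_neg {l : ℤ} (hl : 1 ≤ l) {v : Fin 2 → ℤ} (hv : Adm l v) :
    GW l (v + l • ![0, -1]) = GW l v := by
  have h1 := GW_shift1 hl (adm_add hv ![0, -1])
  have h2 : v + l • ![0, -1] + l • ![0, 1] = v := by
    ext i
    fin_cases i <;> simp [Matrix.vecHead, Matrix.vecTail]
  rw [h2] at h1
  exact h1.symm

theorem GW_shift0 {l : ℤ} (hl : 1 ≤ l) {v : Fin 2 → ℤ} (hv : Adm l v) :
    GW l (v + l • ![1, 0]) = GW l v := by
  refine slash_cancel (k := 1) S ?_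
  rw [GW_slash, GW_slash]
  have h1 : (v + l • ![1, 0]) ᵥ* ((S : SL(2, ℤ)) : Matrix (Fin 2) (Fin 2) ℤ) =
      v ᵥ* ((S : SL(2, ℤ)) : Matrix (Fin 2) (Fin 2) ℤ) + l • ![0, -1] := by
    rw [vecMul_S, vecMul_S]
    ext i
    fin_cases i <;> simp
    ring
  rw [h1, GW_shift1_neg hl (adm_vecMul hv S)]

theorem GW_shift {l : ℤ} (hl : 1 ≤ l) (u : Fin 2 → ℤ) {v : Fin 2 → ℤ} (hv : Adm l v) :
    GW l (v + l • u) = GW l v := by
  have h0 : ∀ (n : ℕ) {v : Fin 2 → ℤ} (hv : Adm l v) (e : Fin 2 → ℤ)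
      (he : ∀ {v : Fin 2 → ℤ}, Adm l v → GW l (v + l • e) = GW l v),
      GW l (v + l • ((n : ℤ) • e)) = GW l v := by
    intro n v hv e he
    induction n with
    | zero => simp
    | succ n ih =>
      have h2 : v + l • (((n + 1 : ℕ) : ℤ) • e) = (v + l • ((n : ℤ) • e)) + l • e := by
        push_cast
        rw [add_smul, one_smul, smul_add, add_assoc]
      rw [h2, he (adm_add hv _), ih]
  have h1 : ∀ (n : ℤ) {v : Fin 2 → ℤ} (hv : Adm l v) (e : Fin 2 → ℤ)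
      (he : ∀ {v : Fin 2 → ℤ}, Adm l v → GW l (v + l • e) = GW l v),
      GW l (v + l • (n • e)) = GW l v := by
    intro n v hv e he
    obtain ⟨n, rfl | rfl⟩ := n.eq_nat_or_neg
    · exact h0 n hv e he
    · have h2 := h0 n (adm_add hv (-(n : ℤ) • e)) e he
      rw [← h2]
      congr 1
      rw [add_assoc, ← smul_add, ← add_smul, neg_add_cancel, zero_smul, smul_zero, add_zero]
  have h2 : l • u = l • (u 0 • ![1, 0]) + l • (u 1 • ![0, 1]) := by
    rw [← smul_add]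
    congr 1
    ext i
    fin_cases i <;> simp
  rw [h2, ← add_assoc, h1 (u 1) (adm_add hv _) _ (GW_shift1 hl), h1 (u 0) hv _ (GW_shift0 hl)]

end Fermat.Agent.DS.W1
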