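import Mathlib
import Fermat.Agent.DS.EisW2

/-!
# An Eisenstein series of weight one: the `q`-expansion
-/

set_option linter.all false
set_option autoImplicit false

open UpperHalfPlane hiding I
open Complex Function Filter Topology ModularForm CongruenceSubgroup ModularGroup
open EisensteinSeries
open scoped Manifold MatrixGroups ModularForm Real Matrix

noncomputable section

namespace Fermat.Agent.DS.W1

open Fermat.Agent.Eis16 (HasQ)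

/-! ### Lambert series -/

/-- Lambert series -/
def LS (s : ℕ → ℂ) : PowerSeries ℂ :=
  PowerSeries.mk fun m => ∑ x ∈ m.divisorsAntidiagonal, s x.2

theorem LS_coeff (s : ℕ → ℂ) (m : ℕ) : (LS s).coeff m = ∑ x ∈ m.divisorsAntidiagonal, s x.2 :=
  PowerSeries.coeff_mk _ _

theorem summable_LS {s : ℕ → ℂ} {C : ℝ} (hs : ∀ k, ‖s k‖ ≤ C) {q : ℂ} (hq : ‖q‖ < 1) :
    Summable fun c : ℕ+ × ℕ+ => s (c.2 : ℕ) * q ^ ((c.1 : ℕ) * (c.2 : ℕ)) := by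
  refine Summable.of_norm_bounded ((summable_prod_mul_pow 0 hq).norm.mul_left C) fun c => ?_
  rw [norm_mul, pow_zero, one_mul]
  exact mul_le_mul_of_nonneg_right (hs _) (norm_nonneg _)

theorem hasSum_LS {s : ℕ → ℂ} {C : ℝ} (hs : ∀ k, ‖s k‖ ≤ C) {q : ℂ} (hq : ‖q‖ < 1) :
    HasSum (fun m : ℕ => (LS s).coeff m * q ^ m)
      (∑' c : ℕ+ × ℕ+, s (c.2 : ℕ) * q ^ ((c.1 : ℕ) * (c.2 : ℕ))) := by
  have h1 := (summable_LS hs hq).hasSum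
  rw [← sigmaAntidiagonalEquivProd.hasSum_iff] at h1
  have h2 := h1.sigma (γ := fun n : ℕ+ => Nat.divisorsAntidiagonal n)
    (g := fun m : ℕ+ => (LS s).coeff m * q ^ (m : ℕ)) (fun m => by
      have h3 := hasSum_fintype (fun x : Nat.divisorsAntidiagonal (m : ℕ) =>
        s (x.1.2 : ℕ) * q ^ (x.1.1 * x.1.2))
      have h5 : (LS s).coeff (m : ℕ) * q ^ (m : ℕ) =
          ∑ x : Nat.divisorsAntidiagonal (m : ℕ),
            s (x.1.2 : ℕ) * q ^ (x.1.1 * x.1.2) := by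
        rw [LS_coeff, Finset.sum_mul,
          ← Finset.sum_coe_sort (Nat.divisorsAntidiagonal (m : ℕ))]
        refine Finset.sum_congr rfl fun x _ => ?_
        rw [(Nat.mem_divisorsAntidiagonal.mp x.2).1]
      rw [h5]
      exact h3)
  have h3 : ∀ n : ℕ, n ∉ Set.range ((↑) : ℕ+ → ℕ) → (LS s).coeff n * q ^ n = 0 := by
    intro n hn
    have h4 : n = 0 := by
      by_contra h0
      exact hn ⟨⟨n, Nat.pos_of_ne_zero h0⟩, rfl⟩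
    rw [h4, LS_coeff, Nat.divisorsAntidiagonal_zero, Finset.sum_empty, zero_mul]
  exact (PNat.coe_injective.hasSum_iff h3).mp h2

/-! ### The cotangent -/

theorem cc_q (m : ℕ) (hm : 0 < m) (a : ℝ) (z : ℍ) :
    ‖cexp (2 * π * I * a) * cexp (2 * π * I * z) ^ m‖ < 1 ∧
    cc (m * z + a) = π * I - 2 * π * I *
      (1 - cexp (2 * π * I * a) * cexp (2 * π * I * z) ^ m)⁻¹ := by
  have him : 0 < ((m : ℂ) * z + a).im := by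
    have : ((m : ℂ) * z + a).im = m * z.im := by simp
    rw [this]
    exact mul_pos (by exact_mod_cast hm) z.im_pos
  set w : ℍ := ⟨(m : ℂ) * z + a, him⟩ with hw
  have hwc : (w : ℂ) = (m : ℂ) * z + a := rfl
  have h1 : cexp (2 * π * I * w) = cexp (2 * π * I * a) * cexp (2 * π * I * z) ^ m := by
    rw [← Complex.exp_nat_mul, ← Complex.exp_add, hwc]
    congr 1
    ring
  have h2 : ‖cexp (2 * π * I * w)‖ < 1 := norm_exp_two_pi_I_lt_one w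
  rw [h1] at h2
  refine ⟨h2, ?_⟩
  have h3 := pi_mul_cot_pi_q_exp w
  rw [h1, tsum_geometric_of_norm_lt_one h2, hwc] at h3
  exact h3

/-- the coefficients -/
def sk (ξ : ℂ) (k : ℕ) : ℂ := 2 * ξ ^ k - (ξ ^ 2) ^ k - 2 * (ξ⁻¹) ^ k + ((ξ⁻¹) ^ 2) ^ k

theorem norm_sk_le {ξ : ℂ} (h : ‖ξ‖ = 1) (k : ℕ) : ‖sk ξ k‖ ≤ 6 := by
  have h1 : ‖ξ⁻¹‖ = 1 := by rw [norm_inv, h, inv_one]
  rw [sk]
  have e1 : ‖2 * ξ ^ k‖ = 2 := by rw [norm_mul, norm_pow, h, one_pow, mul_one]; simp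
  have e2 : ‖(ξ ^ 2) ^ k‖ = 1 := by rw [norm_pow, norm_pow, h, one_pow, one_pow]
  have e3 : ‖2 * ξ⁻¹ ^ k‖ = 2 := by rw [norm_mul, norm_pow, h1, one_pow, mul_one]; simp
  have e4 : ‖(ξ⁻¹ ^ 2) ^ k‖ = 1 := by rw [norm_pow, norm_pow, h1, one_pow, one_pow]
  calc ‖2 * ξ ^ k - (ξ ^ 2) ^ k - 2 * ξ⁻¹ ^ k + (ξ⁻¹ ^ 2) ^ k‖
      ≤ ‖2 * ξ ^ k - (ξ ^ 2) ^ k - 2 * ξ⁻¹ ^ k‖ + ‖(ξ⁻¹ ^ 2) ^ k‖ := norm_add_le _ _
    _ ≤ (‖2 * ξ ^ k - (ξ ^ 2) ^ k‖ + ‖2 * ξ⁻¹ ^ k‖) + ‖(ξ⁻¹ ^ 2) ^ k‖ := by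
        gcongr; exact norm_sub_le _ _
    _ ≤ ((‖2 * ξ ^ k‖ + ‖(ξ ^ 2) ^ k‖) + ‖2 * ξ⁻¹ ^ k‖) + ‖(ξ⁻¹ ^ 2) ^ k‖ := by
        gcongr; exact norm_sub_le _ _
    _ = 6 := by rw [e1, e2, e3, e4]; norm_num

theorem hasSum_sk {ξ Q : ℂ} (h : ‖ξ‖ = 1) (hQ : ‖Q‖ < 1) :
    HasSum (fun k : ℕ => sk ξ k * Q ^ k)
      (2 * (1 - ξ * Q)⁻¹ - (1 - ξ ^ 2 * Q)⁻¹ - 2 * (1 - ξ⁻¹ * Q)⁻¹ + (1 - (ξ⁻¹) ^ 2 * Q)⁻¹) := by
  have h1 : ‖ξ⁻¹‖ = 1 := by rw [norm_inv, h, inv_one]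
  have g : ∀ a : ℂ, ‖a‖ = 1 → HasSum (fun k : ℕ => a ^ k * Q ^ k) (1 - a * Q)⁻¹ := by
    intro a ha
    have h2 : ‖a * Q‖ < 1 := by rw [norm_mul, ha, one_mul]; exact hQ
    have h3 := hasSum_geometric_of_norm_lt_one h2
    simpa only [mul_pow] using h3
  have h4 := ((((g ξ h).mul_left 2).sub (g (ξ ^ 2) (by rw [norm_pow, h, one_pow]))).sub
    ((g ξ⁻¹ h1).mul_left 2)).add (g (ξ⁻¹ ^ 2) (by rw [norm_pow, h1, one_pow]))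
  have h5 : (fun k : ℕ => sk ξ k * Q ^ k) = fun k : ℕ => 2 * (ξ ^ k * Q ^ k) -
      (ξ ^ 2) ^ k * Q ^ k - 2 * (ξ⁻¹ ^ k * Q ^ k) + (ξ⁻¹ ^ 2) ^ k * Q ^ k := by
    funext k
    rw [sk]
    ring
  rw [h5]
  exact h4

theorem sk_zero (ξ : ℂ) : sk ξ 0 = 0 := by
  rw [sk]
  norm_num

/-- inner sums -/
def LL (ξ q : ℂ) (m : ℕ) : ℂ :=
  if m = 0 then 0 else 2 * (1 - ξ * q ^ m)⁻¹ - (1 - ξ ^ 2 * q ^ m)⁻¹ - 2 * (1 - ξ⁻¹ * q ^ m)⁻¹ +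
    (1 - (ξ⁻¹) ^ 2 * q ^ m)⁻¹

theorem hasSum_LL {ξ q : ℂ} (h : ‖ξ‖ = 1) (hq : ‖q‖ < 1) :
    HasSum (LL ξ q) (∑' c : ℕ+ × ℕ+, sk ξ (c.2 : ℕ) * q ^ ((c.1 : ℕ) * (c.2 : ℕ))) := by
  have h1 := (summable_LS (norm_sk_le h) hq).hasSum
  have h2 : HasSum (fun m : ℕ+ => LL ξ q m)
      (∑' c : ℕ+ × ℕ+, sk ξ (c.2 : ℕ) * q ^ ((c.1 : ℕ) * (c.2 : ℕ))) := by
    refine h1.prod_fiberwise fun m => ?_
    have hQ : ‖q ^ (m : ℕ)‖ < 1 := by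
      rw [norm_pow]
      exact pow_lt_one₀ (norm_nonneg _) hq m.ne_zero
    have h3 := hasSum_sk h hQ
    rw [LL, if_neg m.ne_zero]
    have h4 : ∀ n : ℕ, n ∉ Set.range ((↑) : ℕ+ → ℕ) → sk ξ n * (q ^ (m : ℕ)) ^ n = 0 := by
      intro n hn
      have h4 : n = 0 := by
        by_contra h0
        exact hn ⟨⟨n, Nat.pos_of_ne_zero h0⟩, rfl⟩
      rw [h4, sk_zero, zero_mul]
    have h5 := (PNat.coe_injective.hasSum_iff h4).mpr h3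
    have h6 : (fun c : ℕ+ => sk ξ (c : ℕ) * q ^ ((m : ℕ) * (c : ℕ))) =
        (fun n : ℕ => sk ξ n * (q ^ (m : ℕ)) ^ n) ∘ ((↑) : ℕ+ → ℕ) := by
      funext n
      simp only [comp_apply, pow_mul]
    simp only
    rw [h6]
    exact h5
  have h3 : ∀ n : ℕ, n ∉ Set.range ((↑) : ℕ+ → ℕ) → LL ξ q n = 0 := by
    intro n hn
    have h4 : n = 0 := by
      by_contra h0
      exact hn ⟨⟨n, Nat.pos_of_ne_zero h0⟩, rfl⟩
    rw [h4, LL, if_pos rfl]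
  exact (PNat.coe_injective.hasSum_iff h3).mp h2

theorem xa_zero {l : ℤ} (hl : l ≠ 0) (t m : ℤ) (z : ℍ) :
    xa l ![0, t] m z = m * z + ((t / l : ℝ) : ℂ) := by
  have hl' : (l : ℂ) ≠ 0 := by exact_mod_cast hl
  rw [xa]
  simp only [Matrix.cons_val_zero, Matrix.cons_val_one]
  push_cast
  field_simp
  ring

theorem RR_add_neg {l : ℤ} (hl : l ≠ 0) (t : ℤ) (z : ℍ) (m : ℕ) (hm : 0 < m) :
    RR l ![0, t] z m + RR l ![0, t] z (-m) =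
      (l : ℂ)⁻¹ * (-2 * π * I) * LL (cexp (2 * π * I * ((t / l : ℝ) : ℂ))) (cexp (2 * π * I * z)) m := by
  have e2 : (2 : ℤ) • ![(0 : ℤ), t] = ![0, 2 * t] := by
    ext i
    fin_cases i <;> simp
  have hx : ∀ (a : ℤ), xa l ![0, a] (-m) z = -(m * z + ((-(a / l : ℝ) : ℝ) : ℂ)) := by
    intro a
    rw [xa_zero hl]
    push_cast
    ring
  rw [RR, RR, e2, hx, hx, xa_zero hl, xa_zero hl, cc_neg, cc_neg]
  have e3 : ((-m : ℤ) : ℂ) * z = -(m * z + ((0 : ℝ) : ℂ)) := by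
    push_cast
    ring
  have e4 : cc (((m : ℤ) : ℂ) * z) = cc (m * z + ((0 : ℝ) : ℂ)) := by
    congr 1
    push_cast
    ring
  rw [e3, e4, cc_neg]
  have e5 : ((m : ℤ) : ℂ) = (m : ℂ) := by push_cast; rfl
  rw [e5, (cc_q m hm (t / l : ℝ) z).2, (cc_q m hm (-(t / l) : ℝ) z).2,
    (cc_q m hm ((2 * t : ℤ) / l : ℝ) z).2, (cc_q m hm (-((2 * t : ℤ) / l) : ℝ) z).2,
    (cc_q m hm (0 : ℝ) z).2, LL, if_neg hm.ne']
  have f1 : cexp (2 * π * I * ((-(t / l : ℝ) : ℝ) : ℂ)) =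
      (cexp (2 * π * I * ((t / l : ℝ) : ℂ)))⁻¹ := by
    rw [← Complex.exp_neg]
    congr 1
    push_cast
    ring
  have f2 : cexp (2 * π * I * (((2 * t : ℤ) / l : ℝ) : ℂ)) =
      (cexp (2 * π * I * ((t / l : ℝ) : ℂ))) ^ 2 := by
    rw [← Complex.exp_nat_mul]
    congr 1
    push_cast
    ring
  have f3 : cexp (2 * π * I * ((-((2 * t : ℤ) / l : ℝ) : ℝ) : ℂ)) =
      ((cexp (2 * π * I * ((t / l : ℝ) : ℂ)))⁻¹) ^ 2 := by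
    rw [← f1, ← Complex.exp_nat_mul]
    congr 1
    push_cast
    ring
  rw [f1, f2, f3]
  ring

theorem RR_zero {l : ℤ} (hl : l ≠ 0) (t : ℤ) (z : ℍ)
    (hξ : cexp (2 * π * I * ((t / l : ℝ) : ℂ)) ^ 2 ≠ 1) :
    RR l ![0, t] z 0 = (l : ℂ)⁻¹ * (π * I) *
      ((cexp (2 * π * I * ((t / l : ℝ) : ℂ)) ^ 2 + 4 * cexp (2 * π * I * ((t / l : ℝ) : ℂ)) + 1) /
        (cexp (2 * π * I * ((t / l : ℝ) : ℂ)) ^ 2 - 1)) := by
  have e2 : (2 : ℤ) • ![(0 : ℤ), t] = ![0, 2 * t] := by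
    ext i
    fin_cases i <;> simp
  have f2 : cexp (2 * π * I * (((2 * t : ℤ) / l : ℝ) : ℂ)) =
      (cexp (2 * π * I * ((t / l : ℝ) : ℂ))) ^ 2 := by
    rw [← Complex.exp_nat_mul]
    congr 1
    push_cast
    ring
  have hcc0 : cc 0 = 0 := by
    rw [cc, mul_zero, Complex.cot, Complex.sin_zero, div_zero, mul_zero]
  rw [RR, e2, xa_zero hl, xa_zero hl]
  have e3 : ((0 : ℤ) : ℂ) * z = 0 := by simp
  rw [e3, hcc0, zero_add, zero_add, cc, cc, Complex.cot_pi_eq_exp_ratio,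
    Complex.cot_pi_eq_exp_ratio, f2]
  set ξ := cexp (2 * π * I * ((t / l : ℝ) : ℂ)) with hξdef
  have h1 : (1 - ξ) ≠ 0 := by
    intro h
    apply hξ
    have : ξ = 1 := (sub_eq_zero.mp h).symm
    rw [this, one_pow]
  have h2 : (1 - ξ ^ 2) ≠ 0 := fun h => hξ (sub_eq_zero.mp h).symm
  have h3 : (ξ ^ 2 - 1) ≠ 0 := fun h => hξ (sub_eq_zero.mp h)
  have h4 : (1 + ξ) ≠ 0 := by
    intro h
    apply h2
    have : 1 - ξ ^ 2 = (1 - ξ) * (1 + ξ) := by ring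
    rw [this, h, mul_zero]
  have h5 : (ξ ^ 2 + 4 * ξ + 1) / (ξ ^ 2 - 1) = -(ξ ^ 2 + 4 * ξ + 1) / ((1 - ξ) * (1 + ξ)) := by
    rw [div_eq_div_iff h3 (mul_ne_zero h1 h4)]
    ring
  have h6 : (1 - ξ ^ 2) = (1 - ξ) * (1 + ξ) := by ring
  rw [h5, h6]
  have hI := I_ne_zero
  field_simp
  ring_nf
  simp only [I_sq]
  ring

/-- **The `q`-expansion of the weight one Eisenstein series.** -/
theorem hasQ_GW {l : ℤ} (hl : 1 ≤ l) (t : ℤ) (hv : Adm l ![0, t])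
    (hξ : cexp (2 * π * I * ((t / l : ℝ) : ℂ)) ^ 2 ≠ 1) :
    HasQ 1 (GW l ![0, t]) (((l : ℂ)⁻¹ * (π * I)) •
      (PowerSeries.C ((cexp (2 * π * I * ((t / l : ℝ) : ℂ)) ^ 2 +
        4 * cexp (2 * π * I * ((t / l : ℝ) : ℂ)) + 1) /
          (cexp (2 * π * I * ((t / l : ℝ) : ℂ)) ^ 2 - 1)) -
        (2 : ℂ) • LS (sk (cexp (2 * π * I * ((t / l : ℝ) : ℂ)))))) := by
  have hl0 : l ≠ 0 := by omega
  set ξ := cexp (2 * π * I * ((t / l : ℝ) : ℂ)) with hξdef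
  have hξ1 : ‖ξ‖ = 1 := by
    rw [hξdef, Complex.norm_exp]
    have : (2 * π * I * ((t / l : ℝ) : ℂ)).re = 0 := by simp
    rw [this, Real.exp_zero]
  intro z
  have hq := norm_exp_two_pi_I_lt_one z
  have hqp : Periodic.qParam 1 (z : ℂ) = cexp (2 * π * I * z) := by
    rw [Periodic.qParam]
    congr 1
    push_cast
    ring
  rw [hqp]
  set q : ℂ := cexp (2 * π * I * z) with hqdef
  have h1 := (hasSum_RR hl hv z).nat_add_neg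
  have h2 := (hasSum_nat_add_iff' 1).mpr h1
  have h3 := hasSum_LL hξ1 hq
  set P := ∑' c : ℕ+ × ℕ+, sk ξ (c.2 : ℕ) * q ^ ((c.1 : ℕ) * (c.2 : ℕ)) with hP
  have h4 := ((hasSum_nat_add_iff' 1).mpr h3).mul_left ((l : ℂ)⁻¹ * (-2 * π * I))
  have h5 : (fun n : ℕ => RR l ![0, t] z ((n + 1 : ℕ) : ℤ) + RR l ![0, t] z (-((n + 1 : ℕ) : ℤ))) =
      fun n : ℕ => (l : ℂ)⁻¹ * (-2 * π * I) * LL ξ q (n + 1) := by
    funext n
    exact RR_add_neg hl0 t z (n + 1) n.succ_pos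
  rw [h5] at h2
  have h6 := h2.unique h4
  simp only [Finset.range_one, Finset.sum_singleton, Nat.cast_zero, neg_zero] at h6
  have hLL0 : LL ξ q 0 = 0 := by rw [LL, if_pos rfl]
  rw [hLL0, sub_zero] at h6
  have h7 : GW l ![0, t] z = RR l ![0, t] z 0 + (l : ℂ)⁻¹ * (-2 * π * I) * P := by
    linear_combination h6
  rw [h7, RR_zero hl0 t z hξ]
  have h8 := hasSum_LS (norm_sk_le hξ1) hq
  have h9 := hasSum_single (f := fun n : ℕ => (PowerSeries.C ((ξ ^ 2 + 4 * ξ + 1) /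
    (ξ ^ 2 - 1))).coeff n * q ^ n) 0 (fun n hn => by simp [PowerSeries.coeff_C, hn])
  have h10 := (h9.sub (h8.mul_left 2)).mul_left ((l : ℂ)⁻¹ * (π * I))
  have h11 : (l : ℂ)⁻¹ * (π * I) * ((PowerSeries.C ((ξ ^ 2 + 4 * ξ + 1) /
      (ξ ^ 2 - 1))).coeff 0 * q ^ 0 - 2 * P) =
      (l : ℂ)⁻¹ * (π * I) * ((ξ ^ 2 + 4 * ξ + 1) / (ξ ^ 2 - 1)) +
        (l : ℂ)⁻¹ * (-2 * π * I) * P := by
    rw [pow_zero, mul_one, PowerSeries.coeff_zero_C]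
    ring
  rw [h11] at h10
  have h12 : (fun n : ℕ => (((l : ℂ)⁻¹ * (π * I)) •
      (PowerSeries.C ((ξ ^ 2 + 4 * ξ + 1) / (ξ ^ 2 - 1)) - (2 : ℂ) • LS (sk ξ))).coeff n * q ^ n) =
      fun n : ℕ => (l : ℂ)⁻¹ * (π * I) * ((PowerSeries.C ((ξ ^ 2 + 4 * ξ + 1) /
        (ξ ^ 2 - 1))).coeff n * q ^ n - 2 * ((LS (sk ξ)).coeff n * q ^ n)) := by
    funext n
    rw [PowerSeries.coeff_smul, map_sub, PowerSeries.coeff_smul]
    simp only [smul_eq_mul]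
    ring
  rw [h12]
  exact h10

end Fermat.Agent.DS.W1
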