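import Mathlib
import Fermat.Agent.DS.EisW3
import Fermat.Agent.DS.AlgW
import Fermat.Agent.ESCore.SuppG

/-!
# Products of weight one forms with the Eisenstein series
-/

set_option linter.all false
set_option autoImplicit false

open UpperHalfPlane hiding I
open Complex Function Filter Topology ModularForm CongruenceSubgroup ModularGroup
open EisensteinSeries
open scoped Manifold MatrixGroups ModularForm Real Matrix

noncomputable section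

namespace Fermat.Agent.DS.W1

open Fermat.Agent.Eis16 (HasQ)
open Fermat.Agent.ESCore

variable {l : ℕ}

theorem adm_of (hl : l.Prime) (hl2 : l ≠ 2) {v : Fin 2 → ℤ}
    (hv : ¬ ((l : ℤ) ∣ v 0 ∧ (l : ℤ) ∣ v 1)) : Adm l v := by
  refine ⟨fun w h => hv ⟨?_, ?_⟩, fun w h => hv ⟨?_, ?_⟩⟩
  · have := congrFun h 0
    simp only [Pi.add_apply, Pi.smul_apply, smul_eq_mul, Pi.zero_apply] at this
    exact ⟨-w 0, by linarith⟩
  · have := congrFun h 1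
    simp only [Pi.add_apply, Pi.smul_apply, smul_eq_mul, Pi.zero_apply] at this
    exact ⟨-w 1, by linarith⟩
  · have := congrFun h 0
    simp only [Pi.add_apply, Pi.smul_apply, smul_eq_mul, Pi.zero_apply] at this
    have h2 : (l : ℤ) ∣ 2 * v 0 := ⟨-w 0, by linarith⟩
    rcases (Nat.prime_iff_prime_int.mp hl).dvd_or_dvd h2 with h3 | h3
    · exfalso
      have : l ∣ 2 := by exact_mod_cast h3
      exact hl2 ((Nat.prime_dvd_prime_iff_eq hl Nat.prime_two).mp this)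
    · exact h3
  · have := congrFun h 1
    simp only [Pi.add_apply, Pi.smul_apply, smul_eq_mul, Pi.zero_apply] at this
    have h2 : (l : ℤ) ∣ 2 * v 1 := ⟨-w 1, by linarith⟩
    rcases (Nat.prime_iff_prime_int.mp hl).dvd_or_dvd h2 with h3 | h3
    · exfalso
      have : l ∣ 2 := by exact_mod_cast h3
      exact hl2 ((Nat.prime_dvd_prime_iff_eq hl Nat.prime_two).mp this)
    · exact h3

theorem GW_T_pow (hl : 1 ≤ l) {v : Fin 2 → ℤ} (hv : Adm l v) (n : ℤ) (z : ℍ) :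
    GW l v ((T ^ (l * n : ℤ)) • z) = GW l v z := by
  have h2 := congrFun (GW_slash l v (T ^ (l * n : ℤ))) z
  rw [SL_slash_apply] at h2
  have h3 : denom ((T ^ (l * n : ℤ) : SL(2, ℤ))) (z : ℂ) = 1 := by
    rw [ModularGroup.denom_apply, ModularGroup.coe_T_zpow]
    simp
  rw [h3, one_zpow, mul_one] at h2
  rw [h2]
  have h4 : v ᵥ* ((T ^ (l * n : ℤ) : SL(2, ℤ)) : Matrix (Fin 2) (Fin 2) ℤ) =
      v + (l : ℤ) • ![0, n * v 0] := by
    rw [coe_T_zpow]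
    ext i
    fin_cases i
    · simp [Matrix.vecMul, dotProduct, Fin.sum_univ_two]
    · simp [Matrix.vecMul, dotProduct, Fin.sum_univ_two]
      ring
  rw [h4, GW_shift (by exact_mod_cast hl) _ hv]

/-- polynomial growth -/
theorem GW_growth (hl : 1 ≤ l) {v : Fin 2 → ℤ} (hv : Adm l v) :
    ∃ C : ℝ, 0 ≤ C ∧ ∀ z : ℍ, 1 ≤ z.im → ‖GW l v z‖ ≤ C * z.im ^ 2 := by
  obtain ⟨C, hC, h⟩ := GW_bound (l := (l : ℤ)) (by exact_mod_cast hl) hv (B := l) (by positivity)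
  refine ⟨C, hC, fun z hz => ?_⟩
  obtain ⟨n, hn⟩ := (ModularGroup_T_zpow_mem_verticalStrip z (show 0 < l by omega))
  have h1 := h _ hn.1 (by
    have := hn.2
    exact hz.trans this)
  rw [GW_T_pow hl hv] at h1
  have h2 : ((T ^ (l * n : ℤ)) • z : ℍ).im = z.im := by
    have := ModularGroup.im_T_zpow_smul z (l * n)
    exact this
  rwa [h2] at h1

theorem isZero_mul_GW (hl : 1 ≤ l) {v : Fin 2 → ℤ} (hv : Adm l v) {h : ℍ → ℂ} {w : ℝ} (hw : 0 < w)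
    (hz : IsZeroAtImInfty h) (hper : Periodic (h ∘ ofComplex) w) (hmd : MDiff h) :
    IsZeroAtImInfty (h * GW l v) := by
  have h1 := UpperHalfPlane.IsZeroAtImInfty.exp_decay_atImInfty hz hw hper hmd
    hz.isBoundedAtImInfty
  obtain ⟨C, hC, h2⟩ := GW_growth hl hv
  have h3 : GW l v =O[atImInfty] fun z : ℍ => z.im ^ 2 := by
    refine Asymptotics.IsBigO.of_bound C ?_
    have h4 : ∀ᶠ z : ℍ in atImInfty, 1 ≤ z.im := by
      rw [atImInfty]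
      exact tendsto_comap.eventually (eventually_ge_atTop 1)
    filter_upwards [h4] with z hz
    rw [Real.norm_of_nonneg (by positivity)]
    exact h2 z hz
  have h5 := h1.mul h3
  have h6 : Tendsto (fun z : ℍ => Real.exp (-2 * π * z.im / w) * z.im ^ 2) atImInfty (𝓝 0) := by
    have h7 := Real.tendsto_pow_mul_exp_neg_atTop_nhds_zero 2
    have h8 : Tendsto (fun z : ℍ => 2 * π / w * z.im) atImInfty atTop := by
      refine Tendsto.const_mul_atTop (by positivity) ?_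
      exact tendsto_comap
    have h9 := (h7.comp h8).const_mul ((2 * π / w) ^ 2)⁻¹
    rw [mul_zero] at h9
    refine h9.congr fun z => ?_
    simp only [comp_apply]
    have h10 : (2 * π / w) ≠ 0 := by positivity
    rw [mul_pow, mul_assoc ((2 * π / w) ^ 2), inv_mul_cancel_left₀ (pow_ne_zero 2 h10), mul_comm]
    congr 2
    ring
  exact h5.trans_tendsto h6

theorem not_dvd_of_Gamma0 (hl : l.Prime) {γ : SL(2, ℤ)} (hγ : γ ∈ Gamma0 l) : ¬ (l : ℤ) ∣ γ 1 1 := by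
  intro h
  rw [Fermat.Agent.Eis16.mem_Gamma0_iff] at hγ
  have hdet := γ.det_coe
  rw [Matrix.det_fin_two] at hdet
  have h1 : (l : ℤ) ∣ 1 := by
    rw [← hdet]
    exact dvd_sub (Dvd.dvd.mul_left h _) (Dvd.dvd.mul_left hγ _)
  exact (Nat.prime_iff_prime_int.mp hl).not_dvd_one h1

theorem GW_congr (hl : l.Prime) (hl2 : l ≠ 2) {a b : ℤ} (hab : (l : ℤ) ∣ a - b)
    (hb : ¬ (l : ℤ) ∣ b) : GW l ![0, a] = GW l ![0, b] := by
  obtain ⟨k, hk⟩ := hab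
  have h1 : (![0, a] : Fin 2 → ℤ) = ![0, b] + (l : ℤ) • ![0, k] := by
    ext i
    fin_cases i
    · simp
    · simp
      linarith
  rw [h1]
  exact GW_shift (by exact_mod_cast hl.one_lt.le) _ (adm_of hl hl2 fun h => hb h.2)

theorem GW_Gamma0 (hl : l.Prime) (hl2 : l ≠ 2) {γ : SL(2, ℤ)} (hγ : γ ∈ Gamma0 l) (a : ℤ)
    (ha : ¬ (l : ℤ) ∣ a) : GW l ![0, a] ∣[(1 : ℤ)] γ = GW l ![0, a * γ 1 1] := by
  rw [GW_slash]
  have hnd := not_dvd_of_Gamma0 hl hγ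
  rw [Fermat.Agent.Eis16.mem_Gamma0_iff] at hγ
  obtain ⟨c, hc⟩ := hγ
  have h1 : ![0, a] ᵥ* (γ : Matrix (Fin 2) (Fin 2) ℤ) =
      (![0, a * γ 1 1] : Fin 2 → ℤ) + (l : ℤ) • ![a * c, 0] := by
    ext i
    fin_cases i
    · simp [Matrix.vecMul, dotProduct, Fin.sum_univ_two]
      rw [hc]
      ring
    · simp [Matrix.vecMul, dotProduct, Fin.sum_univ_two]
  rw [h1]
  refine GW_shift (by exact_mod_cast hl.one_lt.le) _ (adm_of hl hl2 fun h => ?_)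
  have h2 : (l : ℤ) ∣ a * γ 1 1 := h.2
  rcases (Nat.prime_iff_prime_int.mp hl).dvd_or_dvd h2 with h3 | h3
  · exact ha h3
  · exact hnd h3

theorem exp_ne (hl : l.Prime) (hl2 : l ≠ 2) {t : ℤ} (ht : ¬ (l : ℤ) ∣ t) :
    cexp (2 * π * I * ((t / (l : ℤ) : ℝ) : ℂ)) ^ 2 ≠ 1 := by
  intro h
  rw [← Complex.exp_nat_mul, Complex.exp_eq_one_iff] at h
  obtain ⟨n, hn⟩ := h
  have h0 : (2 * π * I : ℂ) ≠ 0 := Complex.two_pi_I_ne_zero
  have hl0 : (l : ℂ) ≠ 0 := by exact_mod_cast hl.ne_zero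
  have h1 : (2 : ℂ) * t = n * l := by
    have h2 : (2 * π * I : ℂ) * (2 * t) = (2 * π * I) * (n * l) := by
      push_cast at hn
      field_simp at hn
      linear_combination (2 * π * I : ℂ) * hn
    exact mul_left_cancel₀ h0 h2
  have h3 : (2 : ℤ) * t = n * l := by exact_mod_cast h1
  have h4 : (l : ℤ) ∣ 2 * t := ⟨n, by rw [h3]; ring⟩
  rcases (Nat.prime_iff_prime_int.mp hl).dvd_or_dvd h4 with h5 | h5
  · have : l ∣ 2 := by exact_mod_cast h5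
    exact hl2 ((Nat.prime_dvd_prime_iff_eq hl Nat.prime_two).mp this)
  · exact ht h5

theorem GW_mdiff (hl : l.Prime) (hl2 : l ≠ 2) {t : ℤ} (ht : ¬ (l : ℤ) ∣ t) : MDiff (GW l ![0, t]) :=
  (hasQ_GW (by exact_mod_cast hl.one_lt.le) t (adm_of hl hl2 fun h => ht h.2)
    (exp_ne hl hl2 ht)).mdiff one_pos

variable {N : ℕ} [NeZero N]

theorem slash_periodic (f : CuspForm (Gamma1 N) 1) (A : SL(2, ℤ)) :
    Periodic (((f : ℍ → ℂ) ∣[(1 : ℤ)] A) ∘ ofComplex) (N : ℝ) := by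
  refine Fermat.Agent.ES.periodic_comp_ofComplex fun τ => ?_
  have h2 : (f : ℍ → ℂ) ∣[(1 : ℤ)] (A * ModularGroup.T ^ (N : ℤ) * A⁻¹) = (f : ℍ → ℂ) :=
    cusp_slash f _ (UnivG.T_zpow_mem (N := N) (G := Gamma1 N) le_rfl A)
  have h3 : ((f : ℍ → ℂ) ∣[(1 : ℤ)] A) ∣[(1 : ℤ)] (ModularGroup.T ^ (N : ℤ)) =
      (f : ℍ → ℂ) ∣[(1 : ℤ)] A := by
    conv_rhs => rw [← h2]
    rw [← SlashAction.slash_mul, ← SlashAction.slash_mul]
    simp
  have h4 := congrFun h3 τ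
  rw [SL_slash_apply] at h4
  have h5 : denom (ModularGroup.T ^ (N : ℤ) : SL(2, ℤ)) τ = 1 := by
    rw [ModularGroup.denom_apply, ModularGroup.coe_T_zpow]
    simp
  rw [h5, _root_.one_zpow, mul_one] at h4
  rw [← h4]
  refine congrArg ((f : ℍ → ℂ) ∣[(1 : ℤ)] A) (UpperHalfPlane.ext ?_)
  rw [ModularGroup.coe_T_zpow_smul_eq]
  simp [add_comm]

/-- **the product is a cusp form of weight two** -/
theorem mem_S2 (hl : l.Prime) (hl2 : l ≠ 2) (f : CuspForm (Gamma1 N) 1) :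
    (f : ℍ → ℂ) * GW l ![0, 1] ∈ UnivG.S2 (Gamma1 (N * l)) := by
  have hNpos : (0 : ℝ) < N := by exact_mod_cast Nat.pos_of_ne_zero (NeZero.ne N)
  obtain ⟨hf, hz⟩ := mem_mform_of_cusp f (M := N * l) (Dvd.intro l rfl)
  have h1nd : ¬ (l : ℤ) ∣ 1 := (Nat.prime_iff_prime_int.mp hl).not_dvd_one
  have hadm : Adm l ![0, 1] := adm_of hl hl2 fun h => h1nd h.2
  have hmul : ∀ A : SL(2, ℤ), ((f : ℍ → ℂ) * GW l ![0, 1]) ∣[(2 : ℤ)] A =
      ((f : ℍ → ℂ) ∣[(1 : ℤ)] A) * GW l (![0, 1] ᵥ* (A : Matrix (Fin 2) (Fin 2) ℤ)) := by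
    intro A
    rw [show (2 : ℤ) = 1 + 1 by norm_num, ModularForm.mul_slash_SL2, GW_slash]
  have hzero : ∀ A : SL(2, ℤ), IsZeroAtImInfty (((f : ℍ → ℂ) * GW l ![0, 1]) ∣[(2 : ℤ)] A) := by
    intro A
    rw [hmul]
    exact isZero_mul_GW hl.one_lt.le (adm_vecMul hadm A) hNpos (hz A)
      (slash_periodic f A) (hf.1.slash 1 _)
  refine ⟨⟨hf.1.mul (GW_mdiff hl hl2 h1nd), fun γ => ?_, fun A => (hzero A).isBoundedAtImInfty⟩,
    hzero⟩
  have hγ1 : (γ : SL(2, ℤ)) ∈ Gamma1 l := Gamma1_le (Dvd.intro_left N rfl) γ.2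
  have hγ0 : (γ : SL(2, ℤ)) ∈ Gamma0 l := Gamma1_in_Gamma0 l hγ1
  have h2 := hf.2.1 γ
  rw [MonoidHom.one_apply, Units.val_one, one_smul] at h2 ⊢
  rw [show (2 : ℤ) = 1 + 1 by norm_num, ModularForm.mul_slash_SL2, h2, GW_Gamma0 hl hl2 hγ0 1 h1nd,
    one_mul]
  congr 1
  refine GW_congr hl hl2 ?_ h1nd
  rw [Gamma1_mem] at hγ1
  have h3 := (ZMod.intCast_zmod_eq_zero_iff_dvd ((γ : SL(2, ℤ)) 1 1 - 1) l).mp (by
    push_cast
    rw [hγ1.2.1]
    ring)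
  exact h3

/-- the diamond translates -/
theorem dia_mul (hl : l.Prime) (hl2 : l ≠ 2) (ε : DirichletCharacter ℂ N) (f : CuspForm (Gamma1 N) 1)
    (hneb : ∀ σ : Gamma0 N, (f : ℍ → ℂ) ∣[(1 : ℤ)] (σ : SL(2, ℤ)) =
      ε (((σ : SL(2, ℤ)) 1 1 : ℤ) : ZMod N) • (f : ℍ → ℂ)) (δ : Gamma0 (N * l)) :
    ((f : ℍ → ℂ) * GW l ![0, 1]) ∣[(2 : ℤ)] (δ : SL(2, ℤ)) =
      ε (((δ : SL(2, ℤ)) 1 1 : ℤ) : ZMod N) • ((f : ℍ → ℂ) * GW l ![0, (δ : SL(2, ℤ)) 1 1]) := by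
  have h1nd : ¬ (l : ℤ) ∣ 1 := (Nat.prime_iff_prime_int.mp hl).not_dvd_one
  have hδ := δ.2
  rw [Fermat.Agent.Eis16.mem_Gamma0_iff] at hδ
  have hδl : (δ : SL(2, ℤ)) ∈ Gamma0 l := by
    rw [Fermat.Agent.Eis16.mem_Gamma0_iff]
    exact Dvd.dvd.trans (by push_cast; exact Dvd.intro_left (N : ℤ) rfl) hδ
  have hδN : (δ : SL(2, ℤ)) ∈ Gamma0 N := by
    rw [Fermat.Agent.Eis16.mem_Gamma0_iff]
    exact Dvd.dvd.trans (by push_cast; exact Dvd.intro (l : ℤ) rfl) hδ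
  have h2 := hneb ⟨_, hδN⟩
  rw [show (2 : ℤ) = 1 + 1 by norm_num, ModularForm.mul_slash_SL2, GW_Gamma0 hl hl2 hδl 1 h1nd,
    one_mul]
  change ((f : ℍ → ℂ) ∣[(1 : ℤ)] (δ : SL(2, ℤ))) * _ = _
  rw [h2]
  ext z
  simp only [Pi.mul_apply, Pi.smul_apply, smul_eq_mul]
  ring

end Fermat.Agent.DS.W1
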