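import Fermat.Agent.DS.Idem

set_option autoImplicit false

/-!
# Lifting representations of groups of order prime to the residue characteristic
-/

open Matrix Polynomial IsLocalRing

namespace Fermat.Agent.DS

variable {Q : Type*} [Field Q] [IsAlgClosed Q] {A : ValuationSubring Q}
variable {Γ : Type*} [Group Γ]

/-- Left translation on the index set. -/
def tau (g : Γ) : (Γ × Fin 2) ≃ (Γ × Fin 2) := (Equiv.mulLeft g).prodCongr (Equiv.refl _)

@[simp] theorem tau_apply (g : Γ) (a : Γ × Fin 2) : tau g a = (g * a.1, a.2) := rfl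

@[simp] theorem tau_symm_apply (g : Γ) (a : Γ × Fin 2) : (tau g).symm a = (g⁻¹ * a.1, a.2) := rfl

variable [Fintype Γ] [DecidableEq Γ]

/-- An invariant idempotent lifting the one attached to `ρ`. -/
theorem exists_inv_idem (ρ : Γ →* GL (Fin 2) (ResidueField A))
    (hn : (Fintype.card Γ : ResidueField A) ≠ 0) :
    ∃ e : Matrix (Γ × Fin 2) (Γ × Fin 2) A, e * e = e ∧
      (∀ (g : Γ) (a b : Γ × Fin 2), e (tau g a) (tau g b) = e a b) ∧
      ∃ ν : ResidueField A, ν * (Fintype.card Γ : ResidueField A) = 1 ∧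
        ∀ a b : Γ × Fin 2, residue A (e a b) = ν * (ρ (a.1⁻¹ * b.1)).1 a.2 b.2 := by
  choose X hX using fun (y : ResidueField A) => residue_surjective (R := A) y
  set x : Matrix (Γ × Fin 2) (Γ × Fin 2) A := Matrix.of fun a b =>
    X (Fintype.card Γ : ResidueField A)⁻¹ * X ((ρ (a.1⁻¹ * b.1)).1 a.2 b.2) with hx
  have hxe : ∀ a b, residue A (x a b) = (Fintype.card Γ : ResidueField A)⁻¹ *
      (ρ (a.1⁻¹ * b.1)).1 a.2 b.2 := by
    intro a b
    rw [hx, Matrix.of_apply, map_mul, hX, hX]
  have hid : x.map (residue A) * x.map (residue A) = x.map (residue A) := by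
    ext a b
    rw [Matrix.mul_apply, Fintype.sum_prod_type]
    simp only [Matrix.map_apply, hxe]
    have h1 : ∀ k : Γ, ∑ y : Fin 2, ((Fintype.card Γ : ResidueField A)⁻¹ *
        (ρ (a.1⁻¹ * k)).1 a.2 y) * ((Fintype.card Γ : ResidueField A)⁻¹ *
        (ρ (k⁻¹ * b.1)).1 y b.2) = (Fintype.card Γ : ResidueField A)⁻¹ *
        (Fintype.card Γ : ResidueField A)⁻¹ * (ρ (a.1⁻¹ * b.1)).1 a.2 b.2 := by
      intro k
      have h2 : (ρ (a.1⁻¹ * b.1)).1 =
          (ρ (a.1⁻¹ * k)).1 * (ρ (k⁻¹ * b.1)).1 := by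
        rw [← Units.val_mul, ← map_mul]
        rw [mul_assoc, mul_inv_cancel_left]
      rw [h2, Matrix.mul_apply, Finset.mul_sum]
      refine Finset.sum_congr rfl fun y _ => ?_
      ring
    rw [Finset.sum_congr rfl fun k _ => h1 k, Finset.sum_const, Finset.card_univ, nsmul_eq_mul,
      ← mul_assoc, ← mul_assoc, mul_inv_cancel₀ hn, one_mul]
  obtain ⟨p, hp1, hp2⟩ := exists_idem_lift x hid
  refine ⟨aeval x p, hp1, ?_, (Fintype.card Γ : ResidueField A)⁻¹, inv_mul_cancel₀ hn, ?_⟩
  · intro g a b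
    have h1 : Matrix.reindexAlgEquiv A A (tau g) x = x := by
      ext a b
      rw [Matrix.coe_reindexAlgEquiv, Matrix.reindex_apply, Matrix.submatrix_apply, hx,
        Matrix.of_apply, Matrix.of_apply]
      simp only [tau_symm_apply]
      have h2 : (g⁻¹ * a.1)⁻¹ * (g⁻¹ * b.1) = a.1⁻¹ * b.1 := by group
      rw [h2]
    have h2 := Polynomial.aeval_algHom_apply (Matrix.reindexAlgEquiv A A (tau g)).toAlgHom x p
    have h3 : (Matrix.reindexAlgEquiv A A (tau g)).toAlgHom x = x := h1
    rw [h3] at h2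
    have h4 := congrArg (fun M : Matrix (Γ × Fin 2) (Γ × Fin 2) A => M (tau g a) (tau g b)) h2
    refine h4.trans ?_
    change (Matrix.reindex (tau g) (tau g)) (aeval x p) (tau g a) (tau g b) = _
    rw [Matrix.reindex_apply, Matrix.submatrix_apply,
      Equiv.symm_apply_apply, Equiv.symm_apply_apply]
  · intro a b
    rw [← hxe]
    exact congrArg (fun M : Matrix (Γ × Fin 2) (Γ × Fin 2) (ResidueField A) => M a b) hp2

/-- **Lifting of representations** of a finite group whose order is small compared to the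
residue characteristic. -/
theorem exists_lift {l : ℕ} [Fact l.Prime] [CharP (ResidueField A) l]
    (ρ : Γ →* GL (Fin 2) (ResidueField A)) (hl : 2 * Fintype.card Γ < l) :
    ∃ ρ' : Γ →* GL (Fin 2) Q, ∀ g : Γ,
      (∃ t : A, (ρ' g).1.trace = t ∧
        residue A t = (ρ g).1.trace) ∧
      (∃ d : A, (ρ' g).1.det = d ∧
        residue A d = (ρ g).1.det) := by
  have hlp : l.Prime := Fact.out
  have hcard : 0 < Fintype.card Γ := Fintype.card_pos
  have hn : (Fintype.card Γ : ResidueField A) ≠ 0 := by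
    rw [Ne, CharP.cast_eq_zero_iff (ResidueField A) l]
    intro h
    have := Nat.le_of_dvd hcard h
    omega
  obtain ⟨e, he, hinv, ν, hν, hres⟩ := exists_inv_idem ρ hn
  set E : Matrix (Γ × Fin 2) (Γ × Fin 2) Q := e.map (algebraMap A Q) with hE
  have hEE : E * E = E := by
    rw [hE, ← Matrix.map_mul, he]
  set f : ((Γ × Fin 2) → Q) →ₗ[Q] ((Γ × Fin 2) → Q) := Matrix.toLin' E with hf
  have hff : ∀ v, f (f v) = f v := by
    intro v
    rw [hf, Matrix.toLin'_apply, Matrix.toLin'_apply, Matrix.mulVec_mulVec, hEE]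
  set L : Γ → (((Γ × Fin 2) → Q) →ₗ[Q] ((Γ × Fin 2) → Q)) := fun g =>
    LinearMap.funLeft Q Q (tau g).symm with hL
  have hL1 : ∀ (g : Γ) (v : (Γ × Fin 2) → Q) (a : Γ × Fin 2), L g v a = v ((tau g).symm a) :=
    fun g v a => rfl
  have hEinv : ∀ (g : Γ) (a b : Γ × Fin 2), E (tau g a) (tau g b) = E a b := by
    intro g a b
    rw [hE, Matrix.map_apply, Matrix.map_apply, hinv]
  have hcomm : ∀ (g : Γ) (v : (Γ × Fin 2) → Q), f (L g v) = L g (f v) := by
    intro g v
    ext a
    rw [hL1, hf, Matrix.toLin'_apply, Matrix.toLin'_apply, Matrix.mulVec, Matrix.mulVec,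
      dotProduct, dotProduct]
    rw [← Equiv.sum_comp (tau g)]
    refine Finset.sum_congr rfl fun b _ => ?_
    rw [hL1, Equiv.symm_apply_apply]
    congr 1
    have h1 := hEinv g ((tau g).symm a) b
    rw [Equiv.apply_symm_apply] at h1
    exact h1
  set V : Submodule Q ((Γ × Fin 2) → Q) := LinearMap.range f with hV
  have hfV : ∀ v ∈ V, f v = v := by
    rintro v ⟨w, rfl⟩
    exact hff w
  have hLV : ∀ (g : Γ), ∀ v ∈ V, L g v ∈ V := by
    rintro g v ⟨w, rfl⟩
    exact ⟨L g w, hcomm g w⟩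
  let R : Γ →* Module.End Q V :=
    { toFun := fun g => (L g).restrict (hLV g)
      map_one' := by
        ext v a
        change (v : (Γ × Fin 2) → Q) ((tau (1 : Γ)).symm a) = (v : (Γ × Fin 2) → Q) a
        rw [tau_symm_apply, inv_one, one_mul]
      map_mul' := by
        intro g h
        ext v a
        change (v : (Γ × Fin 2) → Q) ((tau (g * h)).symm a) =
          (v : (Γ × Fin 2) → Q) ((tau h).symm ((tau g).symm a))
        rw [tau_symm_apply, tau_symm_apply, tau_symm_apply]
        simp only [_root_.mul_inv_rev, mul_assoc] }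
  have hR : ∀ g : Γ, LinearMap.trace Q V (R g) = ((∑ a : Γ × Fin 2, e ((tau g).symm a) a : A) : Q) := by
    intro g
    have h1 : ∀ v, (L g ∘ₗ f) v ∈ V := fun v => hLV g _ ⟨v, rfl⟩
    have h2 : R g = (L g ∘ₗ f).restrict (fun v _ => h1 v) := by
      ext v a
      change L g v a = L g (f v) a
      rw [hfV v v.2]
    rw [h2, LinearMap.trace_restrict_eq_of_forall_mem V (L g ∘ₗ f) h1,
      LinearMap.trace_eq_matrix_trace Q (Pi.basisFun Q (Γ × Fin 2)), Matrix.trace]
    rw [show ((∑ a : Γ × Fin 2, e ((tau g).symm a) a : A) : Q) =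
      ∑ a : Γ × Fin 2, ((e ((tau g).symm a) a : A) : Q) from
        map_sum (algebraMap A Q) _ _]
    refine Finset.sum_congr rfl fun a _ => ?_
    rw [Matrix.diag_apply, LinearMap.toMatrix_apply, Pi.basisFun_apply, Pi.basisFun_repr]
    change L g (f (Pi.single a 1)) a = _
    rw [hL1, hf, Matrix.toLin'_apply, Matrix.mulVec_single_one]
    rfl
  have htr : ∀ g : Γ, residue A (∑ a : Γ × Fin 2, e ((tau g).symm a) a) =
      (ρ g).1.trace := by
    intro g
    rw [map_sum, Fintype.sum_prod_type]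
    have h1 : ∀ h : Γ, ∑ y : Fin 2, residue A (e ((tau g).symm (h, y)) (h, y)) =
        ν * (ρ g).1.trace := by
      intro h
      have h2 : (ρ g).1.trace =
          (ρ ((g⁻¹ * h)⁻¹ * h)).1.trace := by
        have h3 : (g⁻¹ * h)⁻¹ * h = h⁻¹ * g * h := by group
        rw [h3, map_mul, map_mul, Units.val_mul, Units.val_mul, mul_assoc, Matrix.trace_mul_comm,
          mul_assoc, ← Units.val_mul (ρ h), ← map_mul, mul_inv_cancel, map_one, Units.val_one,
          mul_one]
      rw [h2, Matrix.trace, Finset.mul_sum]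
      refine Finset.sum_congr rfl fun y _ => ?_
      rw [hres]
      rfl
    rw [Finset.sum_congr rfl fun h _ => h1 h, Finset.sum_const, Finset.card_univ, nsmul_eq_mul,
      ← mul_assoc, mul_comm (Fintype.card Γ : ResidueField A), hν, one_mul]
  have hrank : Module.finrank Q V = 2 := by
    have h1 : ((Module.finrank Q V : ℕ) : Q) = ((∑ a : Γ × Fin 2, e ((tau 1).symm a) a : A) : Q) := by
      rw [← hR 1, map_one, LinearMap.trace_one]
    have h2 : ((Module.finrank Q V : ℕ) : A) = ∑ a : Γ × Fin 2, e ((tau 1).symm a) a := by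
      apply Subtype.val_injective
      rw [← h1]
      exact map_natCast (algebraMap A Q) _
    have h3 : ((Module.finrank Q V : ℕ) : ResidueField A) = (2 : ℕ) := by
      have h4 := htr 1
      rw [← h2, map_natCast, map_one, Units.val_one, Matrix.trace_one, Fintype.card_fin] at h4
      exact h4
    rw [CharP.natCast_eq_natCast (ResidueField A) l] at h3
    have h5 : Module.finrank Q V ≤ 2 * Fintype.card Γ := by
      have h6 := Submodule.finrank_le V
      rw [Module.finrank_fintype_fun_eq_card, Fintype.card_prod, Fintype.card_fin] at h6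
      linarith
    have h7 : 2 < l := by omega
    exact Nat.ModEq.eq_of_lt_of_lt h3 (by omega) h7
  let b : Module.Basis (Fin 2) Q V := Module.finBasisOfFinrankEq Q V hrank
  let ρ₁ : Γ →* Matrix (Fin 2) (Fin 2) Q :=
    (LinearMap.toMatrixAlgEquiv b : Module.End Q V →* Matrix (Fin 2) (Fin 2) Q).comp R
  have htr1 : ∀ g : Γ, (ρ₁ g).trace = ((∑ a : Γ × Fin 2, e ((tau g).symm a) a : A) : Q) := by
    intro g
    rw [← hR g, LinearMap.trace_eq_matrix_trace Q b]
    rfl
  refine ⟨ρ₁.toHomUnits, fun g => ?_⟩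
  have h2A : IsUnit (2 : A) := by
    by_contra hcon
    have h1 : residue A 2 = 0 := by
      rw [residue_eq_zero_iff, mem_maximalIdeal]
      exact hcon
    have h2 : ((2 : ℕ) : ResidueField A) = 0 := by
      rw [← h1, map_ofNat, Nat.cast_ofNat]
    rw [CharP.cast_eq_zero_iff (ResidueField A) l] at h2
    have := Nat.le_of_dvd (by norm_num) h2
    omega
  obtain ⟨u, hu⟩ := h2A
  have h2res : residue A (↑u⁻¹ : A) * 2 = 1 := by
    have h1 := congrArg (residue A) (Units.inv_mul u)
    rw [map_mul, hu, map_one, map_ofNat] at h1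
    exact h1
  have h2Q : ((↑u⁻¹ : A) : Q) * 2 = 1 := by
    have h1 := congrArg (algebraMap A Q) (Units.inv_mul u)
    rw [map_mul, hu, map_one, map_ofNat] at h1
    exact h1
  have hdet : ∀ {F : Type _} [Field F] (M : Matrix (Fin 2) (Fin 2) F),
      2 * M.det = M.trace ^ 2 - (M * M).trace := by
    intro F _ M
    rw [Matrix.det_fin_two, Matrix.trace_fin_two, Matrix.trace_fin_two, Matrix.mul_apply,
      Matrix.mul_apply, Fin.sum_univ_two, Fin.sum_univ_two]
    ring
  refine ⟨⟨_, htr1 g, htr g⟩, (↑u⁻¹ : A) * ((∑ a : Γ × Fin 2, e ((tau g).symm a) a) ^ 2 -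
    ∑ a : Γ × Fin 2, e ((tau (g * g)).symm a) a), ?_, ?_⟩
  · have h1 := hdet (ρ₁ g)
    rw [← map_mul, htr1, htr1] at h1
    have h3 : (ρ₁.toHomUnits g).1 = ρ₁ g := rfl
    rw [h3]
    calc (ρ₁ g).det = ((↑u⁻¹ : A) : Q) * (2 * (ρ₁ g).det) := by
            rw [← mul_assoc, h2Q, one_mul]
      _ = _ := by
            rw [h1]
            push_cast
            rfl
  · rw [map_mul, map_sub, map_pow, htr, htr]
    have h1 := hdet (ρ g).1
    rw [← Units.val_mul, ← map_mul] at h1
    rw [← h1, ← mul_assoc, h2res, one_mul]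

end Fermat.Agent.DS
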