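import Fermat.Agent.DS.Bound2
import Fermat.Agent.DS.Lift

/-!
# The representation in characteristic zero
-/

set_option linter.all false
set_option autoImplicit false

open Matrix IsLocalRing Filter Finset

namespace Fermat.Agent.DS

open Fermat.Agent.ESCore (Qb GQ ιC)
open Fermat.Agent.FrobDensity (res res_apply mem_of_isIntegral_int)

/-- eigenvalues of a matrix of finite order -/
theorem exists_eigen_roots {K : Type*} [Field K] [IsAlgClosed K] {M : Matrix (Fin 2) (Fin 2) K}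
    {n : ℕ} (h : M ^ n = 1) : ∃ a b : K, a ^ n = 1 ∧ b ^ n = 1 ∧ M.trace = a + b ∧
      M.det = a * b := by
  obtain ⟨a, ha⟩ := IsAlgClosed.exists_root (Polynomial.X ^ 2 - Polynomial.C M.trace *
    Polynomial.X + Polynomial.C M.det) (by
      have : (Polynomial.X ^ 2 - Polynomial.C M.trace * Polynomial.X + Polynomial.C M.det :
          Polynomial K).degree = 2 := by compute_degree!
      rw [this]
      exact two_ne_zero)
  have ha' : a ^ 2 - M.trace * a + M.det = 0 := by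
    simpa [Polynomial.IsRoot.def] using ha
  have key : ∀ c : K, c ^ 2 - M.trace * c + M.det = 0 → c ^ n = 1 := by
    intro c hc
    have h1 : (M - c • (1 : Matrix (Fin 2) (Fin 2) K)).det = 0 := by
      rw [Matrix.trace_fin_two, Matrix.det_fin_two] at hc
      rw [Matrix.det_fin_two]
      simp only [Matrix.sub_apply, Matrix.smul_apply, Matrix.one_apply_eq, smul_eq_mul, mul_one,
        Matrix.one_apply_ne (show (0 : Fin 2) ≠ 1 by decide),
        Matrix.one_apply_ne (show (1 : Fin 2) ≠ 0 by decide), mul_zero, sub_zero]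
      linear_combination hc
    obtain ⟨v, hv0, hv⟩ := Matrix.exists_mulVec_eq_zero_iff.mpr h1
    rw [Matrix.sub_mulVec, Matrix.smul_mulVec, Matrix.one_mulVec, sub_eq_zero] at hv
    have h2 : ∀ k : ℕ, (M ^ k).mulVec v = c ^ k • v := by
      intro k
      induction k with
      | zero => rw [pow_zero, pow_zero, Matrix.one_mulVec, one_smul]
      | succ k ih =>
        rw [pow_succ, ← Matrix.mulVec_mulVec, hv, Matrix.mulVec_smul, ih, smul_smul, pow_succ,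
          mul_comm]
    have h3 := h2 n
    rw [h, Matrix.one_mulVec] at h3
    apply smul_left_inj' hv0
    rw [← h3, one_smul]
  refine ⟨a, M.trace - a, key a ha', key _ ?_, by ring, ?_⟩
  · linear_combination ha'
  · linear_combination ha'

/-- the finite set of possible traces and determinants -/
noncomputable def ZS (n : ℕ) : Finset (Qb × Qb) :=
  open scoped Classical in
  ((Polynomial.nthRootsFinset n (1 : Qb)) ×ˢ (Polynomial.nthRootsFinset n (1 : Qb))).image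
    fun z ↦ (z.1 + z.2, z.1 * z.2)

theorem mem_ZS {n : ℕ} (hn : 0 < n) {z : Qb × Qb} :
    z ∈ ZS n ↔ ∃ a b : Qb, a ^ n = 1 ∧ b ^ n = 1 ∧ z = (a + b, a * b) := by
  classical
  rw [ZS, mem_image]
  constructor
  · rintro ⟨w, hw, rfl⟩
    rw [mem_product, Polynomial.mem_nthRootsFinset hn, Polynomial.mem_nthRootsFinset hn] at hw
    exact ⟨w.1, w.2, hw.1, hw.2, rfl⟩
  · rintro ⟨a, b, ha, hb, rfl⟩
    refine ⟨(a, b), ?_, rfl⟩
    rw [mem_product, Polynomial.mem_nthRootsFinset hn, Polynomial.mem_nthRootsFinset hn]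
    exact ⟨ha, hb⟩

theorem ZS_integral {n : ℕ} (hn : 0 < n) {z : Qb × Qb} (hz : z ∈ ZS n) :
    IsIntegral ℤ z.1 ∧ IsIntegral ℤ z.2 := by
  obtain ⟨a, b, ha, hb, rfl⟩ := (mem_ZS hn).mp hz
  have h1 := isIntegral_root hn ha
  have h2 := isIntegral_root hn hb
  exact ⟨h1.add h2, h1.mul h2⟩

/-- separation of finitely many algebraic integers -/
theorem exists_sep (S : Finset Qb) (hS : ∀ x ∈ S, IsIntegral ℤ x) :
    ∃ D : ℕ, ∀ l : ℕ, l.Prime → D < l → ∀ A : ValuationSubring Qb, A.LiesOverPrime l →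
      ∀ x ∈ S, x ∈ A.nonunits → x = 0 := by
  classical
  have h : ∀ x : Qb, ∃ D : ℕ, x ∈ S → x ≠ 0 → ∀ l : ℕ, l.Prime → D < l →
      ∀ A : ValuationSubring Qb, A.LiesOverPrime l → x ∉ A.nonunits := by
    intro x
    by_cases hx : x ∈ S ∧ x ≠ 0
    · obtain ⟨D, hD⟩ := exists_notMem_nonunits (hS x hx.1) hx.2
      exact ⟨D, fun _ _ ↦ hD⟩
    · exact ⟨0, fun h1 h2 ↦ absurd ⟨h1, h2⟩ hx⟩
  choose D hD using h
  refine ⟨S.sup D, fun l hl hlD A hA x hx hmem ↦ ?_⟩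
  by_contra hx0
  exact hD x hx hx0 l hl (lt_of_le_of_lt (Finset.le_sup hx) hlD) A hA hmem

theorem sub_mem_nonunits {A : ValuationSubring Qb} {x y : Qb} (hx : x ∈ A) (hy : y ∈ A)
    (h : rA A x = rA A y) : x - y ∈ A.nonunits := by
  rw [rA_of_mem hx, rA_of_mem hy, ← sub_eq_zero, ← map_sub, residue_eq_zero_iff] at h
  exact (ValuationSubring.mem_nonunits_iff_exists_mem_maximalIdeal).mpr
    ⟨A.toSubring.sub_mem hx hy, h⟩

variable {N : ℕ} {α δ : ℕ → Qb}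

/-- a char. `0` representation with the right properties away from `l`, up to congruence -/
theorem RepData.exists_lifted (h : RepData N α δ) : ∃ n : ℕ, 0 < n ∧ ∀ L₀ : ℕ, ∃ l : ℕ,
    l.Prime ∧ L₀ < l ∧ ∃ A : ValuationSubring Qb, A.LiesOverPrime l ∧
      ∃ ρ : GQ →* GL (Fin 2) Qb, GaloisFactorsThroughFiniteLevel ρ ∧ (∀ σ, ρ σ ^ n = 1) ∧
      ∀ p : ℕ, p.Prime → ¬ p ∣ N → p ≠ l → ∀ B : ValuationSubring Qb, B.LiesOverPrime p →
        (∀ σ ∈ B.inertiaSubgroupIn ℚ, ρ σ = 1) ∧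
        ∀ σ : GQ, B.IsFrobeniusAt σ p →
          rA A (ρ σ).1.trace = rA A (α p) ∧ rA A (ρ σ).1.det = rA A (δ p) := by
  classical
  obtain ⟨M, L₁, K, hK, hb⟩ := h.bound
  refine ⟨M.factorial, Nat.factorial_pos M, fun L₀ ↦ ?_⟩
  obtain ⟨l, hl, hlL, A, hA, hc, hres⟩ := exists_split_prime K (max (max L₀ L₁) (2 * M))
  have hl0 : L₀ < l := lt_of_le_of_lt ((le_max_left _ _).trans (le_max_left _ _)) hlL
  have hl1 : L₁ < l := lt_of_le_of_lt ((le_max_right _ _).trans (le_max_left _ _)) hlL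
  have hl2 : 2 * M < l := lt_of_le_of_lt (le_max_right _ _) hlL
  obtain ⟨ρ, ⟨L, hLf, hL⟩, hred, hfin, hcard⟩ := hb l hl hl1 A hA hc hres
  haveI := hl
  haveI := hc
  haveI := Fintype.ofFinite ρ.range
  rw [Nat.card_eq_fintype_card] at hcard
  obtain ⟨ρ', hρ'⟩ := exists_lift (A := A) (l := l) ρ.range.subtype
    (lt_of_le_of_lt (Nat.mul_le_mul_left 2 hcard) hl2)
  have h1 : ∀ σ, ρ σ = 1 → (ρ'.comp ρ.rangeRestrict) σ = 1 := by
    intro σ hσ
    have e : ρ.rangeRestrict σ = 1 := Subtype.ext hσ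
    rw [MonoidHom.comp_apply, e, map_one]
  refine ⟨l, hl.out, hl0, A, hA, ρ'.comp ρ.rangeRestrict, ⟨L, hLf, fun σ hσ ↦ h1 σ (hL σ hσ)⟩,
    fun σ ↦ ?_, fun p hp hpN hpl B hB ↦ ⟨fun σ hσ ↦ h1 σ ((hred p hp hpN hpl B hB).1 σ hσ),
      fun σ hσ ↦ ?_⟩⟩
  · rw [MonoidHom.comp_apply, ← map_pow]
    have h2 : ρ.rangeRestrict σ ^ M.factorial = 1 := by
      have h3 : orderOf (ρ.rangeRestrict σ) ∣ M.factorial := by
        refine Nat.dvd_factorial (orderOf_pos _) ?_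
        exact (orderOf_le_card_univ).trans hcard
      exact orderOf_dvd_iff_pow_eq_one.mp h3
    rw [h2, map_one]
  · obtain ⟨⟨t, ht, ht'⟩, ⟨d, hd, hd'⟩⟩ := hρ' (ρ.rangeRestrict σ)
    have htd := hred.td hp hpN hpl hB hσ
    rw [DS.td, Prod.mk.injEq] at htd
    constructor
    · rw [MonoidHom.comp_apply, ht, rA_coe, ht', ← htd.1]
      rfl
    · rw [MonoidHom.comp_apply, hd, rA_coe, hd', ← htd.2]
      rfl

/-- exact version -/
theorem RepData.exists_exact (h : RepData N α δ) (L₀ : ℕ) : ∃ l : ℕ,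
    l.Prime ∧ L₀ < l ∧ ∃ ρ : GQ →* GL (Fin 2) Qb, GaloisFactorsThroughFiniteLevel ρ ∧
      (∃ n : ℕ, 0 < n ∧ ∀ σ, ρ σ ^ n = 1) ∧
      ∀ p : ℕ, p.Prime → ¬ p ∣ N → p ≠ l → ∀ B : ValuationSubring Qb, B.LiesOverPrime p →
        (∀ σ ∈ B.inertiaSubgroupIn ℚ, ρ σ = 1) ∧
        ∀ σ : GQ, B.IsFrobeniusAt σ p → (ρ σ).1.trace = α p ∧ (ρ σ).1.det = δ p := by
  classical
  obtain ⟨n, hn, hlift⟩ := h.exists_lifted
  obtain ⟨m, hm, hδ⟩ := h.root
  have hδi : ∀ p : ℕ, p.Prime → ¬ p ∣ N → IsIntegral ℤ (δ p) := fun p hp hpN ↦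
    isIntegral_root hm (hδ p hp hpN)
  -- the traces are in `ZS n`
  have hmemZ : ∀ (ρ : GQ →* GL (Fin 2) Qb), (∀ σ, ρ σ ^ n = 1) → ∀ σ,
      ((ρ σ).1.trace, (ρ σ).1.det) ∈ ZS n := by
    intro ρ hρ σ
    have h1 : (ρ σ).1 ^ n = 1 := by
      have := congrArg Units.val (hρ σ)
      rwa [Units.val_pow_eq_pow_val] at this
    obtain ⟨a, b, ha, hb, h2, h3⟩ := exists_eigen_roots h1
    exact (mem_ZS hn).mpr ⟨a, b, ha, hb, Prod.ext h2 h3⟩
  have hmemA : ∀ (A : ValuationSubring Qb) (z : Qb × Qb), z ∈ ZS n → z.1 ∈ A ∧ z.2 ∈ A :=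
    fun A z hz ↦ ⟨mem_of_isIntegral_int A (ZS_integral hn hz).1,
      mem_of_isIntegral_int A (ZS_integral hn hz).2⟩
  -- step 1
  have hstep1 : ∀ p : ℕ, p.Prime → ¬ p ∣ N → (α p, δ p) ∈ ZS n := by
    intro p hp hpN
    obtain ⟨D, hD⟩ := exists_sep ((ZS n).image (fun z ↦ z.1 - α p) ∪
      (ZS n).image (fun z ↦ z.2 - δ p)) (by
        intro x hx
        rw [Finset.mem_union, mem_image, mem_image] at hx
        rcases hx with ⟨z, hz, rfl⟩ | ⟨z, hz, rfl⟩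
        · exact (ZS_integral hn hz).1.sub (h.int p hp hpN)
        · exact (ZS_integral hn hz).2.sub (hδi p hp hpN))
    obtain ⟨l, hl, hlD, A, hA, ρ, -, hρn, hρ⟩ := hlift (max D p)
    have hlD' : D < l := lt_of_le_of_lt (le_max_left _ _) hlD
    have hlp : p < l := lt_of_le_of_lt (le_max_right _ _) hlD
    obtain ⟨B, hB⟩ := Fermat.Agent.GaloisBasics.exists_liesOverPrime hp
    obtain ⟨φ, hφ⟩ := Fermat.Agent.GaloisBasics.exists_isFrobeniusAt hp B hB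
    obtain ⟨h1, h2⟩ := (hρ p hp hpN hlp.ne B hB).2 φ hφ
    have hz := hmemZ ρ hρn φ
    have h3 := hD l hl hlD' A hA _ (Finset.mem_union_left _ (mem_image_of_mem _ hz))
      (sub_mem_nonunits (hmemA A _ hz).1 (mem_of_isIntegral_int A (h.int p hp hpN)) h1)
    have h4 := hD l hl hlD' A hA _ (Finset.mem_union_right _ (mem_image_of_mem _ hz))
      (sub_mem_nonunits (hmemA A _ hz).2 (mem_of_isIntegral_int A (hδi p hp hpN)) h2)
    have h5 : (α p, δ p) = ((ρ φ).1.trace, (ρ φ).1.det) :=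
      Prod.ext (sub_eq_zero.mp h3).symm (sub_eq_zero.mp h4).symm
    rw [h5]
    exact hz
  -- step 2
  obtain ⟨D, hD⟩ := exists_sep ((ZS n ×ˢ ZS n).image (fun z ↦ z.1.1 - z.2.1) ∪
    (ZS n ×ˢ ZS n).image (fun z ↦ z.1.2 - z.2.2)) (by
      intro x hx
      rw [Finset.mem_union, mem_image, mem_image] at hx
      rcases hx with ⟨z, hz, rfl⟩ | ⟨z, hz, rfl⟩
      · rw [mem_product] at hz
        exact (ZS_integral hn hz.1).1.sub (ZS_integral hn hz.2).1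
      · rw [mem_product] at hz
        exact (ZS_integral hn hz.1).2.sub (ZS_integral hn hz.2).2)
  obtain ⟨l, hl, hlD, A, hA, ρ, hρf, hρn, hρ⟩ := hlift (max D L₀)
  have hlD' : D < l := lt_of_le_of_lt (le_max_left _ _) hlD
  have hlp : L₀ < l := lt_of_le_of_lt (le_max_right _ _) hlD
  refine ⟨l, hl, hlp, ρ, hρf, ⟨n, hn, hρn⟩, fun p hp hpN hpl B hB ↦
    ⟨(hρ p hp hpN hpl B hB).1, fun σ hσ ↦ ?_⟩⟩
  obtain ⟨h1, h2⟩ := (hρ p hp hpN hpl B hB).2 σ hσ
  have hz := hmemZ ρ hρn σ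
  have hz' := hstep1 p hp hpN
  have hprod : (((ρ σ).1.trace, (ρ σ).1.det), (α p, δ p)) ∈ ZS n ×ˢ ZS n :=
    mem_product.mpr ⟨hz, hz'⟩
  have h3 := hD l hl hlD' A hA _ (Finset.mem_union_left _ (mem_image_of_mem _ hprod))
    (sub_mem_nonunits (hmemA A _ hz).1 (hmemA A _ hz').1 h1)
  have h4 := hD l hl hlD' A hA _ (Finset.mem_union_right _ (mem_image_of_mem _ hprod))
    (sub_mem_nonunits (hmemA A _ hz).2 (hmemA A _ hz').2 h2)
  exact ⟨sub_eq_zero.mp h3, sub_eq_zero.mp h4⟩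

/-- **The representation in characteristic zero.** -/
theorem RepData.exists_rep (h : RepData N α δ) : ∃ ρ : GQ →* GL (Fin 2) Qb,
    GaloisFactorsThroughFiniteLevel ρ ∧ (∃ n : ℕ, 0 < n ∧ ∀ σ, ρ σ ^ n = 1) ∧
      ∀ p : ℕ, p.Prime → ¬ p ∣ N → ∀ B : ValuationSubring Qb, B.LiesOverPrime p →
        (∀ σ ∈ B.inertiaSubgroupIn ℚ, ρ σ = 1) ∧
        ∀ σ : GQ, B.IsFrobeniusAt σ p → (ρ σ).1.trace = α p ∧ (ρ σ).1.det = δ p := by
  classical
  obtain ⟨l, hl, -, ρ, ⟨L, hLf, hL⟩, ⟨n, hn, hρn⟩, hρ⟩ := h.exists_exact 0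
  obtain ⟨l', hl', hll', ρ', ⟨L', hLf', hL'⟩, -, hρ'⟩ := h.exists_exact l
  -- same traces and determinants
  have key : ∀ σ, (ρ σ).1.trace = (ρ' σ).1.trace ∧ (ρ σ).1.det = (ρ' σ).1.det := by
    intro σ
    obtain ⟨p, hp, hpT, B, hB, φ, hφ, i, h1, h2⟩ := exists_frob_pow₂ ρ ρ' hL hL' σ
      (insert l (insert l' N.primeFactors))
    rw [Finset.mem_insert, Finset.mem_insert, not_or, not_or] at hpT
    have hpN : ¬ p ∣ N := fun h2 ↦ hpT.2.2 (Nat.mem_primeFactors.mpr ⟨hp, h2, h.ne⟩)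
    obtain ⟨h3, h4⟩ := (hρ p hp hpN hpT.1 B hB).2 φ hφ
    obtain ⟨h5, h6⟩ := (hρ' p hp hpN hpT.2.1 B hB).2 φ hφ
    rw [h1, h2, Units.val_pow_eq_pow_val, Units.val_pow_eq_pow_val, trace_pow_eq, trace_pow_eq,
      Matrix.det_pow, Matrix.det_pow, h3, h4, h5, h6]
    exact ⟨rfl, rfl⟩
  refine ⟨ρ, ⟨L, hLf, hL⟩, ⟨n, hn, hρn⟩, fun p hp hpN B hB ↦ ?_⟩
  by_cases hpl : p = l
  · have hpl' : p ≠ l' := by omega
    obtain ⟨h1, h2⟩ := hρ' p hp hpN hpl' B hB
    refine ⟨fun σ hσ ↦ ?_, fun σ hσ ↦ ?_⟩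
    · have h3 := h1 σ hσ
      obtain ⟨h4, h5⟩ := key σ
      rw [h3, Units.val_one, Matrix.trace_one, Fintype.card_fin] at h4
      rw [h3, Units.val_one, Matrix.det_one] at h5
      apply Units.ext
      refine eq_one_of_trace_det (by exact_mod_cast h4) h5 hn ?_
      have := congrArg Units.val (hρn σ)
      rwa [Units.val_pow_eq_pow_val] at this
    · rw [(key σ).1, (key σ).2]
      exact h2 σ hσ
  · exact hρ p hp hpN hpl B hB

end Fermat.Agent.DS
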