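import Mathlib
import Fermat.Agent.DS.EisW4

/-!
# `q`-expansions of Hecke operators in weight two
-/

set_option linter.all false
set_option autoImplicit false

open UpperHalfPlane hiding I
open Complex Function Filter Topology ModularForm CongruenceSubgroup ModularGroup
open EisensteinSeries
open scoped Manifold MatrixGroups ModularForm Real Matrix

noncomputable section

namespace Fermat.Agent.DS

open Fermat.Agent.Eis16 (HasQ)
open Fermat.Agent.ESCore Fermat.Agent.ESCore.UnivG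

theorem hasQ_heckeU (k : ℤ) {q : ℕ} (hq : q ≠ 0) {F : ℍ → ℂ} {P : PowerSeries ℂ} (hP : HasQ 1 F P) :
    ∃ Q : PowerSeries ℂ, HasQ 1 (heckeU k q F) Q ∧ ∀ n, Q.coeff n = P.coeff (q * n) := by
  have hper := hP.periodic one_pos
  have hper' : Function.Periodic (F ∘ ofComplex) 1 := by simpa using hper
  have hhol := hP.mdiff one_pos
  have hbdd := hP.isBounded one_pos
  have h1 : HasQ 1 (heckeU k q F) (qExpansion 1 (heckeU k q F)) :=
    HasQ.of_periodic one_pos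
      (P2MW.S_UpperHalfPlane_qCoeff_heckeU.M4cP1W2.periodic_heckeU_comp_ofComplex k q hper')
      (P2MW.S_UpperHalfPlane_qCoeff_heckeU.M4cP1W2.mdifferentiable_heckeU k q hhol)
      (P2MW.S_UpperHalfPlane_qCoeff_heckeU.M4cP1W2.isBoundedAtImInfty_heckeU k q hbdd)
  refine ⟨_, h1, fun n => ?_⟩
  have h4 := UpperHalfPlane.qCoeff_heckeU hper' hhol hbdd k hq n
  rw [coeffHeckeU_apply, mul_comm n q] at h4
  have h5 : (qExpansion 1 F).coeff (q * n) = P.coeff (q * n) := by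
    rw [hP.qExpansion_eq one_pos]
  rw [← h5]
  exact h4

theorem hasQ_diag (k : ℤ) {q : ℕ} (hq : q ≠ 0) {F : ℍ → ℂ} {P : PowerSeries ℂ} (hP : HasQ 1 F P) :
    HasQ 1 (F ∣[k] heckeDiagMatrix q) ((q : ℂ) ^ (k - 1) • P.expand q hq) := by
  refine ((hP.comp_pow q hq (qParam_heckeDiagMatrix hq)).smul ((q : ℂ) ^ (k - 1))).congr fun τ => ?_
  rw [slash_heckeDiagMatrix_apply k hq]
  rfl

variable {M : ℕ} {G : Subgroup SL(2, ℤ)} (h1 : Gamma1 M ≤ G) (h0 : G ≤ Gamma0 M)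

theorem heckeS2_eq {q : ℕ} (hq : q.Prime) (hN : ¬ q ∣ M) (F : S2 G) :
    (heckeS2 h1 h0 hq hN F).1 = heckeU 2 q F.1 +
      (F.1 ∣[(2 : ℤ)] (sigmaD M q : SL(2, ℤ))) ∣[(2 : ℤ)] heckeDiagMatrix q := by
  rw [heckeS2_coe, Fintype.sum_option, add_comm]
  congr 1
  · rw [heckeU_eq_sum_fin]
    refine Finset.sum_congr rfl fun j _ => ?_
    congr 1
    change gam M 1 * heckeMatrix q j = _
    rw [map_one, one_mul]
  · change F.1 ∣[(2 : ℤ)] (gam M (sigmaD M q) * heckeDiagMatrix q) = _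
    rw [SlashAction.slash_mul, gam_apply]
    rfl

theorem hasQ_heckeS2 {q : ℕ} (hq : q.Prime) (hN : ¬ q ∣ M) (F : S2 G) {P P' : PowerSeries ℂ}
    (hP : HasQ 1 F.1 P) (hP' : HasQ 1 (F.1 ∣[(2 : ℤ)] (sigmaD M q : SL(2, ℤ))) P') :
    ∃ Q : PowerSeries ℂ, HasQ 1 (heckeS2 h1 h0 hq hN F).1 Q ∧
      ∀ n, Q.coeff n = P.coeff (q * n) + q * (if q ∣ n then P'.coeff (n / q) else 0) := by
  obtain ⟨Q, hQ, hQ'⟩ := hasQ_heckeU 2 hq.ne_zero hP
  have h2 := hasQ_diag 2 hq.ne_zero hP'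
  refine ⟨Q + (q : ℂ) ^ ((2 : ℤ) - 1) • P'.expand q hq.ne_zero, ?_, fun n => ?_⟩
  · rw [heckeS2_eq]
    exact hQ.add h2
  · rw [map_add, hQ', PowerSeries.coeff_smul, PowerSeries.coeff_expand]
    norm_num

end Fermat.Agent.DS
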