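import Mathlib
import Fermat.Agent.ESCore.Defs
import Fermat.Agent.ESCore.AlgLaurent
import Fermat.Agent.ESCore.FgCoeffG
import Fermat.Agent.LG.GRPlace
import Fermat.Prelude.Def_FLTPrelim_Ramification

/-!
# Places of `ℂ` and reductions
-/

set_option linter.all false
set_option autoImplicit false

open IsLocalRing

noncomputable section

namespace Fermat.Agent.DS

open Fermat.Agent.ESCore

section Red

variable {K : Type} [Field K] (V : ValuationSubring K)

/-- `x` is integral with residue `y` -/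
def Red (x : K) (y : ResidueField V) : Prop := ∃ h : x ∈ V, residue V ⟨x, h⟩ = y

variable {V} {x x' : K} {y y' : ResidueField V}

theorem Red.unique (h : Red V x y) (h' : Red V x y') : y = y' := by
  obtain ⟨h1, rfl⟩ := h
  obtain ⟨h2, rfl⟩ := h'
  rfl

theorem Red.add (h : Red V x y) (h' : Red V x' y') : Red V (x + x') (y + y') := by
  obtain ⟨h1, rfl⟩ := h
  obtain ⟨h2, rfl⟩ := h'
  exact ⟨V.add_mem _ _ h1 h2, by rw [← map_add]; rfl⟩

theorem Red.mul (h : Red V x y) (h' : Red V x' y') : Red V (x * x') (y * y') := by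
  obtain ⟨h1, rfl⟩ := h
  obtain ⟨h2, rfl⟩ := h'
  exact ⟨V.mul_mem _ _ h1 h2, by rw [← map_mul]; rfl⟩

theorem Red.neg (h : Red V x y) : Red V (-x) (-y) := by
  obtain ⟨h1, rfl⟩ := h
  exact ⟨V.neg_mem _ h1, by rw [← map_neg]; rfl⟩

theorem Red.sub (h : Red V x y) (h' : Red V x' y') : Red V (x - x') (y - y') := by
  rw [sub_eq_add_neg, sub_eq_add_neg]
  exact h.add h'.neg

theorem Red.one : Red V 1 1 := ⟨V.one_mem, map_one _⟩

theorem Red.zero : Red V 0 0 := ⟨V.zero_mem, map_zero _⟩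

theorem Red.natCast (n : ℕ) : Red V n n := by
  induction n with
  | zero => rw [Nat.cast_zero, Nat.cast_zero]; exact Red.zero
  | succ n ih => rw [Nat.cast_succ, Nat.cast_succ]; exact ih.add Red.one

theorem Red.intCast (n : ℤ) : Red V n n := by
  obtain ⟨n, rfl | rfl⟩ := n.eq_nat_or_neg
  · rw [Int.cast_natCast, Int.cast_natCast]
    exact Red.natCast n
  · rw [Int.cast_neg, Int.cast_neg, Int.cast_natCast, Int.cast_natCast]
    exact (Red.natCast n).neg

theorem Red.pow (h : Red V x y) (n : ℕ) : Red V (x ^ n) (y ^ n) := by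
  induction n with
  | zero => rw [pow_zero, pow_zero]; exact Red.one
  | succ n ih => rw [pow_succ, pow_succ]; exact ih.mul h

theorem Red.sum {ι : Type*} (s : Finset ι) {x : ι → K} {y : ι → ResidueField V}
    (h : ∀ i ∈ s, Red V (x i) (y i)) : Red V (∑ i ∈ s, x i) (∑ i ∈ s, y i) := by
  classical
  induction s using Finset.induction_on with
  | empty => exact Red.zero
  | insert a s ha ih =>
    rw [Finset.sum_insert ha, Finset.sum_insert ha]
    exact (h a (Finset.mem_insert_self a s)).add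
      (ih fun i hi => h i (Finset.mem_insert_of_mem hi))

theorem Red.ne_zero (h : Red V x y) (hy : y ≠ 0) : x ≠ 0 := by
  rintro rfl
  exact hy (h.unique Red.zero)

theorem Red.inv (h : Red V x y) (hy : y ≠ 0) : Red V x⁻¹ y⁻¹ := by
  have hx := h.ne_zero hy
  obtain ⟨h1, rfl⟩ := h
  have h2 : IsUnit (⟨x, h1⟩ : V) := by
    by_contra h3
    exact hy ((residue_eq_zero_iff _).mpr ((mem_maximalIdeal _).mpr h3))
  obtain ⟨u, hu⟩ := h2
  have h3 : x⁻¹ ∈ V := by
    have h4 : ((u⁻¹ : Vˣ) : V).1 = x⁻¹ := by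
      have h5 : ((u : V) * ((u⁻¹ : Vˣ) : V)).1 = 1 := by rw [Units.mul_inv]; rfl
      rw [hu] at h5
      exact eq_inv_of_mul_eq_one_right h5
    rw [← h4]
    exact ((u⁻¹ : Vˣ) : V).2
  refine ⟨h3, ?_⟩
  have h6 : residue V ⟨x, h1⟩ * residue V ⟨x⁻¹, h3⟩ = 1 := by
    rw [← map_mul, ← map_one (residue V)]
    congr 1
    exact Subtype.ext (mul_inv_cancel₀ hx)
  exact eq_inv_of_mul_eq_one_right h6

theorem Red.div (h : Red V x y) (h' : Red V x' y') (hy : y' ≠ 0) : Red V (x / x') (y / y') := by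
  rw [div_eq_mul_inv, div_eq_mul_inv]
  exact h.mul (h'.inv hy)

end Red

/-! ### The coefficient of minimal valuation -/

theorem exists_scale {V : ValuationSubring ℂ} {a : ℕ → ℂ} (ha : Gal.FgSeq a) (h1 : a 1 = 1) :
    ∃ n₀, a n₀ ≠ 0 ∧ ∀ n, a n / a n₀ ∈ V := by
  obtain ⟨M, hM, haM⟩ := ha
  haveI : IsNoetherian ℤ M := isNoetherian_of_fg_of_noetherian M hM
  -- the submodules
  let S : {n : ℕ // a n ≠ 0} → Submodule ℤ M := fun n =>
    { carrier := {y | (y : ℂ) / a n ∈ V}
      add_mem' := fun {x y} hx hy => by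
        change ((x + y : M) : ℂ) / a n ∈ V
        rw [Submodule.coe_add, add_div]
        exact V.add_mem _ _ hx hy
      zero_mem' := by
        change ((0 : M) : ℂ) / a n ∈ V
        rw [Submodule.coe_zero, zero_div]
        exact V.zero_mem
      smul_mem' := fun c x hx => by
        change ((c • x : M) : ℂ) / a n ∈ V
        rw [Submodule.coe_smul, zsmul_eq_mul, mul_div_assoc]
        exact V.mul_mem _ _ (intCast_mem V c) hx }
  haveI : Nonempty {n : ℕ // a n ≠ 0} := ⟨⟨1, by rw [h1]; exact one_ne_zero⟩⟩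
  obtain ⟨_, ⟨n₀, rfl⟩, hmax⟩ := (wellFounded_gt (α := Submodule ℤ M)).has_min (Set.range S)
    (Set.range_nonempty S)
  refine ⟨n₀, n₀.2, fun n => ?_⟩
  by_cases hn : a n = 0
  · rw [hn, zero_div]
    exact V.zero_mem
  rcases V.mem_or_inv_mem (a n / a n₀) with h2 | h2
  · exact h2
  · rw [inv_div] at h2
    have h3 : S n₀ ≤ S ⟨n, hn⟩ := by
      intro y hy
      change (y : ℂ) / a n ∈ V
      have hy' : (y : ℂ) / a n₀ ∈ V := hy
      have h4 : (y : ℂ) / a n = ((y : ℂ) / a n₀) * (a n₀ / a n) := by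
        have := n₀.2
        field_simp
      rw [h4]
      exact V.mul_mem _ _ hy' h2
    have h5 : ¬ S n₀ < S ⟨n, hn⟩ := hmax _ ⟨_, rfl⟩
    have h6 : S ⟨n, hn⟩ ≤ S n₀ := by
      rcases h3.lt_or_eq with h7 | h7
      · exact absurd h7 h5
      · exact h7.symm.le
    have h7 : (⟨a n, haM n⟩ : M) ∈ S ⟨n, hn⟩ := by
      change a n / a n ∈ V
      rw [div_self hn]
      exact V.one_mem
    exact h6 h7

/-! ### The place above `A` -/

/-- `V` lies above `A` -/
structure Above (A : ValuationSubring Qb) (V : ValuationSubring ℂ) : Prop where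
  mem : ∀ x ∈ A, ιC x ∈ V
  nonunits : ∀ x ∈ A.nonunits, ιC x ∈ V.nonunits
  of_mem : ∀ x, ιC x ∈ V → x ∈ A

theorem exists_above (A : ValuationSubring Qb) : ∃ V : ValuationSubring ℂ, Above A V := by
  obtain ⟨V, h1, h2, h3⟩ := LG.exists_extend ιC A
  exact ⟨V, h1, h2, h3⟩

section Above

variable {A : ValuationSubring Qb} {V : ValuationSubring ℂ}

/-- the inclusion -/
def Above.hom (h : Above A V) : A →+* V where
  toFun x := ⟨ιC x, h.mem x x.2⟩
  map_one' := Subtype.ext (map_one ιC)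
  map_mul' x y := Subtype.ext (map_mul ιC x.1 y.1)
  map_zero' := Subtype.ext (map_zero ιC)
  map_add' x y := Subtype.ext (map_add ιC x.1 y.1)

theorem Above.isLocalHom (h : Above A V) : IsLocalHom h.hom := by
  constructor
  intro x hx
  by_contra hcon
  have h1 : (x : Qb) ∈ A.nonunits := (ValuationSubring.mem_nonunits_iff_exists_mem_maximalIdeal).mpr
    ⟨x.2, (mem_maximalIdeal _).mpr hcon⟩
  have h2 := h.nonunits _ h1
  rw [ValuationSubring.mem_nonunits_iff_exists_mem_maximalIdeal] at h2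
  obtain ⟨h3, h4⟩ := h2
  exact (mem_maximalIdeal _).mp h4 hx

/-- the map of the residue fields -/
def Above.res (h : Above A V) : ResidueField A →+* ResidueField V :=
  haveI := h.isLocalHom
  ResidueField.map h.hom

theorem Above.red (h : Above A V) (a : A) : Red V (ιC a) (h.res (residue A a)) :=
  ⟨h.mem a a.2, rfl⟩

end Above

end Fermat.Agent.DS
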