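import Mathlib
import Fermat.Agent.DS.Place
import Fermat.Agent.DS.HeckeS2
import Fermat.Agent.FrobDensity.Reduction

/-!
# Weight one forms modulo `l`: reductions
-/

set_option linter.all false
set_option autoImplicit false

open UpperHalfPlane hiding I
open Complex Function Filter Topology ModularForm CongruenceSubgroup ModularGroup
open IsLocalRing
open scoped Manifold MatrixGroups ModularForm Real Matrix

noncomputable section

namespace Fermat.Agent.DS

open Fermat.Agent.Eis16 (HasQ)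
open Fermat.Agent.ESCore Fermat.Agent.ESCore.UnivG
open Fermat.Agent.FrobDensity (mem_of_isIntegral_int charP_residue)
open W1

/-- reduction of characters of finite order -/
theorem exists_red_char {H : Type} [Group H] [Finite H] (A : ValuationSubring Qb) (χ : H →* ℂˣ) :
    ∃ χ' : H →* (ResidueField A)ˣ, ∀ h, ∃ a : A, ιC a = χ h ∧ residue A a = χ' h := by
  have hint : ∀ h, IsIntegral ℤ ((χ h : ℂˣ) : ℂ) := by
    intro h
    refine IsIntegral.of_pow (n := Nat.card H) Nat.card_pos ?_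
    rw [← Units.val_pow_eq_pow_val, ← map_pow, pow_card_eq_one', map_one, Units.val_one]
    exact isIntegral_one
  have h1 : ∀ h, ∃ a : A, ιC a = χ h := by
    intro h
    obtain ⟨y, hy⟩ := exists_ιC_of_isIntegral (hint h)
    have h2 : IsIntegral ℤ y := isIntegral_of_ιC (by rw [hy]; exact hint h)
    exact ⟨⟨y, mem_of_isIntegral_int A h2⟩, hy⟩
  choose a ha using h1
  have hinj : ∀ x y : A, ιC x = ιC y → x = y := fun x y h => Subtype.ext (ιC.injective h)
  let g : H →* ResidueField A :=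
    { toFun := fun h => residue A (a h)
      map_one' := by
        rw [← map_one (residue A)]
        congr 1
        apply hinj
        rw [ha, map_one, Units.val_one]
        exact (map_one ιC).symm
      map_mul' := fun x y => by
        rw [← map_mul]
        congr 1
        apply hinj
        rw [ha, map_mul, Units.val_mul, ← ha, ← ha]
        exact (map_mul ιC _ _).symm }
  exact ⟨g.toHomUnits, fun h => ⟨a h, ha h, rfl⟩⟩

/-! ### Reduction of the Eisenstein series -/

section Gser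

variable {l : ℕ} {V : ValuationSubring ℂ}

theorem red_root (hl : l.Prime) [CharP (ResidueField V) l] {x : ℂ} (hx : x ^ l = 1) :
    Red V x 1 := by
  have h1 : IsIntegral ℤ x := by
    refine IsIntegral.of_pow (n := l) hl.pos ?_
    rw [hx]
    exact isIntegral_one
  have h2 : x ∈ V := mem_of_isIntegral_int V h1
  refine ⟨h2, ?_⟩
  haveI : Fact l.Prime := ⟨hl⟩
  have h3 : (residue V ⟨x, h2⟩) ^ l = 1 := by
    rw [← map_pow, ← map_one (residue V)]
    congr 1
    exact Subtype.ext hx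
  have h4 : (residue V ⟨x, h2⟩ - 1) ^ l = 0 := by
    rw [sub_pow_char, h3, one_pow, sub_self]
  exact sub_eq_zero.mp (pow_eq_zero_iff hl.ne_zero |>.mp h4)

/-- the normalised series -/
def Gser (ζ ξ : ℂ) : PowerSeries ℂ :=
  ((ζ ^ 2 - 1) / (ζ ^ 2 + 4 * ζ + 1)) •
    (PowerSeries.C ((ξ ^ 2 + 4 * ξ + 1) / (ξ ^ 2 - 1)) - (2 : ℂ) • LS (sk ξ))

theorem red_Gser (hl : l.Prime) (hl5 : 5 ≤ l) [CharP (ResidueField V) l] {ζ : ℂ}
    (hζ : ζ ^ l = 1) (hζ2 : ζ ^ 2 ≠ 1) {t : ℕ} (ht : ¬ l ∣ t) (n : ℕ) :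
    Red V ((Gser ζ (ζ ^ t)).coeff n) (if n = 0 then ((t : ResidueField V))⁻¹ else 0) := by
  have hr := red_root (V := V) hl hζ
  have hr' : Red V (ζ ^ t) 1 := by
    have := hr.pow t
    rwa [one_pow] at this
  have h6 : ((6 : ℕ) : ResidueField V) ≠ 0 := by
    rw [Ne, CharP.cast_eq_zero_iff (ResidueField V) l]
    intro h
    have h1 : l ∣ 2 * 3 := h
    rcases (Nat.Prime.dvd_mul hl).mp h1 with h2 | h2
    · have := Nat.le_of_dvd (by norm_num) h2
      omega
    · have := Nat.le_of_dvd (by norm_num) h2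
      omega
  have ht0 : (t : ResidueField V) ≠ 0 := by
    rw [Ne, CharP.cast_eq_zero_iff (ResidueField V) l]
    exact ht
  have hquad : ∀ x : ℂ, Red V x 1 → Red V (x ^ 2 + 4 * x + 1) ((6 : ℕ) : ResidueField V) := by
    intro x hx
    have h1 := ((hx.pow 2).add ((Red.natCast (V := V) 4).mul hx)).add Red.one
    have h2 : (1 : ResidueField V) ^ 2 + ((4 : ℕ) : ResidueField V) * 1 + 1 =
        ((6 : ℕ) : ResidueField V) := by
      push_cast
      norm_num
    rw [h2] at h1
    exact_mod_cast h1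
  have hsub : Red V (ζ ^ 2 - 1) 0 := by
    have h1 := (hr.pow 2).sub Red.one
    rwa [one_pow, sub_self] at h1
  have hnrm : Red V ((ζ ^ 2 - 1) / (ζ ^ 2 + 4 * ζ + 1)) 0 := by
    have h1 := hsub.div (hquad ζ hr) h6
    rwa [zero_div] at h1
  rw [Gser, PowerSeries.coeff_smul, map_sub, PowerSeries.coeff_smul, smul_eq_mul, smul_eq_mul]
  have hsk : ∀ k, Red V (sk (ζ ^ t) k) 0 := by
    intro k
    have hi : Red V (ζ ^ t)⁻¹ 1 := by
      have := hr'.inv one_ne_zero
      rwa [inv_one] at this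
    have h1 := ((((Red.natCast (V := V) 2).mul (hr'.pow k)).sub ((hr'.pow 2).pow k)).sub
      ((Red.natCast (V := V) 2).mul (hi.pow k))).add ((hi.pow 2).pow k)
    have h2 : ((2 : ℕ) : ResidueField V) * 1 ^ k - (1 ^ 2) ^ k - ((2 : ℕ) : ResidueField V) * 1 ^ k +
        (1 ^ 2) ^ k = 0 := by
      simp
    rw [h2] at h1
    exact_mod_cast h1
  have hLS : Red V ((LS (sk (ζ ^ t))).coeff n) 0 := by
    rw [LS_coeff]
    have h1 := Red.sum (V := V) n.divisorsAntidiagonal (x := fun x => sk (ζ ^ t) x.2)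
      (y := fun _ => 0) fun x _ => hsk x.2
    rwa [Finset.sum_const_zero] at h1
  have hLS2 : Red V ((ζ ^ 2 - 1) / (ζ ^ 2 + 4 * ζ + 1) * (2 * (LS (sk (ζ ^ t))).coeff n)) 0 := by
    have h1 := hnrm.mul ((Red.natCast (V := V) 2).mul hLS)
    rw [zero_mul] at h1
    exact_mod_cast h1
  rw [mul_sub]
  split_ifs with hn
  · subst hn
    have hgeom : (∑ i ∈ Finset.range t, (ζ ^ 2) ^ i) * (ζ ^ 2 - 1) = (ζ ^ t) ^ 2 - 1 := by
      rw [geom_sum_mul]
      ring
    set u := ∑ i ∈ Finset.range t, (ζ ^ 2) ^ i with hu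
    have hru : Red V u (t : ResidueField V) := by
      have h1 := Red.sum (V := V) (Finset.range t) (x := fun i => (ζ ^ 2) ^ i)
        (y := fun i => (1 ^ 2) ^ i) fun i _ => (hr.pow 2).pow i
      simpa using h1
    have hu0 : u ≠ 0 := hru.ne_zero ht0
    have hz0 : ζ ^ 2 - 1 ≠ 0 := sub_ne_zero.mpr hζ2
    have h1 : (ζ ^ 2 - 1) / (ζ ^ 2 + 4 * ζ + 1) *
        (PowerSeries.C (((ζ ^ t) ^ 2 + 4 * ζ ^ t + 1) / ((ζ ^ t) ^ 2 - 1))).coeff 0 =
        (((ζ ^ t) ^ 2 + 4 * ζ ^ t + 1) / (ζ ^ 2 + 4 * ζ + 1)) * u⁻¹ := by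
      rw [PowerSeries.coeff_zero_C, ← hgeom]
      have := (hquad ζ hr).ne_zero h6
      field_simp
    rw [h1]
    have h2 := (((hquad _ hr').div (hquad ζ hr) h6).mul (hru.inv ht0)).sub hLS2
    rw [div_self h6, one_mul, sub_zero] at h2
    exact h2
  · have h1 : (PowerSeries.C (((ζ ^ t) ^ 2 + 4 * ζ ^ t + 1) / ((ζ ^ t) ^ 2 - 1))).coeff n = 0 := by
      rw [PowerSeries.coeff_C, if_neg hn]
    rw [h1, mul_zero]
    have h2 := (Red.zero (V := V)).sub hLS2
    rwa [sub_zero] at h2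

/-- the product of a series with the Eisenstein series -/
theorem red_mul_Gser (hl : l.Prime) (hl5 : 5 ≤ l) [CharP (ResidueField V) l] {ζ : ℂ}
    (hζ : ζ ^ l = 1) (hζ2 : ζ ^ 2 ≠ 1) {t : ℕ} (ht : ¬ l ∣ t) {P : PowerSeries ℂ}
    {b : ℕ → ResidueField V} (hP : ∀ n, Red V (P.coeff n) (b n)) (n : ℕ) :
    Red V ((P * Gser ζ (ζ ^ t)).coeff n) (((t : ResidueField V))⁻¹ * b n) := by
  classical
  rw [PowerSeries.coeff_mul]
  have h1 := Red.sum (V := V) (Finset.HasAntidiagonal.antidiagonal n)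
    (x := fun p => P.coeff p.1 * (Gser ζ (ζ ^ t)).coeff p.2)
    (y := fun p => b p.1 * (if p.2 = 0 then ((t : ResidueField V))⁻¹ else 0))
    fun p _ => (hP p.1).mul (red_Gser hl hl5 hζ hζ2 ht p.2)
  have h2 : ∑ p ∈ Finset.HasAntidiagonal.antidiagonal n, b p.1 *
      (if p.2 = 0 then ((t : ResidueField V))⁻¹ else 0) = ((t : ResidueField V))⁻¹ * b n := by
    rw [Finset.sum_eq_single (n, 0)]
    · rw [if_pos rfl, mul_comm]
    · rintro ⟨i, j⟩ hij hne
      rw [Finset.HasAntidiagonal.mem_antidiagonal] at hij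
      have : j ≠ 0 := by
        rintro rfl
        apply hne
        simp only [add_zero] at hij
        rw [hij]
      rw [if_neg this, mul_zero]
    · intro h
      exact absurd (Finset.HasAntidiagonal.mem_antidiagonal.mpr (add_zero n)) h
  rw [h2] at h1
  exact h1

end Gser

end Fermat.Agent.DS
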