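import Mathlib
import Fermat.Agent.DS.ModL1

/-!
# Weight one forms modulo `l`: the homomorphism of the Hecke algebra
-/

set_option linter.all false
set_option autoImplicit false

open UpperHalfPlane hiding I
open Complex Function Filter Topology ModularForm CongruenceSubgroup ModularGroup
open IsLocalRing
open scoped Manifold MatrixGroups ModularForm Real Matrix

noncomputable section

namespace Fermat.Agent.DS

open Fermat.Agent.Eis16 (HasQ)
open Fermat.Agent.ESCore Fermat.Agent.ESCore.UnivG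
open Fermat.Agent.ESCore.Univ (Idx)

section XX

variable {M : ℕ} [NeZero M] {A : ValuationSubring Qb} {V : ValuationSubring ℂ} (hV : Above A V)
  (e : (ZMod M)ˣ →* (ResidueField A)ˣ) (b : ℕ → ResidueField V)

theorem e_mul (e : (ZMod M)ˣ →* (ResidueField A)ˣ) (δ δ' : Gamma0 M) :
    (e (Gal.dU M (δ * δ')) : ResidueField A) =
      (e (Gal.dU M δ) : (ResidueField A)ˣ) * (e (Gal.dU M δ') : (ResidueField A)ˣ) := by
  rw [map_mul, map_mul, Units.val_mul]

/-- the congruence condition -/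
def XX (F : S2 (Gamma1 M)) (y : ResidueField A) : Prop :=
  ∀ (δ : Gamma0 M) (n : ℕ), Red V ((qExpansion 1 (F.1 ∣[(2 : ℤ)] (δ : SL(2, ℤ)))).coeff n)
    (hV.res (y * (e (Gal.dU M δ) : (ResidueField A)ˣ)) * b n)

theorem S2_hasQ (F : S2 (Gamma1 M)) : HasQ 1 F.1 (qExpansion 1 F.1) :=
  Gal.hasQ_one (N := M) le_rfl F.2.1

variable {hV e b}

theorem XX.add {F F' : S2 (Gamma1 M)} {y y' : ResidueField A} (h : XX hV e b F y)
    (h' : XX hV e b F' y') : XX hV e b (F + F') (y + y') := by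
  intro δ n
  have h1 := (S2_hasQ (diaS2 le_rfl (Gamma1_in_Gamma0 M) δ F)).add
    (S2_hasQ (diaS2 le_rfl (Gamma1_in_Gamma0 M) δ F'))
  have h2 : (F + F').1 ∣[(2 : ℤ)] (δ : SL(2, ℤ)) =
      (diaS2 le_rfl (Gamma1_in_Gamma0 M) δ F).1 + (diaS2 le_rfl (Gamma1_in_Gamma0 M) δ F').1 :=
    SlashAction.add_slash _ _ _ _
  rw [h2, h1.qExpansion_eq one_pos, map_add]
  have h3 := (h δ n).add (h' δ n)
  have h4 : hV.res ((y + y') * (e (Gal.dU M δ) : (ResidueField A)ˣ)) * b n =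
      hV.res (y * (e (Gal.dU M δ) : (ResidueField A)ˣ)) * b n +
        hV.res (y' * (e (Gal.dU M δ) : (ResidueField A)ˣ)) * b n := by
    rw [add_mul, map_add, add_mul]
  rw [h4]
  exact h3

theorem XX.zsmul {F : S2 (Gamma1 M)} {y : ResidueField A} (h : XX hV e b F y) (c : ℤ) :
    XX hV e b (c • F) (c * y) := by
  intro δ n
  have h1 := (S2_hasQ (diaS2 le_rfl (Gamma1_in_Gamma0 M) δ F)).smul (c : ℂ)
  have h2 : (c • F).1 ∣[(2 : ℤ)] (δ : SL(2, ℤ)) =
      (c : ℂ) • (diaS2 le_rfl (Gamma1_in_Gamma0 M) δ F).1 := by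
    have h3 : (c • F).1 = (c : ℂ) • F.1 := by
      rw [Submodule.coe_smul_of_tower]
      ext z
      simp
    rw [h3]
    exact ModularForm.SL_smul_slash _ _ _ _
  rw [h2, h1.qExpansion_eq one_pos, PowerSeries.coeff_smul, smul_eq_mul]
  have h3 := (Red.intCast (V := V) c).mul (h δ n)
  have h4 : (c : ResidueField V) * (hV.res (y * (e (Gal.dU M δ) : (ResidueField A)ˣ)) * b n) =
      hV.res (c * y * (e (Gal.dU M δ) : (ResidueField A)ˣ)) * b n := by
    rw [mul_assoc (c : ResidueField A), map_mul hV.res (c : ResidueField A), map_intCast, mul_assoc]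
  rw [h4] at h3
  exact h3

theorem XX.dia {F : S2 (Gamma1 M)} {y : ResidueField A} (h : XX hV e b F y) (δ₀ : Gamma0 M) :
    XX hV e b (diaS2 le_rfl (Gamma1_in_Gamma0 M) δ₀ F)
      ((e (Gal.dU M δ₀) : (ResidueField A)ˣ) * y) := by
  intro δ n
  have h1 := h (δ₀ * δ) n
  rw [Subgroup.coe_mul, SlashAction.slash_mul, e_mul] at h1
  have h2 : y * ((e (Gal.dU M δ₀) : (ResidueField A)ˣ) * (e (Gal.dU M δ) : (ResidueField A)ˣ)) =
      (e (Gal.dU M δ₀) : (ResidueField A)ˣ) * y * (e (Gal.dU M δ) : (ResidueField A)ˣ) := by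
    ring
  rw [h2] at h1
  exact h1

theorem hecke_dia_comm {q : ℕ} (hq : q.Prime) (hqM : ¬ q ∣ M) (δ : Gamma0 M)
    (F : S2 (Gamma1 M)) :
    diaS2 le_rfl (Gamma1_in_Gamma0 M) δ (heckeS2 le_rfl (Gamma1_in_Gamma0 M) hq hqM F) =
      heckeS2 le_rfl (Gamma1_in_Gamma0 M) hq hqM (diaS2 le_rfl (Gamma1_in_Gamma0 M) δ F) := by
  obtain ⟨pp, hpp⟩ := exists_hom_S2 (N := M) (G := Gamma1 M) le_rfl (Gamma1_in_Gamma0 M) ∅
  let i : Idx M ∅ := ⟨q, hq, hqM, Finset.notMem_empty q⟩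
  have h1 := congrArg pp (mul_comm (genT le_rfl (Gamma1_in_Gamma0 M) ∅ (Sum.inr δ))
    (genT le_rfl (Gamma1_in_Gamma0 M) ∅ (Sum.inl i)))
  rw [map_mul, map_mul, hpp, hpp] at h1
  exact LinearMap.congr_fun h1 F

theorem XX.hecke {F : S2 (Gamma1 M)} {y : ResidueField A} (h : XX hV e b F y) {q : ℕ}
    (hq : q.Prime) (hqM : ¬ q ∣ M) {a : ResidueField A}
    (hb : ∀ n, b (q * n) + hV.res (q * (e (Gal.dU M (sigmaD M q)) : (ResidueField A)ˣ)) *
      (if q ∣ n then b (n / q) else 0) = hV.res a * b n) :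
    XX hV e b (heckeS2 le_rfl (Gamma1_in_Gamma0 M) hq hqM F) (a * y) := by
  intro δ n
  have h1 := congrArg Subtype.val (hecke_dia_comm hq hqM δ F)
  rw [diaS2_coe] at h1
  rw [h1]
  set F' := diaS2 le_rfl (Gamma1_in_Gamma0 M) δ F with hF'
  obtain ⟨Q, hQ, hQ'⟩ := hasQ_heckeS2 le_rfl (Gamma1_in_Gamma0 M) hq hqM F' (S2_hasQ F')
    (S2_hasQ (diaS2 le_rfl (Gamma1_in_Gamma0 M) (sigmaD M q) F'))
  rw [hQ.qExpansion_eq one_pos, hQ']
  have h2 := h δ (q * n)
  have h3 : Red V (if q ∣ n then (qExpansion 1 (diaS2 le_rfl (Gamma1_in_Gamma0 M)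
      (sigmaD M q) F').1).coeff (n / q) else 0)
      (hV.res (y * (e (Gal.dU M δ) : (ResidueField A)ˣ) *
        (e (Gal.dU M (sigmaD M q)) : (ResidueField A)ˣ)) * (if q ∣ n then b (n / q) else 0)) := by
    split_ifs with hqn
    · have h4 := h (δ * sigmaD M q) (n / q)
      rw [Subgroup.coe_mul, SlashAction.slash_mul, e_mul, ← mul_assoc y] at h4
      exact h4
    · rw [mul_zero]
      exact Red.zero
  have h5 := h2.add ((Red.natCast (V := V) q).mul h3)
  have h6 : hV.res (y * (e (Gal.dU M δ) : (ResidueField A)ˣ)) * b (q * n) +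
      (q : ResidueField V) * (hV.res (y * (e (Gal.dU M δ) : (ResidueField A)ˣ) *
        (e (Gal.dU M (sigmaD M q)) : (ResidueField A)ˣ)) * (if q ∣ n then b (n / q) else 0)) =
      hV.res (a * y * (e (Gal.dU M δ) : (ResidueField A)ˣ)) * b n := by
    have h7 := hb n
    rw [map_mul, map_natCast] at h7
    simp only [map_mul] at h7 ⊢
    linear_combination (hV.res y * hV.res (e (Gal.dU M δ) : (ResidueField A)ˣ)) * h7
  rw [h6] at h5
  exact h5

/-- **The homomorphism of the Hecke algebra attached to an eigenform modulo a place.** -/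
theorem exists_phi {F₀ : S2 (Gamma1 M)} (hF₀ : XX hV e b F₀ 1) {n₀ : ℕ} (hn₀ : b n₀ = 1)
    (a : ℕ → ResidueField A)
    (hb : ∀ q : ℕ, q.Prime → ¬ q ∣ M → ∀ n, b (q * n) +
      hV.res (q * (e (Gal.dU M (sigmaD M q)) : (ResidueField A)ˣ)) *
        (if q ∣ n then b (n / q) else 0) = hV.res (a q) * b n) :
    ∃ φ : TG (N := M) (G := Gamma1 M) le_rfl (Gamma1_in_Gamma0 M) ∅ →+* ResidueField A,
      (∀ i : Idx M ∅, φ (genT le_rfl (Gamma1_in_Gamma0 M) ∅ (Sum.inl i)) = a i.1) ∧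
      ∀ δ : Gamma0 M, φ (genT le_rfl (Gamma1_in_Gamma0 M) ∅ (Sum.inr δ)) =
        (e (Gal.dU M δ) : (ResidueField A)ˣ) := by
  obtain ⟨pp, hpp⟩ := exists_hom_S2 (N := M) (G := Gamma1 M) le_rfl (Gamma1_in_Gamma0 M) ∅
  let R : TG (N := M) (G := Gamma1 M) le_rfl (Gamma1_in_Gamma0 M) ∅ → ResidueField A → Prop :=
    fun t y => ∀ (y' : ResidueField A) (F : S2 (Gamma1 M)), XX hV e b F y' →
      XX hV e b (pp t F) (y * y')
  have huniq : ∀ t y y', R t y → R t y' → y = y' := by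
    intro t y y' h h'
    have h1 := h 1 F₀ hF₀ 1 n₀
    have h2 := h' 1 F₀ hF₀ 1 n₀
    have h3 := h1.unique h2
    rw [hn₀, map_one, map_one, Units.val_one, mul_one, mul_one, mul_one, mul_one, mul_one,
      mul_one] at h3
    exact hV.res.injective h3
  have hRT : ∀ i : Idx M ∅, R (genT le_rfl (Gamma1_in_Gamma0 M) ∅ (Sum.inl i)) (a i.1) := by
    intro i y' F hF
    rw [hpp]
    exact hF.hecke i.2.1 i.2.2.1 (hb _ i.2.1 i.2.2.1)
  have hRD : ∀ δ : Gamma0 M, R (genT le_rfl (Gamma1_in_Gamma0 M) ∅ (Sum.inr δ))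
      (e (Gal.dU M δ) : (ResidueField A)ˣ) := by
    intro δ y' F hF
    rw [hpp]
    exact hF.dia δ
  have hRz : ∀ n : ℤ, R n n := by
    intro n y' F hF
    have h1 : pp (n : TG (N := M) (G := Gamma1 M) le_rfl (Gamma1_in_Gamma0 M) ∅) F = n • F := by
      rw [map_intCast]
      exact Module.End.intCast_apply _ _
    rw [h1]
    exact hF.zsmul n
  have hRa : ∀ x x' y y', R x y → R x' y' → R (x + x') (y + y') := by
    intro x x' y y' h h' y'' F hF
    rw [map_add, add_mul]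
    exact (h _ F hF).add (h' _ F hF)
  have hRm : ∀ x x' y y', R x y → R x' y' → R (x * x') (y * y') := by
    intro x x' y y' h h' y'' F hF
    rw [map_mul, mul_assoc]
    exact h _ _ (h' _ F hF)
  have hex : ∀ t, ∃ y, R t y := by
    intro t
    induction t using TG_induction with
    | hg i =>
      rcases i with i | δ
      · exact ⟨_, hRT i⟩
      · exact ⟨_, hRD δ⟩
    | hz n => exact ⟨_, hRz n⟩
    | ha x x' h h' =>
      obtain ⟨y, hy⟩ := h
      obtain ⟨y', hy'⟩ := h'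
      exact ⟨_, hRa _ _ _ _ hy hy'⟩
    | hm x x' h h' =>
      obtain ⟨y, hy⟩ := h
      obtain ⟨y', hy'⟩ := h'
      exact ⟨_, hRm _ _ _ _ hy hy'⟩
  choose φ hφ using hex
  have h01 : R 0 0 := by
    have := hRz 0
    rwa [Int.cast_zero, Int.cast_zero] at this
  have h11 : R 1 1 := by
    have := hRz 1
    rwa [Int.cast_one, Int.cast_one] at this
  refine ⟨{ toFun := φ
            map_one' := huniq _ _ _ (hφ 1) h11
            map_mul' := fun x y => huniq _ _ _ (hφ _) (hRm _ _ _ _ (hφ x) (hφ y))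
            map_zero' := huniq _ _ _ (hφ 0) h01
            map_add' := fun x y => huniq _ _ _ (hφ _) (hRa _ _ _ _ (hφ x) (hφ y)) },
    fun i => huniq _ _ _ (hφ _) (hRT i), fun δ => huniq _ _ _ (hφ _) (hRD δ)⟩

end XX

end Fermat.Agent.DS
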