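import Mathlib
import Fermat.Agent.DS.ModL2
import Fermat.Agent.KL.BDG
import Fermat.Agent.ESCore.RepG

/-!
# Weight one forms modulo `l`: the representations
-/

set_option linter.all false
set_option autoImplicit false

open UpperHalfPlane hiding I
open Complex Function Filter Topology ModularForm CongruenceSubgroup ModularGroup
open IsLocalRing
open scoped Manifold MatrixGroups ModularForm Real Matrix

noncomputable section

namespace Fermat.Agent.DS

open Fermat.Agent.Eis16 (HasQ)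
open Fermat.Agent.ESCore Fermat.Agent.ESCore.UnivG
open Fermat.Agent.ESCore.Univ (Idx)
open Fermat.Agent.FrobDensity (mem_of_isIntegral_int charP_residue)
open W1

/-! ### The representation attached to a homomorphism of the Hecke algebra -/

theorem exists_rep_of_phi {M l : ℕ} [NeZero M] (hl : l.Prime) {A : ValuationSubring Qb}
    (hA : A.LiesOverPrime l)
    (φ : TG (N := M) (G := Gamma1 M) le_rfl (Gamma1_in_Gamma0 M) ∅ →+* ResidueField A)
    (a : ℕ → ResidueField A) (e : (ZMod M)ˣ →* (ResidueField A)ˣ)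
    (h1 : ∀ i : Idx M ∅, φ (genT le_rfl (Gamma1_in_Gamma0 M) ∅ (Sum.inl i)) = a i.1)
    (h2 : ∀ δ : Gamma0 M, φ (genT le_rfl (Gamma1_in_Gamma0 M) ∅ (Sum.inr δ)) =
        (e (Gal.dU M δ) : (ResidueField A)ˣ)) :
    ∃ ρ : GQ →* GL (Fin 2) (ResidueField A), GaloisFactorsThroughFiniteLevel ρ ∧
      ∀ p : ℕ, p.Prime → ¬ p ∣ M → p ≠ l → ∀ B : ValuationSubring Qb, B.LiesOverPrime p →
        (∀ σ ∈ B.inertiaSubgroupIn ℚ, ρ σ = 1) ∧
        ∀ σ : GQ, B.IsFrobeniusAt σ p →
          (ρ σ).1.trace = a p ∧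
          ∀ u : (ZMod M)ˣ, (u : ZMod M) = p → (ρ σ).1.det = p * (e u : (ResidueField A)ˣ) := by
  haveI : NeZero l := ⟨hl.ne_zero⟩
  haveI : CharP (ResidueField A) l := charP_residue hl hA
  haveI : IsAlgClosed (ResidueField A) := KL.isAlgClosed_residue A
  have hM : 0 < M := Nat.pos_of_ne_zero (NeZero.ne M)
  haveI : (Gamma1 M).FiniteIndex := inferInstance
  obtain ⟨c, hc1, hc2, hc3, hc4⟩ := exists_eigenchar (N := M) (G := Gamma1 M) le_rfl
    (Gamma1_in_Gamma0 M) ∅ φ
  have hFg : ∀ M' : ℕ, 0 < M' → Gal.FgCoeff (Gamma1 M') := by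
    intro M' hM'
    haveI : NeZero M' := ⟨hM'.ne'⟩
    exact Gal.fgCoeff_G (N := M') le_rfl (Gamma1_in_Gamma0 M')
  have hconj : Gal.ConjStable (Gamma1 M) := Gal.conjStable_G (N := M) le_rfl (Gamma1_in_Gamma0 M)
  have hdia : Gal.DiaConj M (Gamma1 M) := Gal.diaConj_G (N := M) le_rfl (Gamma1_in_Gamma0 M)
  have hgal := Gal.galDataG (N := M) (G := Gamma1 M) (m := l) (h1 := le_rfl)
    (h0 := Gamma1_in_Gamma0 M) hl.pos
    hconj hdia (hFg M hM) (fun q hq hqM hql B hB =>
      KL.klPropG_of_fg (G := Gamma1 M) (N := M) (m := l) hM hl.pos le_rfl hFg hq hqM hql hB)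
  obtain ⟨ρ', hρ1, hρ2, hρ3, hρ4⟩ := Gal.exists_rep_G (N := M) (G := Gamma1 M) hl hgal c hc1 hc2 a
    (fun q hq hqM γ => (hc3 ⟨q, hq, hqM, Finset.notMem_empty q⟩ γ).trans
      (congrArg (fun x => x * Multiplicative.toAdd (c γ))
        (h1 ⟨q, hq, hqM, Finset.notMem_empty q⟩))) e
    (fun δ γ => by
      have h3 := (hc4 δ γ).trans (congrArg (fun x => x * Multiplicative.toAdd (c γ)) (h2 δ))
      have h4 : Gal.dU M δ = Gal.dUnit δ := Units.ext rfl
      rw [h4] at h3
      exact h3)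
  refine ⟨ρ'.toHomUnits, ?_, fun p hp hpM hpl B hB => ⟨fun σ hσ => ?_, fun σ hσ => ⟨?_, ?_⟩⟩⟩
  · obtain ⟨L, hL, h3⟩ := hρ1
    exact ⟨L, hL, fun σ hσ => Units.ext (h3 σ hσ)⟩
  · exact Units.ext (hρ2 p hp hpM hpl B hB σ hσ)
  · have h3 := hρ3 p hp hpM hpl B hB σ hσ
    rw [Matrix.charpoly_fin_two] at h3
    have h4 := congrArg (fun P => Polynomial.coeff P 1) h3
    simp only [Polynomial.coeff_add, Polynomial.coeff_sub, Polynomial.coeff_X_pow,
      Polynomial.coeff_C_mul, Polynomial.coeff_X_one, mul_one, Polynomial.coeff_C_succ,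
      add_zero] at h4
    norm_num at h4
    exact h4
  · intro u hu
    change (ρ' σ).det = _
    rw [hρ4, Gal.detChar, MonoidHom.mul_apply, Units.val_mul,
      ModP.cycK_frob hB hp hσ (fun h => hpl ((Nat.prime_dvd_prime_iff_eq hp hl).mp h))]
    congr 1
    rw [MonoidHom.comp_apply]
    have h3 : cyc M σ = u := by
      apply Units.ext
      rw [cyc_frob hB hp hσ hpM, hu]
    rw [h3]

end Fermat.Agent.DS
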