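import Mathlib
import Fermat.Agent.DS.ModL3

/-!
# Weight one forms modulo `l`: assembly
-/

set_option linter.all false
set_option autoImplicit false

open UpperHalfPlane hiding I
open Complex Function Filter Topology ModularForm CongruenceSubgroup ModularGroup
open IsLocalRing
open scoped Manifold MatrixGroups ModularForm Real Matrix

noncomputable section

namespace Fermat.Agent.DS

open Fermat.Agent.Eis16 (HasQ)
open Fermat.Agent.ESCore Fermat.Agent.ESCore.UnivG
open Fermat.Agent.ESCore.Univ (Idx)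
open Fermat.Agent.FrobDensity (mem_of_isIntegral_int charP_residue)
open W1

/-- the `l`-th root of unity -/
def zl (l : ℕ) : ℂ := cexp (2 * π * I * (((1 : ℤ) / (l : ℤ) : ℝ) : ℂ))

theorem zl_pow (l t : ℕ) : cexp (2 * π * I * (((t : ℤ) / (l : ℤ) : ℝ) : ℂ)) = zl l ^ t := by
  rw [zl, ← Complex.exp_nat_mul]
  congr 1
  push_cast
  ring

theorem zl_root {l : ℕ} (hl : l ≠ 0) : zl l ^ l = 1 := by
  have hl' : (l : ℂ) ≠ 0 := by exact_mod_cast hl
  rw [zl, ← Complex.exp_nat_mul]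
  have : (l : ℂ) * (2 * π * I * (((1 : ℤ) / (l : ℤ) : ℝ) : ℂ)) = 2 * π * I := by
    push_cast
    field_simp
  rw [this, Complex.exp_two_pi_mul_I]

/-- the normalising constant -/
def kap (l : ℕ) : ℂ :=
  ((l : ℂ) / (π * I)) * ((zl l ^ 2 - 1) / (zl l ^ 2 + 4 * zl l + 1))

theorem hasQ_kap {l : ℕ} (hl : l.Prime) (hl2 : l ≠ 2) {t : ℕ} (ht : ¬ l ∣ t) :
    HasQ 1 (kap l • GW l ![0, (t : ℤ)]) (Gser (zl l) (zl l ^ t)) := by
  have ht' : ¬ (l : ℤ) ∣ (t : ℤ) := by exact_mod_cast ht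
  have h1 := (hasQ_GW (l := (l : ℤ)) (by exact_mod_cast hl.one_lt.le) (t : ℤ)
    (adm_of hl hl2 fun h => ht' h.2) (exp_ne hl hl2 ht')).smul (kap l)
  rw [zl_pow] at h1
  have h2 : kap l * (((l : ℤ) : ℂ)⁻¹ * (π * I)) = (zl l ^ 2 - 1) / (zl l ^ 2 + 4 * zl l + 1) := by
    have hl' : (l : ℂ) ≠ 0 := by exact_mod_cast hl.ne_zero
    have hp : (π : ℂ) ≠ 0 := by exact_mod_cast Real.pi_ne_zero
    have hI := I_ne_zero
    rw [kap]
    push_cast
    field_simp
  rw [smul_smul, h2] at h1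
  exact h1

section Main

variable {N l : ℕ} [NeZero N] [NeZero (N * l)] (hl : l.Prime) (hl5 : 5 ≤ l)
  (ε : DirichletCharacter ℂ N) (f : CuspForm (Gamma1 N) 1)

/-- the unit of the lower right entry -/
theorem dU_cast_left (δ : Gamma0 (N * l)) :
    ((ZMod.unitsMap (dvd_mul_right N l) (Gal.dU (N * l) δ) : (ZMod N)ˣ) : ZMod N) =
      (((δ : SL(2, ℤ)) 1 1 : ℤ) : ZMod N) :=
  map_intCast (ZMod.castHom (dvd_mul_right N l) (ZMod N)) ((δ : SL(2, ℤ)) 1 1)

theorem dU_cast_right (δ : Gamma0 (N * l)) :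
    ((ZMod.unitsMap (dvd_mul_left l N) (Gal.dU (N * l) δ) : (ZMod l)ˣ) : ZMod l) =
      (((δ : SL(2, ℤ)) 1 1 : ℤ) : ZMod l) :=
  map_intCast (ZMod.castHom (dvd_mul_left l N) (ZMod l)) ((δ : SL(2, ℤ)) 1 1)

include hl hl5

/-- **the homomorphism of the Hecke algebra** -/
theorem exists_phi_weight_one (hf₁ : ModularFormClass.qCoeff f 1 = 1)
    (hT : ∀ p : ℕ, p.Prime → ¬ p ∣ N → ∀ n : ℕ,
        ModularFormClass.qCoeff f (p * n) +
            ε (p : ZMod N) * (if p ∣ n then ModularFormClass.qCoeff f (n / p) else 0) =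
          ModularFormClass.qCoeff f p * ModularFormClass.qCoeff f n)
    {A : ValuationSubring Qb} (hA : A.LiesOverPrime l) (a : ℕ → A)
    (ha : ∀ p : ℕ, p.Prime → ¬ p ∣ N → ιC (a p) = ModularFormClass.qCoeff f p) :
    ∃ (φ : TG (N := N * l) (G := Gamma1 (N * l)) le_rfl (Gamma1_in_Gamma0 (N * l)) ∅ →+*
        ResidueField A) (e : (ZMod (N * l))ˣ →* (ResidueField A)ˣ),
      (∀ i : Idx (N * l) ∅, φ (genT le_rfl (Gamma1_in_Gamma0 (N * l)) ∅ (Sum.inl i)) =
        residue A (a i.1)) ∧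
      (∀ δ : Gamma0 (N * l), φ (genT le_rfl (Gamma1_in_Gamma0 (N * l)) ∅ (Sum.inr δ)) =
        (e (Gal.dU (N * l) δ) : (ResidueField A)ˣ)) ∧
      ∀ (p : ℕ) (u : (ZMod (N * l))ˣ), (u : ZMod (N * l)) = p →
        ∃ d : A, ιC d = ε (p : ZMod N) ∧
          (p : ResidueField A) * (e u : (ResidueField A)ˣ) = residue A d := by
  have hl2 : l ≠ 2 := by omega
  haveI : NeZero l := ⟨hl.ne_zero⟩
  haveI : Fact l.Prime := ⟨hl⟩
  haveI : CharP (ResidueField A) l := charP_residue hl hA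
  obtain ⟨V, hV⟩ := exists_above A
  haveI : CharP (ResidueField V) l := charP_of_injective_ringHom hV.res.injective l
  have hneb := neben ε f hT
  -- the characters
  obtain ⟨eps, heps⟩ := exists_red_char A ε.toUnitHom
  let inc : (ZMod l)ˣ →* (ResidueField A)ˣ :=
    Units.map (ZMod.castHom (dvd_refl l) (ResidueField A) : ZMod l →* ResidueField A)
  let e : (ZMod (N * l))ˣ →* (ResidueField A)ˣ :=
    eps.comp (ZMod.unitsMap (dvd_mul_right N l)) *
      (inc.comp (ZMod.unitsMap (dvd_mul_left l N)))⁻¹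
  have hinc : ∀ u : (ZMod l)ˣ, ((inc u : (ResidueField A)ˣ) : ResidueField A) =
      ZMod.castHom (dvd_refl l) (ResidueField A) (u : ZMod l) := fun u => rfl
  have he : ∀ u, ((e u : (ResidueField A)ˣ) : ResidueField A) =
      (eps (ZMod.unitsMap (dvd_mul_right N l) u) : (ResidueField A)ˣ) *
        ((inc (ZMod.unitsMap (dvd_mul_left l N) u) : (ResidueField A)ˣ) : ResidueField A)⁻¹ := by
    intro u
    change (((eps (ZMod.unitsMap (dvd_mul_right N l) u)) *
      (inc (ZMod.unitsMap (dvd_mul_left l N) u))⁻¹ : (ResidueField A)ˣ) : ResidueField A) = _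
    rw [Units.val_mul, Units.val_inv_eq_inv_val]
  -- scaling
  obtain ⟨n₀, hn₀, hscale⟩ := exists_scale (V := V) (fgSeq_weight_one f) hf₁
  set c : ℕ → ℂ := fun n => ModularFormClass.qCoeff f n with hc
  let b : ℕ → ResidueField V := fun n => residue V ⟨c n / c n₀, hscale n⟩
  have hb : ∀ n, Red V (c n / c n₀) (b n) := fun n => ⟨hscale n, rfl⟩
  have hbn₀ : b n₀ = 1 := (hb n₀).unique (by rw [div_self hn₀]; exact Red.one)
  -- the characters at primes
  have hepsV : ∀ u : (ZMod N)ˣ, Red V (ε (u : ZMod N)) (hV.res ((eps u : (ResidueField A)ˣ))) := by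
    intro u
    obtain ⟨d, hd, hd'⟩ := heps u
    rw [MulChar.coe_toUnitHom] at hd
    rw [← hd, ← hd']
    exact hV.red d
  -- the value of `e` at integers
  have heV : ∀ (u : (ZMod (N * l))ˣ), ∃ d : A,
      ιC d = ε ((ZMod.unitsMap (dvd_mul_right N l) u : (ZMod N)ˣ) : ZMod N) ∧
      ((inc (ZMod.unitsMap (dvd_mul_left l N) u) : (ResidueField A)ˣ) : ResidueField A) *
        (e u : (ResidueField A)ˣ) = residue A d := by
    intro u
    obtain ⟨d, hd, hd'⟩ := heps (ZMod.unitsMap (dvd_mul_right N l) u)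
    refine ⟨d, hd, ?_⟩
    rw [he, hd', mul_left_comm, mul_inv_cancel₀ (Units.ne_zero _), mul_one]
  have heP : ∀ (p : ℕ) (u : (ZMod (N * l))ˣ), (u : ZMod (N * l)) = p →
        ∃ d : A, ιC d = ε (p : ZMod N) ∧
          (p : ResidueField A) * (e u : (ResidueField A)ˣ) = residue A d := by
    intro p u hu
    obtain ⟨d, hd, hd'⟩ := heV u
    have h1 : ((ZMod.unitsMap (dvd_mul_right N l) u : (ZMod N)ˣ) : ZMod N) = p := by
      change ZMod.castHom (dvd_mul_right N l) (ZMod N) (u : ZMod (N * l)) = p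
      rw [hu, map_natCast]
    have h2 : ((inc (ZMod.unitsMap (dvd_mul_left l N) u) : (ResidueField A)ˣ) : ResidueField A) = p := by
      rw [hinc]
      change ZMod.castHom (dvd_refl l) (ResidueField A)
        (ZMod.castHom (dvd_mul_left l N) (ZMod l) (u : ZMod (N * l))) = p
      rw [hu, map_natCast, map_natCast]
    rw [h1] at hd
    rw [h2] at hd'
    exact ⟨d, hd, hd'⟩
  -- the form
  have hS2 := mem_S2 hl hl2 f
  let F₀ : S2 (Gamma1 (N * l)) := ⟨((c n₀)⁻¹ * kap l) • ((f : ℍ → ℂ) * GW l ![0, 1]),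
    Submodule.smul_mem _ _ hS2⟩
  have hQf : HasQ 1 f (qExpansion 1 f) :=
    HasQ.of_modularForm f one_pos (one_mem_periods N)
  have hXX : XX hV e b F₀ 1 := by
    intro δ n
    -- the residue of the lower right entry
    set t : ℕ := ((((δ : SL(2, ℤ)) 1 1 : ℤ) : ZMod l)).val with ht
    have htc : (t : ZMod l) = (((δ : SL(2, ℤ)) 1 1 : ℤ) : ZMod l) := by
      rw [ht, ZMod.natCast_val, ZMod.cast_id', id]
    have hδ0 : (δ : SL(2, ℤ)) ∈ Gamma0 l := by
      have hδ := δ.2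
      rw [Fermat.Agent.Eis16.mem_Gamma0_iff] at hδ ⊢
      exact Dvd.dvd.trans (by push_cast; exact Dvd.intro_left (N : ℤ) rfl) hδ
    have hnd := not_dvd_of_Gamma0 hl hδ0
    have hdiv : (l : ℤ) ∣ (δ : SL(2, ℤ)) 1 1 - t := by
      refine (ZMod.intCast_zmod_eq_zero_iff_dvd _ l).mp ?_
      push_cast
      rw [htc, sub_self]
    have htl : ¬ l ∣ t := by
      intro h
      apply hnd
      have h1 : (l : ℤ) ∣ (t : ℤ) := by exact_mod_cast h
      have h2 := dvd_add hdiv h1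
      rwa [sub_add_cancel] at h2
    have htl' : ¬ (l : ℤ) ∣ (t : ℤ) := by exact_mod_cast htl
    have h1 : F₀.1 ∣[(2 : ℤ)] (δ : SL(2, ℤ)) =
        (ε (((δ : SL(2, ℤ)) 1 1 : ℤ) : ZMod N)) • (((c n₀)⁻¹ • (f : ℍ → ℂ)) *
          (kap l • GW l ![0, (t : ℤ)])) := by
      change (((c n₀)⁻¹ * kap l) • ((f : ℍ → ℂ) * GW l ![0, 1])) ∣[(2 : ℤ)] (δ : SL(2, ℤ)) = _
      rw [ModularForm.SL_smul_slash, dia_mul hl hl2 ε f hneb δ, GW_congr hl hl2 hdiv htl']
      ext z
      simp only [Pi.smul_apply, Pi.mul_apply, smul_eq_mul]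
      ring
    have h2 := ((hQf.smul (c n₀)⁻¹).mul (hasQ_kap hl hl2 htl)).smul
      (ε (((δ : SL(2, ℤ)) 1 1 : ℤ) : ZMod N))
    rw [h1, h2.qExpansion_eq one_pos, PowerSeries.coeff_smul, smul_eq_mul]
    have hP : ∀ n, Red V (((c n₀)⁻¹ • qExpansion 1 f).coeff n) (b n) := by
      intro n
      rw [PowerSeries.coeff_smul, smul_eq_mul, mul_comm, ← div_eq_mul_inv]
      exact hb n
    have hz2 : zl l ^ 2 ≠ 1 := exp_ne hl hl2 ((Nat.prime_iff_prime_int.mp hl).not_dvd_one)
    have h3 := red_mul_Gser (V := V) hl hl5 (zl_root hl.ne_zero) hz2 htl hP n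
    have h4 := hepsV (ZMod.unitsMap (dvd_mul_right N l) (Gal.dU (N * l) δ))
    rw [dU_cast_left] at h4
    have h5 := h4.mul h3
    have h6 : hV.res (eps (ZMod.unitsMap (dvd_mul_right N l) (Gal.dU (N * l) δ)) :
        (ResidueField A)ˣ) * (((t : ResidueField V))⁻¹ * b n) =
        hV.res (1 * (e (Gal.dU (N * l) δ) : (ResidueField A)ˣ)) * b n := by
      have h7 : ((inc (ZMod.unitsMap (dvd_mul_left l N) (Gal.dU (N * l) δ)) :
          (ResidueField A)ˣ) : ResidueField A) = t := by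
        rw [hinc, dU_cast_right, ← htc, map_natCast]
      rw [one_mul, he, h7, map_mul, map_inv₀, map_natCast]
      ring
    rw [h6] at h5
    exact h5
  -- the Hecke relations
  have hbrel : ∀ q : ℕ, q.Prime → ¬ q ∣ N * l → ∀ n, b (q * n) +
      hV.res (q * (e (Gal.dU (N * l) (sigmaD (N * l) q)) : (ResidueField A)ˣ)) *
        (if q ∣ n then b (n / q) else 0) = hV.res (residue A (a q)) * b n := by
    intro q hq hqM n
    have hqN : ¬ q ∣ N := fun h => hqM (Dvd.dvd.mul_right h l)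
    have hu : ((Gal.dU (N * l) (sigmaD (N * l) q) : (ZMod (N * l))ˣ) : ZMod (N * l)) = q := by
      rw [Gal.dU_coe, sigmaD_11 (isCoprime_of_prime hq hqM), Int.cast_natCast]
    obtain ⟨d, hd, hd'⟩ := heP q _ hu
    rw [hd']
    have h1 := hT q hq hqN n
    have h2 : c (q * n) / c n₀ + ε (q : ZMod N) * (if q ∣ n then c (n / q) / c n₀ else 0) =
        c q * (c n / c n₀) := by
      have h3 : (c (q * n) + ε (q : ZMod N) * (if q ∣ n then c (n / q) else 0)) / c n₀ =
          c q * c n / c n₀ := congrArg (fun x => x / c n₀) h1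
      rw [add_div, mul_div_assoc, mul_div_assoc] at h3
      rw [← h3]
      congr 2
      split_ifs
      · rfl
      · rw [zero_div]
    have h3 : Red V (if q ∣ n then c (n / q) / c n₀ else 0) (if q ∣ n then b (n / q) else 0) := by
      split_ifs
      · exact hb _
      · exact Red.zero
    have h4 := hV.red d
    rw [hd] at h4
    have h5 := (hb (q * n)).add (h4.mul h3)
    have h6 := hV.red (a q)
    rw [ha q hq hqN] at h6
    have h7 := h6.mul (hb n)
    rw [h2] at h5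
    exact h5.unique h7
  obtain ⟨φ, hφ1, hφ2⟩ := exists_phi hXX hbn₀ (fun q => residue A (a q)) hbrel
  exact ⟨φ, e, hφ1, hφ2, heP⟩

end Main

end Fermat.Agent.DS
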