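import Mathlib
import Fermat.Agent.DS.ModL4

/-!
# The representation attached to a weight one form
-/

set_option linter.all false
set_option autoImplicit false

open UpperHalfPlane hiding I
open Complex Function Filter Topology ModularForm CongruenceSubgroup ModularGroup
open IsLocalRing
open scoped Manifold MatrixGroups ModularForm Real Matrix

noncomputable section

namespace Fermat.Agent.DS

open Fermat.Agent.ESCore Fermat.Agent.ESCore.UnivG
open Fermat.Agent.FrobDensity (mem_of_isIntegral_int charP_residue)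

theorem exists_repData (N : ℕ) [NeZero N] (ε : DirichletCharacter ℂ N) (f : CuspForm (Gamma1 N) 1)
    (hf₁ : ModularFormClass.qCoeff f 1 = 1)
    (hT : ∀ p : ℕ, p.Prime → ¬ p ∣ N → ∀ n : ℕ,
        ModularFormClass.qCoeff f (p * n) +
            ε (p : ZMod N) * (if p ∣ n then ModularFormClass.qCoeff f (n / p) else 0) =
          ModularFormClass.qCoeff f p * ModularFormClass.qCoeff f n) :
    ∃ α δ : ℕ → Qb, RepData N α δ ∧
      (∀ p : ℕ, p.Prime → ¬ p ∣ N → ιC (α p) = ModularFormClass.qCoeff f p) ∧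
      ∀ p : ℕ, p.Prime → ¬ p ∣ N → ιC (δ p) = ε (p : ZMod N) := by
  classical
  have hα : ∀ p : ℕ, ∃ y : Qb, IsIntegral ℤ y ∧ (p.Prime → ¬ p ∣ N →
      ιC y = ModularFormClass.qCoeff f p) := by
    intro p
    by_cases h : p.Prime ∧ ¬ p ∣ N
    · have h1 := isIntegral_of_fgSeq (fgSeq_weight_one f) hf₁ h.1 (isIntegral_char ε _)
        (hT p h.1 h.2)
      obtain ⟨y, hy⟩ := exists_ιC_of_isIntegral h1
      exact ⟨y, isIntegral_of_ιC (by rw [hy]; exact h1), fun _ _ => hy⟩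
    · exact ⟨0, isIntegral_zero, fun h1 h2 => absurd ⟨h1, h2⟩ h⟩
  have hδ : ∀ p : ℕ, ∃ y : Qb, ιC y = ε (p : ZMod N) := fun p =>
    exists_ιC_of_isIntegral (isIntegral_char ε _)
  choose α hαi hα using hα
  choose δ hδ using hδ
  refine ⟨α, δ, repData_of ε f hf₁ hT hα (fun p _ _ => hδ p) ⟨max N 4, fun l hl hlN A hA => ?_⟩,
    hα, fun p _ _ => hδ p⟩
  have hlN' : N < l := lt_of_le_of_lt (le_max_left _ _) hlN
  have hl5 : 5 ≤ l := lt_of_le_of_lt (le_max_right _ _) hlN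
  haveI : NeZero (N * l) := ⟨mul_ne_zero (NeZero.ne N) hl.ne_zero⟩
  let a : ℕ → A := fun p => ⟨α p, mem_of_isIntegral_int A (hαi p)⟩
  obtain ⟨φ, e, h1, h2, h3⟩ := exists_phi_weight_one hl hl5 ε f hf₁ hT hA a (fun p hp hN => hα p hp hN)
  obtain ⟨ρ, hρ1, hρ2⟩ := exists_rep_of_phi hl hA φ (fun p => residue A (a p)) e h1 h2
  refine ⟨ρ, hρ1, fun p hp hN hpl B hB => ?_⟩
  have hpM : ¬ p ∣ N * l := by
    intro h
    rcases (Nat.Prime.dvd_mul hp).mp h with h' | h'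
    · exact hN h'
    · exact hpl ((Nat.prime_dvd_prime_iff_eq hp hl).mp h')
  obtain ⟨h4, h5⟩ := hρ2 p hp hpM hpl B hB
  refine ⟨h4, fun σ hσ => ?_⟩
  obtain ⟨h6, h7⟩ := h5 σ hσ
  refine ⟨⟨a p, rfl, h6⟩, ?_⟩
  have hco : Nat.Coprime p (N * l) := (Nat.Prime.coprime_iff_not_dvd hp).mpr hpM
  obtain ⟨d, hd, hd'⟩ := h3 p (ZMod.unitOfCoprime p hco) (ZMod.coe_unitOfCoprime p hco)
  refine ⟨d, ιC.injective ?_, ?_⟩
  · rw [hd, hδ]
  · rw [h7 (ZMod.unitOfCoprime p hco) (ZMod.coe_unitOfCoprime p hco), hd']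

end Fermat.Agent.DS
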