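import Fermat.Agent.DS.Orbits

set_option autoImplicit false

/-!
# Finite subgroups of `GL₂` of order prime to the characteristic
-/

open MulAction Matrix

namespace Fermat.Agent.DS

variable {K : Type*} [Field K]

/-- Scalar matrices. -/
def IsSc (g : GL (Fin 2) K) : Prop := g 0 1 = 0 ∧ g 1 0 = 0 ∧ g 0 0 = g 1 1

/-- The discriminant of the characteristic polynomial. -/
def dsc (g : GL (Fin 2) K) : K := (g 0 0 - g 1 1) ^ 2 + 4 * g 0 1 * g 1 0

theorem dsc_eq (g : GL (Fin 2) K) :
    dsc g = (g : Matrix (Fin 2) (Fin 2) K).trace ^ 2 - 4 * (g : Matrix (Fin 2) (Fin 2) K).det := by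
  rw [dsc, Matrix.trace_fin_two, Matrix.det_fin_two]
  ring

theorem IsSc.dsc_eq_zero {g : GL (Fin 2) K} (h : IsSc g) : dsc g = 0 := by
  rw [dsc, h.1, h.2.2]
  ring

theorem fix_some_iff [DecidableEq K] {g : GL (Fin 2) K} {c : K} :
    g • (c : OnePoint K) = c ↔ g 1 0 * (c * c) + (g 1 1 - g 0 0) * c + -g 0 1 = 0 := by
  rw [← Matrix.GeneralLinearGroup.fixpointPolynomial_aeval_eq_zero_iff,
    Matrix.GeneralLinearGroup.fixpointPolynomial]
  simp only [map_sub, map_mul, map_add, Polynomial.aeval_C, Polynomial.aeval_X, map_pow,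
    Algebra.algebraMap_self_apply]
  constructor
  · intro h
    linear_combination h
  · intro h
    linear_combination h

theorem IsSc.smul_eq [DecidableEq K] {g : GL (Fin 2) K} (h : IsSc g) (x : OnePoint K) :
    g • x = x := by
  cases x with
  | infty => exact OnePoint.smul_infty_eq_self_iff.2 h.2.1
  | coe c =>
    rw [fix_some_iff, h.1, h.2.1, h.2.2]
    ring

theorem ncard_fixed [DecidableEq K] [IsAlgClosed K] (h2 : (2 : K) ≠ 0) {g : GL (Fin 2) K}
    (hg : dsc g ≠ 0) : (fixedBy (OnePoint K) g).ncard = 2 := by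
  by_cases hc : g 1 0 = 0
  · have had : g 1 1 - g 0 0 ≠ 0 := by
      intro h
      apply hg
      rw [dsc, hc, mul_zero, add_zero, sub_eq_zero.1 h, sub_self]
      ring
    have : fixedBy (OnePoint K) g = {OnePoint.infty, ((g 0 1 / (g 1 1 - g 0 0) : K) : OnePoint K)} := by
      ext x
      rw [mem_fixedBy, Set.mem_insert_iff, Set.mem_singleton_iff]
      cases x with
      | infty => simp [OnePoint.smul_infty_eq_self_iff, hc]
      | coe c =>
        rw [fix_some_iff, hc]
        constructor
        · intro h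
          right
          rw [OnePoint.coe_eq_coe, eq_div_iff had]
          linear_combination h
        · rintro (h | h)
          · exact absurd h (OnePoint.coe_ne_infty c)
          · rw [OnePoint.coe_eq_coe, eq_div_iff had] at h
            linear_combination h
    rw [this, Set.ncard_pair (OnePoint.infty_ne_coe _)]
  · obtain ⟨s, hs⟩ := IsAlgClosed.exists_pow_nat_eq (dsc g) (n := 2) (by norm_num)
    have hs0 : s ≠ 0 := by
      rintro rfl
      apply hg
      rw [← hs]
      ring
    have hdisc : discrim (g 1 0) (g 1 1 - g 0 0) (-g 0 1) = s * s := by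
      rw [discrim, ← pow_two s, hs, dsc]
      ring
    have h2' : NeZero (2 : K) := ⟨h2⟩
    have : fixedBy (OnePoint K) g = {(((-(g 1 1 - g 0 0) + s) / (2 * g 1 0) : K) : OnePoint K),
        (((-(g 1 1 - g 0 0) - s) / (2 * g 1 0) : K) : OnePoint K)} := by
      ext x
      rw [mem_fixedBy, Set.mem_insert_iff, Set.mem_singleton_iff]
      cases x with
      | infty => simp [OnePoint.smul_infty_eq_self_iff, hc, OnePoint.infty_ne_coe]
      | coe c =>
        rw [fix_some_iff, OnePoint.coe_eq_coe, OnePoint.coe_eq_coe]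
        exact quadratic_eq_zero_iff hc hdisc c
    rw [this, Set.ncard_pair]
    intro h
    rw [OnePoint.coe_eq_coe, div_left_inj' (mul_ne_zero h2 hc)] at h
    apply hs0
    have : (2 : K) * s = 0 := by linear_combination h
    exact (mul_eq_zero.1 this).resolve_left h2

/-- An element of order prime to the characteristic is scalar or has distinct eigenvalues. -/
theorem isSc_of_pow (h2 : (2 : K) ≠ 0) {g : GL (Fin 2) K} {m : ℕ} (hm : (m : K) ≠ 0)
    (hg : g ^ m = 1) (hd : dsc g = 0) : IsSc g := by
  have hm0 : m ≠ 0 := by rintro rfl; simp at hm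
  set A : Matrix (Fin 2) (Fin 2) K := (g : Matrix (Fin 2) (Fin 2) K) with hA
  have hAm : A ^ m = 1 := by
    have := congrArg (fun x : GL (Fin 2) K => (x : Matrix (Fin 2) (Fin 2) K)) hg
    simpa using this
  set t : K := A.trace / 2 with ht
  set n : Matrix (Fin 2) (Fin 2) K := A - Matrix.scalar _ t with hn
  have hn2 : n * n = 0 := by
    have h4 : (A 0 0 - A 1 1) ^ 2 + 4 * A 0 1 * A 1 0 = 0 := hd
    have htt : t = (A 0 0 + A 1 1) / 2 := by rw [ht, Matrix.trace_fin_two]
    ext i j
    fin_cases i <;> fin_cases j <;>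
      simp [hn, Matrix.mul_apply, Fin.sum_univ_two, htt]
    · field_simp
      linear_combination h4
    · field_simp
      ring
    · field_simp
      ring
    · field_simp
      linear_combination h4
  have hAn : A = t • (1 : Matrix (Fin 2) (Fin 2) K) + n := by
    rw [hn, Matrix.smul_one_eq_diagonal, Matrix.scalar_apply]
    abel
  have hpow : ∀ k : ℕ, A ^ k = t ^ k • (1 : Matrix (Fin 2) (Fin 2) K) +
      ((k : K) * t ^ (k - 1)) • n := by
    intro k
    induction k with
    | zero => simp
    | succ k ih =>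
      rw [pow_succ, ih]
      conv_lhs => rw [hAn]
      rw [add_mul, mul_add, mul_add]
      simp only [smul_mul_assoc, mul_smul_comm, one_mul, mul_one, hn2, smul_zero, add_zero,
        smul_smul]
      rw [add_assoc, ← add_smul]
      congr 1
      · congr 1
        ring
      · congr 1
        rcases k with _ | k
        · simp
        · simp only [Nat.add_sub_cancel]
          push_cast
          ring
  have hdet : t ^ 2 = A.det := by
    have h4 : (A 0 0 - A 1 1) ^ 2 + 4 * A 0 1 * A 1 0 = 0 := hd
    rw [ht, Matrix.trace_fin_two, Matrix.det_fin_two]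
    field_simp
    linear_combination h4
  have ht0 : t ≠ 0 := by
    intro h
    rw [h] at hdet
    have : A.det ≠ 0 := g.det_ne_zero
    apply this
    rw [← hdet]
    ring
  have hkey := hpow m
  rw [hAm] at hkey
  have hc : (m : K) * t ^ (m - 1) ≠ 0 := mul_ne_zero hm (pow_ne_zero _ ht0)
  have h01 := congrFun (congrFun hkey 0) 1
  have h10 := congrFun (congrFun hkey 1) 0
  simp [hn] at h01 h10
  have hA01 : A 0 1 = 0 := by
    rcases h01 with h | h
    · exact absurd h (by
        rw [not_or]
        exact ⟨hm, fun h => ht0 h.1⟩)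
    · exact h
  have hA10 : A 1 0 = 0 := by
    rcases h10 with h | h
    · exact absurd h (by
        rw [not_or]
        exact ⟨hm, fun h => ht0 h.1⟩)
    · exact h
  refine ⟨hA01, hA10, ?_⟩
  have h4 : (A 0 0 - A 1 1) ^ 2 + 4 * A 0 1 * A 1 0 = 0 := hd
  rw [hA01] at h4
  have h5 : (A 0 0 - A 1 1) ^ 2 = 0 := by linear_combination h4
  exact sub_eq_zero.1 (eq_zero_of_pow_eq_zero h5)

/-- A vector on the line given by a point of the projective line. -/
def vecOf : OnePoint K → Fin 2 → K
  | none => ![1, 0]
  | some c => ![c, 1]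

/-- The eigenvalue on a fixed line. -/
def chiOf (g : GL (Fin 2) K) : OnePoint K → K
  | none => g 0 0
  | some c => g 1 0 * c + g 1 1

theorem mulVec_vecOf [DecidableEq K] {g : GL (Fin 2) K} {x : OnePoint K} (h : g • x = x) :
    (g : Matrix (Fin 2) (Fin 2) K).mulVec (vecOf x) = chiOf g x • vecOf x := by
  cases x with
  | infty =>
    have h1 := OnePoint.smul_infty_eq_self_iff.1 h
    change (g : Matrix (Fin 2) (Fin 2) K).mulVec ![1, 0] = g 0 0 • ![1, 0]
    ext i
    fin_cases i
    · simp [Matrix.mulVec, dotProduct, Fin.sum_univ_two]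
    · simp [Matrix.mulVec, dotProduct, Fin.sum_univ_two, h1]
  | coe c =>
    rw [fix_some_iff] at h
    change (g : Matrix (Fin 2) (Fin 2) K).mulVec ![c, 1] = (g 1 0 * c + g 1 1) • ![c, 1]
    ext i
    fin_cases i
    · simp [Matrix.mulVec, dotProduct, Fin.sum_univ_two]
      linear_combination -h
    · simp [Matrix.mulVec, dotProduct, Fin.sum_univ_two]

theorem chiOf_root [DecidableEq K] {g : GL (Fin 2) K} {x : OnePoint K} (h : g • x = x) :
    chiOf g x ^ 2 - (g : Matrix (Fin 2) (Fin 2) K).trace * chiOf g x +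
      (g : Matrix (Fin 2) (Fin 2) K).det = 0 := by
  cases x with
  | infty =>
    have h1 := OnePoint.smul_infty_eq_self_iff.1 h
    change g 0 0 ^ 2 - _ * g 0 0 + _ = 0
    rw [Matrix.trace_fin_two, Matrix.det_fin_two, h1]
    ring
  | coe c =>
    rw [fix_some_iff] at h
    change (g 1 0 * c + g 1 1) ^ 2 - _ * (g 1 0 * c + g 1 1) + _ = 0
    rw [Matrix.trace_fin_two, Matrix.det_fin_two]
    linear_combination (g 1 0) * h

theorem eq_one_of_fix [DecidableEq K] {k : GL (Fin 2) K} {x : OnePoint K}
    (h : (k : Matrix (Fin 2) (Fin 2) K).mulVec (vecOf x) = vecOf x)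
    (hdet : (k : Matrix (Fin 2) (Fin 2) K).det = 1) (hsc : dsc k = 0 → IsSc k) : k = 1 := by
  have h0 := congrFun h 0
  have h1 := congrFun h 1
  rw [Matrix.det_fin_two] at hdet
  have key : dsc k = 0 ∧ (IsSc k → k 0 0 = 1) := by
    cases x with
    | infty =>
      change (k : Matrix (Fin 2) (Fin 2) K).mulVec ![1, 0] 0 = 1 at h0
      change (k : Matrix (Fin 2) (Fin 2) K).mulVec ![1, 0] 1 = 0 at h1
      simp [Matrix.mulVec, dotProduct, Fin.sum_univ_two] at h0 h1
      rw [h0, h1] at hdet
      refine ⟨?_, fun _ => h0⟩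
      rw [dsc, h0, h1]
      have : k 1 1 = 1 := by linear_combination hdet
      rw [this]
      ring
    | coe c =>
      change (k : Matrix (Fin 2) (Fin 2) K).mulVec ![c, 1] 0 = c at h0
      change (k : Matrix (Fin 2) (Fin 2) K).mulVec ![c, 1] 1 = 1 at h1
      simp [Matrix.mulVec, dotProduct, Fin.sum_univ_two] at h0 h1
      have h2 : k 0 1 = c - k 0 0 * c := by linear_combination h0
      have h3 : k 1 1 = 1 - k 1 0 * c := by linear_combination h1
      rw [h2, h3] at hdet
      have h4 : k 0 0 = 1 + k 1 0 * c := by linear_combination hdet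
      refine ⟨?_, fun hs => ?_⟩
      · rw [dsc, h2, h3, h4]
        ring
      · rw [hs.2.2, h3, hs.2.1]
        ring
  obtain ⟨h01, h10, h00⟩ := hsc key.1
  have hk := key.2 ⟨h01, h10, h00⟩
  ext i j
  fin_cases i <;> fin_cases j <;> simp [h01, h10, ← h00, hk]

/-- Trace and determinant. -/
def td (g : GL (Fin 2) K) : K × K :=
  ((g : Matrix (Fin 2) (Fin 2) K).trace, (g : Matrix (Fin 2) (Fin 2) K).det)

/-- At most two elements of a group without unipotents fixing a point have a given
characteristic polynomial. -/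
theorem card_le_two_of_fix [IsAlgClosed K] (h2 : (2 : K) ≠ 0) (G : Subgroup (GL (Fin 2) K))
    (hG : ∀ g ∈ G, dsc g = 0 → IsSc g) [DecidableEq K] (x : OnePoint K)
    (S : Finset G) (hS : ∀ g ∈ S, (g : GL (Fin 2) K) • x = x) (a : K × K)
    (hSa : ∀ g ∈ S, td (g : GL (Fin 2) K) = a) : S.card ≤ 2 := by
  classical
  obtain ⟨r, hr⟩ : ∃ r : K, r * r = a.1 ^ 2 - 4 * a.2 := by
    obtain ⟨r, hr⟩ := IsAlgClosed.exists_pow_nat_eq (a.1 ^ 2 - 4 * a.2) (n := 2) (by norm_num)
    exact ⟨r, by rw [← hr]; ring⟩
  have hmaps : ∀ g ∈ S, 2 * chiOf (g : GL (Fin 2) K) x ∈ ({a.1 + r, a.1 - r} : Finset K) := by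
    intro g hg
    have h1 := chiOf_root (hS g hg)
    have h4 := hSa g hg
    rw [td, Prod.ext_iff] at h4
    simp only at h4
    rw [h4.1, h4.2] at h1
    rw [Finset.mem_insert, Finset.mem_singleton]
    have h3 : (2 * chiOf (g : GL (Fin 2) K) x - (a.1 + r)) *
        (2 * chiOf (g : GL (Fin 2) K) x - (a.1 - r)) = 0 := by
      linear_combination 4 * h1 - hr
    rcases mul_eq_zero.1 h3 with h | h
    · left; exact sub_eq_zero.1 h
    · right; exact sub_eq_zero.1 h
  have hinj : Set.InjOn (fun g : G => 2 * chiOf (g : GL (Fin 2) K) x) S := by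
    intro g hg h hh hgh
    simp only at hgh
    have hgh' : chiOf (g : GL (Fin 2) K) x = chiOf (h : GL (Fin 2) K) x :=
      mul_left_cancel₀ h2 hgh
    have h1 := mulVec_vecOf (hS g hg)
    have h3 := mulVec_vecOf (hS h hh)
    set k : GL (Fin 2) K := (g : GL (Fin 2) K)⁻¹ * h with hk
    have hgk : (h : GL (Fin 2) K) = g * k := by rw [hk, mul_inv_cancel_left]
    have hkv : (k : Matrix (Fin 2) (Fin 2) K).mulVec (vecOf x) = vecOf x := by
      have h4 : ((g : GL (Fin 2) K) : Matrix (Fin 2) (Fin 2) K).mulVec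
          ((k : Matrix (Fin 2) (Fin 2) K).mulVec (vecOf x)) =
          ((g : GL (Fin 2) K) : Matrix (Fin 2) (Fin 2) K).mulVec (vecOf x) := by
        rw [Matrix.mulVec_mulVec, ← Units.val_mul, ← hgk, h3, h1, hgh']
      have h5 := congrArg (((g : GL (Fin 2) K)⁻¹ : GL (Fin 2) K) :
        Matrix (Fin 2) (Fin 2) K).mulVec h4
      rwa [Matrix.mulVec_mulVec, Matrix.mulVec_mulVec, ← Units.val_mul, inv_mul_cancel,
        Units.val_one, one_mul, Matrix.mulVec_mulVec, ← Units.val_mul, inv_mul_cancel,
        Units.val_one, Matrix.one_mulVec] at h5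
    have hkdet : (k : Matrix (Fin 2) (Fin 2) K).det = 1 := by
      have hg2 := congrArg Prod.snd (hSa g hg)
      have hh2 := congrArg Prod.snd (hSa h hh)
      simp only [td] at hg2 hh2
      have h4 : ((g : GL (Fin 2) K) : Matrix (Fin 2) (Fin 2) K).det ≠ 0 :=
        (g : GL (Fin 2) K).det_ne_zero
      have h5 : ((g : GL (Fin 2) K) : Matrix (Fin 2) (Fin 2) K).det *
          (k : Matrix (Fin 2) (Fin 2) K).det =
          ((g : GL (Fin 2) K) : Matrix (Fin 2) (Fin 2) K).det * 1 := by
        rw [← Matrix.det_mul, ← Units.val_mul, ← hgk, mul_one, hh2, hg2]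
      exact mul_left_cancel₀ h4 h5
    have hk1 := eq_one_of_fix hkv hkdet (hG k (G.mul_mem (G.inv_mem g.2) h.2))
    apply Subtype.ext
    rw [hgk, hk1, mul_one]
  calc S.card ≤ ({a.1 + r, a.1 - r} : Finset K).card :=
        Finset.card_le_card_of_injOn _ hmaps hinj
    _ ≤ 2 := Finset.card_le_two

/-- The scalars in `G`. -/
def scal (G : Subgroup (GL (Fin 2) K)) : Subgroup G where
  carrier := {g | IsSc (g : GL (Fin 2) K)}
  mul_mem' := by
    rintro ⟨a, ha⟩ ⟨b, hb⟩ ⟨h1, h2, h3⟩ ⟨h4, h5, h6⟩
    simp only at h1 h2 h3 h4 h5 h6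
    refine ⟨?_, ?_, ?_⟩ <;> simp [Matrix.mul_apply, Fin.sum_univ_two, h1, h2, h3, h4, h5, h6]
  one_mem' := by
    refine ⟨?_, ?_, ?_⟩ <;> simp
  inv_mem' := by
    rintro ⟨a, ha⟩ ⟨h1, h2, h3⟩
    simp only at h1 h2 h3
    have e : ∀ i j, ((a⁻¹ : GL (Fin 2) K) : Matrix (Fin 2) (Fin 2) K) i j =
        ((a : Matrix (Fin 2) (Fin 2) K)⁻¹) i j := fun i j => by
      rw [Matrix.coe_units_inv]
    refine ⟨?_, ?_, ?_⟩ <;>
      simp [Matrix.inv_def, Matrix.adjugate_fin_two, h1, h2, h3]

instance (G : Subgroup (GL (Fin 2) K)) : (scal G).Normal := by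
  constructor
  rintro ⟨n, hn⟩ ⟨h1, h2, h3⟩ ⟨g, hg⟩
  simp only at h1 h2 h3
  have hc : g * n = n * g := by
    ext i j
    fin_cases i <;> fin_cases j <;>
      simp [Matrix.mul_apply, Fin.sum_univ_two, h1, h2, h3, mul_comm]
  have : (⟨g, hg⟩ * ⟨n, hn⟩ * ⟨g, hg⟩⁻¹ : G) = ⟨n, hn⟩ := by
    apply Subtype.ext
    simp [hc]
  rw [this]
  exact ⟨h1, h2, h3⟩

theorem two_mul_card_of_scal (G : Subgroup (GL (Fin 2) K)) [Finite G] (S : Finset G) (a : K × K)
    (hSa : ∀ g ∈ S, td (g : GL (Fin 2) K) = a) :
    Nat.card (scal G) * S.card ≤ 2 * Nat.card G := by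
  classical
  have := Fintype.ofFinite G
  have := Fintype.ofFinite (scal G)
  have h1 := Finset.card_le_mul_card_image_of_maps_to (s := (Finset.univ : Finset (scal G)) ×ˢ S)
    (t := (Finset.univ : Finset G)) (f := fun x => (x.1 : G) * x.2) (fun _ _ => Finset.mem_univ _)
    2 (fun h _ => by
      -- the fibre over `h`
      by_cases hne : ((((Finset.univ : Finset (scal G)) ×ˢ S)).filter
          fun x => (x.1 : G) * x.2 = h).Nonempty
      · obtain ⟨⟨c, g⟩, hcg⟩ := hne
        rw [Finset.mem_filter, Finset.mem_product] at hcg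
        obtain ⟨⟨-, hgS⟩, hcgh⟩ := hcg
        have hval : ∀ c : scal G, ∀ g : G, (((c : G) * g : G) : GL (Fin 2) K).val.det =
            (((c : G) : GL (Fin 2) K) 0 0) ^ 2 * (g : GL (Fin 2) K).val.det := by
          intro c g
          obtain ⟨h1, h2, h3⟩ := c.2
          rw [Subgroup.coe_mul, Units.val_mul, Matrix.det_mul]
          congr 1
          rw [Matrix.det_fin_two, h1, h2, ← h3]
          ring
        have hdet : ∀ g ∈ S, (g : GL (Fin 2) K).val.det = a.2 := fun g hg =>
          congrArg Prod.snd (hSa g hg)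
        have ha2 : a.2 ≠ 0 := by
          rw [← hdet g hgS]
          exact (g : GL (Fin 2) K).det_ne_zero
        set s := ((c : G) : GL (Fin 2) K) 0 0 with hs
        calc _ ≤ ({s, -s} : Finset K).card := by
              refine Finset.card_le_card_of_injOn
                (fun x : scal G × G => ((x.1 : G) : GL (Fin 2) K) 0 0) ?_ ?_
              · rintro ⟨c', g'⟩ hx
                rw [Finset.mem_coe, Finset.mem_filter, Finset.mem_product] at hx
                obtain ⟨⟨-, hgS'⟩, hx2⟩ := hx
                simp only at hx2 hcgh hgS hgS'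
                have h1 := hval c g
                have h2 := hval c' g'
                rw [hcgh, hdet g hgS] at h1
                rw [hx2, hdet g' hgS', h1] at h2
                have h3 := mul_right_cancel₀ ha2 h2
                rw [Finset.mem_coe, Finset.mem_insert, Finset.mem_singleton]
                exact sq_eq_sq_iff_eq_or_eq_neg.1 h3.symm
              · rintro ⟨c1, g1⟩ hx1 ⟨c2, g2⟩ hx2 h12
                rw [Finset.mem_coe, Finset.mem_filter] at hx1 hx2
                simp only at hx1 hx2 h12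
                obtain ⟨a1, a2, a3⟩ := c1.2
                obtain ⟨b1, b2, b3⟩ := c2.2
                have hc : c1 = c2 := by
                  apply Subtype.ext
                  apply Subtype.ext
                  ext i j
                  fin_cases i <;> fin_cases j
                  · exact h12
                  · exact a1.trans b1.symm
                  · exact a2.trans b2.symm
                  · exact a3.symm.trans (h12.trans b3)
                subst hc
                have h4 := hx1.2.trans hx2.2.symm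
                rw [mul_left_cancel h4]
          _ ≤ 2 := Finset.card_le_two
      · rw [Finset.not_nonempty_iff_eq_empty] at hne
        rw [hne]
        simp)
  rw [Finset.card_product, Finset.card_univ, Finset.card_univ, ← Nat.card_eq_fintype_card,
    ← Nat.card_eq_fintype_card] at h1
  exact h1

/-- **The bound on the order of the group**: if at least three quarters of the elements have at
most `M` characteristic polynomials, the order is at most `160 M`. -/
theorem card_le_of_few_charpoly [IsAlgClosed K] (h2 : (2 : K) ≠ 0)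
    (G : Subgroup (GL (Fin 2) K)) [Fintype G] (hG : ∀ g ∈ G, dsc g = 0 → IsSc g)
    (H : Finset G) (M : ℕ) (hH : 4 * (Fintype.card G - H.card) ≤ Fintype.card G)
    (C : Finset (K × K)) (hC : C.card ≤ M) (hHC : ∀ g ∈ H, td (g : GL (Fin 2) K) ∈ C) :
    Fintype.card G ≤ 160 * M := by
  classical
  have hHle : H.card ≤ Fintype.card G := by
    rw [← Finset.card_univ]
    exact Finset.card_le_card (Finset.subset_univ _)
  rcases two_fixed_points (G := G) (X := OnePoint K) (scal G) (fun g hg x => IsSc.smul_eq hg x)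
    (fun g hg => ncard_fixed h2 (g := (g : GL (Fin 2) K))
      (fun h => hg (hG g g.2 h))) with h | ⟨x, hx⟩
  · have hz : 0 < Nat.card (scal G) := Nat.card_pos
    have h120 : ∀ c ∈ C, (H.filter fun g : G => td (g : GL (Fin 2) K) = c).card ≤ 120 := by
      intro c _
      have h3 := two_mul_card_of_scal G (H.filter fun g : G => td (g : GL (Fin 2) K) = c) c
        (fun g hg => (Finset.mem_filter.1 hg).2)
      have h4 : Nat.card (scal G) * (H.filter fun g : G => td (g : GL (Fin 2) K) = c).card ≤
          Nat.card (scal G) * 120 := by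
        calc _ ≤ 2 * Nat.card G := h3
          _ ≤ 2 * (60 * Nat.card (scal G)) := Nat.mul_le_mul_left 2 h
          _ = _ := by ring
      exact Nat.le_of_mul_le_mul_left h4 hz
    have h5 := Finset.card_le_mul_card_image_of_maps_to hHC 120 h120
    have h6 : 120 * C.card ≤ 120 * M := Nat.mul_le_mul_left _ hC
    omega
  · rw [Nat.card_eq_fintype_card, Nat.card_eq_fintype_card] at hx
    set G' : Finset G := Finset.univ.filter fun g => g • x = x with hG'
    have hG'c : G'.card = Fintype.card (stabilizer G x) := by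
      rw [Fintype.card_subtype]
      rfl
    have h3 : ∀ c ∈ C, ((H ∩ G').filter fun g : G => td (g : GL (Fin 2) K) = c).card ≤ 2 := by
      intro c _
      refine card_le_two_of_fix h2 G hG x _ (fun g hg => ?_) c (fun g hg => ?_)
      · rw [Finset.mem_filter, Finset.mem_inter, hG', Finset.mem_filter] at hg
        exact hg.1.2.2
      · exact (Finset.mem_filter.1 hg).2
    have h4 := Finset.card_le_mul_card_image_of_maps_to (s := H ∩ G')
      (fun g hg => hHC g (Finset.mem_inter.1 hg).1) 2 h3
    have h5 : G'.card ≤ (H ∩ G').card + (Fintype.card G - H.card) := by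
      have h6 : G' ⊆ (H ∩ G') ∪ Hᶜ := by
        intro g hg
        by_cases hgH : g ∈ H
        · exact Finset.mem_union_left _ (Finset.mem_inter.2 ⟨hgH, hg⟩)
        · exact Finset.mem_union_right _ (Finset.mem_compl.2 hgH)
      calc G'.card ≤ ((H ∩ G') ∪ Hᶜ).card := Finset.card_le_card h6
        _ ≤ (H ∩ G').card + Hᶜ.card := Finset.card_union_le _ _
        _ = _ := by rw [Finset.card_compl]
    have h6 : 2 * C.card ≤ 2 * M := Nat.mul_le_mul_left _ hC
    omega

end Fermat.Agent.DS
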