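import Mathlib

set_option autoImplicit false

/-!
# Lifting idempotent matrices over a valuation ring of an algebraically closed field
-/

open Matrix Polynomial

namespace Fermat.Agent.DS

theorem isCoprime_multiset_prod {R : Type*} [CommRing R] (s : Multiset R) (b : R)
    (h : ∀ a ∈ s, IsCoprime a b) : IsCoprime s.prod b := by
  induction s using Multiset.induction_on with
  | empty => simpa using isCoprime_one_left
  | cons a s ih =>
    rw [Multiset.prod_cons]
    exact (h a (Multiset.mem_cons_self a s)).mul_left
      (ih fun c hc => h c (Multiset.mem_cons_of_mem hc))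

variable {Q : Type*} [Field Q] [IsAlgClosed Q] (A : ValuationSubring Q)

/-- The factorisation of a monic polynomial over `A`. -/
theorem exists_roots_multiset (f : A[X]) (hf : f.Monic) :
    ∃ s : Multiset A, f = (s.map fun a => X - C a).prod := by
  have h1 : (f.map (algebraMap A Q)) = ((f.map (algebraMap A Q)).roots.map fun a => X - C a).prod := by
    have h2 := (IsAlgClosed.splits (f.map (algebraMap A Q))).eq_prod_roots
    rwa [(hf.map _).leadingCoeff, C_1, one_mul] at h2
  have hint : ∀ a ∈ (f.map (algebraMap A Q)).roots, a ∈ A := by
    intro a ha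
    have h3 : IsIntegral A a := ⟨f, hf, by
      rw [mem_roots'] at ha
      rw [← eval_map]
      exact ha.2⟩
    obtain ⟨y, hy⟩ := (IsIntegrallyClosed.isIntegral_iff (R := A) (K := Q)).1 h3
    rw [← hy]
    exact y.2
  obtain ⟨s, hs⟩ : ∃ s : Multiset A, s.map (algebraMap A Q) = (f.map (algebraMap A Q)).roots := by
    generalize (f.map (algebraMap A Q)).roots = r at hint
    induction r using Multiset.induction_on with
    | empty => exact ⟨0, rfl⟩
    | cons a r ih =>
      obtain ⟨s, hs⟩ := ih fun b hb => hint b (Multiset.mem_cons_of_mem hb)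
      refine ⟨⟨a, hint a (Multiset.mem_cons_self a r)⟩ ::ₘ s, ?_⟩
      rw [Multiset.map_cons, hs]
      rfl
  refine ⟨s, ?_⟩
  apply Polynomial.map_injective (algebraMap A Q) (Subtype.val_injective)
  rw [h1, ← hs, Polynomial.map_multiset_prod, Multiset.map_map, Multiset.map_map]
  congr 1
  apply Multiset.map_congr rfl
  intro a _
  simp

variable {A}

/-- Evaluation of a polynomial at an idempotent. -/
theorem aeval_idem {κ : Type*} [CommRing κ] {ι : Type*} [Fintype ι] [DecidableEq ι]
    {E : Matrix ι ι κ} (hE : E * E = E) (p : κ[X]) :
    aeval E p = (p.eval 0) • (1 - E) + (p.eval 1) • E := by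
  induction p using Polynomial.induction_on' with
  | add p q hp hq =>
    rw [map_add, hp, hq, eval_add, eval_add, add_smul, add_smul]
    abel
  | monomial n a =>
    rcases n with _ | n
    · simp [Algebra.algebraMap_eq_smul_one]
      rw [← smul_add]
      congr 1
      abel
    · have hp : E ^ (n + 1) = E := by
        induction n with
        | zero => simp
        | succ n ih => rw [pow_succ, ih, hE]
      rw [aeval_monomial, hp]
      simp [Algebra.algebraMap_eq_smul_one]

/-- **Lifting of idempotents.** -/
theorem exists_idem_lift {ι : Type*} [Fintype ι] [DecidableEq ι] (x : Matrix ι ι A)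
    (hx : x.map (IsLocalRing.residue A) * x.map (IsLocalRing.residue A) =
      x.map (IsLocalRing.residue A)) :
    ∃ p : A[X], aeval x p * aeval x p = aeval x p ∧
      (aeval x p).map (IsLocalRing.residue A) = x.map (IsLocalRing.residue A) := by
  classical
  obtain ⟨s, hs⟩ := exists_roots_multiset A x.charpoly x.charpoly_monic
  set E := x.map (IsLocalRing.residue A) with hE
  -- all roots reduce to `0` or `1`
  have hroot : ∀ a ∈ s, IsLocalRing.residue A a = 0 ∨ IsLocalRing.residue A a = 1 := by
    intro a ha
    have h1 : x.charpoly.eval a = 0 := by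
      rw [hs, eval_multiset_prod]
      apply Multiset.prod_eq_zero
      rw [Multiset.mem_map]
      exact ⟨X - C a, Multiset.mem_map_of_mem _ ha, by simp⟩
    have h2 : E.charpoly.eval (IsLocalRing.residue A a) = 0 := by
      rw [hE, Matrix.charpoly_map, eval_map, eval₂_at_apply, h1, map_zero]
    rw [Matrix.eval_charpoly] at h2
    obtain ⟨v, hv0, hv⟩ := Matrix.exists_mulVec_eq_zero_iff.2 h2
    have h3 : E.mulVec v = IsLocalRing.residue A a • v := by
      rw [Matrix.sub_mulVec, sub_eq_zero] at hv
      rw [← hv, Matrix.scalar_apply]
      ext i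
      simp [Matrix.mulVec_diagonal]
    have h4 : (IsLocalRing.residue A a * IsLocalRing.residue A a) • v =
        IsLocalRing.residue A a • v := by
      have h5 := congrArg E.mulVec h3
      rw [Matrix.mulVec_mulVec, hx, Matrix.mulVec_smul, h3, smul_smul] at h5
      exact h5.symm
    have h5 : (IsLocalRing.residue A a * (IsLocalRing.residue A a - 1)) • v = 0 := by
      rw [mul_sub, mul_one, sub_smul, h4, sub_self]
    rcases smul_eq_zero.1 h5 with h | h
    · rcases mul_eq_zero.1 h with h | h
      · exact Or.inl h
      · exact Or.inr (sub_eq_zero.1 h)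
    · exact absurd h hv0
  set s₀ : Multiset A := 0 ::ₘ s.filter fun a => IsLocalRing.residue A a = 0 with hs₀
  set s₁ : Multiset A := 1 ::ₘ s.filter fun a => ¬ IsLocalRing.residue A a = 0 with hs₁
  set f₀ : A[X] := (s₀.map fun a => X - C a).prod with hf₀
  set f₁ : A[X] := (s₁.map fun a => X - C a).prod with hf₁
  have hf : f₀ * f₁ = X * (X - 1) * x.charpoly := by
    rw [hs, hf₀, hf₁, hs₀, hs₁, Multiset.map_cons, Multiset.map_cons, Multiset.prod_cons,
      Multiset.prod_cons]
    have h1 : (s.map fun a => (X - C a : A[X])).prod =
        ((s.filter fun a => IsLocalRing.residue A a = 0).map fun a => (X - C a : A[X])).prod *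
        ((s.filter fun a => ¬ IsLocalRing.residue A a = 0).map fun a => (X - C a : A[X])).prod := by
      rw [← Multiset.prod_add, ← Multiset.map_add, Multiset.filter_add_not]
    rw [h1]
    simp
    ring
  have h0 : ∀ a ∈ s₀, IsLocalRing.residue A a = 0 := by
    intro a ha
    rw [hs₀, Multiset.mem_cons] at ha
    rcases ha with rfl | ha
    · simp
    · exact (Multiset.mem_filter.1 ha).2
  have h1 : ∀ a ∈ s₁, IsLocalRing.residue A a = 1 := by
    intro a ha
    rw [hs₁, Multiset.mem_cons] at ha
    rcases ha with rfl | ha
    · simp
    · obtain ⟨h2, h3⟩ := Multiset.mem_filter.1 ha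
      exact (hroot a h2).resolve_left h3
  have hcop : IsCoprime f₀ f₁ := by
    apply isCoprime_multiset_prod
    intro g hg
    rw [Multiset.mem_map] at hg
    obtain ⟨a, ha, rfl⟩ := hg
    apply IsCoprime.symm
    apply isCoprime_multiset_prod
    intro g hg
    rw [Multiset.mem_map] at hg
    obtain ⟨b, hb, rfl⟩ := hg
    apply isCoprime_X_sub_C_of_isUnit_sub
    by_contra hcon
    have h5 : IsLocalRing.residue A (b - a) = 0 := by
      rw [IsLocalRing.residue_eq_zero_iff, IsLocalRing.mem_maximalIdeal]
      exact hcon
    rw [map_sub, h0 a ha, h1 b hb, sub_zero] at h5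
    exact one_ne_zero h5
  obtain ⟨u, v, huv⟩ := hcop
  set p : A[X] := u * f₀ with hp
  have hpp : p * p = p - u * v * (X * (X - 1) * x.charpoly) := by
    rw [← hf]
    linear_combination (u * f₀) * huv
  refine ⟨p, ?_, ?_⟩
  · have h6 : aeval x (u * v * (X * (X - 1) * x.charpoly)) = 0 := by
      simp only [map_mul, Matrix.aeval_self_charpoly, mul_zero]
    rw [← map_mul, hpp, map_sub, h6, sub_zero]
  · have h5 : (aeval x p).map (IsLocalRing.residue A) = aeval E (p.map (IsLocalRing.residue A)) := by
      have h6 : ∀ q : A[X], (aeval x q).map (IsLocalRing.residue A) =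
          aeval E (q.map (IsLocalRing.residue A)) := by
        intro q
        have h7 : (aeval x q).map (IsLocalRing.residue A) =
            (IsLocalRing.residue A).mapMatrix (aeval x q) := rfl
        induction q using Polynomial.induction_on' with
        | add q r hq hr =>
          have hq' := hq rfl
          have hr' := hr rfl
          rw [h7, map_add, map_add, Polynomial.map_add, map_add]
          exact congrArg₂ (· + ·) hq' hr'
        | monomial n a =>
          rw [h7, aeval_monomial, Polynomial.map_monomial, aeval_monomial, map_mul, map_pow]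
          congr 1
          rw [Algebra.algebraMap_eq_smul_one, Algebra.algebraMap_eq_smul_one]
          ext i j
          simp [Matrix.one_apply]
          split_ifs <;> simp
      exact h6 p
    rw [h5, aeval_idem hx]
    have e0 : (p.map (IsLocalRing.residue A)).eval 0 = 0 := by
      rw [hp, Polynomial.map_mul, eval_mul, hf₀, Polynomial.map_multiset_prod, eval_multiset_prod,
        Multiset.map_map, Multiset.map_map]
      apply mul_eq_zero_of_right
      apply Multiset.prod_eq_zero
      rw [Multiset.mem_map]
      exact ⟨0, by rw [hs₀]; exact Multiset.mem_cons_self _ _, by simp⟩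
    have e1 : (p.map (IsLocalRing.residue A)).eval 1 = 1 := by
      have h6 := congrArg (fun q : A[X] => (q.map (IsLocalRing.residue A)).eval 1) huv
      simp only [Polynomial.map_add, Polynomial.map_mul, eval_add, Polynomial.map_one,
        eval_one] at h6
      have h7 : ((v.map (IsLocalRing.residue A)) * (f₁.map (IsLocalRing.residue A))).eval 1 = 0 := by
        rw [eval_mul, hf₁, Polynomial.map_multiset_prod, eval_multiset_prod,
          Multiset.map_map, Multiset.map_map]
        apply mul_eq_zero_of_right
        apply Multiset.prod_eq_zero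
        rw [Multiset.mem_map]
        exact ⟨1, by rw [hs₁]; exact Multiset.mem_cons_self _ _, by simp⟩
      rw [h7, add_zero] at h6
      exact h6
    rw [e0, e1, zero_smul, zero_add, one_smul]

end Fermat.Agent.DS
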