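import Fermat.Agent.ESCore.HeckeMulG

set_option autoImplicit false

/-!
# A subgroup of `GL₂(ℝ)` containing `Γ₁(N)` and its conjugate by `diag(p,1)` contains all
translations by `p`-power denominators
-/

open ModularForm Matrix Matrix.SpecialLinearGroup CongruenceSubgroup
open Fermat.Agent.ESCore
open scoped MatrixGroups

noncomputable section

namespace Fermat.Agent.DS

/-- Translations. -/
def tr (x : ℝ) : GL (Fin 2) ℝ := upperTriangularGL 1 x 1 (by norm_num)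

theorem val_tr (x : ℝ) : (tr x).1 = !![1, x; 0, 1] := rfl

theorem val_mapGL (γ : SL(2, ℤ)) :
    (mapGL ℝ γ : GL (Fin 2) ℝ).1 = !![(γ 0 0 : ℝ), (γ 0 1 : ℝ); (γ 1 0 : ℝ), (γ 1 1 : ℝ)] := by
  ext i j
  fin_cases i <;> fin_cases j <;> simp

theorem val_al_inv {p : ℕ} (hp : p ≠ 0) : ((heckeDiagMatrix p)⁻¹).1 = !![(p : ℝ)⁻¹, 0; 0, 1] := by
  have hp' : (p : ℝ) ≠ 0 := by exact_mod_cast hp
  have h : (heckeDiagMatrix p)⁻¹ = upperTriangularGL (p : ℝ)⁻¹ 0 1 (by simpa using hp') := by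
    refine inv_eq_of_mul_eq_one_right (Units.ext ?_)
    rw [Units.val_mul, val_heckeDiagMatrix hp, val_upperTriangularGL, Units.val_one,
      Matrix.mul_fin_two, Matrix.one_fin_two]
    simp [hp']
  rw [h, val_upperTriangularGL]

theorem conj_tr {p : ℕ} (hp : p ≠ 0) (x : ℝ) :
    (heckeDiagMatrix p)⁻¹ * tr x * heckeDiagMatrix p = tr (x / p) := by
  have hp' : (p : ℝ) ≠ 0 := by exact_mod_cast hp
  apply Units.ext
  rw [Units.val_mul, Units.val_mul, val_heckeDiagMatrix hp, val_al_inv hp, val_tr, val_tr,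
    Matrix.mul_fin_two, Matrix.mul_fin_two]
  congr 1
  ext i j
  fin_cases i <;> fin_cases j <;> simp [hp'] <;> field_simp

theorem mapGL_T_zpow (j : ℤ) : (mapGL ℝ (ModularGroup.T ^ j) : GL (Fin 2) ℝ) = tr j := by
  apply Units.ext
  rw [val_mapGL, val_tr, ModularGroup.coe_T_zpow]
  simp

theorem T_zpow_mem (N : ℕ) (j : ℤ) : ModularGroup.T ^ j ∈ Gamma1 N := by
  rw [Gamma1_mem, ModularGroup.coe_T_zpow]
  simp

theorem tr_add (x y : ℝ) : tr (x + y) = tr x * tr y := by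
  apply Units.ext
  rw [Units.val_mul, val_tr, val_tr, val_tr, Matrix.mul_fin_two]
  simp [add_comm]

variable {N p : ℕ} {H : Subgroup (GL (Fin 2) ℝ)}

theorem tr_mem_of {x : ℝ} (h : tr (x / p) ∈ H) (j : ℕ) : tr (j * (x / p)) ∈ H := by
  induction j with
  | zero =>
    rw [Nat.cast_zero, zero_mul]
    have : tr 0 = 1 := by
      apply Units.ext
      rw [val_tr, Units.val_one, Matrix.one_fin_two]
    rw [this]
    exact H.one_mem
  | succ j ih =>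
    rw [Nat.cast_succ, add_mul, one_mul, tr_add]
    exact H.mul_mem ih h

/-- Step A. -/
theorem tr_inv_mem (hp : p.Prime) (hN : ¬ p ∣ N)
    (H1 : ∀ γ ∈ Gamma1 N, (mapGL ℝ γ : GL (Fin 2) ℝ) ∈ H)
    (H2 : ∀ γ ∈ Gamma1 N, heckeDiagMatrix p * mapGL ℝ γ * (heckeDiagMatrix p)⁻¹ ∈ H) :
    tr (1 / p) ∈ H := by
  obtain ⟨u, m, hum⟩ : ∃ u m : ℤ, (p : ℤ) * u = 1 + m * N := by
    obtain ⟨a, b, hab⟩ := isCoprime_of_prime hp hN
    exact ⟨a, -b, by linear_combination hab⟩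
  set γ : SL(2, ℤ) := mkSL (1 + m * N) m N 1 (by ring) with hγ
  set δ : SL(2, ℤ) := mkSL (1 - u * N) (u ^ 2) (-(N ^ 2)) (1 + u * N) (by ring) with hδ
  have hγ1 : γ ∈ Gamma1 N := by
    rw [Gamma1_mem, hγ, mkSL_coe]
    simp
  have hδ1 : δ ∈ Gamma1 N := by
    rw [Gamma1_mem, hδ, mkSL_coe]
    simp
  have hp' : (p : ℝ) ≠ 0 := by exact_mod_cast hp.ne_zero
  have hum' : (p : ℝ) * u = 1 + m * N := by exact_mod_cast hum
  have h1 : (mapGL ℝ γ : GL (Fin 2) ℝ) * tr (1 / p) =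
      heckeDiagMatrix p * mapGL ℝ δ * (heckeDiagMatrix p)⁻¹ * mapGL ℝ γ := by
    apply Units.ext
    rw [Units.val_mul, Units.val_mul, Units.val_mul, Units.val_mul, val_heckeDiagMatrix hp.ne_zero,
      val_al_inv hp.ne_zero, val_mapGL, val_mapGL, val_tr, hγ, hδ, mkSL_coe, mkSL_coe]
    simp only [Matrix.mul_fin_two]
    ext i j
    fin_cases i <;> fin_cases j <;> simp <;> field_simp
    · linear_combination (-(N * u) : ℝ) * hum'
    · linear_combination (-(1 : ℝ) - p * u) * hum'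
    · linear_combination (-(N ^ 2) : ℝ) * hum'
    · linear_combination (-N : ℝ) * hum'
  have h2 : tr (1 / p) = (mapGL ℝ γ : GL (Fin 2) ℝ)⁻¹ *
      (heckeDiagMatrix p * mapGL ℝ δ * (heckeDiagMatrix p)⁻¹) * mapGL ℝ γ := by
    rw [mul_assoc, ← h1, inv_mul_cancel_left]
  rw [h2]
  exact H.mul_mem (H.mul_mem (H.inv_mem (H1 γ hγ1)) (H2 δ hδ1)) (H1 γ hγ1)

/-- Step B. -/
theorem conj_mem_of (hp : p.Prime) (hN : ¬ p ∣ N)
    (H1 : ∀ γ ∈ Gamma1 N, (mapGL ℝ γ : GL (Fin 2) ℝ) ∈ H) (htr : tr (1 / p) ∈ H)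
    (γ : SL(2, ℤ)) (hγ : γ ∈ Gamma1 N) :
    (heckeDiagMatrix p)⁻¹ * mapGL ℝ γ * heckeDiagMatrix p ∈ H := by
  have hp' : (p : ℝ) ≠ 0 := by exact_mod_cast hp.ne_zero
  -- first case
  have key : ∀ γ : SL(2, ℤ), γ ∈ Gamma1 N → ¬ (p : ℤ) ∣ γ 1 1 →
      (heckeDiagMatrix p)⁻¹ * mapGL ℝ γ * heckeDiagMatrix p ∈ H := by
    intro γ hγ hpd
    have hcop : IsCoprime (p : ℤ) (γ 1 1) :=
      (Prime.coprime_iff_not_dvd (Nat.prime_iff_prime_int.1 hp)).2 hpd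
    obtain ⟨j, hj⟩ : ∃ j : ℕ, (p : ℤ) ∣ γ 0 1 + j * γ 1 1 := by
      obtain ⟨a, b, hab⟩ := hcop
      refine ⟨((-(b * γ 0 1)) % p).toNat, ?_⟩
      rw [Int.toNat_of_nonneg (Int.emod_nonneg _ (by exact_mod_cast hp.ne_zero))]
      have h1 : (p : ℤ) ∣ (-(b * γ 0 1)) % p - (-(b * γ 0 1)) :=
        ⟨-((-(b * γ 0 1)) / p), by linear_combination (Int.emod_add_mul_ediv (-(b * γ 0 1)) p)⟩
      obtain ⟨t, ht⟩ := h1
      refine ⟨γ 0 1 * a + t * γ 1 1, ?_⟩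
      linear_combination (γ 1 1) * ht - (γ 0 1) * hab
    obtain ⟨t, ht⟩ := hj
    have hdet : γ 0 0 * γ 1 1 - γ 0 1 * γ 1 0 = 1 := by
      have := γ.2
      rwa [Matrix.det_fin_two] at this
    set δ : SL(2, ℤ) := mkSL (γ 0 0 + j * γ 1 0) t (p * γ 1 0) (γ 1 1) (by
      linear_combination hdet + (γ 1 0) * ht) with hδ
    have hδ1 : δ ∈ Gamma1 N := by
      rw [Gamma1_mem] at hγ ⊢
      rw [hδ, mkSL_coe]
      simp [hγ.1, hγ.2.1, hγ.2.2]
    have h1 : tr (j * (1 / p)) * ((heckeDiagMatrix p)⁻¹ * mapGL ℝ γ * heckeDiagMatrix p) =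
        mapGL ℝ δ := by
      have ht' : (γ 0 1 : ℝ) + j * γ 1 1 = p * t := by exact_mod_cast ht
      apply Units.ext
      rw [Units.val_mul, Units.val_mul, Units.val_mul, val_heckeDiagMatrix hp.ne_zero,
        val_al_inv hp.ne_zero, val_mapGL, val_mapGL, val_tr, hδ, mkSL_coe]
      simp only [Matrix.mul_fin_two]
      ext i j
      fin_cases i <;> fin_cases j <;> simp <;> field_simp
      linear_combination ht'
    have h2 : (heckeDiagMatrix p)⁻¹ * mapGL ℝ γ * heckeDiagMatrix p =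
        (tr (j * (1 / p)))⁻¹ * mapGL ℝ δ := by
      rw [← h1, inv_mul_cancel_left]
    rw [h2]
    exact H.mul_mem (H.inv_mem (tr_mem_of htr j)) (H1 δ hδ1)
  by_cases hpd : (p : ℤ) ∣ γ 1 1
  · have hdet : γ 0 0 * γ 1 1 - γ 0 1 * γ 1 0 = 1 := by
      have := γ.2
      rwa [Matrix.det_fin_two] at this
    have hpc : ¬ (p : ℤ) ∣ γ 1 0 := by
      intro h
      have h1 : (p : ℤ) ∣ 1 := by
        rw [← hdet]
        exact dvd_sub (hpd.mul_left _) (h.mul_left _)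
      exact hp.one_lt.ne' (Nat.dvd_one.mp (by exact_mod_cast h1))
    have h1 := key (γ * ModularGroup.T ^ (1 : ℤ)) ((Gamma1 N).mul_mem hγ (T_zpow_mem N 1)) (by
      have h2 : (γ * ModularGroup.T ^ (1 : ℤ)) 1 1 = γ 1 0 + γ 1 1 := by
        rw [Matrix.SpecialLinearGroup.coe_mul, ModularGroup.coe_T_zpow]
        simp [Matrix.mul_apply, Fin.sum_univ_two]
      rw [h2]
      intro h
      exact hpc ((dvd_add_left hpd).1 h))
    rw [map_mul, mapGL_T_zpow, Int.cast_one] at h1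
    have h2 : (heckeDiagMatrix p)⁻¹ * mapGL ℝ γ * heckeDiagMatrix p =
        (heckeDiagMatrix p)⁻¹ * (mapGL ℝ γ * tr 1) * heckeDiagMatrix p * (tr (1 / p))⁻¹ := by
      rw [← conj_tr hp.ne_zero]
      group
    rw [h2]
    exact H.mul_mem h1 (H.inv_mem htr)
  · exact key γ hγ hpd

/-- All translations by `p`-power denominators. -/
theorem tr_pow_mem (hp : p.Prime) (hN : ¬ p ∣ N)
    (H1 : ∀ γ ∈ Gamma1 N, (mapGL ℝ γ : GL (Fin 2) ℝ) ∈ H)
    (H2 : ∀ γ ∈ Gamma1 N, heckeDiagMatrix p * mapGL ℝ γ * (heckeDiagMatrix p)⁻¹ ∈ H) (k : ℕ) :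
    tr (1 / p ^ k) ∈ H := by
  set S : Set (GL (Fin 2) ℝ) := {g | ∃ γ ∈ Gamma1 N, g = mapGL ℝ γ ∨
    g = heckeDiagMatrix p * mapGL ℝ γ * (heckeDiagMatrix p)⁻¹} with hS
  have hle : Subgroup.closure S ≤ H := by
    rw [Subgroup.closure_le]
    rintro g ⟨γ, hγ, rfl | rfl⟩
    · exact H1 γ hγ
    · exact H2 γ hγ
  have K1 : ∀ γ ∈ Gamma1 N, (mapGL ℝ γ : GL (Fin 2) ℝ) ∈ Subgroup.closure S :=
    fun γ hγ => Subgroup.subset_closure ⟨γ, hγ, Or.inl rfl⟩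
  have K2 : ∀ γ ∈ Gamma1 N, heckeDiagMatrix p * mapGL ℝ γ * (heckeDiagMatrix p)⁻¹ ∈
      Subgroup.closure S := fun γ hγ => Subgroup.subset_closure ⟨γ, hγ, Or.inr rfl⟩
  have K3 := tr_inv_mem hp hN K1 K2
  have K4 : Subgroup.closure S ≤ (Subgroup.closure S).comap
      (MulAut.conj (heckeDiagMatrix p)⁻¹).toMonoidHom := by
    rw [Subgroup.closure_le]
    rintro g ⟨γ, hγ, rfl | rfl⟩
    · change (heckeDiagMatrix p)⁻¹ * mapGL ℝ γ * (heckeDiagMatrix p)⁻¹⁻¹ ∈ Subgroup.closure S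
      rw [inv_inv]
      exact conj_mem_of hp hN K1 K3 γ hγ
    · change (heckeDiagMatrix p)⁻¹ * (heckeDiagMatrix p * mapGL ℝ γ * (heckeDiagMatrix p)⁻¹) *
        (heckeDiagMatrix p)⁻¹⁻¹ ∈ Subgroup.closure S
      have h1 : (heckeDiagMatrix p)⁻¹ * (heckeDiagMatrix p * mapGL ℝ γ * (heckeDiagMatrix p)⁻¹) *
        (heckeDiagMatrix p)⁻¹⁻¹ = mapGL ℝ γ := by group
      rw [h1]
      exact K1 γ hγ
  refine hle ?_
  induction k with
  | zero =>
    have h1 := K1 _ (T_zpow_mem N 1)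
    rw [mapGL_T_zpow, Int.cast_one] at h1
    rwa [pow_zero, div_one]
  | succ k ih =>
    have h1 := K4 ih
    change (heckeDiagMatrix p)⁻¹ * tr (1 / p ^ k) * (heckeDiagMatrix p)⁻¹⁻¹ ∈ Subgroup.closure S at h1
    rw [inv_inv, conj_tr hp.ne_zero, div_div, ← pow_succ] at h1
    exact h1

end Fermat.Agent.DS
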