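import Fermat.Agent.DS.Neben1
import Fermat.Agent.ESCore.HeckeQ
import Fermat.Prelude.Thm_UpperHalfPlane_qCoeff_heckeU

set_option autoImplicit false

/-!
# The nebentypus of a normalised weight one eigenform (in terms of Fourier coefficients)
-/

open UpperHalfPlane hiding I
open ModularForm Matrix Matrix.SpecialLinearGroup CongruenceSubgroup Filter
open Fermat.Agent.ESCore Fermat.Agent.Eis16
open scoped MatrixGroups Manifold Topology

noncomputable section

namespace Fermat.Agent.DS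

theorem tr_smul (x : ℝ) (τ : ℍ) : ((tr x • τ : ℍ) : ℂ) = τ + x := by
  have hdet : 0 < ((tr x).det : ℝ) := by
    rw [Matrix.GeneralLinearGroup.val_det_apply, val_tr, Matrix.det_fin_two_of]
    norm_num
  rw [UpperHalfPlane.coe_smul_of_det_pos hdet]
  simp [UpperHalfPlane.num, UpperHalfPlane.denom, val_tr]

theorem slash_tr (w : ℤ) (h : ℍ → ℂ) (x : ℝ) (τ : ℍ) : (h ∣[w] tr x) τ = h (tr x • τ) := by
  have hdet1 : ((tr x).det : ℝ) = 1 := by
    rw [Matrix.GeneralLinearGroup.val_det_apply, val_tr, Matrix.det_fin_two_of]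
    norm_num
  have hdet : 0 < ((tr x).det : ℝ) := by rw [hdet1]; exact one_pos
  have hd : denom (tr x) τ = 1 := by simp [UpperHalfPlane.denom, val_tr]
  rw [ModularForm.slash_apply, UpperHalfPlane.σ, if_pos hdet, hdet1, hd]
  simp

/-- A function with arbitrarily small periods, vanishing at infinity, is zero. -/
theorem eq_zero_of_periods {w : ℤ} {h : ℍ → ℂ} (hmd : MDiff h) (hz : IsZeroAtImInfty h) {p : ℕ}
    (hp : 1 < p) (hinv : ∀ n : ℕ, h ∣[w] tr (1 / p ^ n) = h) : h = 0 := by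
  have hp0 : (0 : ℝ) < p := by exact_mod_cast (by omega : 0 < p)
  set F : ℂ → ℂ := h ∘ ofComplex with hF
  have hd : DifferentiableOn ℂ F {z : ℂ | 0 < z.im} := UpperHalfPlane.mdifferentiable_iff.1 hmd
  have hopen : IsOpen {z : ℂ | 0 < z.im} := isOpen_lt continuous_const Complex.continuous_im
  -- invariance under small translations
  have h1 : ∀ (z : ℂ), 0 < z.im → ∀ n : ℕ, F (z + ((1 / p ^ n : ℝ) : ℂ)) = F z := by
    intro z hz n
    have hz' : 0 < (z + ((1 / p ^ n : ℝ) : ℂ)).im := by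
      rw [Complex.add_im, Complex.ofReal_im, add_zero]
      exact hz
    rw [hF, Function.comp_apply, Function.comp_apply, ofComplex_apply_of_im_pos hz,
      ofComplex_apply_of_im_pos hz']
    have h2 := congrFun (hinv n) ⟨z, hz⟩
    rw [slash_tr] at h2
    rw [← h2]
    congr 1
    apply UpperHalfPlane.ext
    rw [tr_smul]
  have h2 : ∀ (z : ℂ), 0 < z.im → ∀ n m : ℕ, F (z + ((m / p ^ n : ℝ) : ℂ)) = F z := by
    intro z hz n m
    induction m with
    | zero => simp
    | succ m ih =>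
      rw [← ih]
      have h3 : z + (((m + 1 : ℕ) / p ^ n : ℝ) : ℂ) =
          (z + ((m / p ^ n : ℝ) : ℂ)) + ((1 / p ^ n : ℝ) : ℂ) := by
        push_cast
        ring
      rw [h3]
      exact h1 _ (by rw [Complex.add_im, Complex.ofReal_im, add_zero]; exact hz) n
  have h3 : ∀ (z : ℂ), 0 < z.im → ∀ x : ℝ, 0 ≤ x → F (z + x) = F z := by
    intro z hz x hx
    have ht : Tendsto (fun n : ℕ => ((⌊x * (p : ℝ) ^ n⌋₊ / (p : ℝ) ^ n : ℝ))) atTop (𝓝 x) :=
      (tendsto_nat_floor_mul_div_atTop hx).comp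
        (tendsto_pow_atTop_atTop_of_one_lt (by exact_mod_cast hp))
    have hzx : 0 < (z + x).im := by
      rw [Complex.add_im, Complex.ofReal_im, add_zero]
      exact hz
    have hc : ContinuousAt F (z + x) := (hd.differentiableAt (hopen.mem_nhds hzx)).continuousAt
    have ht2 : Tendsto (fun n : ℕ => F (z + ((⌊x * (p : ℝ) ^ n⌋₊ / (p : ℝ) ^ n : ℝ) : ℂ))) atTop
        (𝓝 (F (z + x))) := by
      refine hc.tendsto.comp ?_
      exact tendsto_const_nhds.add ((Complex.continuous_ofReal.tendsto x).comp ht)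
    have ht3 : Tendsto (fun n : ℕ => F (z + ((⌊x * (p : ℝ) ^ n⌋₊ / (p : ℝ) ^ n : ℝ) : ℂ))) atTop
        (𝓝 (F z)) := by
      refine tendsto_const_nhds.congr fun n => ?_
      exact (h2 z hz n _).symm
    exact tendsto_nhds_unique ht2 ht3
  have h4 : ∀ (z : ℂ), 0 < z.im → ∀ x : ℝ, F (z + x) = F z := by
    intro z hz x
    rcases le_total 0 x with hx | hx
    · exact h3 z hz x hx
    · have h5 := h3 (z + x) (by rw [Complex.add_im, Complex.ofReal_im, add_zero]; exact hz) (-x)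
        (by linarith)
      rw [← h5]
      congr 1
      push_cast
      ring
  have hderiv : Set.EqOn (deriv F) 0 {z : ℂ | 0 < z.im} := by
    intro z hz
    have hz' : 0 < z.im := hz
    have h5 : HasDerivAt F (deriv F z) z := (hd.differentiableAt (hopen.mem_nhds hz)).hasDerivAt
    have h6 : HasDerivAt (fun t : ℝ => F (z + t)) (deriv F z) 0 := by
      have h7 : HasDerivAt (fun t : ℂ => F (z + t)) (deriv F z) ((0 : ℝ) : ℂ) := by
        have h8 : HasDerivAt (fun t : ℂ => z + t) 1 ((0 : ℝ) : ℂ) := (hasDerivAt_id _).const_add z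
        have h9 : HasDerivAt F (deriv F z) (z + ((0 : ℝ) : ℂ)) := by
          rw [Complex.ofReal_zero, add_zero]
          exact h5
        have h10 := h9.comp _ h8
        rw [mul_one] at h10
        exact h10
      exact h7.comp_ofReal
    have h7 : HasDerivAt (fun t : ℝ => F (z + t)) 0 0 := by
      have h8 : (fun t : ℝ => F (z + t)) = fun _ => F z := funext fun t => h4 z hz' t
      rw [h8]
      exact hasDerivAt_const _ _
    exact h6.unique h7
  have hconst : ∀ τ τ' : ℍ, h τ = h τ' := by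
    intro τ τ'
    have h5 := hopen.is_const_of_deriv_eq_zero (convex_halfSpace_im_gt 0).isPreconnected hd hderiv
      (x := (τ : ℂ)) (y := (τ' : ℂ)) τ.2 τ'.2
    rw [hF] at h5
    simpa using h5
  ext τ
  have h5 : h = fun _ => h τ := funext fun τ' => hconst τ' τ
  have h6 : Tendsto h atImInfty (𝓝 0) := hz
  rw [h5] at h6
  exact tendsto_nhds_unique tendsto_const_nhds h6

/-- The stabiliser of a function for the slash action. -/
def stab (w : ℤ) (h : ℍ → ℂ) : Subgroup (GL (Fin 2) ℝ) where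
  carrier := {g | h ∣[w] g = h}
  one_mem' := SlashAction.slash_one w h
  mul_mem' := by
    intro a b ha hb
    change h ∣[w] (a * b) = h
    rw [SlashAction.slash_mul]
    have ha' : h ∣[w] a = h := ha
    rw [ha']
    exact hb
  inv_mem' := by
    intro a ha
    change h ∣[w] a⁻¹ = h
    have ha' : h ∣[w] a = h := ha
    conv_lhs => rw [← ha']
    rw [← SlashAction.slash_mul, mul_inv_cancel, SlashAction.slash_one]

/-- If `h` and `h(pτ)` are both invariant under `Γ₁(N)`, `p ∤ N`, then `h = 0`. -/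
theorem eq_zero_of_invariant {w : ℤ} {h : ℍ → ℂ} (hmd : MDiff h) (hz : IsZeroAtImInfty h)
    {N p : ℕ} (hp : p.Prime) (hN : ¬ p ∣ N)
    (H1 : ∀ γ ∈ Gamma1 N, h ∣[w] (mapGL ℝ γ : GL (Fin 2) ℝ) = h)
    (H2 : ∀ γ ∈ Gamma1 N, (h ∣[w] heckeDiagMatrix p) ∣[w] (mapGL ℝ γ : GL (Fin 2) ℝ) =
      h ∣[w] heckeDiagMatrix p) : h = 0 := by
  refine eq_zero_of_periods (w := w) hmd hz hp.one_lt fun n => ?_
  refine tr_pow_mem (H := stab w h) hp hN (fun γ hγ => H1 γ hγ) (fun γ hγ => ?_) n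
  change h ∣[w] (heckeDiagMatrix p * mapGL ℝ γ * (heckeDiagMatrix p)⁻¹) = h
  rw [SlashAction.slash_mul, SlashAction.slash_mul, H2 γ hγ, ← SlashAction.slash_mul,
    mul_inv_cancel, SlashAction.slash_one]

/-- The additive Hecke operator preserves invariance under `Γ₁(N)`. -/
theorem sum_slash_invariant {N p : ℕ} (hp : p.Prime) (hN : ¬ p ∣ N) {w : ℤ} {F : ℍ → ℂ}
    (hF : ∀ γ ∈ Gamma1 N, F ∣[w] (mapGL ℝ γ : GL (Fin 2) ℝ) = F) (γ : SL(2, ℤ))
    (hγ : γ ∈ Gamma1 N) :
    (heckeU w p F + (F ∣[w] (mapGL ℝ (sigmaD N p : SL(2, ℤ)) : GL (Fin 2) ℝ)) ∣[w]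
      heckeDiagMatrix p) ∣[w] (mapGL ℝ γ : GL (Fin 2) ℝ) =
    heckeU w p F + (F ∣[w] (mapGL ℝ (sigmaD N p : SL(2, ℤ)) : GL (Fin 2) ℝ)) ∣[w]
      heckeDiagMatrix p := by
  set S := heckeSysG hp hN (le_refl (Gamma1 N)) (Gamma1_in_Gamma0 N) with hS
  have h1 : heckeU w p F + (F ∣[w] (mapGL ℝ (sigmaD N p : SL(2, ℤ)) : GL (Fin 2) ℝ)) ∣[w]
      heckeDiagMatrix p = ∑ x, F ∣[w] S.δ x := by
    rw [Fintype.sum_option, add_comm]
    congr 1
    · rw [← SlashAction.slash_mul]
      rfl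
    · rw [heckeU_def, Finset.sum_range]
      refine Finset.sum_congr rfl fun j _ => ?_
      congr 1
      change heckeMatrix p j = gam N 1 * heckeMatrix p j
      rw [map_one, one_mul]
  rw [h1]
  have h2 : (∑ x, F ∣[w] S.δ x) ∣[w] (mapGL ℝ γ : GL (Fin 2) ℝ) =
      ∑ x, (F ∣[w] S.δ x) ∣[w] (mapGL ℝ γ : GL (Fin 2) ℝ) := by
    have : ∀ s : Finset (Option (Fin p)), (∑ x ∈ s, F ∣[w] S.δ x) ∣[w]
        (mapGL ℝ γ : GL (Fin 2) ℝ) = ∑ x ∈ s, (F ∣[w] S.δ x) ∣[w] (mapGL ℝ γ : GL (Fin 2) ℝ) := by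
      intro s
      induction s using Finset.cons_induction with
      | empty => simp [SlashAction.zero_slash]
      | cons x s hx ih => rw [Finset.sum_cons, Finset.sum_cons, SlashAction.add_slash, ih]
    exact this _
  rw [h2]
  have h3 : ∀ x, (F ∣[w] S.δ x) ∣[w] (mapGL ℝ γ : GL (Fin 2) ℝ) =
      F ∣[w] S.δ (S.tgt ⟨γ, hγ⟩ x) := by
    intro x
    have h4 := S.spec ⟨γ, hγ⟩ x
    rw [gamG_apply, gamG_apply] at h4
    rw [← SlashAction.slash_mul]
    change F ∣[w] (S.δ x * mapGL ℝ γ) = _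
    simp only at h4
    rw [h4, SlashAction.slash_mul, hF _ (S.coc ⟨γ, hγ⟩ x).2]
  rw [Finset.sum_congr rfl fun x _ => h3 x]
  exact (S.tgt_bijective ⟨γ, hγ⟩).sum_comp fun x => F ∣[w] S.δ x

end Fermat.Agent.DS
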