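import Mathlib

set_option autoImplicit false

/-!
# Finite groups acting with exactly two fixed points
-/

open MulAction

namespace Fermat.Agent.DS

theorem arith_sorted {n a b c ea eb ec : ℕ} (ha : a * ea = n) (hb : b * eb = n) (hc : c * ec = n)
    (h2 : 2 ≤ ea) (hab : ea ≤ eb) (hbc : eb ≤ ec) (hc3 : 3 ≤ c)
    (hn : 60 < n) (hsum : a + b + c = n + 2) : False := by
  by_cases h3 : 3 ≤ ea
  · have h1 : a * 3 ≤ n := ha ▸ Nat.mul_le_mul_left a h3
    have h4 : b * 3 ≤ n := hb ▸ Nat.mul_le_mul_left b (h3.trans hab)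
    have h5 : c * 3 ≤ n := hc ▸ Nat.mul_le_mul_left c ((h3.trans hab).trans hbc)
    omega
  have hea : ea = 2 := by omega
  subst hea
  by_cases h4 : 4 ≤ eb
  · have h1 : b * 4 ≤ n := hb ▸ Nat.mul_le_mul_left b h4
    have h5 : c * 4 ≤ n := hc ▸ Nat.mul_le_mul_left c (h4.trans hbc)
    omega
  have heb : eb = 2 ∨ eb = 3 := by omega
  rcases heb with rfl | rfl
  · omega
  by_cases h6 : 6 ≤ ec
  · have h5 : c * 6 ≤ n := hc ▸ Nat.mul_le_mul_left c h6
    omega
  have hec : ec = 3 ∨ ec = 4 ∨ ec = 5 := by omega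
  rcases hec with rfl | rfl | rfl <;> omega

theorem arith_three {n a b c ea eb ec : ℕ} (ha : a * ea = n) (hb : b * eb = n) (hc : c * ec = n)
    (h2a : 2 ≤ ea) (h2b : 2 ≤ eb) (h2c : 2 ≤ ec) (ha3 : 3 ≤ a) (hb3 : 3 ≤ b) (hc3 : 3 ≤ c)
    (hn : 60 < n) (hsum : a + b + c = n + 2) : False := by
  rcases le_total ea eb with h1 | h1 <;> rcases le_total eb ec with h3 | h3 <;>
    rcases le_total ea ec with h4 | h4
  · exact arith_sorted ha hb hc h2a h1 h3 hc3 hn hsum
  · exact arith_sorted ha hb hc h2a h1 h3 hc3 hn hsum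
  · exact arith_sorted ha hc hb h2a h4 h3 hb3 hn (by omega)
  · exact arith_sorted hc ha hb h2c h4 h1 hb3 hn (by omega)
  · exact arith_sorted hb ha hc h2b h1 h4 hc3 hn (by omega)
  · exact arith_sorted hb hc ha h2b h3 h4 ha3 hn (by omega)
  · exact arith_sorted hc hb ha h2c h3 h1 ha3 hn (by omega)
  · exact arith_sorted hc hb ha h2c h3 h1 ha3 hn (by omega)

theorem arith_orbits {Ω : Type*} [Fintype Ω] (s e : Ω → ℕ) (n : ℕ)
    (hse : ∀ w, s w * e w = n) (he : ∀ w, 2 ≤ e w)
    (hsum : ∑ w, s w + 2 * (n - 1) = Fintype.card Ω * n) : n ≤ 60 ∨ ∃ w, s w ≤ 2 := by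
  classical
  by_contra hcon
  push Not at hcon
  obtain ⟨hn60, hs⟩ := hcon
  have hs2 : ∀ w, 2 * s w ≤ n := fun w => by
    have h1 := Nat.mul_le_mul_left (s w) (he w)
    rw [hse] at h1
    omega
  have h1 : 2 * ∑ w, s w ≤ Fintype.card Ω * n := by
    rw [Finset.mul_sum]
    calc ∑ w, 2 * s w ≤ ∑ _w : Ω, n := Finset.sum_le_sum fun w _ => hs2 w
      _ = Fintype.card Ω * n := by simp
  have hm4 : Fintype.card Ω < 4 := by
    by_contra h4
    push Not at h4
    have h2 : 4 * n ≤ Fintype.card Ω * n := Nat.mul_le_mul_right n h4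
    omega
  have hcases : Fintype.card Ω = 0 ∨ Fintype.card Ω = 1 ∨ Fintype.card Ω = 2 ∨
      Fintype.card Ω = 3 := by omega
  rcases hcases with hm | hm | hm | hm
  · rw [hm] at hsum
    omega
  · obtain ⟨w, hw⟩ := Fintype.card_eq_one_iff.1 hm
    have : (Finset.univ : Finset Ω) = {w} := by ext x; simp [hw x]
    rw [hm, this, Finset.sum_singleton] at hsum
    have := hs w
    omega
  · obtain ⟨x, y, hxy, hu⟩ := Finset.card_eq_two.1 (by rwa [Finset.card_univ] :
      (Finset.univ : Finset Ω).card = 2)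
    rw [hm, hu, Finset.sum_pair hxy] at hsum
    have := hs x
    have := hs y
    omega
  · obtain ⟨x, y, z, hxy, hxz, hyz, hu⟩ := Finset.card_eq_three.1 (by rwa [Finset.card_univ] :
      (Finset.univ : Finset Ω).card = 3)
    rw [hm, hu, Finset.sum_insert (by simp [hxy, hxz]), Finset.sum_pair hyz] at hsum
    exact arith_three (hse x) (hse y) (hse z) (he x) (he y) (he z) (hs x) (hs y) (hs z) hn60
      (by omega)

variable {G X : Type*} [Group G] [MulAction G X]

/-- The points with a stabiliser larger than `Z`. -/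
def Om (Z : Subgroup G) [Z.Normal] : SubMulAction G X where
  carrier := {x | ∃ g : G, g ∉ Z ∧ g • x = x}
  smul_mem' := by
    rintro h x ⟨g, hg, hgx⟩
    refine ⟨h * g * h⁻¹, fun hcon => hg ?_, ?_⟩
    · have := Subgroup.Normal.conj_mem (inferInstance : Z.Normal) _ hcon h⁻¹
      simpa [mul_assoc] using this
    · rw [mul_smul, mul_smul, inv_smul_smul, hgx]

theorem mem_Om {Z : Subgroup G} [Z.Normal] {x : X} :
    x ∈ (Om Z : SubMulAction G X) ↔ ∃ g : G, g ∉ Z ∧ g • x = x := Iff.rfl

theorem two_fixed_points [Finite G] [Nonempty X] (Z : Subgroup G) [Z.Normal]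
    (hZ : ∀ g ∈ Z, ∀ x : X, g • x = x) (h2 : ∀ g : G, g ∉ Z → (fixedBy X g).ncard = 2) :
    Nat.card G ≤ 60 * Nat.card Z ∨ ∃ x : X, Nat.card G ≤ 2 * Nat.card (stabilizer G x) := by
  classical
  have := Fintype.ofFinite G
  set z := Nat.card Z with hz
  have hz0 : 0 < z := Nat.card_pos
  obtain ⟨n, hn⟩ : z ∣ Nat.card G := Z.card_subgroup_dvd_card
  have hn0 : 0 < n := Nat.pos_of_ne_zero fun h => by
    rw [h, mul_zero] at hn
    exact Nat.card_pos.ne' hn
  rcases Nat.lt_or_ge n 2 with hn2 | hn2
  · left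
    have : n = 1 := by omega
    rw [hn, this]
    omega
  -- finiteness of the exceptional set
  have hfin : (Om Z : SubMulAction G X).carrier.Finite := by
    have : (Om Z : SubMulAction G X).carrier = ⋃ g ∈ {g : G | g ∉ Z}, fixedBy X g := by
      ext x
      simp only [Set.mem_iUnion, mem_fixedBy]
      constructor
      · rintro ⟨g, hg, hgx⟩
        exact ⟨g, hg, hgx⟩
      · rintro ⟨g, hg, hgx⟩
        exact ⟨g, hg, hgx⟩
    rw [this]
    refine (Set.toFinite _).biUnion fun g hg => ?_
    exact Set.finite_of_ncard_pos (by rw [h2 g hg]; norm_num)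
  have hfinO : Finite (Om Z : SubMulAction G X) := hfin
  have := Fintype.ofFinite (Om Z : SubMulAction G X)
  set O := (Om Z : SubMulAction G X) with hO
  have := Fintype.ofFinite (orbitRel.Quotient G O)
  have hbs := MulAction.sum_card_fixedBy_eq_card_orbits_mul_card_group G O
  -- number of fixed points
  have hfix : ∀ g : G, Fintype.card (fixedBy O g) = if g ∈ Z then Nat.card O else 2 := by
    intro g
    split_ifs with hg
    · rw [Nat.card_eq_fintype_card]
      refine Fintype.card_congr (Equiv.subtypeUnivEquiv fun x => ?_)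
      rw [mem_fixedBy]
      exact Subtype.ext (hZ g hg x)
    · rw [← h2 g hg, ← Nat.card_eq_fintype_card, ← Nat.card_coe_set_eq]
      refine Nat.card_congr
        { toFun := fun x => ⟨x.1.1, ?_⟩
          invFun := fun x => ⟨⟨x.1, ⟨g, hg, x.2⟩⟩, ?_⟩
          left_inv := fun x => rfl
          right_inv := fun x => rfl }
      · have := x.2
        rw [mem_fixedBy] at this ⊢
        exact congrArg Subtype.val this
      · rw [mem_fixedBy]
        exact Subtype.ext x.2
  simp only [hfix] at hbs
  rw [Finset.sum_ite, Finset.sum_const, Finset.sum_const, smul_eq_mul, smul_eq_mul] at hbs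
  have hcZ : (Finset.univ.filter fun g : G => g ∈ Z).card = z := by
    rw [hz, Nat.card_eq_fintype_card, Fintype.card_subtype]
  have hcG : (Finset.univ.filter fun g : G => g ∈ Z).card +
      (Finset.univ.filter fun g : G => g ∉ Z).card = z * n := by
    rw [Finset.card_filter_add_card_filter_not, Finset.card_univ, ← Nat.card_eq_fintype_card, hn]
  rw [hcZ] at hcG hbs
  have hcGn : Fintype.card G = z * n := by rw [← Nat.card_eq_fintype_card, hn]
  have hnz : (Finset.univ.filter fun g : G => g ∉ Z).card = z * (n - 1) := by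
    rw [Nat.mul_sub, mul_one]; omega
  rw [hnz, hcGn] at hbs
  -- orbits
  have horb : Nat.card O = ∑ w : orbitRel.Quotient G O, Nat.card (orbit G w.out) := by
    rw [Nat.card_congr (selfEquivSigmaOrbits G O), Nat.card_sigma]
  have hstab : ∀ w : orbitRel.Quotient G O,
      Nat.card (orbit G w.out) * Nat.card (stabilizer G w.out) = Nat.card G := by
    intro w
    rw [← Nat.card_prod]
    exact Nat.card_congr (MulAction.orbitProdStabilizerEquivGroup G w.out)
  have hle : ∀ x : O, Z ≤ stabilizer G x := fun x g hg => Subtype.ext (hZ g hg x)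
  have hdvd : ∀ x : O, z ∣ Nat.card (stabilizer G x) := fun x =>
    Subgroup.card_dvd_of_le (hle x)
  choose e he using fun w : orbitRel.Quotient G O => hdvd w.out
  have hne : ∀ w : orbitRel.Quotient G O, 2 ≤ e w := by
    intro w
    by_contra hcon
    push Not at hcon
    have hpos : 0 < Nat.card (stabilizer G w.out) := Nat.card_pos
    have he1 : e w = 1 := by
      rcases Nat.lt_or_ge (e w) 1 with h | h
      · have : e w = 0 := by omega
        rw [he w, this, mul_zero] at hpos
        omega
      · omega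
    have hcard : Nat.card (stabilizer G w.out) = z := by rw [he w, he1, mul_one]
    have heq : Z = stabilizer G w.out := Subgroup.eq_of_le_of_card_ge (hle _) hcard.le
    obtain ⟨g, hg, hgx⟩ := (w.out).2
    apply hg
    rw [heq]
    exact Subtype.ext hgx
  have hse : ∀ w : orbitRel.Quotient G O, Nat.card (orbit G w.out) * e w = n := by
    intro w
    have h1 := hstab w
    rw [he w, hn] at h1
    apply Nat.eq_of_mul_eq_mul_left hz0
    rw [← h1]
    ring
  have hsum : ∑ w : orbitRel.Quotient G O, Nat.card (orbit G w.out) + 2 * (n - 1) =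
      Fintype.card (orbitRel.Quotient G O) * n := by
    rw [← horb]
    apply Nat.eq_of_mul_eq_mul_left hz0
    have h3 : z * (Fintype.card (orbitRel.Quotient G O) * n) =
        Fintype.card (orbitRel.Quotient G O) * (z * n) := by ring
    rw [h3, ← hbs]
    ring
  rcases arith_orbits _ e n hse hne hsum with h | ⟨w, hw⟩
  · left
    rw [hn, mul_comm]
    exact Nat.mul_le_mul_right z h
  · right
    refine ⟨w.out, ?_⟩
    have h4 : stabilizer G ((w.out : O) : X) = stabilizer G (w.out : O) := by
      ext g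
      rw [mem_stabilizer_iff, mem_stabilizer_iff]
      constructor
      · intro h5
        exact Subtype.ext h5
      · intro h5
        exact congrArg Subtype.val h5
    rw [h4, ← hstab w]
    exact Nat.mul_le_mul_right _ hw

end Fermat.Agent.DS
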