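import Mathlib
import Fermat.Prelude.Def_FLTPrelim_Modularity

set_option autoImplicit false

/-!
# Rankin's upper bound for weight one cusp forms (elementary version)
-/

open UpperHalfPlane hiding I
open CongruenceSubgroup Complex MeasureTheory
open scoped Real Topology MatrixGroups Manifold

namespace Fermat.Agent.DS

local notation "𝕢" => Function.Periodic.qParam

/-- Partial sums bounded linearly give a bound for the Dirichlet series. -/
theorem sum_rpow_le (b : ℕ → ℝ) (hb : ∀ n, 0 ≤ b n) (C : ℝ) (hC : ∀ n, ∑ k ∈ Finset.Icc 1 n, b k ≤ C * n)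
    {s : ℝ} (hs : 1 < s) :
    (Summable fun n : ℕ => b n / (n : ℝ) ^ s) ∧
      ∀ t : Finset ℕ, ∑ n ∈ t, b n / (n : ℝ) ^ s ≤ b 0 + C * (s / (s - 1)) := by
  have hC0 : 0 ≤ C := by
    have h1 := hC 1
    simp at h1
    exact (hb 1).trans h1
  have hO : (fun n ↦ ∑ k ∈ Finset.Icc 1 n, b k) =O[Filter.atTop] fun n : ℕ ↦ (n : ℝ) ^ (1 : ℝ) := by
    refine Asymptotics.IsBigO.of_bound C (Filter.Eventually.of_forall fun n => ?_)
    rw [Real.rpow_one, Real.norm_of_nonneg (Finset.sum_nonneg fun k _ => hb k),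
      Real.norm_of_nonneg (Nat.cast_nonneg n)]
    exact hC n
  have hs' : (1 : ℝ) < (s : ℂ).re := by rwa [Complex.ofReal_re]
  have h1 := LSeriesSummable_of_sum_norm_bigO_and_nonneg hO hb zero_le_one hs'
  have hterm : ∀ n : ℕ, LSeries.term (fun n => (b n : ℂ)) s n =
      ((if n = 0 then 0 else b n / (n : ℝ) ^ s : ℝ) : ℂ) := by
    intro n
    rw [LSeries.term_def]
    split_ifs with h
    · simp
    · push_cast
      rw [Complex.ofReal_cpow (Nat.cast_nonneg n)]
      simp
  have hsum : Summable fun n : ℕ => (if n = 0 then 0 else b n / (n : ℝ) ^ s : ℝ) := by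
    rw [← Complex.summable_ofReal]
    refine h1.congr fun n => ?_
    exact hterm n
  have hsum2 : Summable fun n : ℕ => b n / (n : ℝ) ^ s := by
    refine (summable_congr_cofinite ?_).1 hsum
    have : {n : ℕ | n ≠ 0} ∈ Filter.cofinite := by
      simp
    filter_upwards [this] with n hn
    rw [if_neg hn]
  refine ⟨hsum2, ?_⟩
  have h2 := LSeries_eq_mul_integral_of_nonneg b zero_le_one hs' hO hb
  have h3 : LSeries (fun n => (b n : ℂ)) s =
      ((∑' n : ℕ, (if n = 0 then 0 else b n / (n : ℝ) ^ s : ℝ) : ℝ) : ℂ) := by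
    rw [LSeries, Complex.ofReal_tsum]
    exact tsum_congr hterm
  have h4 : (∑' n : ℕ, (if n = 0 then 0 else b n / (n : ℝ) ^ s : ℝ)) ≤ C * (s / (s - 1)) := by
    have h5 : ‖LSeries (fun n => (b n : ℂ)) s‖ ≤ s * ∫ t in Set.Ioi (1 : ℝ), C * t ^ (-s) := by
      rw [h2, norm_mul, Complex.norm_real, Real.norm_of_nonneg (by linarith)]
      refine mul_le_mul_of_nonneg_left ?_ (by linarith)
      refine norm_integral_le_of_norm_le ?_ ?_
      · exact (integrableOn_Ioi_rpow_of_lt (by linarith) one_pos).const_mul C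
      · rw [ae_restrict_iff' measurableSet_Ioi]
        refine Filter.Eventually.of_forall fun t ht => ?_
        rw [Set.mem_Ioi] at ht
        have ht0 : 0 < t := by linarith
        rw [norm_mul, ← Complex.ofReal_sum, Complex.norm_real,
          Real.norm_of_nonneg (Finset.sum_nonneg fun k _ => hb k),
          Complex.norm_cpow_eq_rpow_re_of_pos ht0]
        have h6 : (-((s : ℂ) + 1)).re = -s + (-1) := by simp; ring
        rw [h6, Real.rpow_add ht0, Real.rpow_neg_one]
        calc (∑ k ∈ Finset.Icc 1 ⌊t⌋₊, b k) * (t ^ (-s) * t⁻¹) ≤ (C * t) * (t ^ (-s) * t⁻¹) := by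
              refine mul_le_mul_of_nonneg_right ?_ (by positivity)
              exact (hC _).trans (mul_le_mul_of_nonneg_left (Nat.floor_le ht0.le) hC0)
          _ = C * t ^ (-s) := by field_simp
    rw [h3, Complex.norm_real, Real.norm_eq_abs] at h5
    refine (le_abs_self _).trans (h5.trans (le_of_eq ?_))
    rw [integral_const_mul, integral_Ioi_rpow_of_lt (by linarith) one_pos, Real.one_rpow]
    have : s - 1 ≠ 0 := by linarith
    have h7 : -s + 1 ≠ 0 := by linarith
    field_simp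
    ring
  intro t
  have h5 : ∑ n ∈ t, b n / (n : ℝ) ^ s ≤ b 0 + ∑ n ∈ t, (if n = 0 then 0 else b n / (n : ℝ) ^ s) := by
    by_cases h0 : 0 ∈ t
    · rw [← Finset.add_sum_erase _ _ h0, ← Finset.add_sum_erase t (fun n : ℕ =>
        (if n = 0 then 0 else b n / (n : ℝ) ^ s : ℝ)) h0]
      rw [if_pos rfl, zero_add]
      refine add_le_add ?_ (le_of_eq (Finset.sum_congr rfl fun n hn => ?_))
      · rw [Nat.cast_zero, Real.zero_rpow (by linarith), div_zero]
        exact hb 0
      · rw [if_neg (Finset.ne_of_mem_erase hn)]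
    · refine le_trans (le_of_eq (Finset.sum_congr rfl fun n hn => ?_)) (le_add_of_nonneg_left (hb 0))
      rw [if_neg]
      rintro rfl
      exact h0 hn
  refine h5.trans (add_le_add le_rfl (le_trans ?_ h4))
  refine hsum.sum_le_tsum t fun n _ => ?_
  split_ifs
  · exact le_rfl
  · exact div_nonneg (hb n) (Real.rpow_nonneg (Nat.cast_nonneg n) _)

/-- Bessel's inequality for a periodic function on the upper half plane. -/
theorem bessel {f : ℍ → ℂ} (hfper : Function.Periodic (f ∘ ofComplex) (1 : ℝ)) (hfhol : MDiff f)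
    (hfbdd : IsBoundedAtImInfty f) {y : ℝ} (hy : 0 < y) {B : ℝ}
    (hB : ∀ τ : ℍ, τ.im = y → ‖f τ‖ ^ 2 ≤ B) (t : Finset ℕ) :
    ∑ n ∈ t, ‖(qExpansion 1 f).coeff n‖ ^ 2 * Real.exp (-(4 * π * n * y)) ≤ B := by
  have hcont : Continuous fun x : ℝ => f ⟨(x : ℂ) + y * I, by simpa using hy⟩ := by
    refine hfhol.continuous.comp ?_
    exact UpperHalfPlane.isEmbedding_coe.continuous_iff.2 (by
      show Continuous fun x : ℝ => (x : ℂ) + y * I
      fun_prop)
  have hmem : MemLp (fun x : ℝ => f ⟨(x : ℂ) + y * I, by simpa using hy⟩) 2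
      (volume.restrict (Set.Ioc 0 1)) := by
    refine MemLp.of_bound hcont.aestronglyMeasurable (Real.sqrt B) ?_
    refine Filter.Eventually.of_forall fun x => ?_
    apply Real.le_sqrt_of_sq_le
    apply hB
    simp [UpperHalfPlane.im]
  have h1 := hasSum_sq_fourierCoeffOn (a := 0) (b := 1) zero_lt_one hmem
  have hcoef : ∀ n : ℕ, ‖fourierCoeffOn (zero_lt_one : (0 : ℝ) < 1)
      (fun x : ℝ => f ⟨(x : ℂ) + y * I, by simpa using hy⟩) n‖ ^ 2 =
      ‖(qExpansion 1 f).coeff n‖ ^ 2 * Real.exp (-(4 * π * n * y)) := by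
    intro n
    have h2 : (qExpansion 1 f).coeff n = Real.exp (2 * π * n * y) *
        fourierCoeffOn (zero_lt_one : (0 : ℝ) < 1)
      (fun x : ℝ => f ⟨(x : ℂ) + y * I, by simpa using hy⟩) n := by
      rw [qExpansion_coeff_eq_intervalIntegral one_pos hfper hfhol hfbdd n hy,
        fourierCoeffOn_eq_integral, sub_zero, div_one, one_smul, Complex.ofReal_one, div_one,
        one_mul, ← intervalIntegral.integral_const_mul]
      refine intervalIntegral.integral_congr fun x _ => ?_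
      rw [smul_eq_mul, ← mul_assoc]
      congr 1
      rw [fourier_coe_apply, Function.Periodic.qParam, one_div, ← Complex.exp_nat_mul,
        ← Complex.exp_neg, Complex.ofReal_exp, ← Complex.exp_add]
      congr 1
      push_cast
      ring_nf
      rw [Complex.I_sq]
      ring
    rw [h2, norm_mul, mul_pow, Complex.norm_real, Real.norm_of_nonneg (Real.exp_pos _).le,
      ← Real.exp_nat_mul, mul_comm (Real.exp _), mul_assoc, ← Real.exp_add]
    have h3 : ((2 : ℕ) : ℝ) * (2 * π * n * y) + -(4 * π * n * y) = 0 := by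
      push_cast
      ring
    rw [h3, Real.exp_zero, mul_one]
  have h2 : ∑ n ∈ t, ‖(qExpansion 1 f).coeff n‖ ^ 2 * Real.exp (-(4 * π * n * y)) ≤
      (1 - (0 : ℝ))⁻¹ • ∫ x in (0 : ℝ)..1, ‖f ⟨(x : ℂ) + y * I, by simpa using hy⟩‖ ^ 2 := by
    rw [← Finset.sum_congr rfl fun n _ => hcoef n]
    have h3 := sum_le_hasSum (t.map ⟨((↑) : ℕ → ℤ), Nat.cast_injective⟩)
      (fun i _ => sq_nonneg _) h1
    rw [Finset.sum_map] at h3
    exact h3
  refine h2.trans ?_
  rw [sub_zero, inv_one, one_smul]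
  have h4 : ∫ x in (0 : ℝ)..1, ‖f ⟨(x : ℂ) + y * I, by simpa using hy⟩‖ ^ 2 ≤
      ∫ x in (0 : ℝ)..1, B := by
    refine intervalIntegral.integral_mono_on zero_le_one ?_ ?_ fun x _ => ?_
    · exact (hcont.norm.pow 2).intervalIntegrable _ _
    · exact continuous_const.intervalIntegrable _ _
    · apply hB
      simp [UpperHalfPlane.im]
  refine h4.trans ?_
  simp

/-- **Rankin's bound** for a weight one cusp form. -/
theorem exists_sum_sq_le {Γ : Subgroup (GL (Fin 2) ℝ)} [Γ.IsArithmetic] (hΓ : 1 ∈ Γ.strictPeriods)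
    (f : CuspForm Γ 1) :
    ∃ C : ℝ, ∀ n, ∑ k ∈ Finset.Icc 1 n, ‖ModularFormClass.qCoeff f k‖ ^ 2 ≤ C * n := by
  obtain ⟨C, hC⟩ := CuspFormClass.exists_bound f
  refine ⟨C ^ 2 * Real.exp (4 * π), fun n => ?_⟩
  rcases Nat.eq_zero_or_pos n with rfl | hn
  · simp
  have hn' : (0 : ℝ) < n := by exact_mod_cast hn
  have h1 : ∀ τ : ℍ, τ.im = 1 / n → ‖f τ‖ ^ 2 ≤ C ^ 2 * n := by
    intro τ hτ
    have h2 := hC τ
    rw [hτ] at h2
    have h3 : (((1 : ℝ) / n) ^ (((1 : ℤ) : ℝ) / 2)) ^ 2 = 1 / n := by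
      rw [← Real.rpow_mul_natCast (by positivity)]
      norm_num
    calc ‖f τ‖ ^ 2 ≤ (C / ((1 : ℝ) / n) ^ (((1 : ℤ) : ℝ) / 2)) ^ 2 :=
          pow_le_pow_left₀ (norm_nonneg _) h2 2
      _ = C ^ 2 * n := by
          rw [div_pow, h3]
          field_simp
  have : Fact (IsCusp OnePoint.infty Γ) := ⟨Γ.isCusp_of_mem_strictPeriods one_pos hΓ⟩
  have h2 := bessel (SlashInvariantFormClass.periodic_comp_ofComplex f hΓ) (ModularFormClass.holo f)
    (ModularFormClass.bdd_at_infty f) (y := 1 / n) (by positivity) h1 (Finset.Icc 1 n)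
  have h3 : (∑ k ∈ Finset.Icc 1 n, ‖ModularFormClass.qCoeff f k‖ ^ 2) * Real.exp (-(4 * π)) ≤
      C ^ 2 * n := by
    refine le_trans ?_ h2
    rw [Finset.sum_mul]
    refine Finset.sum_le_sum fun k hk => ?_
    refine mul_le_mul_of_nonneg_left ?_ (sq_nonneg _)
    apply Real.exp_le_exp.2
    rw [Finset.mem_Icc] at hk
    have h4 : (k : ℝ) ≤ n := by exact_mod_cast hk.2
    have h5 : (k : ℝ) * (1 / n) ≤ 1 := by
      rw [mul_one_div, div_le_one hn']
      exact h4
    have h6 := Real.pi_pos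
    nlinarith
  rw [Real.exp_neg, ← div_eq_mul_inv, div_le_iff₀ (Real.exp_pos _)] at h3
  linarith

end Fermat.Agent.DS
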