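import Fermat.Agent.DS.Traces
import Fermat.Agent.DS.Cheb7
import Fermat.Agent.KL.Val

/-!
# Input data for the construction of the complex representation
-/

set_option linter.all false
set_option autoImplicit false

open Matrix IsLocalRing Filter Finset
open scoped Topology

namespace Fermat.Agent.DS

open Fermat.Agent.ESCore (Qb GQ ιC)
open Fermat.Agent.DS.Cheb (UB D Bd D_le_of_off D_sum D_const_mul eventually_gt_one)

/-- Input data: weight one eigenvalues `α p`, nebentypus values `δ p`. -/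
structure RepData (N : ℕ) (α δ : ℕ → Qb) : Prop where
  ne : N ≠ 0
  int : ∀ p : ℕ, p.Prime → ¬ p ∣ N → IsIntegral ℤ (α p)
  root : ∃ m : ℕ, 0 < m ∧ ∀ p : ℕ, p.Prime → ¬ p ∣ N → δ p ^ m = 1
  field : ∃ K : IntermediateField ℚ Qb, FiniteDimensional ℚ K ∧
    ∀ p : ℕ, p.Prime → ¬ p ∣ N → α p ∈ K
  rankin : ∀ τ : Qb →+* ℂ, ∀ c : ℝ, 0 ≤ c → ∃ B : ℝ, ∀ s : ℝ, 1 < s → s ≤ 2 →
    ∀ P : Finset ℕ, (∀ p ∈ P, p.Prime ∧ ¬ p ∣ N) →
      ∑ p ∈ P, min (‖τ (α p)‖ ^ 2) c / (p : ℝ) ^ s ≤ Real.log (1 / (s - 1)) + B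
  modl : ∃ L₀ : ℕ, ∀ l : ℕ, l.Prime → L₀ < l → ∀ A : ValuationSubring Qb, A.LiesOverPrime l →
    ∃ ρ : GQ →* GL (Fin 2) (ResidueField A), GaloisFactorsThroughFiniteLevel ρ ∧
      ∀ p : ℕ, p.Prime → ¬ p ∣ N → p ≠ l → ∀ B : ValuationSubring Qb, B.LiesOverPrime p →
        (∀ σ ∈ B.inertiaSubgroupIn ℚ, ρ σ = 1) ∧
        ∀ σ : GQ, B.IsFrobeniusAt σ p →
          (∃ a : A, (a : Qb) = α p ∧ (ρ σ).1.trace = residue A a) ∧
          ∃ d : A, (d : Qb) = δ p ∧ (ρ σ).1.det = residue A d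

variable {N : ℕ} {α δ : ℕ → Qb}

/-- truncated squares -/
noncomputable def uT (N : ℕ) (α : ℕ → Qb) (τ : Qb →+* ℂ) (c : ℝ) (p : Nat.Primes) : ℝ :=
  if (p : ℕ) ∣ N then 0 else min (‖τ (α p)‖ ^ 2) c

theorem uT_nonneg (τ : Qb →+* ℂ) {c : ℝ} (hc : 0 ≤ c) (p : Nat.Primes) : 0 ≤ uT N α τ c p := by
  rw [uT]
  split_ifs
  · exact le_rfl
  · exact le_min (sq_nonneg _) hc

theorem uT_le (τ : Qb →+* ℂ) {c : ℝ} (hc : 0 ≤ c) (p : Nat.Primes) : uT N α τ c p ≤ c := by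
  rw [uT]
  split_ifs
  · exact hc
  · exact min_le_right _ _

theorem uT_bd (τ : Qb →+* ℂ) {c : ℝ} (hc : 0 ≤ c) : Bd (uT N α τ c) :=
  ⟨c, fun p ↦ by rw [abs_of_nonneg (uT_nonneg τ hc p)]; exact uT_le τ hc p⟩

theorem RepData.uT_UB (h : RepData N α δ) (τ : Qb →+* ℂ) {c : ℝ} (hc : 0 ≤ c) :
    UB (fun s ↦ D (uT N α τ c) s + Real.log (s - 1)) := by
  classical
  obtain ⟨B, hB⟩ := h.rankin τ c hc
  refine ⟨B, ?_⟩
  have h2 : ∀ᶠ s : ℝ in 𝓝[>] 1, s ∈ Set.Ioo (1:ℝ) 2 := Ioo_mem_nhdsGT (by norm_num)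
  filter_upwards [h2] with s hs
  have hs1 : 1 < s := hs.1
  have h3 : D (uT N α τ c) s ≤ Real.log (1 / (s - 1)) + B := by
    refine ((uT_bd τ hc).summable hs1).tsum_le_of_sum_le fun S ↦ ?_
    have h4 := hB s hs1 hs.2.le ((S.filter fun p : Nat.Primes ↦ ¬ (p : ℕ) ∣ N).map
      ⟨fun p : Nat.Primes ↦ (p : ℕ), Nat.Primes.coe_nat_injective⟩) (fun p hp ↦ by
        rw [Finset.mem_map] at hp
        obtain ⟨p', hp', rfl⟩ := hp
        exact ⟨p'.2, (mem_filter.mp hp').2⟩)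
    rw [Finset.sum_map, Finset.sum_filter] at h4
    refine le_trans (le_of_eq (Finset.sum_congr rfl fun p _ ↦ ?_)) h4
    rw [uT]
    split_ifs with h5
    · rw [zero_mul]
    · rw [Real.rpow_neg (Nat.cast_nonneg _), div_eq_mul_inv]
      rfl
  rw [one_div, Real.log_inv] at h3
  linarith

/-- finitely many embeddings suffice -/
theorem exists_embeddings (K : IntermediateField ℚ Qb) [FiniteDimensional ℚ K] :
    ∃ S : Finset (Qb →+* ℂ), S.card ≤ Module.finrank ℚ K ∧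
      ∀ τ : Qb →+* ℂ, ∃ τ' ∈ S, ∀ x ∈ K, τ x = τ' x := by
  classical
  haveI : NumberField K := ⟨⟩
  let r : (Qb →+* ℂ) → (K →+* ℂ) := fun τ ↦ τ.comp (algebraMap K Qb)
  let g : (K →+* ℂ) → (Qb →+* ℂ) := fun ψ ↦ if h : ∃ τ, r τ = ψ then h.choose else ιC
  refine ⟨Finset.univ.image g, ?_, fun τ ↦ ?_⟩
  · refine card_image_le.trans ?_
    rw [card_univ, NumberField.Embeddings.card]
  · have hex : ∃ τ', r τ' = r τ := ⟨τ, rfl⟩
    refine ⟨g (r τ), mem_image_of_mem g (mem_univ _), fun x hx ↦ ?_⟩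
    have h1 : g (r τ) = hex.choose := dif_pos hex
    rw [h1]
    exact (DFunLike.congr_fun hex.choose_spec ⟨x, hx⟩).symm

/-- The finite set of small algebraic integers of `K`. -/
theorem finite_small (K : IntermediateField ℚ Qb) [FiniteDimensional ℚ K] (c : ℝ) :
    {y : Qb | y ∈ K ∧ IsIntegral ℤ y ∧ ∀ τ : Qb →+* ℂ, ‖τ y‖ ^ 2 ≤ c}.Finite := by
  haveI : NumberField K := ⟨⟩
  have h1 := (NumberField.Embeddings.finite_of_norm_le K ℂ (Real.sqrt c)).image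
    (fun x : K ↦ (x : Qb))
  refine h1.subset ?_
  rintro y ⟨hyK, hyi, hy⟩
  refine ⟨⟨y, hyK⟩, ⟨?_, fun φ ↦ ?_⟩, rfl⟩
  · exact (isIntegral_algebraMap_iff (algebraMap K Qb).injective (x := (⟨y, hyK⟩ : K))).mp hyi
  · letI : Algebra K ℂ := φ.toAlgebra
    haveI := Fermat.Agent.ESCore.isAlgebraic_Qb
    haveI : Algebra.IsAlgebraic K Qb := Algebra.IsAlgebraic.tower_top (K := ℚ) K
    let τ : Qb →ₐ[K] ℂ := IsAlgClosed.lift
    have h2 : (τ : Qb →+* ℂ) y = φ ⟨y, hyK⟩ := τ.commutes ⟨y, hyK⟩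
    have h3 := hy (τ : Qb →+* ℂ)
    rw [h2] at h3
    exact Real.le_sqrt_of_sq_le h3

end Fermat.Agent.DS
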