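import Fermat.Agent.DS.Transv

/-!
# Semisimplification of two-dimensional representations
-/

set_option linter.all false
set_option autoImplicit false

open Matrix

namespace Fermat.Agent.DS

variable {K : Type*} [Field K] {Γ : Type*} [Group Γ]

theorem eigen_eq {M : Matrix (Fin 2) (Fin 2) K} {e : Fin 2 → K} (he : e ≠ 0) {c : K}
    (h : M.mulVec e = c • e) : c * c - M.trace * c + M.det = 0 := by
  have h1 : (M - c • (1 : Matrix (Fin 2) (Fin 2) K)).det = 0 := by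
    rw [← Matrix.exists_mulVec_eq_zero_iff]
    refine ⟨e, he, ?_⟩
    rw [Matrix.sub_mulVec, h, Matrix.smul_mulVec, Matrix.one_mulVec, sub_self]
  rw [Matrix.det_fin_two] at h1
  rw [Matrix.trace_fin_two, Matrix.det_fin_two]
  simp only [Matrix.sub_apply, Matrix.smul_apply, Matrix.one_apply_eq, smul_eq_mul, mul_one,
    Matrix.one_apply_ne (show (0 : Fin 2) ≠ 1 by decide),
    Matrix.one_apply_ne (show (1 : Fin 2) ≠ 0 by decide), mul_zero, sub_zero] at h1
  linear_combination h1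

theorem smul_left_inj' {e : Fin 2 → K} (he : e ≠ 0) {a b : K} (h : a • e = b • e) : a = b := by
  by_contra hab
  have h1 : (a - b) • e = 0 := by rw [sub_smul, h, sub_self]
  rcases smul_eq_zero.mp h1 with h2 | h2
  · exact hab (sub_eq_zero.mp h2)
  · exact he h2

/-- the characters of a reducible representation -/
theorem exists_chars (ρ : Γ →* GL (Fin 2) K) {e : Fin 2 → K} (he : Stb ρ e) :
    ∃ χ₁ χ₂ : Γ →* Kˣ, (∀ g, (ρ g).1.trace = χ₁ g + χ₂ g ∧ (ρ g).1.det = χ₁ g * χ₂ g) ∧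
      ∀ g, ρ g = 1 → χ₁ g = 1 ∧ χ₂ g = 1 := by
  obtain ⟨he0, he⟩ := he
  choose c hc using he
  have hc' : ∀ g, (ρ g).1.mulVec e = c g • e := hc
  have hmul : ∀ g h, c (g * h) = c g * c h := by
    intro g h
    apply smul_left_inj' he0
    rw [← hc' (g * h), map_mul, Units.val_mul, ← Matrix.mulVec_mulVec, hc' h,
      Matrix.mulVec_smul, hc' g, smul_smul, mul_comm]
  have hone' : ∀ g, ρ g = 1 → c g = 1 := by
    intro g hg
    apply smul_left_inj' he0
    rw [← hc' g, hg, Units.val_one, Matrix.one_mulVec, one_smul]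
  have hone : c 1 = 1 := hone' 1 (map_one ρ)
  let χ₁ : Γ →* Kˣ := MonoidHom.toHomUnits
    { toFun := c
      map_one' := hone
      map_mul' := hmul }
  let dt : Γ →* Kˣ := (Matrix.GeneralLinearGroup.det).comp ρ
  have hχ₁ : ∀ g, (χ₁ g : K) = c g := fun g ↦ rfl
  have hdt : ∀ g, (dt g : K) = (ρ g).1.det := fun g ↦ rfl
  refine ⟨χ₁, dt * χ₁⁻¹, fun g ↦ ?_, fun g hg ↦ ?_⟩
  · have h1 := eigen_eq he0 (hc' g)
    have hc0 : c g ≠ 0 := (χ₁ g).ne_zero
    have h2 : (((dt * χ₁⁻¹ : Γ →* Kˣ) g : Kˣ) : K) = (ρ g).1.det * (c g)⁻¹ := by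
      rw [MonoidHom.mul_apply, MonoidHom.inv_apply, Units.val_mul, Units.val_inv_eq_inv_val]
      rfl
    rw [h2, hχ₁]
    constructor
    · field_simp
      linear_combination -h1
    · field_simp
  · have h1 : χ₁ g = 1 := Units.ext (by rw [hχ₁, hone' g hg, Units.val_one])
    refine ⟨h1, ?_⟩
    rw [MonoidHom.mul_apply, MonoidHom.inv_apply, h1, inv_one, mul_one]
    change Matrix.GeneralLinearGroup.det (ρ g) = 1
    rw [hg, map_one]

/-- the direct sum of two characters -/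
noncomputable def diagRep (χ₁ χ₂ : Γ →* Kˣ) : Γ →* GL (Fin 2) K :=
  MonoidHom.toHomUnits
    { toFun := fun g ↦ Matrix.diagonal ![(χ₁ g : K), (χ₂ g : K)]
      map_one' := by
        rw [map_one, map_one, Units.val_one, ← Matrix.diagonal_one]
        congr 1
        funext i
        fin_cases i <;> rfl
      map_mul' := fun g h ↦ by
        rw [Matrix.diagonal_mul_diagonal, map_mul, map_mul, Units.val_mul, Units.val_mul]
        congr 1
        funext i
        fin_cases i <;> rfl }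

theorem diagRep_val (χ₁ χ₂ : Γ →* Kˣ) (g : Γ) :
    (diagRep χ₁ χ₂ g).1 = Matrix.diagonal ![(χ₁ g : K), (χ₂ g : K)] := rfl

theorem diagRep_SS (χ₁ χ₂ : Γ →* Kˣ) : SS (diagRep χ₁ χ₂) := by
  have h0 : Stb (diagRep χ₁ χ₂) ![1, 0] := by
    refine ⟨fun h ↦ by simpa using congrFun h 0, fun g ↦ ⟨(χ₁ g : K), ?_⟩⟩
    funext i
    rw [diagRep_val, Matrix.mulVec_diagonal]
    fin_cases i <;> simp
  have h1 : Stb (diagRep χ₁ χ₂) ![0, 1] := by
    refine ⟨fun h ↦ by simpa using congrFun h 1, fun g ↦ ⟨(χ₂ g : K), ?_⟩⟩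
    funext i
    rw [diagRep_val, Matrix.mulVec_diagonal]
    fin_cases i <;> simp
  intro e he
  by_cases hx : ∃ c : K, (![1, 0] : Fin 2 → K) = c • e
  · refine ⟨![0, 1], h1, fun c hc ↦ ?_⟩
    obtain ⟨d, hd⟩ := hx
    have e0 := congrFun hd 0
    have e1 := congrFun hd 1
    have e2 := congrFun hc 0
    have e3 := congrFun hc 1
    simp only [Matrix.cons_val_zero, Matrix.cons_val_one, Pi.smul_apply, smul_eq_mul] at e0 e1 e2 e3
    -- d * e 0 = 1, d * e 1 = 0, c * e 0 = 0, c * e 1 = 1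
    have hd0 : d ≠ 0 := fun h ↦ by rw [h, zero_mul] at e0; exact one_ne_zero e0
    have he1 : e 1 = 0 := (mul_eq_zero.mp e1.symm).resolve_left hd0
    rw [he1, mul_zero] at e3
    exact one_ne_zero e3
  · push Not at hx
    exact ⟨![1, 0], h0, hx⟩

theorem diagRep_trace (χ₁ χ₂ : Γ →* Kˣ) (g : Γ) :
    (diagRep χ₁ χ₂ g).1.trace = χ₁ g + χ₂ g := by
  rw [diagRep_val, Matrix.trace_diagonal, Fin.sum_univ_two]
  rfl

theorem diagRep_det (χ₁ χ₂ : Γ →* Kˣ) (g : Γ) :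
    (diagRep χ₁ χ₂ g).1.det = χ₁ g * χ₂ g := by
  rw [diagRep_val, Matrix.det_diagonal, Fin.prod_univ_two]
  rfl

theorem diagRep_eq_one {χ₁ χ₂ : Γ →* Kˣ} {g : Γ} (h1 : χ₁ g = 1) (h2 : χ₂ g = 1) :
    diagRep χ₁ χ₂ g = 1 := by
  apply Units.ext
  rw [diagRep_val, h1, h2, Units.val_one, Units.val_one, ← Matrix.diagonal_one]
  congr 1
  funext i
  fin_cases i <;> rfl

/-- **Semisimplification.** -/
theorem exists_semisimple (ρ : Γ →* GL (Fin 2) K) : ∃ ρs : Γ →* GL (Fin 2) K, SS ρs ∧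
    (∀ g, (ρs g).1.trace = (ρ g).1.trace ∧ (ρs g).1.det = (ρ g).1.det) ∧
    ∀ g, ρ g = 1 → ρs g = 1 := by
  by_cases h : ∃ e, Stb ρ e
  · obtain ⟨e, he⟩ := h
    obtain ⟨χ₁, χ₂, h1, h2⟩ := exists_chars ρ he
    refine ⟨diagRep χ₁ χ₂, diagRep_SS χ₁ χ₂, fun g ↦ ?_, fun g hg ↦ ?_⟩
    · rw [diagRep_trace, diagRep_det, (h1 g).1, (h1 g).2]
      exact ⟨rfl, rfl⟩
    · exact diagRep_eq_one (h2 g hg).1 (h2 g hg).2
  · push Not at h
    exact ⟨ρ, fun e he ↦ absurd he (h e), fun g ↦ ⟨rfl, rfl⟩, fun g hg ↦ hg⟩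

end Fermat.Agent.DS
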