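import Fermat.Agent.DS.Semi
import Fermat.Agent.FrobDensity.Density
import Fermat.Agent.ESCore.MatrixRep

/-!
# Traces of powers, choice of split primes
-/

set_option linter.all false
set_option autoImplicit false

open Matrix IsLocalRing

namespace Fermat.Agent.DS

open Fermat.Agent.ESCore (Qb GQ eq_of_restrict_eq')
open Fermat.Agent.FrobDensity (exists_frobenius exists_frobenius_pow res res_apply
  isFrobeniusAt_sub_mem exists_zmod_of_pow_eq charP_residue mem_of_isIntegral_int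
  exists_int_mul_of_isIntegral)

section lucas

variable {K : Type*} [CommRing K]

/-- power sums of the roots of `X² - t X + d` -/
def lt (t d : K) : ℕ → K
  | 0 => 2
  | 1 => t
  | (n + 2) => t * lt t d (n + 1) - d * lt t d n

theorem trace_pow_eq (M : Matrix (Fin 2) (Fin 2) K) : ∀ n : ℕ,
    (M ^ n).trace = lt M.trace M.det n
  | 0 => by rw [pow_zero, lt, Matrix.trace_one]; simp
  | 1 => by rw [pow_one, lt]
  | (n + 2) => by
    have h : M ^ 2 = M.trace • M - M.det • (1 : Matrix (Fin 2) (Fin 2) K) := by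
      ext i j
      rw [pow_two, Matrix.trace_fin_two, Matrix.det_fin_two, Matrix.mul_apply, Fin.sum_univ_two]
      fin_cases i <;> fin_cases j <;> simp <;> ring
    rw [lt, ← trace_pow_eq M (n + 1), ← trace_pow_eq M n, pow_add, h, mul_sub,
      Matrix.trace_sub, mul_smul_comm, mul_smul_comm, Matrix.trace_smul, Matrix.trace_smul,
      mul_one, ← pow_succ, smul_eq_mul, smul_eq_mul]

theorem lt_map {K' : Type*} [CommRing K'] (f : K →+* K') (t d : K) : ∀ n : ℕ,
    f (lt t d n) = lt (f t) (f d) n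
  | 0 => by rw [lt, lt, map_ofNat]
  | 1 => by rw [lt, lt]
  | (n + 2) => by rw [lt, lt, map_sub, map_mul, map_mul, lt_map f t d (n + 1), lt_map f t d n]

end lucas

theorem lt_mem {K : Type*} [Field K] (F : Subfield K) {t d : K} (ht : t ∈ F) (hd : d ∈ F) :
    ∀ n : ℕ, lt t d n ∈ F
  | 0 => by rw [lt]; exact ofNat_mem F 2
  | 1 => by rw [lt]; exact ht
  | (n + 2) => by
    rw [lt]
    exact F.sub_mem (F.mul_mem ht (lt_mem F ht hd (n + 1))) (F.mul_mem hd (lt_mem F ht hd n))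

/-- powers of Frobenius elements fill the image -/
theorem exists_frob_pow {M : Type*} [Monoid M] (ρ : GQ →* M) {L : IntermediateField ℚ Qb}
    [FiniteDimensional ℚ L] (hL : ∀ σ : GQ, (∀ x ∈ L, σ x = x) → ρ σ = 1) (σ : GQ)
    (T : Finset ℕ) : ∃ p : ℕ, p.Prime ∧ p ∉ T ∧ ∃ A : ValuationSubring Qb, A.LiesOverPrime p ∧
      ∃ φ : GQ, A.IsFrobeniusAt φ p ∧ ∃ i : ℕ, ρ σ = ρ φ ^ i := by
  obtain ⟨p, hp, hpT, A, hA, φ, hφ, i, j, hi, hj⟩ := exists_frobenius_pow L σ T
  refine ⟨p, hp, hpT, A, hA, φ, hφ, i, ?_⟩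
  rw [← map_pow]
  exact eq_of_restrict_eq' hL fun x hx ↦ (hi x hx).symm

/-- two homs at once -/
theorem exists_frob_pow₂ {M M' : Type*} [Monoid M] [Monoid M'] (ρ : GQ →* M) (ρ' : GQ →* M')
    {L L' : IntermediateField ℚ Qb} [FiniteDimensional ℚ L] [FiniteDimensional ℚ L']
    (hL : ∀ σ : GQ, (∀ x ∈ L, σ x = x) → ρ σ = 1)
    (hL' : ∀ σ : GQ, (∀ x ∈ L', σ x = x) → ρ' σ = 1) (σ : GQ)
    (T : Finset ℕ) : ∃ p : ℕ, p.Prime ∧ p ∉ T ∧ ∃ A : ValuationSubring Qb, A.LiesOverPrime p ∧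
      ∃ φ : GQ, A.IsFrobeniusAt φ p ∧ ∃ i : ℕ, ρ σ = ρ φ ^ i ∧ ρ' σ = ρ' φ ^ i := by
  obtain ⟨p, hp, hpT, A, hA, φ, hφ, i, h⟩ := exists_frob_pow (ρ.prod ρ') (L := L ⊔ L')
    (fun τ hτ ↦ by
      rw [MonoidHom.prod_apply, hL τ fun x hx ↦ hτ x ((le_sup_left : L ≤ L ⊔ L') hx),
        hL' τ fun x hx ↦ hτ x ((le_sup_right : L' ≤ L ⊔ L') hx)]
      rfl) σ T
  rw [MonoidHom.prod_apply, MonoidHom.prod_apply, Prod.pow_mk] at h
  exact ⟨p, hp, hpT, A, hA, φ, hφ, i, congrArg Prod.fst h, congrArg Prod.snd h⟩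

/-- a nonzero algebraic integer is a unit at almost all places -/
theorem exists_notMem_nonunits {x : Qb} (hx : IsIntegral ℤ x) (hx0 : x ≠ 0) :
    ∃ D : ℕ, ∀ l : ℕ, l.Prime → D < l → ∀ A : ValuationSubring Qb, A.LiesOverPrime l →
      x ∉ A.nonunits := by
  obtain ⟨n, hn0, w, hw, hnw⟩ := exists_int_mul_of_isIntegral hx hx0
  refine ⟨n.natAbs, fun l hl hD A hA hmem ↦ ?_⟩
  have hwA : w ∈ A := mem_of_isIntegral_int A hw
  have h1 : (n : Qb) ∈ A.nonunits := by
    rw [hnw]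
    rw [ValuationSubring.mem_nonunits_iff] at hmem ⊢
    rw [map_mul]
    exact mul_lt_one_of_nonneg_of_lt_one_left zero_le hmem ((A.valuation_le_one_iff w).mpr hwA)
  have h2 : ((n : ℤ) : ResidueField A) = 0 := by
    rw [ValuationSubring.mem_nonunits_iff_exists_mem_maximalIdeal] at h1
    obtain ⟨h3, h4⟩ := h1
    have h5 : residue A ⟨(n : Qb), h3⟩ = 0 := (residue_eq_zero_iff _).mpr h4
    have h6 : (⟨(n : Qb), h3⟩ : A) = (n : A) := Subtype.ext (by simp)
    rw [h6, map_intCast] at h5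
    exact h5
  have h3 := Fermat.Agent.FrobDensity.dvd_of_intCast_residue_eq_zero hl hA h2
  have h4 : l ∣ n.natAbs := Int.natCast_dvd.mp h3
  have h5 := Nat.le_of_dvd (Int.natAbs_pos.mpr hn0) h4
  omega

/-- infinitely many primes `l` with a place above `l` where the residues of a number field
are in the prime field -/
theorem exists_split_prime (K : IntermediateField ℚ Qb) [FiniteDimensional ℚ K] (L₀ : ℕ) :
    ∃ l : ℕ, ∃ hl : Fact l.Prime, L₀ < l ∧ ∃ A : ValuationSubring Qb, ∃ hA : A.LiesOverPrime l,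
      ∃ hc : CharP (ResidueField A) l, ∀ x ∈ K, ∀ hx : x ∈ A,
        residue A ⟨x, hx⟩ ∈ pf (K := ResidueField A) l := by
  obtain ⟨l, hl, hlT, A, hA, φ, hφ, i, j, hi, hj⟩ := exists_frobenius_pow K (1 : GQ)
    (Finset.range (L₀ + 1))
  haveI : Fact l.Prime := ⟨hl⟩
  haveI := charP_residue hl hA
  refine ⟨l, ⟨hl⟩, ?_, A, hA, charP_residue hl hA, fun x hx hxA ↦ ?_⟩
  · rw [Finset.mem_range] at hlT
    omega
  · have h1 : φ x = x := by
      have := hj x hx
      rw [one_pow, AlgEquiv.one_apply] at this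
      exact this.symm
    have h2 := isFrobeniusAt_sub_mem hφ hxA
    rw [h1] at h2
    have h3 : residue A ⟨x, hxA⟩ ^ l = residue A ⟨x, hxA⟩ := by
      rw [ValuationSubring.mem_nonunits_iff_exists_mem_maximalIdeal] at h2
      obtain ⟨h3, h4⟩ := h2
      have h5 : residue A ⟨x - x ^ l, h3⟩ = 0 := (residue_eq_zero_iff _).mpr h4
      have h6 : (⟨x - x ^ l, h3⟩ : A) = ⟨x, hxA⟩ - ⟨x, hxA⟩ ^ l := rfl
      rw [h6, map_sub, map_pow, sub_eq_zero] at h5
      exact h5.symm
    obtain ⟨y, hy⟩ := exists_zmod_of_pow_eq h3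
    exact ⟨y, hy⟩

/-- a matrix of finite order with trace `2` and determinant `1` in characteristic zero -/
theorem eq_one_of_trace_det {K : Type*} [Field K] [CharZero K] {M : Matrix (Fin 2) (Fin 2) K}
    (ht : M.trace = 2) (hd : M.det = 1) {n : ℕ} (hn : 0 < n) (h : M ^ n = 1) : M = 1 := by
  have h1 : (M - 1) * (M - 1) = 0 := by
    rw [Matrix.trace_fin_two] at ht
    rw [Matrix.det_fin_two] at hd
    have e0 : M 1 1 = 2 - M 0 0 := by linear_combination ht
    rw [e0] at hd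
    ext i j
    rw [Matrix.mul_apply, Fin.sum_univ_two]
    fin_cases i <;> fin_cases j <;>
      simp only [Matrix.sub_apply, Matrix.one_apply_eq, Matrix.zero_apply, Fin.zero_eta,
        Fin.mk_one, Matrix.one_apply_ne (show (0 : Fin 2) ≠ 1 by decide),
        Matrix.one_apply_ne (show (1 : Fin 2) ≠ 0 by decide), Fin.isValue] <;>
      (try rw [e0]) <;> first | linear_combination -hd | ring
  set P := M - 1 with hP
  have hM : M = 1 + P := by rw [hP]; abel
  have h2 : ∀ k : ℕ, (1 + P) ^ k = 1 + (k : K) • P := by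
    intro k
    induction k with
    | zero => simp
    | succ k ih =>
      rw [pow_succ, ih, mul_add, mul_one, add_mul, one_mul, smul_mul_assoc, h1, smul_zero,
        add_zero]
      push_cast
      rw [add_smul, one_smul, add_assoc]
  rw [hM, h2 n] at h
  have h3 : (n : K) • P = 0 := by
    have := sub_eq_zero.mpr h
    rwa [add_sub_cancel_left] at this
  have h4 : P = 0 := (smul_eq_zero.mp h3).resolve_left (Nat.cast_ne_zero.mpr hn.ne')
  rw [hM, h4, add_zero]

end Fermat.Agent.DS
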