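import Fermat.Agent.DS.GL2

set_option autoImplicit false

/-!
# Finite subgroups of `GL₂` of order divisible by the characteristic
-/

open Matrix

namespace Fermat.Agent.DS

variable {K : Type*} [Field K] {l : ℕ} [Fact l.Prime] [CharP K l]

/-- The prime field inside `K`. -/
def pf (l : ℕ) [Fact l.Prime] [CharP K l] : Subfield K := (ZMod.castHom (dvd_refl l) K).fieldRange

theorem card_pf_finset [DecidableEq K] :
    ((Finset.univ : Finset (ZMod l)).image (ZMod.castHom (dvd_refl l) K)).card ≤ l := by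
  refine Finset.card_image_le.trans ?_
  rw [Finset.card_univ, ZMod.card]

theorem mem_pf_finset [DecidableEq K] {x : K} :
    x ∈ ((Finset.univ : Finset (ZMod l)).image (ZMod.castHom (dvd_refl l) K)) ↔
      x ∈ pf (K := K) l := by
  simp [pf]

variable {Γ : Type*} [Group Γ]

theorem entries_mem (ρ : Γ →* GL (Fin 2) K)
    (htr : ∀ g, (ρ g : Matrix (Fin 2) (Fin 2) K).trace ∈ pf (K := K) l)
    {u v : Γ} {b : K} (hb : b ≠ 0)
    (hu : (ρ u : Matrix (Fin 2) (Fin 2) K) = !![1, 1; 0, 1])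
    (hv : (ρ v : Matrix (Fin 2) (Fin 2) K) = !![1, 0; b, 1]) :
    b ∈ pf (K := K) l ∧ ∀ g i j, ρ g i j ∈ pf (K := K) l := by
  have h0 := htr (u * v)
  rw [map_mul, Units.val_mul, hu, hv, Matrix.trace_fin_two] at h0
  simp [Matrix.mul_apply, Fin.sum_univ_two] at h0
  have h2 : (2 : K) ∈ pf (K := K) l := by
    have := (pf (K := K) l).add_mem (pf (K := K) l).one_mem (pf (K := K) l).one_mem
    convert this using 1
    norm_num
  have hbF : b ∈ pf (K := K) l := by
    have := (pf (K := K) l).sub_mem h0 h2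
    convert this using 1
    ring
  refine ⟨hbF, fun g => ?_⟩
  have h1 := htr g
  have h3 := htr (g * u)
  have h4 := htr (g * v)
  have h5 := htr (g * (v * u))
  rw [map_mul, Units.val_mul, hu, Matrix.trace_fin_two] at h3
  rw [map_mul, Units.val_mul, hv, Matrix.trace_fin_two] at h4
  rw [map_mul, map_mul, Units.val_mul, Units.val_mul, hv, hu, Matrix.trace_fin_two] at h5
  rw [Matrix.trace_fin_two] at h1
  simp [Matrix.mul_apply, Fin.sum_univ_two] at h3 h4 h5
  have h10 : ρ g 1 0 ∈ pf (K := K) l := by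
    have := (pf (K := K) l).sub_mem h3 h1
    convert this using 1
    ring
  have h01 : ρ g 0 1 ∈ pf (K := K) l := by
    have := (pf (K := K) l).div_mem ((pf (K := K) l).sub_mem h4 h1) hbF
    convert this using 1
    field_simp
    ring
  have h11 : ρ g 1 1 ∈ pf (K := K) l := by
    have h6 := (pf (K := K) l).sub_mem h5 h1
    have h7 := (pf (K := K) l).sub_mem ((pf (K := K) l).sub_mem h6 h10)
      ((pf (K := K) l).mul_mem hbF h01)
    have h8 := (pf (K := K) l).div_mem h7 hbF
    convert h8 using 1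
    field_simp
    ring
  have h00 : ρ g 0 0 ∈ pf (K := K) l := by
    have := (pf (K := K) l).sub_mem h1 h11
    convert this using 1
    ring
  intro i j
  fin_cases i <;> fin_cases j
  · exact h00
  · exact h01
  · exact h10
  · exact h11

/-- The number of elements with given characteristic polynomial. -/
theorem card_fiber_le (ρ : Γ →* GL (Fin 2) K) (hinj : Function.Injective ρ)
    (hent : ∀ g i j, ρ g i j ∈ pf (K := K) l) (S : Finset Γ) (a : K × K)
    (hS : ∀ g ∈ S, td (ρ g) = a) : S.card ≤ 2 * l ^ 2 := by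
  classical
  set F := ((Finset.univ : Finset (ZMod l)).image (ZMod.castHom (dvd_refl l) K)) with hF
  have hFc : F.card ≤ l := card_pf_finset
  have hFm : ∀ x : K, x ∈ pf (K := K) l → x ∈ F := fun x hx => mem_pf_finset.2 hx
  have hFF : (F ×ˢ F).card ≤ l ^ 2 := by
    rw [Finset.card_product, pow_two]
    exact Nat.mul_le_mul hFc hFc
  have htd : ∀ g ∈ S, ρ g 1 1 = a.1 - ρ g 0 0 ∧
      ρ g 0 0 * ρ g 1 1 - ρ g 0 1 * ρ g 1 0 = a.2 := by
    intro g hg
    have h := hS g hg
    rw [td, Prod.ext_iff] at h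
    simp only [Matrix.trace_fin_two, Matrix.det_fin_two] at h
    exact ⟨by linear_combination h.1, h.2⟩
  have hext : ∀ g h : Γ, ρ g 0 0 = ρ h 0 0 → ρ g 0 1 = ρ h 0 1 → ρ g 1 0 = ρ h 1 0 →
      ρ g 1 1 = ρ h 1 1 → g = h := by
    intro g h h1 h2 h3 h4
    apply hinj
    ext i j
    fin_cases i <;> fin_cases j
    · exact h1
    · exact h2
    · exact h3
    · exact h4
  have h1 : (S.filter fun g => ρ g 0 1 ≠ 0).card ≤ l ^ 2 := by
    refine le_trans (Finset.card_le_card_of_injOn (fun g => (ρ g 0 0, ρ g 0 1)) ?_ ?_) hFF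
    · intro g _
      rw [Finset.mem_coe, Finset.mem_product]
      exact ⟨hFm _ (hent g 0 0), hFm _ (hent g 0 1)⟩
    · intro g hg h hh hgh
      rw [Finset.mem_coe, Finset.mem_filter] at hg hh
      rw [Prod.mk.injEq] at hgh
      obtain ⟨h2, h3⟩ := hgh
      obtain ⟨h4, h5⟩ := htd g hg.1
      obtain ⟨h6, h7⟩ := htd h hh.1
      have h8 : ρ g 1 1 = ρ h 1 1 := by rw [h4, h6, h2]
      refine hext g h h2 h3 ?_ h8
      have h9 : ρ g 0 1 * ρ g 1 0 = ρ g 0 1 * ρ h 1 0 := by
        rw [h8, h2] at h5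
        rw [← h3] at h7
        linear_combination h7 - h5
      exact mul_left_cancel₀ hg.2 h9
  have h2 : (S.filter fun g => ¬ ρ g 0 1 ≠ 0).card ≤ l ^ 2 := by
    refine le_trans (Finset.card_le_card_of_injOn (fun g => (ρ g 0 0, ρ g 1 0)) ?_ ?_) hFF
    · intro g _
      rw [Finset.mem_coe, Finset.mem_product]
      exact ⟨hFm _ (hent g 0 0), hFm _ (hent g 1 0)⟩
    · intro g hg h hh hgh
      rw [Finset.mem_coe, Finset.mem_filter, not_not] at hg hh
      rw [Prod.mk.injEq] at hgh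
      obtain ⟨h2, h3⟩ := hgh
      obtain ⟨h4, -⟩ := htd g hg.1
      obtain ⟨h6, -⟩ := htd h hh.1
      exact hext g h h2 (hg.2.trans hh.2.symm) h3 (by rw [h4, h6, h2])
  have h3 := Finset.card_filter_add_card_filter_not (s := S) (fun g => ρ g 0 1 ≠ 0)
  omega

theorem castHom_val (x : ZMod l) : ((x.val : ℕ) : K) = ZMod.castHom (dvd_refl l) K x := by
  have := map_natCast (ZMod.castHom (dvd_refl l) K) x.val
  rw [ZMod.natCast_zmod_val] at this
  exact this.symm

theorem pow_upper (m : ℕ) (c : K) : (!![1, c; 0, 1] : Matrix (Fin 2) (Fin 2) K) ^ m =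
    !![1, m * c; 0, 1] := by
  induction m with
  | zero => simp [Matrix.one_fin_two]
  | succ m ih =>
    rw [pow_succ, ih, Matrix.mul_fin_two]
    push_cast
    congr 1
    simp
    ring_nf

theorem pow_lower (m : ℕ) (c : K) : (!![1, 0; c, 1] : Matrix (Fin 2) (Fin 2) K) ^ m =
    !![1, 0; m * c, 1] := by
  induction m with
  | zero => simp [Matrix.one_fin_two]
  | succ m ih =>
    rw [pow_succ, ih, Matrix.mul_fin_two]
    push_cast
    congr 1
    simp
    ring_nf

/-- Lower bound for the order. -/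
theorem card_ge (ρ : Γ →* GL (Fin 2) K) [Fintype Γ]
    {u v : Γ} {b : K} (hb : b ≠ 0)
    (hu : (ρ u : Matrix (Fin 2) (Fin 2) K) = !![1, 1; 0, 1])
    (hv : (ρ v : Matrix (Fin 2) (Fin 2) K) = !![1, 0; b, 1]) :
    l * ((l - 1) * l) ≤ Fintype.card Γ := by
  classical
  have hcard : ((Finset.univ : Finset (ZMod l)) ×ˢ
      (((Finset.univ : Finset (ZMod l)).erase 0) ×ˢ (Finset.univ : Finset (ZMod l)))).card =
      l * ((l - 1) * l) := by
    rw [Finset.card_product, Finset.card_product, Finset.card_erase_of_mem (Finset.mem_univ _),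
      Finset.card_univ, ZMod.card]
  rw [← hcard, ← Finset.card_univ (α := Γ)]
  refine Finset.card_le_card_of_injOn
    (fun x : ZMod l × ZMod l × ZMod l => u ^ x.1.val * v ^ x.2.1.val * u ^ x.2.2.val)
    (fun _ _ => Finset.mem_coe.2 (Finset.mem_univ _)) ?_
  rintro ⟨x, y, z⟩ hx ⟨x', y', z'⟩ hx' h
  rw [Finset.mem_coe, Finset.mem_product, Finset.mem_product] at hx hx'
  have hy : y ≠ 0 := (Finset.mem_erase.1 hx.2.1).1
  have hinjC : Function.Injective (ZMod.castHom (dvd_refl l) K) := RingHom.injective _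
  have h1 := congrArg (fun g => (ρ g : Matrix (Fin 2) (Fin 2) K)) h
  simp only [map_mul, map_pow, Units.val_mul, Units.val_pow_eq_pow_val, hu, hv, pow_upper,
    pow_lower, castHom_val, mul_one, Matrix.mul_fin_two] at h1
  have e10 := congrFun (congrFun h1 1) 0
  have e00 := congrFun (congrFun h1 0) 0
  have e11 := congrFun (congrFun h1 1) 1
  simp at e10 e00 e11
  have hy1 : (y.cast : K) = y'.cast := e10.resolve_right hb
  have hyy : y = y' := hinjC hy1
  subst hyy
  have hyb : (y.cast : K) * b ≠ 0 := by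
    refine mul_ne_zero ?_ hb
    intro h0
    apply hy
    apply hinjC
    rw [map_zero]
    exact h0
  have hxx : x = x' := hinjC (mul_right_cancel₀ hyb e00)
  have hzz : z = z' := hinjC (mul_left_cancel₀ hyb e11)
  rw [hxx, hzz]

/-- Nilpotent matrices. -/
theorem nilp {n : Matrix (Fin 2) (Fin 2) K} (hn : n ≠ 0) (htr : n.trace = 0) (hdet : n.det = 0) :
    ∃ e : Fin 2 → K, e ≠ 0 ∧ n.mulVec e = 0 ∧ (∀ x, ∃ b : K, n.mulVec x = b • e) ∧
      ∀ x, n.mulVec x = 0 → ∃ c : K, x = c • e := by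
  rw [Matrix.trace_fin_two] at htr
  rw [Matrix.det_fin_two] at hdet
  have h11 : n 1 1 = - n 0 0 := by linear_combination htr
  have hmv0 : ∀ x : Fin 2 → K, n.mulVec x 0 = n 0 0 * x 0 + n 0 1 * x 1 := fun x => by
    simp [Matrix.mulVec, dotProduct, Fin.sum_univ_two]
  have hmv1 : ∀ x : Fin 2 → K, n.mulVec x 1 = n 1 0 * x 0 + n 1 1 * x 1 := fun x => by
    simp [Matrix.mulVec, dotProduct, Fin.sum_univ_two]
  rw [h11] at hdet
  by_cases hr : n 1 0 = 0
  · have h00 : n 0 0 = 0 := by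
      have : n 0 0 ^ 2 = 0 := by
        rw [hr] at hdet
        linear_combination -hdet
      exact eq_zero_of_pow_eq_zero this
    have h01 : n 0 1 ≠ 0 := by
      intro h
      apply hn
      ext i j
      fin_cases i <;> fin_cases j <;> simp [h, hr, h00, h11]
    refine ⟨![1, 0], ?_, ?_, ?_, ?_⟩
    · intro h
      have := congrFun h 0
      simp at this
    · ext i
      fin_cases i
      · simp [hmv0, h00]
      · simp [hmv1, hr]
    · intro x
      refine ⟨n 0 1 * x 1, ?_⟩
      ext i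
      fin_cases i
      · simp [hmv0, h00]
      · simp [hmv1, hr, h11, h00]
    · intro x hx
      have h := congrFun hx 0
      rw [hmv0, h00] at h
      have hx1 : x 1 = 0 := by simpa [h01] using h
      refine ⟨x 0, ?_⟩
      ext i
      fin_cases i
      · simp
      · simp [hx1]
  · refine ⟨![n 0 0, n 1 0], ?_, ?_, ?_, ?_⟩
    · intro h
      have := congrFun h 1
      simp at this
      exact hr this
    · ext i
      fin_cases i
      · simp [hmv0]
        linear_combination -hdet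
      · simp [hmv1, h11]
        ring
    · intro x
      refine ⟨(n 1 0 * x 0 - n 0 0 * x 1) / n 1 0, ?_⟩
      ext i
      fin_cases i
      · simp [hmv0]
        field_simp
        linear_combination (-(x 1)) * hdet
      · simp [hmv1, h11]
        field_simp
        ring
    · intro x hx
      have h := congrFun hx 1
      rw [hmv1, h11] at h
      simp at h
      refine ⟨x 1 / n 1 0, ?_⟩
      ext i
      fin_cases i
      · simp
        field_simp
        linear_combination h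
      · simp
        field_simp

/-- A line stable under the group. -/
def Stb (ρ : Γ →* GL (Fin 2) K) (e : Fin 2 → K) : Prop :=
  e ≠ 0 ∧ ∀ g, ∃ c : K, (ρ g : Matrix (Fin 2) (Fin 2) K).mulVec e = c • e

/-- Semisimplicity: every stable line has a stable complement. -/
def SS (ρ : Γ →* GL (Fin 2) K) : Prop :=
  ∀ e, Stb ρ e → ∃ f, Stb ρ f ∧ ∀ c : K, f ≠ c • e

/-- Normal form of two unipotents. -/
theorem exists_basis (ρ : Γ →* GL (Fin 2) K) (hss : SS ρ) {w : Γ} {n : Matrix (Fin 2) (Fin 2) K}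
    (hw : (ρ w : Matrix (Fin 2) (Fin 2) K) = 1 + n) (hn : n ≠ 0) (htr : n.trace = 0)
    (hdet : n.det = 0) : ∃ (P : GL (Fin 2) K) (u v : Γ) (b : K), b ≠ 0 ∧
      ((P⁻¹ * ρ u * P : GL (Fin 2) K) : Matrix (Fin 2) (Fin 2) K) = !![1, 1; 0, 1] ∧
      ((P⁻¹ * ρ v * P : GL (Fin 2) K) : Matrix (Fin 2) (Fin 2) K) = !![1, 0; b, 1] := by
  obtain ⟨e, he0, hne, him, hker⟩ := nilp hn htr hdet
  have hns : ¬ Stb ρ e := by
    intro hst
    obtain ⟨f, ⟨hf0, hf⟩, hfe⟩ := hss e hst
    obtain ⟨c, hc⟩ := hf w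
    rw [hw, Matrix.add_mulVec, Matrix.one_mulVec] at hc
    have h1 : n.mulVec f = (c - 1) • f := by
      rw [sub_smul, one_smul, ← hc]
      abel
    obtain ⟨b, hb⟩ := him f
    have h2 : (c - 1) • (b • e) = 0 := by
      have h3 : n.mulVec (n.mulVec f) = 0 := by rw [hb, Matrix.mulVec_smul, hne, smul_zero]
      rw [h1, Matrix.mulVec_smul, hb] at h3
      exact h3
    rcases smul_eq_zero.1 h2 with h3 | h3
    · rw [h3, zero_smul] at h1
      obtain ⟨c', hc'⟩ := hker f h1
      exact hfe c' hc'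
    · rcases smul_eq_zero.1 h3 with h4 | h4
      · rw [h4, zero_smul] at hb
        obtain ⟨c', hc'⟩ := hker f hb
        exact hfe c' hc'
      · exact he0 h4
  obtain ⟨h, hh⟩ : ∃ h : Γ, ∀ c : K, (ρ h : Matrix (Fin 2) (Fin 2) K).mulVec e ≠ c • e := by
    by_contra hcon
    push Not at hcon
    exact hns ⟨he0, hcon⟩
  set A : Matrix (Fin 2) (Fin 2) K := (ρ h : Matrix (Fin 2) (Fin 2) K) with hA
  set A' : Matrix (Fin 2) (Fin 2) K := (ρ h⁻¹ : Matrix (Fin 2) (Fin 2) K) with hA'
  have hAA' : A * A' = 1 := by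
    rw [hA, hA', ← Units.val_mul, ← map_mul, mul_inv_cancel, map_one, Units.val_one]
  have hA'A : A' * A = 1 := by
    rw [hA, hA', ← Units.val_mul, ← map_mul, inv_mul_cancel, map_one, Units.val_one]
  set e₂ := A.mulVec e with he₂
  set e₁ := n.mulVec e₂ with he₁
  have hne₁ : n.mulVec e₁ = 0 := by
    obtain ⟨b, hb⟩ := him e₂
    rw [he₁, hb, Matrix.mulVec_smul, hne, smul_zero]
  have he₁0 : e₁ ≠ 0 := by
    intro h0
    obtain ⟨c, hc⟩ := hker e₂ h0
    exact hh c hc
  set n' := A * n * A' with hn'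
  have hn'e₂ : n'.mulVec e₂ = 0 := by
    rw [he₂, Matrix.mulVec_mulVec, hn', mul_assoc, hA'A, mul_one, ← Matrix.mulVec_mulVec, hne,
      Matrix.mulVec_zero]
  obtain ⟨b, hb⟩ := him (A'.mulVec e₁)
  have hn'e₁ : n'.mulVec e₁ = b • e₂ := by
    rw [hn', ← Matrix.mulVec_mulVec, ← Matrix.mulVec_mulVec, hb, Matrix.mulVec_smul]
  obtain ⟨b₁, hb₁⟩ := him e₂
  have hb₁0 : b₁ ≠ 0 := by
    intro h0
    rw [h0, zero_smul] at hb₁
    exact he₁0 hb₁
  have hb0 : b ≠ 0 := by
    intro h0
    rw [h0, zero_smul] at hb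
    obtain ⟨c, hc⟩ := hker _ hb
    have h1 : e₁ = c • e₂ := by
      have := congrArg A.mulVec hc
      rwa [Matrix.mulVec_mulVec, hAA', Matrix.one_mulVec, Matrix.mulVec_smul] at this
    have h2 : c • e₂ = b₁ • e := by rw [← h1, ← hb₁]
    have hc0 : c ≠ 0 := by
      rintro rfl
      rw [zero_smul] at h1
      exact he₁0 h1
    apply hh (c⁻¹ * b₁)
    rw [mul_smul, ← h2, smul_smul, inv_mul_cancel₀ hc0, one_smul]
  -- the change of basis matrix
  set P : Matrix (Fin 2) (Fin 2) K := !![e₁ 0, e₂ 0; e₁ 1, e₂ 1] with hP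
  have hPdet : P.det ≠ 0 := by
    intro h0
    rw [hP, Matrix.det_fin_two_of] at h0
    -- `e₂` is a multiple of `e₁`, hence killed by `n`
    have h1 : e₁ 0 • e₂ = e₂ 0 • e₁ := by
      ext i
      fin_cases i
      · simp; ring
      · simp; linear_combination h0
    have h2 : e₁ 1 • e₂ = e₂ 1 • e₁ := by
      ext i
      fin_cases i
      · simp; linear_combination -h0
      · simp; ring
    have h3 : e₁ 0 • e₁ = 0 := by
      have := congrArg n.mulVec h1
      rwa [Matrix.mulVec_smul, Matrix.mulVec_smul, hne₁, smul_zero] at this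
    have h4 : e₁ 1 • e₁ = 0 := by
      have := congrArg n.mulVec h2
      rwa [Matrix.mulVec_smul, Matrix.mulVec_smul, hne₁, smul_zero] at this
    apply he₁0
    ext i
    fin_cases i
    · exact (smul_eq_zero.1 h3).resolve_right he₁0
    · exact (smul_eq_zero.1 h4).resolve_right he₁0
  have hcol : ∀ (B : Matrix (Fin 2) (Fin 2) K), B * P =
      !![B.mulVec e₁ 0, B.mulVec e₂ 0; B.mulVec e₁ 1, B.mulVec e₂ 1] := by
    intro B
    ext i j
    fin_cases i <;> fin_cases j <;>
      simp [hP, Matrix.mul_apply, Matrix.mulVec, dotProduct, Fin.sum_univ_two]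
  set PG : GL (Fin 2) K := Matrix.GeneralLinearGroup.mkOfDetNeZero P hPdet with hPG
  have hPGv : (PG : Matrix (Fin 2) (Fin 2) K) = P := rfl
  have key : ∀ (B C : Matrix (Fin 2) (Fin 2) K) (g : GL (Fin 2) K),
      (g : Matrix (Fin 2) (Fin 2) K) = B → B * P = P * C →
      ((PG⁻¹ * g * PG : GL (Fin 2) K) : Matrix (Fin 2) (Fin 2) K) = C := by
    intro B C g hg hBC
    rw [Units.val_mul, Units.val_mul, hg, hPGv, mul_assoc, hBC, ← hPGv, ← mul_assoc,
      ← Units.val_mul, inv_mul_cancel, Units.val_one, one_mul]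
  refine ⟨PG, w, h * w * h⁻¹, b, hb0, ?_, ?_⟩
  · apply key _ _ _ hw
    rw [hcol, Matrix.add_mulVec, Matrix.add_mulVec, Matrix.one_mulVec, Matrix.one_mulVec, hne₁,
      ← he₁, hP]
    ext i j
    fin_cases i <;> fin_cases j <;> simp [Matrix.mul_apply, Fin.sum_univ_two, add_comm]
  · have hv : (ρ (h * w * h⁻¹) : Matrix (Fin 2) (Fin 2) K) = 1 + n' := by
      rw [map_mul, map_mul, Units.val_mul, Units.val_mul, hw, ← hA, ← hA', mul_add, add_mul,
        mul_one, hAA']
    apply key _ _ _ hv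
    rw [hcol, Matrix.add_mulVec, Matrix.add_mulVec, Matrix.one_mulVec, Matrix.one_mulVec, hn'e₁,
      hn'e₂, hP]
    ext i j
    fin_cases i <;> fin_cases j <;> simp [Matrix.mul_apply, Fin.sum_univ_two, mul_comm]

/-- For `l` large, a semisimple group with traces in the prime field and few characteristic
polynomials contains no nonscalar element with a double eigenvalue. -/
theorem isSc_of_large (hl2 : l ≠ 2) [Fintype Γ] (ρ : Γ →* GL (Fin 2) K)
    (hinj : Function.Injective ρ) (hss : SS ρ)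
    (htr : ∀ g, (ρ g : Matrix (Fin 2) (Fin 2) K).trace ∈ pf (K := K) l)
    (H : Finset Γ) (M : ℕ) (hH : 4 * (Fintype.card Γ - H.card) ≤ Fintype.card Γ)
    (C : Finset (K × K)) (hC : C.card ≤ M) (hHC : ∀ g ∈ H, td (ρ g) ∈ C) (hM : 3 * M + 1 < l)
    (g : Γ) (hg : dsc (ρ g) = 0) : IsSc (ρ g) := by
  classical
  by_contra hsc
  have hlp : l.Prime := Fact.out
  have h2 : (2 : K) ≠ 0 := by
    intro h
    have h1 : ((2 : ℕ) : K) = 0 := by exact_mod_cast h
    rw [CharP.cast_eq_zero_iff K l 2] at h1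
    exact hl2 ((Nat.prime_dvd_prime_iff_eq hlp Nat.prime_two).1 h1)
  set A : Matrix (Fin 2) (Fin 2) K := (ρ g : Matrix (Fin 2) (Fin 2) K) with hA
  set t : K := A.trace / 2 with ht
  set n : Matrix (Fin 2) (Fin 2) K := A - Matrix.scalar _ t with hn
  have htF : t ∈ pf (K := K) l := by
    have h2F : (2 : K) ∈ pf (K := K) l := by
      have := (pf (K := K) l).add_mem (pf (K := K) l).one_mem (pf (K := K) l).one_mem
      convert this using 1
      norm_num
    exact (pf (K := K) l).div_mem (htr g) h2F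
  have htl : t ^ l = t := by
    obtain ⟨x, hx⟩ := htF
    rw [← hx, ← map_pow, ZMod.pow_card]
  have hd : (A 0 0 - A 1 1) ^ 2 + 4 * A 0 1 * A 1 0 = 0 := hg
  have htt : t = (A 0 0 + A 1 1) / 2 := by rw [ht, Matrix.trace_fin_two]
  have hn2 : n * n = 0 := by
    ext i j
    fin_cases i <;> fin_cases j <;>
      simp [hn, Matrix.mul_apply, Fin.sum_univ_two, htt]
    · field_simp
      linear_combination hd
    · field_simp
      ring
    · field_simp
      ring
    · field_simp
      linear_combination hd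
  have hdetA : t ^ 2 = A.det := by
    rw [ht, Matrix.trace_fin_two, Matrix.det_fin_two]
    field_simp
    linear_combination hd
  have ht0 : t ≠ 0 := by
    intro h
    rw [h] at hdetA
    have : A.det ≠ 0 := (ρ g).det_ne_zero
    apply this
    rw [← hdetA]
    ring
  have hAn : A = Matrix.scalar _ t + n := by
    rw [hn]
    abel
  have hcomm : Commute (Matrix.scalar (Fin 2) t) n :=
    Matrix.scalar_commute t (fun _ => Commute.all _ _) n
  have hAl : A ^ l = Matrix.scalar _ t := by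
    have hnl : n ^ l = 0 := by
      obtain ⟨j, hj⟩ := Nat.exists_eq_add_of_le hlp.two_le
      rw [hj, pow_add, pow_two, hn2, zero_mul]
    have : CharP (Matrix (Fin 2) (Fin 2) K) l := inferInstance
    rw [hAn, add_pow_char_of_commute _ hcomm, hnl, add_zero, ← map_pow, htl]
  -- the unipotent element
  set w : Γ := (g ^ l)⁻¹ * g with hw
  have hρw : (ρ w : Matrix (Fin 2) (Fin 2) K) = 1 + t⁻¹ • n := by
    have h3 : (ρ (g ^ l) : Matrix (Fin 2) (Fin 2) K) = Matrix.scalar _ t := by
      rw [map_pow, Units.val_pow_eq_pow_val, ← hA, hAl]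
    have h4 : (ρ (g ^ l)⁻¹ : Matrix (Fin 2) (Fin 2) K) * Matrix.scalar _ t = 1 := by
      rw [← h3, ← Units.val_mul, ← map_mul, inv_mul_cancel, map_one, Units.val_one]
    have h5 : (ρ (g ^ l)⁻¹ : Matrix (Fin 2) (Fin 2) K) = Matrix.scalar _ t⁻¹ := by
      have h6 : Matrix.scalar (Fin 2) t * Matrix.scalar (Fin 2) t⁻¹ = 1 := by
        rw [← map_mul, mul_inv_cancel₀ ht0, map_one]
      calc _ = (ρ (g ^ l)⁻¹ : Matrix (Fin 2) (Fin 2) K) *
          (Matrix.scalar (Fin 2) t * Matrix.scalar (Fin 2) t⁻¹) := by rw [h6, mul_one]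
        _ = _ := by rw [← mul_assoc, h4, one_mul]
    rw [hw, map_mul, Units.val_mul, h5, ← hA, hAn, mul_add, ← map_mul, inv_mul_cancel₀ ht0,
      map_one]
    congr 1
    ext i j
    simp [Matrix.scalar_apply, Matrix.diagonal_mul]
  have hn0 : n ≠ 0 := by
    intro h
    apply hsc
    have h3 : A = Matrix.scalar _ t := by rw [hAn, h, add_zero]
    have e : ∀ i j, ρ g i j = (Matrix.scalar (Fin 2) t) i j := fun i j => by
      change A i j = _
      rw [h3]
    refine ⟨?_, ?_, ?_⟩ <;> simp [e]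
  have hnt : n.trace = 0 := by
    rw [hn, Matrix.trace_sub, Matrix.trace_fin_two, Matrix.trace_fin_two, htt]
    simp
    field_simp
    ring
  have hnd : n.det = 0 := by
    have := congrArg Matrix.det hn2
    rw [Matrix.det_mul, Matrix.det_zero] at this
    exact mul_self_eq_zero.1 this
  have hn'0 : t⁻¹ • n ≠ 0 := smul_ne_zero (inv_ne_zero ht0) hn0
  obtain ⟨P, u, v, b, hb0, hu, hv⟩ := exists_basis ρ hss hρw hn'0
    (by rw [Matrix.trace_smul, hnt, smul_zero]) (by rw [Matrix.det_smul, hnd, mul_zero])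
  -- conjugate representation
  set ρ' : Γ →* GL (Fin 2) K := (MulAut.conj P⁻¹).toMonoidHom.comp ρ with hρ'
  have hρ'a : ∀ g, ρ' g = P⁻¹ * ρ g * P := fun g => by simp [hρ']
  have htd' : ∀ g, td (ρ' g) = td (ρ g) := by
    intro g
    have hPP : (P : Matrix (Fin 2) (Fin 2) K) * ((P⁻¹ : GL (Fin 2) K) : Matrix _ _ K) = 1 := by
      rw [← Units.val_mul, mul_inv_cancel, Units.val_one]
    rw [td, td, hρ'a, Units.val_mul, Units.val_mul, Matrix.trace_mul_comm, ← mul_assoc, hPP,
      one_mul, Matrix.det_mul, Matrix.det_mul, mul_comm (Matrix.det _) (Matrix.det (ρ g).1),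
      mul_assoc, ← Matrix.det_mul, ← Units.val_mul, inv_mul_cancel, Units.val_one,
      Matrix.det_one, mul_one]
  have hinj' : Function.Injective ρ' := by
    intro x y hxy
    apply hinj
    rw [hρ'a, hρ'a] at hxy
    exact mul_left_cancel (mul_right_cancel hxy)
  have htr' : ∀ g, (ρ' g : Matrix (Fin 2) (Fin 2) K).trace ∈ pf (K := K) l := by
    intro g
    have h3 := congrArg Prod.fst (htd' g)
    simp only [td] at h3
    rw [h3]
    exact htr g
  have hu' : (ρ' u : Matrix (Fin 2) (Fin 2) K) = !![1, 1; 0, 1] := by rw [hρ'a, hu]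
  have hv' : (ρ' v : Matrix (Fin 2) (Fin 2) K) = !![1, 0; b, 1] := by rw [hρ'a, hv]
  obtain ⟨hbF, hent⟩ := entries_mem ρ' htr' hb0 hu' hv'
  have hge := card_ge (l := l) ρ' hb0 hu' hv'
  have hfib : ∀ c ∈ C, (H.filter fun g => td (ρ g) = c).card ≤ 2 * l ^ 2 := by
    intro c _
    refine card_fiber_le ρ' hinj' hent _ c fun g hg => ?_
    rw [htd']
    exact (Finset.mem_filter.1 hg).2
  have h5 := Finset.card_le_mul_card_image_of_maps_to hHC (2 * l ^ 2) hfib
  have hHle : H.card ≤ Fintype.card Γ := by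
    rw [← Finset.card_univ]
    exact Finset.card_le_card (Finset.subset_univ _)
  have h6 : 3 * Fintype.card Γ ≤ 4 * H.card := by omega
  have h7 : 2 * l ^ 2 * C.card ≤ 2 * l ^ 2 * M := Nat.mul_le_mul_left _ hC
  have h8 : 3 * (l * ((l - 1) * l)) ≤ 8 * (l ^ 2 * M) := by
    calc 3 * (l * ((l - 1) * l)) ≤ 3 * Fintype.card Γ := Nat.mul_le_mul_left 3 hge
      _ ≤ 4 * H.card := h6
      _ ≤ 4 * (2 * l ^ 2 * M) := Nat.mul_le_mul_left 4 (h5.trans h7)
      _ = 8 * (l ^ 2 * M) := by ring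
  have h9 : l ^ 2 * (3 * (l - 1)) ≤ l ^ 2 * (8 * M) := by
    calc l ^ 2 * (3 * (l - 1)) = 3 * (l * ((l - 1) * l)) := by ring
      _ ≤ 8 * (l ^ 2 * M) := h8
      _ = _ := by ring
  have h10 := Nat.le_of_mul_le_mul_left h9 (pow_pos hlp.pos 2)
  omega

/-- **Bound for the order of the image** (all cases). -/
theorem card_le_of_large [IsAlgClosed K] (hl2 : l ≠ 2) [Fintype Γ] (ρ : Γ →* GL (Fin 2) K)
    (hinj : Function.Injective ρ) (hss : SS ρ)
    (htr : ∀ g, (ρ g : Matrix (Fin 2) (Fin 2) K).trace ∈ pf (K := K) l)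
    (H : Finset Γ) (M : ℕ) (hH : 4 * (Fintype.card Γ - H.card) ≤ Fintype.card Γ)
    (C : Finset (K × K)) (hC : C.card ≤ M) (hHC : ∀ g ∈ H, td (ρ g) ∈ C) (hM : 3 * M + 1 < l) :
    Fintype.card Γ ≤ 160 * M := by
  classical
  have hlp : l.Prime := Fact.out
  have h2 : (2 : K) ≠ 0 := by
    intro h
    have h1 : ((2 : ℕ) : K) = 0 := by exact_mod_cast h
    rw [CharP.cast_eq_zero_iff K l 2] at h1
    exact hl2 ((Nat.prime_dvd_prime_iff_eq hlp Nat.prime_two).1 h1)
  have hkey := isSc_of_large hl2 ρ hinj hss htr H M hH C hC hHC hM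
  let e : Γ ≃* ρ.range := MonoidHom.ofInjective hinj
  have := Fintype.ofEquiv Γ e.toEquiv
  have hcard : Fintype.card ρ.range = Fintype.card Γ := (Fintype.card_congr e.toEquiv).symm
  have hHcard : (H.map e.toEquiv.toEmbedding).card = H.card := Finset.card_map _
  rw [← hcard]
  refine card_le_of_few_charpoly h2 ρ.range ?_ (H.map e.toEquiv.toEmbedding) M ?_ C hC ?_
  · rintro _ ⟨g, rfl⟩ hg
    exact hkey g hg
  · rw [hcard, hHcard]
    exact hH
  · intro g hg
    rw [Finset.mem_map] at hg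
    obtain ⟨x, hx, rfl⟩ := hg
    exact hHC x hx

end Fermat.Agent.DS
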